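import Mathlib.LinearAlgebra.Matrix.Trace
import Mathlib.LinearAlgebra.Matrix.Notation
import Mathlib.LinearAlgebra.Matrix.NonsingularInverse
import Mathlib.RingTheory.Finiteness.Ideal
import Mathlib.RingTheory.Ideal.IdempotentFG
import Mathlib.RingTheory.Nakayama
import Mathlib.RingTheory.LocalRing.ResidueField.Basic
import Mathlib.FieldTheory.IsAlgClosed.Basic
import Mathlib.RingTheory.Adjoin.Basic
import Mathlib.RingTheory.Noetherian.Basic

/-!
# Linear algebra of eigen-parts and trace forms

Common kernels above an eigenvector (`exists_common_kernel`) and nondegenerate trace forms of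
irreducible two-dimensional representations, with their descent (`span_eq_top_of_residual`).
-/

set_option autoImplicit false

noncomputable section

open Matrix

namespace FLTAgent.IgusaCover

section Fitting

variable {k V W I : Type*} [CommRing k] [AddCommGroup V] [Module k V] [AddCommGroup W] [Module k W]
  [Finite V]

omit [Finite V] in
theorem exists_pow_eq_sq {T : Type*} [Monoid T] [Finite T] (a : T) :
    ∃ m : ℕ, 1 ≤ m ∧ a ^ m * a ^ m = a ^ m := by
  obtain ⟨i, j, hne, he⟩ := Finite.exists_ne_map_eq_of_infinite (fun n : ℕ => a ^ n)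
  wlog hij : i < j generalizing i j
  · exact this j i hne.symm he.symm (by omega)
  obtain ⟨d, rfl⟩ := Nat.exists_eq_add_of_le hij.le
  have hd : 0 < d := by omega
  have hper : ∀ r t : ℕ, a ^ (i + r) = a ^ (i + r + t * d) := by
    intro r t
    induction t with
    | zero => simp
    | succ t ih =>
      have he' : a ^ i = a ^ (i + d) := he
      calc a ^ (i + r) = a ^ (i + r + t * d) := ih
        _ = a ^ i * a ^ (r + t * d) := by rw [← pow_add, add_assoc]
        _ = a ^ (i + d) * a ^ (r + t * d) := by rw [← he']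
        _ = _ := by rw [← pow_add]; congr 1; rw [Nat.succ_mul]; omega
  refine ⟨d * (i + 1), Nat.one_le_iff_ne_zero.mpr (Nat.mul_ne_zero hd.ne' (Nat.succ_ne_zero i)), ?_⟩
  have hle : i ≤ d * (i + 1) := le_trans (Nat.le_succ i) (Nat.le_mul_of_pos_left _ hd)
  obtain ⟨r, hr⟩ := Nat.exists_eq_add_of_le hle
  rw [← pow_add]
  calc a ^ (d * (i + 1) + d * (i + 1)) = a ^ (i + r + (i + 1) * d) := by
        congr 1; rw [Nat.mul_comm (i + 1) d]; omega
    _ = a ^ (i + r) := (hper r _).symm
    _ = _ := by rw [hr]

open scoped IsMulCommutative in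
/-- A vector above an eigenvector can be moved to a common kernel vector of commuting operators. -/
theorem exists_common_kernel (L : I → Module.End k V) (hcomm : ∀ i j, Commute (L i) (L j))
    (Ψ : V →ₗ[k] W) (x : W) (hL : ∀ i v, (∃ c : k, Ψ v = c • x) → Ψ (L i v) = 0)
    (hK : ∀ v, Ψ v = 0 → (∀ i, L i v = 0) → v = 0) {v₀ : V} (hv₀ : Ψ v₀ = x) :
    ∃ v, Ψ v = x ∧ ∀ i, L i v = 0 := by
  classical
  have : Finite (Module.End k V) := Finite.of_injective _ DFunLike.coe_injective
  let T : Subalgebra k (Module.End k V) := Algebra.adjoin k (Set.range L)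
  have : IsMulCommutative T := Algebra.isMulCommutative_adjoin k (by
    rintro _ ⟨i, rfl⟩ _ ⟨j, rfl⟩; exact hcomm i j)
  have : Finite T := Finite.of_injective _ Subtype.val_injective
  have : IsNoetherianRing T := isNoetherian_of_finite T T
  let l : I → T := fun i => ⟨L i, Algebra.subset_adjoin (Set.mem_range_self i)⟩
  set J : Ideal T := Ideal.span (Set.range l)
  have hstab : ∀ r : Module.End k V, r ∈ T → ∀ v, (∃ c : k, Ψ v = c • x) →
      ∃ c : k, Ψ (r v) = c • x := by
    intro r hr
    induction hr using Algebra.adjoin_induction with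
    | mem r hr =>
      obtain ⟨i, rfl⟩ := hr
      exact fun v hv => ⟨0, by rw [hL i v hv, zero_smul]⟩
    | algebraMap c =>
      rintro v ⟨d, hd⟩
      exact ⟨c * d, by rw [Module.algebraMap_end_apply, map_smul, hd, smul_smul]⟩
    | add a b _ _ ha hb =>
      intro v hv
      obtain ⟨c, hc⟩ := ha v hv
      obtain ⟨d, hd⟩ := hb v hv
      exact ⟨c + d, by rw [LinearMap.add_apply, map_add, hc, hd, add_smul]⟩
    | mul a b _ _ ha hb =>
      intro v hv
      exact ha _ (hb v hv)
  have hJ : ∀ t ∈ J, ∀ v, (∃ c : k, Ψ v = c • x) → Ψ ((t : Module.End k V) v) = 0 := by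
    intro t ht
    induction ht using Submodule.span_induction with
    | mem t ht => obtain ⟨i, rfl⟩ := ht; exact hL i
    | zero => intro v _; simp
    | add a b _ _ ha hb =>
      intro v hv
      rw [Subalgebra.coe_add, LinearMap.add_apply, map_add, ha v hv, hb v hv, add_zero]
    | smul r a _ ha =>
      intro v hv
      rw [smul_eq_mul, mul_comm, Subalgebra.coe_mul, Module.End.mul_apply]
      exact ha _ (hstab _ r.2 v hv)
  have : Finite (Ideal T) := Finite.of_injective _ SetLike.coe_injective
  obtain ⟨m, hm1, hm⟩ := exists_pow_eq_sq J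
  obtain ⟨e, he, hJe⟩ := (Ideal.isIdempotentElem_iff_of_fg (J ^ m)
    (IsNoetherian.noetherian _)).mp hm
  have heJ : e ∈ J := Ideal.pow_le_self (show m ≠ 0 by omega)
    (hJe ▸ Ideal.subset_span (Set.mem_singleton e))
  have hx : ∃ c : k, Ψ v₀ = c • x := ⟨1, by rw [hv₀, one_smul]⟩
  let v := v₀ - (e : Module.End k V) v₀
  have hv : Ψ v = x := by
    rw [map_sub, hJ e heJ v₀ hx, sub_zero, hv₀]
  refine ⟨v, hv, fun i => ?_⟩
  have hdown : ∀ d j : ℕ, j + d = m → ∀ t ∈ J ^ j, (t : Module.End k V) (L i v) = 0 := by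
    intro d
    induction d with
    | zero =>
      intro j hj t ht
      rw [add_zero] at hj
      subst hj
      obtain ⟨r, rfl⟩ :=
        Ideal.mem_span_singleton'.mp (show t ∈ Ideal.span {e} by rw [hJe] at ht; exact ht)
      have h0 : r * e * l i * (1 - e) = 0 := by
        have hee : e * e = e := he
        linear_combination (-(r * l i)) * hee
      have := congrArg (fun z : T => (z : Module.End k V) v₀) h0
      simpa [v, l] using this
    | succ d ih =>
      intro j hj t ht
      have hmem : t * l i ∈ J := J.mul_mem_left t (Ideal.subset_span (Set.mem_range_self i))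
      refine hK _ (hJ _ hmem v ⟨1, by rw [hv, one_smul]⟩) fun i' => ?_
      have := ih (j + 1) (by omega) (l i' * t) (by
        rw [pow_succ']; exact Ideal.mul_mem_mul (Ideal.subset_span (Set.mem_range_self i')) ht)
      simpa [l] using this
  have h1 := hdown m 0 (zero_add m) 1 (by rw [pow_zero, Ideal.one_eq_top]; trivial)
  simpa using h1

end Fitting

section TwoDim

variable {K : Type*} [Field K] {G : Type*} [Group G] (ρ : G →* Matrix (Fin 2) (Fin 2) K)

theorem eigen_of_cross {X : Matrix (Fin 2) (Fin 2) K} {v : Fin 2 → K} (hv : v ≠ 0)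
    (h : (X *ᵥ v) 0 * v 1 = (X *ᵥ v) 1 * v 0) : ∃ c : K, X *ᵥ v = c • v := by
  by_cases h0 : v 0 = 0
  · have h1 : v 1 ≠ 0 := fun h1 => hv (funext (Fin.forall_fin_two.mpr ⟨h0, h1⟩))
    refine ⟨(X *ᵥ v) 1 / v 1, funext (Fin.forall_fin_two.mpr ⟨?_, ?_⟩)⟩
    · rw [h0, mul_zero] at h
      rw [Pi.smul_apply, h0, smul_zero]
      exact (mul_eq_zero.mp h).resolve_right h1
    · rw [Pi.smul_apply, smul_eq_mul, div_mul_cancel₀ _ h1]
  · refine ⟨(X *ᵥ v) 0 / v 0, funext (Fin.forall_fin_two.mpr ⟨?_, ?_⟩)⟩
    · rw [Pi.smul_apply, smul_eq_mul, div_mul_cancel₀ _ h0]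
    · rw [Pi.smul_apply, smul_eq_mul, div_mul_eq_mul_div, eq_div_iff h0, h]

/-- An irreducible representation over an algebraically closed field is orthogonal to no nonzero
matrix. -/
theorem eq_zero_of_trace_mul_eq_zero [IsAlgClosed K] (h2 : (2 : K) ≠ 0)
    (hirr : ∀ v : Fin 2 → K, (∀ g, ∃ c : K, ρ g *ᵥ v = c • v) → v = 0)
    {C : Matrix (Fin 2) (Fin 2) K} (hC : ∀ g, (C * ρ g).trace = 0) : C = 0 := by
  by_contra hne
  have htr : C 1 1 = -C 0 0 := by
    have := hC 1
    rw [map_one, mul_one, trace_fin_two] at this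
    linear_combination this
  set a := C 0 0
  set b := C 0 1
  set c := C 1 0
  have hlin : ∀ g, a * ρ g 0 0 + b * ρ g 1 0 + c * ρ g 0 1 - a * ρ g 1 1 = 0 := fun g => by
    have := hC g
    simp [trace_fin_two, Matrix.mul_apply, Fin.sum_univ_two, htr] at this
    linear_combination this
  obtain ⟨s, hs⟩ := IsAlgClosed.exists_eq_mul_self (a * a + b * c)
  by_cases hs0 : s = 0
  · subst hs0
    rw [mul_zero] at hs
    by_cases hb : b = 0
    · have ha : a = 0 := by simpa [hb] using hs
      have hc : c ≠ 0 := fun hc => hne (by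
        ext i j; fin_cases i <;> fin_cases j
        exacts [ha, hb, hc, htr.trans (by rw [ha, neg_zero]; rfl)])
      refine absurd (hirr ![0, 1] fun g => ?_) (fun e => by simpa using congrFun e 1)
      have h01 : ρ g 0 1 = 0 := by simpa [ha, hb, hc] using hlin g
      refine eigen_of_cross (fun e => by simpa using congrFun e 1) ?_
      simp [Matrix.mulVec, dotProduct, Fin.sum_univ_two, h01]
    · refine absurd (hirr ![b, -a] fun g => ?_) (fun e => hb (by simpa using congrFun e 0))
      refine eigen_of_cross (fun e => hb (by simpa using congrFun e 0)) ?_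
      simp [Matrix.mulVec, dotProduct, Fin.sum_univ_two]
      linear_combination (-b) * hlin g + ρ g 0 1 * hs
  · obtain ⟨P, hP, hCP⟩ : ∃ P : Matrix (Fin 2) (Fin 2) K, IsUnit P.det ∧
        C * P = P * !![s, 0; 0, -s] := by
      by_cases hb : b = 0
      · rw [hb, zero_mul, add_zero] at hs
        rcases mul_self_eq_mul_self_iff.mp hs with hsa | hsa
        · refine ⟨!![2 * s, 0; c, 1], ?_, ?_⟩
          · simp [Matrix.det_fin_two, h2, hs0]
          · ext i j
            fin_cases i <;> fin_cases j <;>
              simp [Matrix.mul_apply, Fin.sum_univ_two, htr, show C 0 1 = 0 from hb,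
                show C 0 0 = s from hsa, show C 1 0 = c from rfl] <;>
              (try change c * _ + _ = _) <;> first | ring1 | (rw [hsa] <;> ring1)
        · refine ⟨!![0, 2 * s; 1, -c], ?_, ?_⟩
          · simp [Matrix.det_fin_two, h2, hs0]
          · ext i j
            fin_cases i <;> fin_cases j <;>
              simp [Matrix.mul_apply, Fin.sum_univ_two, htr, show C 0 1 = 0 from hb,
                show C 0 0 = -s from hsa, show C 1 0 = c from rfl] <;>
              (try change c * _ + _ = _) <;> first | ring1 | (rw [hsa]; ring1)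
      · refine ⟨!![b, b; s - a, -s - a], ?_, ?_⟩
        · simp [Matrix.det_fin_two]
          intro h
          have : b * s * 2 = 0 := by linear_combination -h
          simp [hb, hs0, h2] at this
        · ext i j
          fin_cases i <;> fin_cases j <;>
            simp [Matrix.mul_apply, Fin.sum_univ_two, htr] <;>
            (try change a * b + b * (s - a) = b * s) <;>
            first
              | ring1
              | linear_combination hs
    set R : G → Matrix (Fin 2) (Fin 2) K := fun g => P⁻¹ * ρ g * P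
    have hPi : P⁻¹ * P = 1 := Matrix.nonsing_inv_mul P hP
    have hPi' : P * P⁻¹ = 1 := Matrix.mul_nonsing_inv P hP
    have hdiag : ∀ g, R g 0 0 = R g 1 1 := fun g => by
      have h1 : (!![s, 0; 0, -s] * R g).trace = 0 := by
        refine Eq.trans ?_ (hC g)
        rw [show C * ρ g = P * (!![s, 0; 0, -s] * (P⁻¹ * ρ g)) by
          rw [← Matrix.mul_assoc, ← hCP, Matrix.mul_assoc C, ← Matrix.mul_assoc P, hPi',
            Matrix.one_mul],
          Matrix.trace_mul_comm P, Matrix.mul_assoc]
      simp [trace_fin_two, Matrix.vecMul, dotProduct, Fin.sum_univ_two] at h1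
      exact mul_left_cancel₀ hs0 (by linear_combination h1)
    have hmul : ∀ g h, R (g * h) = R g * R h := fun g h => by
      simp only [R, map_mul, Matrix.mul_assoc]
      rw [← Matrix.mul_assoc P P⁻¹, hPi', Matrix.one_mul]
    have hbc : ∀ g h, R g 0 1 * R h 1 0 = R g 1 0 * R h 0 1 := fun g h => by
      have := hdiag (g * h)
      simp [hmul, Matrix.mul_apply, Fin.sum_univ_two, hdiag g, hdiag h] at this
      linear_combination this
    have hback : ∀ v : Fin 2 → K, (∀ g, ∃ t : K, R g *ᵥ v = t • v) → v = 0 := fun v hv => by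
      have hw := hirr (P *ᵥ v) fun g => by
        obtain ⟨t, ht⟩ := hv g
        refine ⟨t, ?_⟩
        rw [← Matrix.mulVec_smul, ← ht, Matrix.mulVec_mulVec, Matrix.mulVec_mulVec]
        simp only [R, ← Matrix.mul_assoc, hPi', Matrix.one_mul]
      have := congrArg (P⁻¹ *ᵥ ·) hw
      simpa [Matrix.mulVec_mulVec, hPi] using this
    by_cases hb0 : ∀ g, R g 0 1 = 0
    · refine absurd (hback ![0, 1] fun g => ?_) (fun e => by simpa using congrFun e 1)
      exact ⟨R g 1 1, funext (Fin.forall_fin_two.mpr
        ⟨by simp [Matrix.mulVec, dotProduct, Fin.sum_univ_two, hb0 g],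
          by simp [Matrix.mulVec, dotProduct, Fin.sum_univ_two]⟩)⟩
    · push Not at hb0
      obtain ⟨g₀, hg₀⟩ := hb0
      obtain ⟨t, ht⟩ := IsAlgClosed.exists_eq_mul_self (R g₀ 1 0 / R g₀ 0 1)
      refine absurd (hback ![1, t] fun g => ?_) (fun e => by simpa using congrFun e 0)
      refine eigen_of_cross (fun e => by simpa using congrFun e 0) ?_
      have hc : R g 1 0 = t * t * R g 0 1 := by
        rw [← ht, div_mul_eq_mul_div, eq_div_iff hg₀]
        linear_combination hbc g g₀ * (-1)
      simp [Matrix.mulVec, dotProduct, Fin.sum_univ_two, hdiag g]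
      linear_combination -hc

variable {ρ}

/-- Orthogonality to no nonzero matrix makes the image span everything. -/
theorem span_eq_top_of_trace
    (h : ∀ C : Matrix (Fin 2) (Fin 2) K, (∀ g, (C * ρ g).trace = 0) → C = 0) :
    Submodule.span K (Set.range ρ) = ⊤ := by
  by_contra hne
  obtain ⟨φ, hφ0, hφ⟩ :=
    Submodule.exists_dual_map_eq_bot_of_lt_top (lt_top_iff_ne_top.mpr hne) inferInstance
  let C : Matrix (Fin 2) (Fin 2) K := fun j i => φ (Matrix.single i j 1)
  have hC : ∀ X, (C * X).trace = φ X := fun X => by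
    conv_rhs => rw [Matrix.matrix_eq_sum_single X]
    simp only [map_sum]
    have hs : ∀ i j, φ (Matrix.single i j (X i j)) =
        X i j * φ (Matrix.single i j 1) := fun i j => by
      rw [← smul_eq_mul, ← map_smul, Matrix.smul_single, smul_eq_mul, mul_one]
    simp [hs, trace_fin_two, Matrix.mul_apply, Fin.sum_univ_two, C]
    ring
  refine hφ0 (LinearMap.ext fun X => ?_)
  rw [← hC, h C fun g => ?_, Matrix.zero_mul, trace_zero, LinearMap.zero_apply]
  rw [hC]
  have : φ (ρ g) ∈ (⊥ : Submodule K K) :=
    hφ ▸ Submodule.mem_map_of_mem (Submodule.subset_span (Set.mem_range_self g))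
  simpa using this

/-- Spanning descends along extensions of fields. -/
theorem trace_form_descend {k : Type*} [Field k] {σ : G →* Matrix (Fin 2) (Fin 2) k} (ι : k →+* K)
    (h : ∀ C : Matrix (Fin 2) (Fin 2) K, (∀ g, (C * (σ g).map ι).trace = 0) → C = 0)
    (C : Matrix (Fin 2) (Fin 2) k) (hC : ∀ g, (C * σ g).trace = 0) : C = 0 := by
  have h1 := h (C.map ι) fun g => by
    rw [← Matrix.map_mul, ← AddMonoidHom.map_trace, hC, map_zero]
  ext i j
  exact ι.injective ((congrFun (congrFun h1 i) j).trans (map_zero ι).symm)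

end TwoDim

section Local

variable {R k : Type*} [CommRing R] [IsLocalRing R] [Field k] {G : Type*} [Group G]

/-- Spanning lifts from the residue field. -/
theorem span_eq_top_of_residual (π : R →+* k) (hπ : Function.Surjective π)
    (hker : RingHom.ker π = IsLocalRing.maximalIdeal R) (ρ : G →* Matrix (Fin 2) (Fin 2) R)
    (h : Submodule.span k (Set.range fun g => (ρ g).map π) = ⊤) :
    Submodule.span R (Set.range ρ) = ⊤ := by
  refine eq_top_iff.mpr (Submodule.le_of_le_smul_of_le_jacobson_bot
    (I := IsLocalRing.maximalIdeal R)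
    (Module.finite_def.mp inferInstance) (IsLocalRing.maximalIdeal_le_jacobson _) fun X _ => ?_)
  have key : ∀ Y : Matrix (Fin 2) (Fin 2) k, ∃ Z ∈ Submodule.span R (Set.range ρ), Z.map π = Y := by
    intro Y
    have hY : Y ∈ Submodule.span k (Set.range fun g => (ρ g).map π) := h ▸ Submodule.mem_top
    induction hY using Submodule.span_induction with
    | mem Y hY =>
      obtain ⟨g, rfl⟩ := hY
      exact ⟨ρ g, Submodule.subset_span (Set.mem_range_self g), rfl⟩
    | zero => exact ⟨0, zero_mem _, Matrix.map_zero _ (map_zero π)⟩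
    | add a b _ _ ha hb =>
      obtain ⟨Z, hZ, rfl⟩ := ha
      obtain ⟨Z', hZ', rfl⟩ := hb
      exact ⟨Z + Z', add_mem hZ hZ', Matrix.map_add _ (map_add π) _ _⟩
    | smul c a _ ha =>
      obtain ⟨Z, hZ, rfl⟩ := ha
      obtain ⟨d, rfl⟩ := hπ c
      exact ⟨d • Z, Submodule.smul_mem _ _ hZ, by ext i j; simp⟩
  obtain ⟨Z, hZ, hZX⟩ := key (X.map π)
  refine Submodule.mem_sup.mpr ⟨Z, hZ, X - Z, ?_, add_sub_cancel Z X⟩
  rw [Matrix.matrix_eq_sum_single (X - Z)]
  refine sum_mem fun i _ => sum_mem fun j _ => ?_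
  rw [← mul_one ((X - Z) i j), ← smul_eq_mul, ← Matrix.smul_single]
  refine Submodule.smul_mem_smul ?_ Submodule.mem_top
  rw [← hker, RingHom.mem_ker, Matrix.sub_apply, map_sub, sub_eq_zero]
  exact (congrFun (congrFun hZX i) j).symm

end Local

end FLTAgent.IgusaCover

end
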