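import Fermat.Agent.IgusaCover.Residual
import Fermat.Agent.CongruenceRel.Kronecker
import Fermat.Agent.Igusa.Series
import Fermat.Prelude.Def_EllipticCurve_FrobeniusTrace
import Fermat.Prelude.Def_FLTPrelim_Ramification

/-!
# Galois and `U_q` modulo the Gauss branch

Coefficientwise maps, `q ↦ q ^ d` and the operator `U_q` on series lift their reductions at the
Gauss branch at infinity; decomposition elements act on the residue field through
`residue_decompA_of_inertia` and `residue_decompA_of_frobenius`.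
-/

set_option autoImplicit false

noncomputable section

open ModularCurve

namespace FLTAgent.IgusaCover

section CharQ

variable {k : Type*} [Field k] (q : ℕ) [Fact q.Prime] [CharP k q]

/-- In characteristic `q` the `q`-th power is `q`-expansion after Frobenius on coefficients. -/
theorem pow_eq_qExpand (s : LaurentSeries k) :
    s ^ q = qExpand k q (coeffMap (frobenius k q) s) := by
  have : ExpChar k q := ExpChar.prime Fact.out
  obtain ⟨d, P, rfl⟩ : ∃ (d : ℤ) (P : PowerSeries k),
      s = HahnSeries.single d 1 * HahnSeries.ofPowerSeries ℤ k P :=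
    ⟨s.order, s.powerSeriesPart, (LaurentSeries.single_order_mul_powerSeriesPart s).symm⟩
  have hmap : ∀ Q : PowerSeries k, coeffMap (frobenius k q) (HahnSeries.ofPowerSeries ℤ k Q) =
      HahnSeries.ofPowerSeries ℤ k (PowerSeries.map (frobenius k q) Q) := fun Q => by
    ext n
    rw [coeffMap_coeff]
    rcases lt_or_ge n 0 with hn | hn
    · rw [ofPowerSeries_coeff_of_neg _ hn, ofPowerSeries_coeff_of_neg _ hn, map_zero]
    · obtain ⟨i, rfl⟩ := Int.eq_ofNat_of_zero_le hn
      rw [LaurentSeries.coeff_coe_powerSeries, LaurentSeries.coeff_coe_powerSeries,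
        PowerSeries.coeff_map]
  have hexp : P ^ q = PowerSeries.expand q (NeZero.ne q) (PowerSeries.map (frobenius k q) P) := by
    rw [← PowerSeries.map_expand]
    exact (MvPowerSeries.map_frobenius_expand (p := q) (hp := NeZero.ne q) (f := P)).symm
  rw [mul_pow, HahnSeries.single_pow, one_pow, nsmul_eq_mul, ← map_pow, hexp, map_mul, map_mul,
    coeffMap_single, map_one (frobenius k q), qExpand_single, hmap,
    CongruenceRel.qExpand_ofPowerSeries]

theorem eq_one_of_pow_char {z : k} (hz : z ^ q = 1) : z = 1 := by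
  have : ExpChar k q := ExpChar.prime Fact.out
  exact frobenius_inj k q (by rw [frobenius_def, frobenius_def, hz, one_pow])

end CharQ

universe u

variable {K : Type u} [Field K] {A : ValuationSubring K}

theorem coeffMap_id_apply {R : Type*} [CommRing R] {f : R →+* R} (hf : f = RingHom.id R)
    (x : LaurentSeries R) : coeffMap f x = x := by
  subst hf; ext n; rfl

variable {F F' : IntermediateField K (LaurentSeries K)}

/-- Coefficientwise maps preserving `A` lift their residual maps. -/
theorem lifts_coeffMap (σ : K →+* K) (σA : A →+* A) (σk : ResK A →+* ResK A)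
    (h1 : ∀ a : A, ((σA a : A) : K) = σ (a : K))
    (h2 : ∀ a : A, σk (IsLocalRing.residue A a) = IsLocalRing.residue A (σA a))
    (θ : F →*₀ F') (hθ : ∀ f : F, (θ f : LaurentSeries K) = coeffMap σ (f : LaurentSeries K)) :
    Lifts θ (coeffMap σk).toMonoidWithZeroHom := by
  intro g hg
  have hmem : inclA A (coeffMap σA g) = (θ ⟨inclA A g, hg⟩ : LaurentSeries K) := by
    rw [hθ]
    show coeffMap A.subtype (coeffMap σA g) = coeffMap σ (coeffMap A.subtype g)
    rw [coeffMap_coeffMap, coeffMap_coeffMap]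
    exact coeffMap_congr (RingHom.ext h1) g
  refine ⟨coeffMap σA g, by show inclA A _ ∈ F'; rw [hmem]; exact (θ _).2, hmem.symm, ?_⟩
  show coeffMap _ (coeffMap σA g) = coeffMap σk (coeffMap _ g)
  rw [coeffMap_coeffMap, coeffMap_coeffMap]
  exact coeffMap_congr (RingHom.ext fun a => (h2 a).symm) g

/-- `q ↦ q ^ m` lifts itself. -/
theorem lifts_qExpand (m : ℕ) [NeZero m] (θ : F →*₀ F')
    (hθ : ∀ f : F, (θ f : LaurentSeries K) = qExpand K m (f : LaurentSeries K)) :
    Lifts θ (qExpand (ResK A) m).toMonoidWithZeroHom := by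
  intro g hg
  have hmem : inclA A (qExpand A m g) = (θ ⟨inclA A g, hg⟩ : LaurentSeries K) := by
    rw [hθ]; exact coeffMap_qExpand _ _ _
  exact ⟨qExpand A m g, by show inclA A _ ∈ F'; rw [hmem]; exact (θ _).2, hmem.symm,
    coeffMap_qExpand _ _ _⟩

/-- The inclusion of a subfield lifts the identity. -/
theorem lifts_id (θ : F →*₀ F') (hθ : ∀ f : F, (θ f : LaurentSeries K) = f) :
    Lifts θ (MonoidWithZeroHom.id (LaurentSeries (ResK A))) :=
  fun g hg => ⟨g, (congrArg (· ∈ F') (hθ ⟨inclA A g, hg⟩)).mp (θ _).2, hθ _, rfl⟩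

variable (q : ℕ) [Fact q.Prime] [CharP (ResK A) q]

/-- `U_q` reduces to Frobenius on coefficients. -/
theorem lifts_uOp (ζ : Aˣ) (hζ : ζ ^ q = 1) (θ : F →*₀ F')
    (hθ : ∀ f : F, qExpand K q (θ f : LaurentSeries K) =
      ∏ b : Fin q, Igusa.scale (Units.map (A.subtype : A →* K) ζ ^ (b : ℕ))
        (f : LaurentSeries K)) :
    Lifts θ (coeffMap (frobenius (ResK A) q)).toMonoidWithZeroHom := by
  intro g hg
  set P : LaurentSeries A := ∏ b : Fin q, Igusa.scale (ζ ^ (b : ℕ)) g with hP
  have hincl : inclA A P = qExpand K q (θ ⟨inclA A g, hg⟩ : LaurentSeries K) := by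
    rw [hθ, hP, map_prod]
    refine Finset.prod_congr rfl fun b _ => ?_
    show coeffMap A.subtype _ = Igusa.scale _ (coeffMap A.subtype g)
    rw [Igusa.coeffMap_scale, map_pow]
  obtain ⟨g', hg'⟩ : ∃ g' : LaurentSeries A,
      inclA A g' = (θ ⟨inclA A g, hg⟩ : LaurentSeries K) := by
    set s := (θ ⟨inclA A g, hg⟩ : LaurentSeries K)
    have hco : ∀ n, s.coeff n = (P.coeff ((q : ℤ) * n) : K) := fun n => by
      rw [← qExpand_coeff_mul q s n, ← hincl]; rfl
    refine ⟨⟨fun n => ⟨s.coeff n, hco n ▸ (P.coeff _).2⟩,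
      s.isPWO_support'.mono fun n hn h0 => hn (Subtype.ext h0)⟩, ?_⟩
    ext n; rfl
  refine ⟨g', by show inclA A g' ∈ F'; rw [hg']; exact (θ _).2, hg'.symm, ?_⟩
  have hPg : P = qExpand A q g' := inclA_injective A (by
    rw [hincl, ← hg']; exact (coeffMap_qExpand _ _ _).symm)
  refine qExpand_injective q ?_
  show qExpand (ResK A) q (redA A g') = qExpand _ q (coeffMap (frobenius (ResK A) q) (redA A g))
  rw [← pow_eq_qExpand, redA, ← coeffMap_qExpand, ← hPg, hP, map_prod]
  have hz : ∀ b : ℕ, Units.map (IsLocalRing.residue A : A →* ResK A) (ζ ^ b) = 1 := fun b => by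
    have h1 : Units.map (IsLocalRing.residue A : A →* ResK A) ζ = 1 := Units.ext (by
      refine eq_one_of_pow_char q ?_
      rw [← Units.val_pow_eq_pow_val, ← map_pow, hζ, map_one, Units.val_one])
    rw [map_pow, h1, one_pow]
  simp only [Igusa.coeffMap_scale, hz, Igusa.scale_one, Finset.prod_const, Finset.card_univ,
    Fintype.card_fin]

omit [Fact q.Prime] [CharP (ResK A) q] in
theorem charP_resK {L : Type*} [Field L] (B : ValuationSubring L) {q : ℕ} (hq : q.Prime)
    (hB : B.LiesOverPrime q) : CharP (ResK B) q := by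
  refine (CharP.charP_iff_prime_eq_zero hq).mpr ?_
  rw [← map_natCast (IsLocalRing.residue B), IsLocalRing.residue_eq_zero_iff]
  obtain ⟨hm, hu⟩ :=
    (ValuationSubring.mem_nonunits_iff_exists_mem_maximalIdeal (A := B) (a := (q : L))).mp hB
  exact hu

section Galois

local notation "Qbar" => AlgebraicClosure ℚ

variable (B : ValuationSubring Qbar)

/-- The action of a decomposition element on `B`. -/
def decompA {σ : Qbar ≃ₐ[ℚ] Qbar} (hσ : σ ∈ B.decompositionSubgroup ℚ) : B →+* B where
  toFun a := (⟨σ, hσ⟩ : B.decompositionSubgroup ℚ) • a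
  map_one' := smul_one _
  map_mul' := smul_mul' _
  map_zero' := smul_zero _
  map_add' := smul_add _

theorem coe_decompA {σ : Qbar ≃ₐ[ℚ] Qbar} (hσ : σ ∈ B.decompositionSubgroup ℚ) (a : B) :
    ((decompA B hσ a : B) : Qbar) = σ (a : Qbar) := rfl

theorem residue_decompA_of_inertia {σ : Qbar ≃ₐ[ℚ] Qbar} (h : σ ∈ B.inertiaSubgroupIn ℚ) :
    ∃ hσ : σ ∈ B.decompositionSubgroup ℚ, ∀ a : B,
      IsLocalRing.residue B (decompA B hσ a) = IsLocalRing.residue B a := by
  obtain ⟨⟨τ, hτ⟩, hI, rfl⟩ := h
  exact ⟨hτ, fun a => DFunLike.congr_fun (MonoidHom.mem_ker.mp hI) (IsLocalRing.residue B a)⟩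

theorem residue_decompA_of_frobenius {σ : Qbar ≃ₐ[ℚ] Qbar} {q : ℕ} (h : B.IsFrobeniusAt σ q) :
    ∃ hσ : σ ∈ B.decompositionSubgroup ℚ, ∀ a : B,
      IsLocalRing.residue B (decompA B hσ a) = IsLocalRing.residue B a ^ q := by
  obtain ⟨hσ, hx⟩ := h
  exact ⟨hσ, fun a => hx (IsLocalRing.residue B a)⟩

end Galois

end FLTAgent.IgusaCover

end
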