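import Fermat.Agent.GammaH.Galois

/-!
# Diamond automorphisms of the function field of `X₁(M)`

The action `dAct` of `(ℤ/M)ˣ` on `FF M` by diamond operators; only `±1` can act trivially
(`eq_or_eq_neg_of_dAct_eq_one`), and it commutes with Galois (`galHom_dAct`).
-/

set_option autoImplicit false

noncomputable section

open ModularCurve UpperHalfPlane CongruenceSubgroup
open scoped Manifold MatrixGroups

namespace FLTAgent.IgusaCover

open FLTAgent.GammaH FLTAgent.LevelM FLTAgent.HeckeJacobian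

local notation "Qbar" => AlgebraicClosure ℚ
local notation "GalQ" => AlgebraicClosure ℚ ≃ₐ[ℚ] AlgebraicClosure ℚ

variable {M : ℕ} [NeZero M] [Fact (1 < M)]

/-- The diamond automorphism of the field. -/
def dFF (σ : SL(2, ℤ)) (hσ : σ ∈ Gamma0 M) : FF M →ₐ[Qbar] FF M :=
  { diaFF σ hσ with commutes' := diaFF_algebraMap σ hσ }

theorem dFF_toFF (σ : SL(2, ℤ)) (hσ : σ ∈ Gamma0 M) (f : modFun M) :
    dFF σ hσ (toFF f) = toFF (diamond σ hσ f) :=
  diaFF_toFF σ hσ f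

theorem dFF_jF (σ : SL(2, ℤ)) (hσ : σ ∈ Gamma0 M) : dFF σ hσ (jF M) = jF M := by
  rw [jF, dFF_toFF]
  exact congrArg _ (Subtype.ext (funext fun τ => ModularFF.jFun_smul σ τ))

omit [NeZero M] [Fact (1 < M)] in
theorem mul_ne_zero_of_unit {u : (ZMod M)ˣ} {t : ZMod M} (ht : t ≠ 0) : (u : ZMod M) * t ≠ 0 :=
  fun h => ht (u.isUnit.mul_right_eq_zero.mp h)

theorem dFF_wMod (σ : SL(2, ℤ)) (hσ : σ ∈ Gamma0 M) (u : (ZMod M)ˣ)
    (hu : ((σ 1 1 : ℤ) : ZMod M) = u) {t : ZMod M} (ht : t ≠ 0) :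
    dFF σ hσ (toFF (wMod ht)) = toFF (wMod (mul_ne_zero_of_unit (u := u) ht)) := by
  rw [dFF_toFF]
  refine congrArg _ (Subtype.ext ?_)
  show act σ (wFun ![0, t]) = wFun ![0, (u : ZMod M) * t]
  rw [act_wFun]
  congr 1
  ext i
  fin_cases i <;>
    simp [vact, redMat, Matrix.vecMul, dotProduct, Fin.sum_univ_two, Gamma0_mem.mp hσ, hu, mul_comm]

/-- Algebra maps out of the field are determined by the images of `j` and the generator. -/
theorem algHom_FF_ext {B : Type*} [Field B] [Algebra Qbar B] {f g : FF M →ₐ[Qbar] B}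
    (hj : f (jF M) = g (jF M)) (hw : f (toFF (wGen M)) = g (toFF (wGen M))) : f = g := by
  refine AlgHom.ext fun x => ?_
  have hx : x ∈ IntermediateField.adjoin Qbar ({jF M} ∪ {toFF (wGen M)} : Set (FF M)) := by
    rw [← IntermediateField.adjoin_adjoin_left, IntermediateField.mem_restrictScalars,
      adjoin_wGen_eq_top]
    trivial
  induction hx using IntermediateField.adjoin_induction with
  | mem z hz => rcases hz with rfl | rfl <;> assumption
  | algebraMap c => rw [AlgHom.commutes, AlgHom.commutes]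
  | add y z _ _ hy hz => rw [map_add, map_add, hy, hz]
  | inv y _ hy => rw [map_inv₀, map_inv₀, hy]
  | mul y z _ _ hy hz => rw [map_mul, map_mul, hy, hz]

omit [Fact (1 < M)] in
theorem exists_gamma0 (u : (ZMod M)ˣ) : ∃ σ : SL(2, ℤ), σ ∈ Gamma0 M ∧
    ((σ 1 1 : ℤ) : ZMod M) = u := by
  have h : (u : ZMod M).val.Coprime M := ZMod.val_coe_unit_coprime u
  obtain ⟨x, y, hxy⟩ := Int.isCoprime_iff_gcd_eq_one.mpr
    (show Int.gcd (((u : ZMod M).val : ℕ) : ℤ) (M : ℤ) = 1 by rw [Int.gcd_natCast_natCast]; exact h)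
  refine ⟨⟨!![x, -y; (M : ℤ), ((u : ZMod M).val : ℤ)],
    by rw [Matrix.det_fin_two_of]; linear_combination hxy⟩, ?_, ?_⟩
  · exact Gamma0_mem.mpr (by show (((M : ℤ)) : ZMod M) = 0; simp)
  · show ((((u : ZMod M).val : ℤ)) : ZMod M) = _
    simp

/-- The diamond `⟨u⟩` of a unit. -/
def dUnit (u : (ZMod M)ˣ) : FF M →ₐ[Qbar] FF M :=
  dFF (exists_gamma0 u).choose (exists_gamma0 u).choose_spec.1

theorem dUnit_jF (u : (ZMod M)ˣ) : dUnit u (jF M) = jF M := dFF_jF _ _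

theorem dUnit_wMod (u : (ZMod M)ˣ) {t : ZMod M} (ht : t ≠ 0) :
    dUnit u (toFF (wMod ht)) = toFF (wMod (mul_ne_zero_of_unit (u := u) ht)) :=
  dFF_wMod _ _ u (exists_gamma0 u).choose_spec.2 ht

omit [Fact (1 < M)] in
theorem toFF_wMod_congr {t t' : ZMod M} (h : t = t') (ht : t ≠ 0) (ht' : t' ≠ 0) :
    toFF (wMod ht) = toFF (wMod ht') := by
  subst h; rfl

theorem dFF_eq_dUnit (σ : SL(2, ℤ)) (hσ : σ ∈ Gamma0 M) (u : (ZMod M)ˣ)
    (hu : ((σ 1 1 : ℤ) : ZMod M) = u) : dFF σ hσ = dUnit u := by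
  refine algHom_FF_ext ?_ ?_
  · rw [dFF_jF, dUnit_jF]
  · rw [wGen, dFF_wMod _ _ u hu, dUnit_wMod]

theorem dUnit_one : dUnit (1 : (ZMod M)ˣ) = AlgHom.id Qbar (FF M) := by
  refine algHom_FF_ext ?_ ?_
  · rw [dUnit_jF, AlgHom.id_apply]
  · rw [wGen, dUnit_wMod, AlgHom.id_apply]
    exact toFF_wMod_congr (by simp) _ _

theorem dUnit_mul (u v : (ZMod M)ˣ) : dUnit (u * v) = (dUnit u).comp (dUnit v) := by
  refine algHom_FF_ext ?_ ?_
  · simp [dUnit_jF]
  · rw [wGen, AlgHom.comp_apply, dUnit_wMod, dUnit_wMod, dUnit_wMod]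
    exact toFF_wMod_congr (by simp) _ _

/-- The action of `(ℤ/M)ˣ` by diamonds. -/
def dAct : (ZMod M)ˣ →* (FF M ≃ₐ[Qbar] FF M) where
  toFun u := AlgEquiv.ofAlgHom (dUnit u) (dUnit u⁻¹)
    (by rw [← dUnit_mul, mul_inv_cancel, dUnit_one])
    (by rw [← dUnit_mul, inv_mul_cancel, dUnit_one])
  map_one' := AlgEquiv.ext fun x => DFunLike.congr_fun (dUnit_one (M := M)) x
  map_mul' u v := AlgEquiv.ext fun x => DFunLike.congr_fun (dUnit_mul u v) x

theorem dAct_apply (u : (ZMod M)ˣ) (x : FF M) : dAct u x = dUnit u x := rfl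

theorem eq_or_eq_neg_of_dAct_eq_one {u : (ZMod M)ˣ} (h : dAct u = 1) :
    (u : ZMod M) = 1 ∨ (u : ZMod M) = -1 := by
  obtain ⟨σ, hσ, hu⟩ := exists_gamma0 u
  have h1 := DFunLike.congr_fun h (toFF (wGen M))
  rw [dAct_apply, ← dFF_eq_dUnit σ hσ u hu, dFF_toFF, AlgEquiv.one_apply] at h1
  have h2 : act σ (wFun (v01 M)) = wFun (v01 M) := by
    have := congrArg (Subtype.val : modFun M → ℍ → ℂ) (toFF_injective h1)
    simpa [coe_wGen] using this
  rw [act_wFun] at h2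
  have hne : vact (v01 M) σ ≠ 0 := vact_ne_zero v01_ne_zero σ
  by_contra hc
  rw [not_or] at hc
  refine wFun_ne hne v01_ne_zero (fun e => hc.1 ?_) (fun e => hc.2 ?_) h2
  · rw [← hu]
    simpa [vact_v01] using (congrFun e 1).trans (by simp [v01])
  · rw [← hu]
    simpa [vact_v01] using (congrFun e 1).trans (by simp [v01])

/-- Diamonds commute with conjugation of coefficients. -/
theorem galHom_dAct (s : GalQ) (u : (ZMod M)ˣ) (x : FF M) :
    galHom s (dAct u x) = dAct u (galHom s x) := by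
  obtain ⟨σ, hσ, hu⟩ := exists_gamma0 u
  rw [dAct_apply, dAct_apply, ← dFF_eq_dUnit σ hσ u hu]
  exact galHom_diaFF s σ hσ x

end FLTAgent.IgusaCover

end
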