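import Fermat.Agent.IgusaCover.BaseField
import Fermat.Agent.IgusaCover.Diamond

/-!
# The degree of `F_N(j(qτ))` over `F_N`

The series `j(qτ)` is not in `F_N` (`jqSer_not_mem`), and it generates an extension of degree at
least `q + 1` (`finrank_adjJ`); this feeds the computation of the fixed field in `BaseFixed`.
-/

set_option autoImplicit false

noncomputable section

open ModularCurve UpperHalfPlane Polynomial CongruenceSubgroup
open scoped MatrixGroups IntermediateField Manifold

namespace FLTAgent.IgusaCover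

open FLTAgent.GammaH FLTAgent.LevelM FLTAgent.HeckeJacobian

local notation "Qbar" => AlgebraicClosure ℚ
local notation "Mat" => Matrix (Fin 2) (Fin 2) ℤ

variable (N q : ℕ) [NeZero N] [hqp : Fact q.Prime] [Fact (1 < N)]

instance instNeZeroOfPrime : NeZero q := ⟨hqp.out.ne_zero⟩

/-! ## `j(qτ)` is not of level `N` -/

/-- `diag (q, 1)`. -/
abbrev diagQ : Mat := !![(q : ℤ), 0; 0, 1]

theorem diagQ_det : 0 < (diagQ q).det := by
  rw [Matrix.det_fin_two_of]; simpa using hqp.out.pos

theorem jqSer_eq_ser (M : ℕ) [NeZero M] (h : N * q ∣ M) :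
    jqSer q = ser ((degRep q (NeZero.pos q) h).prodMF (jMod N)) := by
  rw [ser_degRep, jqSer, ← coe_jF (M := N)]
  rfl

theorem act_jFun_diag {c : ℤ} {w b : ℤ} (hwb : w * q + b * c = 1) (γ : SL(2, ℤ))
    (hγ : (γ : Mat) = !![1, 0; c, 1])
    (hup : 0 < (!![((1 : ℕ) : ℤ), b; 0, (q : ℤ)] : Mat).det) :
    act γ (pullF (diagQ q) (diagQ_det q) ModularFF.jFun) =
      pullF !![((1 : ℕ) : ℤ), b; 0, (q : ℤ)] hup ModularFF.jFun := by
  let γ' : SL(2, ℤ) := ⟨!![(q : ℤ), -b; c, w],
    by rw [Matrix.det_fin_two_of]; linear_combination hwb⟩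
  have e : diagQ q * (γ : Mat) = (γ' : Mat) * !![((1 : ℕ) : ℤ), b; 0, (q : ℤ)] := by
    rw [hγ]
    ext i j
    fin_cases i <;> fin_cases j <;> simp [γ', Matrix.mul_apply, Fin.sum_univ_two]
    · ring
    · linear_combination -hwb
  have hj : act γ' ModularFF.jFun = ModularFF.jFun := funext fun τ => ModularFF.jFun_smul γ' τ
  rw [act_pullF, pullF_SL_mul hup _ γ' e, hj]

theorem jqSer_not_mem (hqN : ¬ q ∣ N) : jqSer q ∉ FF N := by
  intro hmem
  obtain ⟨f, g, hg, hfg⟩ := mem_FF_iff.mp hmem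
  have : NeZero (N * q) := ⟨mul_ne_zero (NeZero.ne N) hqp.out.ne_zero⟩
  have : Fact (1 < N * q) :=
    ⟨(Fact.out : 1 < N).trans_le (Nat.le_mul_of_pos_right N hqp.out.pos)⟩
  have hd : N * q ∣ N * q := dvd_rfl
  set jq := (degRep q (NeZero.pos q) hd).prodMF (jMod N)
  set f' := (degRep 1 one_pos (show N * 1 ∣ N * q by simp)).prodMF f
  set g' := (degRep 1 one_pos (show N * 1 ∣ N * q by simp)).prodMF g
  have hser : jq * g' = f' := by
    refine ser_injective ?_
    rw [map_mul, ← jqSer_eq_ser N q (N * q) hd, ser_degRep, ser_degRep, qExpand_one_apply,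
      qExpand_one_apply, hfg, div_mul_cancel₀ _ (ser_ne_zero hg)]
  have hone : ∀ u : modFun N,
      ((degRep 1 one_pos (show N * 1 ∣ N * q by simp)).prodMF u : ℍ → ℂ) = u := fun u => by
    rw [HeckeReps.coe_prodMF, prodF_degRep]
    funext τ
    rw [pullF_apply]
    have h1 : (!![((1 : ℕ) : ℤ), 0; 0, 1] : Mat) = ((1 : SL(2, ℤ)) : Mat) := by
      ext i j; fin_cases i <;> fin_cases j <;> simp
    simp only [h1]
    rw [mSmul_SL, one_smul]
  set J : ℍ → ℂ := pullF (diagQ q) (diagQ_det q) ModularFF.jFun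
  have hJ : (jq : ℍ → ℂ) = J := by
    rw [HeckeReps.coe_prodMF, prodF_degRep]; rfl
  have hfun : J * (g : ℍ → ℂ) = f := by
    have := congrArg (Subtype.val : modFun (N * q) → ℍ → ℂ) hser
    rwa [MulMemClass.coe_mul, hJ, hone, hone] at this
  have hcop : IsCoprime (q : ℤ) (N : ℤ) := by
    rw [Int.isCoprime_iff_gcd_eq_one, Int.gcd_natCast_natCast]
    exact hqp.out.coprime_iff_not_dvd.mpr hqN
  obtain ⟨w, b, hwb⟩ := hcop
  let γ : SL(2, ℤ) := ⟨!![1, 0; (N : ℤ), 1], by rw [Matrix.det_fin_two_of]; ring⟩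
  have hγ : γ ∈ Gamma1 N :=
    (Gamma1_mem N γ).mpr ⟨by simp [γ], by simp [γ], by simp [γ]⟩
  have h1 := congrArg (act γ) hfun
  rw [map_mul, modFun_act g hγ, modFun_act f hγ] at h1
  have hup : 0 < (!![((1 : ℕ) : ℤ), b; 0, (q : ℤ)] : Mat).det :=
    det_upper_pos one_pos hqp.out.pos b
  have hJγ : act γ J = pullF !![((1 : ℕ) : ℤ), b; 0, (q : ℤ)] hup ModularFF.jFun := by
    exact act_jFun_diag q hwb γ rfl hup
  have hJd : MDiff J := mdiff_pullF _ _ ModularFF.mdiff_jFun
  have heq : act γ J = J := by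
    have h2 : (⟨act γ J, mdifferentiable_act γ hJd⟩ : Hol) * toHol g =
        (⟨J, hJd⟩ : Hol) * toHol g := Subtype.ext (h1.trans hfun.symm)
    exact congrArg Subtype.val (mul_right_cancel₀ (toHol_ne_zero hg) h2)
  have e1 : HasExp (q * 1) J (qExpand ℂ q (qExpand ℂ q (liftC (jqModC Qbar)))) := by
    refine HasExp.qExpand ?_ q
    have h2 := hasExp_pull_upper one_pos hasExp_jFun q 1 one_pos 0
      (by rw [Matrix.det_fin_two_of]; simpa using hqp.out.pos)
    have htw : twist (zetaM (1 * 1) ^ (0 : ℤ)) (liftC (jqModC Qbar)) = liftC (jqModC Qbar) := by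
      ext n; simp
    rw [htw] at h2
    exact h2
  have e2 : HasExp (q * 1) J
      (qExpand ℂ 1 (twist (zetaM (q * 1) ^ b) (liftC (jqModC Qbar)))) := by
    rw [← heq, hJγ]
    exact hasExp_pull_upper one_pos hasExp_jFun 1 q hqp.out.pos b hup
  have h3 := congrArg (fun s : LaurentSeries ℂ => s.coeff (-1))
    (e1.unique (by simpa using hqp.out.pos) e2)
  have hq1 : ¬ ((q : ℤ) ∣ -1) := by
    rw [dvd_neg]
    intro h
    have := Int.eq_one_of_dvd_one (Int.natCast_nonneg q) h
    exact hqp.out.one_lt.ne' (by exact_mod_cast this)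
  simp only [qExpand_one_apply, qExpand_coeff_of_not_dvd q _ hq1, twist_coeff, liftC_coeff] at h3
  rw [coeff_jqModC_neg_one, map_one, one_mul] at h3
  exact (zpow_ne_zero _ (zpow_ne_zero _ zetaM_ne_zero)) h3.symm

/-! ## Degree of `j(qτ)` over `F_N` -/

variable (B : ValuationSubring Qbar)

theorem jqModC_not_pow (k : Type) [Field k] (s : LaurentSeries k) : s ^ q ≠ jqModC k := by
  intro h
  have hj : (jqModC k).order = -1 := by
    refine le_antisymm (HahnSeries.order_le_of_coeff_ne_zero ?_) ?_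
    · rw [coeff_jqModC_neg_one]; exact one_ne_zero
    · by_contra hlt
      have hne : (jqModC k).coeff (jqModC k).order ≠ 0 := by
        refine HahnSeries.coeff_order_eq_zero.not.mpr fun h0 => ?_
        have := congrArg (fun x : LaurentSeries k => x.coeff (-1)) h0
        simp [coeff_jqModC_neg_one] at this
      exact hne (coeff_jqModC_below (not_le.mp hlt))
  have h2 := congrArg HahnSeries.order h
  rw [HahnSeries.order_pow, hj, nsmul_eq_mul] at h2
  have hdvd : (q : ℤ) ∣ -1 := ⟨s.order, h2.symm⟩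
  rw [dvd_neg] at hdvd
  exact hqp.out.one_lt.ne' (by exact_mod_cast Int.eq_one_of_dvd_one (Int.natCast_nonneg q) hdvd)

theorem finrank_adjJ (hqN : ¬ q ∣ N) (hB : B.LiesOverPrime q) :
    FiniteDimensional (FF N) (adjJ N q) ∧ q + 1 ≤ Module.finrank (FF N) (adjJ N q) := by
  have := charP_resK B hqp.out hB
  set hN := scalable_FF (M := N) B
  set R := branch hN
  have hev : Polynomial.aeval (jqSer q) ((modEq N q B hN).map (algebraMap R (FF N))) = 0 := by
    have h := congrArg (branchVal B (FFJ_scalable N q B)) (eval_modEq N q B)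
    rw [map_zero, Polynomial.hom_eval₂] at h
    rw [Polynomial.aeval_def, Polynomial.eval₂_map]
    exact h
  have hint : IsIntegral (FF N) (jqSer q) :=
    ⟨_, (modEq_monic N q B hN).map _, by rw [← Polynomial.aeval_def]; exact hev⟩
  refine ⟨IntermediateField.adjoin.finiteDimensional hint, ?_⟩
  rw [IntermediateField.adjoin.finrank hint]
  obtain ⟨g, hg⟩ := IsIntegrallyClosed.eq_map_mul_C_of_dvd (FF N) (modEq_monic N q B hN)
    (minpoly.dvd _ _ hev)
  have hmm : (minpoly (FF N) (jqSer q)).Monic := minpoly.monic hint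
  rw [hmm.leadingCoeff, map_one, mul_one] at hg
  have hgm : g.Monic :=
    Polynomial.monic_of_injective (IsFractionRing.injective R (FF N)) (hg ▸ hmm)
  have hdeg : (minpoly (FF N) (jqSer q)).natDegree = g.natDegree := by rw [← hg, hgm.natDegree_map]
  have hdvd : g.map (branchRed hN) ∣ (modEq N q B hN).map (branchRed hN) := by
    refine Polynomial.map_dvd _ ?_
    rw [← Polynomial.map_dvd_map _ (IsFractionRing.injective R (FF N)) hgm, hg]
    exact minpoly.dvd _ _ hev
  rw [map_modEq_red N q B hN hB] at hdvd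
  set b := jqModC (ResK B) ^ q
  have hroot : (g.map (branchRed hN)).IsRoot b := by
    have h0 : g.eval₂ (branchIncl (FF_le_FFJ N q) hN (FFJ_scalable N q B)) (jqB N q B) = 0 := by
      refine Subtype.ext (Subtype.ext ?_)
      show branchVal B (FFJ_scalable N q B) _ = _
      rw [Polynomial.hom_eval₂]
      have h := minpoly.aeval (FF N) (jqSer q)
      rw [← hg, Polynomial.aeval_def, Polynomial.eval₂_map] at h
      exact h
    have h1 := congrArg (branchRed (FFJ_scalable N q B)) h0
    rw [map_zero, Polynomial.hom_eval₂, branchRed_jqB N q B hB,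
      show (branchRed (FFJ_scalable N q B)).comp
          (branchIncl (FF_le_FFJ N q) hN (FFJ_scalable N q B)) = branchRed hN from
        RingHom.ext fun f => branchRed_branchIncl (FF_le_FFJ N q) hN (FFJ_scalable N q B) f] at h1
    rw [Polynomial.IsRoot, Polynomial.eval_map]
    exact h1
  obtain ⟨m₁, hm₁⟩ := Polynomial.dvd_iff_isRoot.mpr hroot
  have hm₁m : m₁.Monic :=
    (monic_X_sub_C b).of_mul_monic_left (hm₁ ▸ hgm.map _)
  have hm₁d : m₁ ∣ X ^ q - C (jqModC (ResK B)) := by
    rw [hm₁] at hdvd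
    exact (mul_dvd_mul_iff_left (X_sub_C_ne_zero b)).mp hdvd
  have hdeg₁ : g.natDegree = 1 + m₁.natDegree := by
    rw [← hgm.natDegree_map (branchRed hN), hm₁, (monic_X_sub_C b).natDegree_mul hm₁m,
      natDegree_X_sub_C]
  have hirr : Irreducible (X ^ q - C (jqModC (ResK B))) :=
    X_pow_sub_C_irreducible_of_prime hqp.out (jqModC_not_pow q (ResK B))
  rcases hirr.dvd_iff.mp hm₁d with hu | hass
  · have h1 : (minpoly (FF N) (jqSer q)).natDegree = 1 := by
      rw [hdeg, hdeg₁, Polynomial.natDegree_eq_zero_of_isUnit hu]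
    obtain ⟨x, hx⟩ := (minpoly.natDegree_eq_one_iff).mp h1
    exact absurd (hx ▸ x.2) (jqSer_not_mem N q hqN)
  · rw [hdeg, hdeg₁, ← Polynomial.degree_eq_degree_of_associated hass |>
      Polynomial.natDegree_eq_natDegree, natDegree_X_pow_sub_C]
    omega

end FLTAgent.IgusaCover

end
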