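import Fermat.Agent.IgusaCover.Congruence
import Fermat.Agent.CongruenceRel.Coeff

/-!
# Residue fields of branches and simple roots

Inclusions of branches (`branchIncl`), and a Newton iteration showing that adjoining a root which
is simple modulo the branch does not enlarge the residue field (`resField_le_of_newton`).
-/

set_option autoImplicit false

noncomputable section

open ModularCurve

namespace FLTAgent.IgusaCover

universe u

variable {K : Type u} [Field K] {A : ValuationSubring K}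
variable {F₁ F₂ : IntermediateField K (LaurentSeries K)}

section Incl

variable (hle : F₁ ≤ F₂) (h₁ : Scalable A F₁) (h₂ : Scalable A F₂)

theorem inclusion_mem_branch (f : branch h₁) :
    ∃ hm : IntermediateField.inclusion hle (f : F₁) ∈ branch h₂,
      branchRed h₂ ⟨_, hm⟩ = branchRed h₁ f :=
  (lifts_id (A := A)
    ((IntermediateField.inclusion hle : F₁ →ₐ[K] F₂).toRingHom.toMonoidWithZeroHom)
    fun _ => rfl).map_branch h₁ h₂ f

/-- The inclusion of branches. -/
def branchIncl : branch h₁ →+* branch h₂ :=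
  ((IntermediateField.inclusion hle : F₁ →ₐ[K] F₂).toRingHom.comp (branch h₁).subtype).codRestrict
    (branch h₂).toSubring fun f => (inclusion_mem_branch hle h₁ h₂ f).choose

theorem branchRed_branchIncl (f : branch h₁) :
    branchRed h₂ (branchIncl hle h₁ h₂ f) = branchRed h₁ f :=
  (inclusion_mem_branch hle h₁ h₂ f).choose_spec

theorem mem_branch_of_inclusion {f : F₁}
    (hf : IntermediateField.inclusion hle f ∈ branch h₂) : f ∈ branch h₁ := by
  by_contra hn
  have hinv : f⁻¹ ∈ branch h₁ := ((branch h₁).mem_or_inv_mem f).resolve_left hn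
  have h0 : branchRed h₁ ⟨_, hinv⟩ = 0 := by
    by_contra h
    exact hn (by simpa using inv_mem_branch h)
  have hf0 : f ≠ 0 := fun e => hn (e ▸ zero_mem _)
  have h1 : branchIncl hle h₁ h₂ ⟨_, hinv⟩ * ⟨_, hf⟩ = 1 := Subtype.ext (by
    show IntermediateField.inclusion hle f⁻¹ * IntermediateField.inclusion hle f = 1
    rw [← map_mul, inv_mul_cancel₀ hf0, map_one])
  have h2 := congrArg (branchRed h₂) h1
  rw [map_mul, branchRed_branchIncl, h0, zero_mul, map_one] at h2
  exact zero_ne_one h2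

variable {hle h₁ h₂}

/-- Newton's step. -/
theorem newton_step (Φ : Polynomial (branch h₁)) (θ : branch h₂)
    (hroot : Φ.eval₂ (branchIncl hle h₁ h₂) θ = 0) {a : branch h₁}
    (ha : branchRed h₁ a = branchRed h₂ θ)
    (hd : branchRed h₁ (Φ.derivative.eval a) ≠ 0) :
    ∃ a' : branch h₁, branchRed h₁ a' = branchRed h₂ θ ∧
      ∃ r, θ - branchIncl hle h₁ h₂ a' = (θ - branchIncl hle h₁ h₂ a) ^ 2 * r := by
  set ι := branchIncl hle h₁ h₂
  set y := θ - ι a
  obtain ⟨k, hk⟩ := Polynomial.binomExpansion (Φ.map ι) (ι a) y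
  rw [show ι a + y = θ by rw [add_sub_cancel], Polynomial.eval_map, hroot,
    Polynomial.eval_map_apply, Polynomial.derivative_map, Polynomial.eval_map_apply] at hk
  let d : branch h₁ := ⟨((Φ.derivative.eval a : branch h₁) : F₁)⁻¹, inv_mem_branch hd⟩
  have hdd : Φ.derivative.eval a * d = 1 := Subtype.ext
    (mul_inv_cancel₀ fun e => hd (by
      rw [show Φ.derivative.eval a = 0 from Subtype.ext e, map_zero]))
  have hdd' : ι (Φ.derivative.eval a) * ι d = 1 := by rw [← map_mul, hdd, map_one]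
  have key : θ - ι (a - Φ.eval a * d) = y ^ 2 * (-(ι d * k)) := by
    rw [map_sub, map_mul]
    linear_combination -(ι d) * hk - y * hdd'
  refine ⟨a - Φ.eval a * d, ?_, _, key⟩
  have hy : branchRed h₂ y = 0 := by rw [map_sub, branchRed_branchIncl, ha, sub_self]
  have h := congrArg (branchRed h₂) key
  rw [map_mul, map_pow, hy, map_sub, branchRed_branchIncl] at h
  simp only [ne_eq, OfNat.ofNat_ne_zero, not_false_eq_true, zero_pow, zero_mul] at h
  exact (sub_eq_zero.mp h).symm

/-- Newton's iteration. -/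
theorem exists_approx (Φ : Polynomial (branch h₁)) (θ : branch h₂)
    (hroot : Φ.eval₂ (branchIncl hle h₁ h₂) θ = 0) {a₀ : branch h₁}
    (ha : branchRed h₁ a₀ = branchRed h₂ θ)
    (hd : branchRed h₁ (Φ.derivative.eval a₀) ≠ 0) (m : ℕ) :
    ∃ a : branch h₁, branchRed h₁ a = branchRed h₂ θ ∧
      ∃ r, θ - branchIncl hle h₁ h₂ a = (θ - branchIncl hle h₁ h₂ a₀) ^ (m + 1) * r := by
  induction m with
  | zero => exact ⟨a₀, ha, 1, by simp⟩
  | succ m ih =>
    obtain ⟨a, haθ, r, hr⟩ := ih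
    have hd' : branchRed h₁ (Φ.derivative.eval a) ≠ 0 := by
      rwa [← Polynomial.eval_map_apply, haθ, ← ha, Polynomial.eval_map_apply]
    obtain ⟨a', ha', s, hs⟩ := newton_step Φ θ hroot haθ hd'
    refine ⟨a', ha', (θ - branchIncl hle h₁ h₂ a₀) ^ m * r ^ 2 * s, ?_⟩
    rw [hs, hr]
    ring

/-- The residue field is unchanged by adjoining `θ`. -/
theorem resField_le_of_newton (Φ : Polynomial (branch h₁)) (θ : branch h₂)
    (hroot : Φ.eval₂ (branchIncl hle h₁ h₂) θ = 0) {a₀ : branch h₁}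
    (ha : branchRed h₁ a₀ = branchRed h₂ θ)
    (hd : branchRed h₁ (Φ.derivative.eval a₀) ≠ 0)
    (harch : ∀ (b : F₂) (ε : branch h₂), branchRed h₂ ε = 0 →
      ∃ n : ℕ, b * (ε : F₂) ^ n ∈ branch h₂)
    (hgen : ∀ z : F₂, ∃ P : Polynomial F₁,
      P.eval₂ (IntermediateField.inclusion hle : F₁ →ₐ[K] F₂).toRingHom (θ : F₂) = z) :
    resField h₂ ≤ resField h₁ := by
  intro x hx
  obtain ⟨z, rfl⟩ := mem_resField.mp hx
  set ι := branchIncl hle h₁ h₂ with hι
  set i₀ := (IntermediateField.inclusion hle : F₁ →ₐ[K] F₂).toRingHom with hi₀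
  set ε := θ - ι a₀ with hε
  have hε0 : branchRed h₂ ε = 0 := by rw [map_sub, branchRed_branchIncl, ha, sub_self]
  obtain ⟨P, hP⟩ := hgen (z : F₂)
  choose n hn using fun i : ℕ => harch (i₀ (P.coeff i)) ε hε0
  set m := (Finset.range (P.natDegree + 1)).sup n with hm
  obtain ⟨a, haθ, r, hr⟩ := exists_approx Φ θ hroot ha hd m
  have hterm : ∀ i ∈ Finset.range (P.natDegree + 1),
      ∃ w : branch h₂, branchRed h₂ w = 0 ∧
        (w : F₂) = i₀ (P.coeff i) * ((θ : F₂) ^ i - (ι a : F₂) ^ i) := by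
    intro i hi
    obtain ⟨c, hc⟩ : θ - ι a ∣ θ ^ i - ι a ^ i := sub_dvd_pow_sub_pow _ _ i
    have hle' : n i ≤ m := Finset.le_sup hi
    refine ⟨(⟨_, hn i⟩ : branch h₂) * ε ^ (m + 1 - n i) * r * c, ?_, ?_⟩
    · rw [map_mul, map_mul, map_mul, map_pow, hε0, zero_pow (by omega)]
      simp
    · have h1 : ((θ : F₂) ^ i - (ι a : F₂) ^ i) =
          ((θ - ι a : branch h₂) : F₂) * (c : F₂) := by
        have := congrArg (fun u : branch h₂ => (u : F₂)) hc
        simpa using this
      obtain ⟨k, hk⟩ := Nat.exists_eq_add_of_le hle'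
      rw [h1, hr, hk, show n i + k + 1 - n i = k + 1 by omega]
      push_cast
      rw [show (ε : F₂) = (θ : F₂) - (ι a₀ : F₂) from rfl]
      ring
  choose w hw0 hw using hterm
  set W : branch h₂ := ∑ i ∈ (Finset.range (P.natDegree + 1)).attach, w i.1 i.2 with hW
  have hW0 : branchRed h₂ W = 0 := by
    rw [map_sum]; exact Finset.sum_eq_zero fun i _ => hw0 _ _
  have hWv : (W : F₂) = (z : F₂) - i₀ (P.eval (a : F₁)) := by
    rw [hW, AddSubmonoidClass.coe_finsetSum]
    simp only [hw]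
    rw [Finset.sum_attach (Finset.range (P.natDegree + 1))
      (fun i => i₀ (P.coeff i) * ((θ : F₂) ^ i - (ι a : F₂) ^ i)), ← hP,
      Polynomial.eval₂_eq_sum_range, Polynomial.eval_eq_sum_range, map_sum,
      ← Finset.sum_sub_distrib]
    refine Finset.sum_congr rfl fun i _ => ?_
    rw [map_mul, map_pow, mul_sub]
    rfl
  have hmem : P.eval (a : F₁) ∈ branch h₁ := by
    refine mem_branch_of_inclusion hle h₁ h₂ ?_
    show i₀ _ ∈ branch h₂
    rw [show i₀ (P.eval (a : F₁)) = ((z - W : branch h₂) : F₂) by push_cast; rw [hWv]; ring]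
    exact (z - W).2
  refine mem_resField.mpr ⟨⟨_, hmem⟩, ?_⟩
  rw [← branchRed_branchIncl hle h₁ h₂,
    show branchIncl hle h₁ h₂ ⟨_, hmem⟩ = z - W from Subtype.ext (by
      show i₀ _ = _
      push_cast; rw [hWv]; simp),
    map_sub, hW0, sub_zero]

end Incl

section Archimedean

local notation "Qbar" => AlgebraicClosure ℚ

variable {B : ValuationSubring Qbar} {q : ℕ}

theorem mem_of_isIntegral_int {x : Qbar} (hx : IsIntegral ℤ x) : x ∈ B := by
  obtain ⟨y, hy⟩ := IsIntegrallyClosed.isIntegral_iff.mp (hx.tower_top (A := B))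
  exact hy ▸ y.2

/-- Powers of a non-unit of `B` clear any algebraic number. -/
theorem exists_pow_mul_mem (hq : q.Prime) (hB : B.LiesOverPrime q) {e : B}
    (he : IsLocalRing.residue B e = 0) (x : Qbar) : ∃ n : ℕ, x * (e : Qbar) ^ n ∈ B := by
  have hv : B.valuation (e : Qbar) < 1 := by
    rw [← ValuationSubring.mem_nonunits_iff,
      ValuationSubring.mem_nonunits_iff_exists_mem_maximalIdeal]
    exact ⟨e.2, (IsLocalRing.residue_eq_zero_iff _).mp he⟩
  obtain ⟨y, hy, D, hD0, hDx⟩ : ∃ (y : Qbar), IsIntegral ℤ y ∧ ∃ D : ℕ, D ≠ 0 ∧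
      B.valuation ((D : Qbar) * x) = B.valuation y := by
    obtain ⟨y, hy, hy'⟩ :=
      ((IsFractionRing.isAlgebraic_iff ℤ ℚ Qbar).mpr
        (Algebra.IsAlgebraic.isAlgebraic (R := ℚ) x)).exists_integral_multiple
    refine ⟨_, hy', y.natAbs, Int.natAbs_ne_zero.mpr hy, ?_⟩
    rw [zsmul_eq_mul]
    rcases Int.natAbs_eq y with h | h <;> conv_rhs => rw [h]
    · simp
    · simp [Valuation.map_neg]
  have h1 : B.valuation ((D : Qbar) * x) ≤ 1 :=
    hDx ▸ (B.valuation_le_one_iff _).mpr (mem_of_isIntegral_int hy)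
  obtain ⟨a, ha⟩ := CongruenceRel.valuation_natCast hq hB hD0
  set d := (minpoly ℚ (e : Qbar)).natDegree
  refine ⟨d * a, (B.valuation_le_one_iff _).mp ?_⟩
  rw [map_mul, map_pow, pow_mul]
  calc B.valuation x * (B.valuation (e : Qbar) ^ d) ^ a
      ≤ B.valuation x * B.valuation (q : Qbar) ^ a := by
        exact mul_le_mul' le_rfl (pow_le_pow_left'
          (CongruenceRel.valuation_pow_le_of_natDegree_le hq hB le_rfl hv) a)
    _ = B.valuation ((D : Qbar) * x) := by rw [map_mul, ha, mul_comm]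
    _ ≤ 1 := h1

/-- Powers of an element of zero reduction clear any function. -/
theorem exists_pow_mul_mem_branch (hq : q.Prime) (hB : B.LiesOverPrime q)
    {F : IntermediateField Qbar (LaurentSeries Qbar)} (hF : Scalable B F) (b : F)
    (ε : branch hF) (hε : branchRed hF ε = 0) : ∃ n : ℕ, b * (ε : F) ^ n ∈ branch hF := by
  rcases eq_or_ne (ε : F) 0 with h | hε'
  · exact ⟨1, by rw [h, pow_one, mul_zero]; exact zero_mem _⟩
  rcases eq_or_ne b 0 with rfl | hb
  · exact ⟨0, by rw [zero_mul]; exact zero_mem _⟩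
  obtain ⟨c, hcm, hc0, hcr⟩ := exists_smul_branch hF hε'
  obtain ⟨d, hdm, hd0, -⟩ := exists_smul_branch hF hb
  have hcB : c ∉ B := fun h => hcr (by
    have : (⟨_, hcm⟩ : branch hF) = ⟨_, algebraMap_mem_branch ⟨c, h⟩⟩ * ε := Subtype.ext rfl
    rw [this, map_mul, hε, mul_zero])
  obtain ⟨e, hec, he⟩ := exists_scalar c hcB
  obtain ⟨n, hn⟩ := exists_pow_mul_mem hq hB he d⁻¹
  refine ⟨n, ?_⟩
  have h1 : b * (ε : F) ^ n = algebraMap Qbar F (d⁻¹ * (e : Qbar) ^ n) *
      (algebraMap Qbar F d * b) * (algebraMap Qbar F c * (ε : F)) ^ n := by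
    rw [hec, map_mul, map_pow, map_inv₀, map_inv₀, mul_pow, inv_pow]
    have : algebraMap Qbar F d ≠ 0 := (map_ne_zero _).mpr hd0
    have : (algebraMap Qbar F c) ^ n ≠ 0 := pow_ne_zero n ((map_ne_zero _).mpr hc0)
    field_simp
  rw [h1]
  exact mul_mem (mul_mem (algebraMap_mem_branch ⟨_, hn⟩) hdm) (pow_mem hcm n)

end Archimedean

end FLTAgent.IgusaCover

end
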