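import Fermat.Agent.IgusaCover.Congruence
import Fermat.Agent.GammaH.HeckeKummer

/-!
# Degeneracy maps and `U_q` on `q`-expansions

The maps between the fields of `X₁(N)` and `X₁(M')` for `N ∣ M'` on expansions
(`ser_degRep`, `FF_le_of_dvd`), and the expansion of the norm along `U_q`
(`qExpand_normFF_uRep`).
-/

set_option autoImplicit false

noncomputable section

open ModularCurve UpperHalfPlane CongruenceSubgroup
open scoped Manifold MatrixGroups

namespace FLTAgent.IgusaCover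

open FLTAgent.GammaH FLTAgent.LevelM

local notation "Qbar" => AlgebraicClosure ℚ
local notation "Mat" => Matrix (Fin 2) (Fin 2) ℤ

variable {N M' : ℕ}

/-- Conjugation of `Γ₁(M')` into `Γ₁(N)` by `(d 0; 0 1)`. -/
theorem exists_conj_diag {d : ℕ} (hd : 0 < d) (h : N * d ∣ M') (γ : Gamma1 M') :
    ∃ g : Gamma1 N, !![(d : ℤ), 0; 0, 1] * ((γ : SL(2, ℤ)) : Mat) =
      ((g : SL(2, ℤ)) : Mat) * !![(d : ℤ), 0; 0, 1] ∧
      ((g : SL(2, ℤ)) 1 1 : ℤ) = ((γ : SL(2, ℤ)) 1 1 : ℤ) := by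
  obtain ⟨h1, h2, h3⟩ := (Gamma1_mem M' (γ : SL(2, ℤ))).mp γ.2
  obtain ⟨c, hc⟩ : (d : ℤ) ∣ (γ : SL(2, ℤ)) 1 0 :=
    (Int.natCast_dvd_natCast.mpr (dvd_of_mul_left_dvd h)).trans
      ((ZMod.intCast_zmod_eq_zero_iff_dvd _ _).mp h3)
  have hdet := (γ : SL(2, ℤ)).det_coe
  rw [Matrix.det_fin_two, hc] at hdet
  have hN : N ∣ M' := dvd_of_mul_right_dvd h
  have hcast : ∀ z : ℤ, ∀ w : ℤ, (z : ZMod M') = (w : ZMod M') → (z : ZMod N) = (w : ZMod N) := by
    intro z w e
    simpa using congrArg (ZMod.castHom hN (ZMod N)) e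
  refine ⟨⟨⟨!![(γ : SL(2, ℤ)) 0 0, (d : ℤ) * (γ : SL(2, ℤ)) 0 1; c, (γ : SL(2, ℤ)) 1 1],
    by rw [Matrix.det_fin_two_of]; linear_combination hdet⟩, ?_⟩, ?_, rfl⟩
  · refine (Gamma1_mem N _).mpr ⟨?_, ?_, ?_⟩
    · simpa using hcast _ 1 (by simpa using h1)
    · simpa using hcast _ 1 (by simpa using h2)
    · show ((c : ℤ) : ZMod N) = 0
      rw [ZMod.intCast_zmod_eq_zero_iff_dvd]
      have h4 : ((N * d : ℕ) : ℤ) ∣ (d : ℤ) * c :=
        hc ▸ (Int.natCast_dvd_natCast.mpr h).trans ((ZMod.intCast_zmod_eq_zero_iff_dvd _ _).mp h3)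
      push_cast at h4
      exact Int.dvd_of_mul_dvd_mul_left (a := (d : ℤ)) (by exact_mod_cast hd.ne')
        (by rwa [mul_comm (d : ℤ) N])
  · ext i j
    fin_cases i <;> fin_cases j <;> simp [Matrix.mul_apply, Fin.sum_univ_two, hc, mul_comm]

/-- `f ↦ f (d τ)` from level `N` to level `M'`. -/
def degRep (d : ℕ) (hd : 0 < d) (h : N * d ∣ M') : HeckeReps M' N where
  ι := Unit
  fin := inferInstance
  β _ := !![(d : ℤ), 0; 0, 1]
  det_pos _ := by rw [Matrix.det_fin_two_of]; simpa using hd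
  exists_rep γ _ := ⟨(), (exists_conj_diag hd h γ).choose, (exists_conj_diag hd h γ).choose_spec.1⟩
  sep _ _ _ _ := rfl
  alg _ := ⟨1, one_mem _, d, 1, 0, hd, one_pos, by
    rw [Matrix.SpecialLinearGroup.coe_one, Matrix.one_mul]; rfl⟩

attribute [local instance] HeckeReps.fin

variable [NeZero N] [NeZero M'] [Fact (1 < N)]

omit [NeZero N] [NeZero M'] [Fact (1 < N)] in
theorem prodF_degRep (d : ℕ) (hd : 0 < d) (h : N * d ∣ M') (f : ℍ → ℂ) :
    (degRep d hd h).prodF f = pullF !![(d : ℤ), 0; 0, 1]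
      (by rw [Matrix.det_fin_two_of]; simpa using hd) f := by
  rw [HeckeReps.prodF_apply]
  exact Fintype.prod_unique (fun i : Unit => pullF ((degRep d hd h).β i) _ f)

theorem ser_degRep (d : ℕ) [NeZero d] (h : N * d ∣ M') (f : modFun N) :
    ser ((degRep d (NeZero.pos d) h).prodMF f) = qExpand Qbar d (ser f) := by
  refine ser_eq ?_
  rw [HeckeReps.coe_prodMF, prodF_degRep]
  have h1 := hasExp_pull_upper one_pos (hasExp_ser f) d 1 one_pos 0
    (by rw [Matrix.det_fin_two_of]; simpa using NeZero.pos d)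
  have htw : twist (zetaM (1 * 1) ^ (0 : ℤ)) (liftC (ser f)) = liftC (ser f) := by
    ext n; simp
  rw [htw, ← liftC_qExpand] at h1
  exact h1

/-- `qExpand d` maps the field of level `N` into that of level `M'`. -/
theorem qExpand_mem_FF (d : ℕ) [NeZero d] (h : N * d ∣ M') {x : LaurentSeries Qbar}
    (hx : x ∈ FF N) : qExpand Qbar d x ∈ FF M' := by
  obtain ⟨f, g, -, rfl⟩ := mem_FF_iff.mp hx
  rw [map_div₀, ← ser_degRep d h, ← ser_degRep d h]
  exact div_mem (ser_mem _) (ser_mem _)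

theorem FF_le_of_dvd (h : N ∣ M') : FF N ≤ FF M' := fun x hx => by
  have := qExpand_mem_FF (M' := M') 1 (by rwa [mul_one]) hx
  rwa [qExpand_one_apply] at this

variable [Fact (1 < M')]

omit [Fact (1 < M')] in
theorem coe_normFF_degRep (d : ℕ) [NeZero d] (h : N * d ∣ M') (x : FF N) :
    (((degRep d (NeZero.pos d) h).normFF x : FF M') : LaurentSeries Qbar) =
      qExpand Qbar d (x : LaurentSeries Qbar) := by
  obtain ⟨f, g, hg, rfl⟩ := exists_eq_div x
  rw [show (degRep d (NeZero.pos d) h).normFF (toFF f / toFF g) = _ from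
    (degRep d (NeZero.pos d) h).normFun_eq hg rfl, IntermediateField.coe_div,
    IntermediateField.coe_div, coe_toFF, coe_toFF, coe_toFF, coe_toFF, ser_degRep, ser_degRep,
    map_div₀]

section UOp

variable {M : ℕ} [NeZero M] [Fact (1 < M)] {q : ℕ} (hq : q.Prime) (hqM : q ∣ M) [NeZero q]

/-- The root of unity `exp (2πi/q)` as a unit. -/
def zetaQUnit (q : ℕ) [NeZero q] : Qbarˣ :=
  (zetaQ_isPrimitiveRoot (M := q)).isUnit (NeZero.ne q) |>.unit

@[simp] theorem coe_zetaQUnit : (zetaQUnit q : Qbar) = zetaQ q := rfl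

theorem qExpand_ser_uRep (f : modFun M) :
    qExpand Qbar q (ser ((uRep q hq hqM).prodMF f)) =
      ∏ b : Fin q, Igusa.scale (zetaQUnit q ^ (b : ℕ)) (ser f) := by
  apply liftC_injective
  have hL : HasExp (q * 1) ((uRep q hq hqM).prodMF f : ℍ → ℂ)
      (qExpand ℂ q (liftC (ser ((uRep q hq hqM).prodMF f)))) := (hasExp_ser _).qExpand q
  rw [liftC_qExpand]
  refine hL.unique (by simpa using NeZero.pos q) ?_
  rw [HeckeReps.coe_prodMF, HeckeReps.prodF_apply, map_prod]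
  refine hasExp_finset_prod Finset.univ fun (b : Fin q) _ => ?_
  have h1 := hasExp_pull_upper one_pos (hasExp_ser f) 1 q (NeZero.pos q) ((b.val : ℕ) : ℤ)
    (by rw [Matrix.det_fin_two_of]; simpa using hq.pos)
  rw [qExpand_one_apply] at h1
  refine (show liftC (Igusa.scale (zetaQUnit q ^ (b.val : ℕ)) (ser f)) =
      twist (zetaM (q * 1) ^ ((b.val : ℕ) : ℤ)) (liftC (ser f)) from ?_).symm ▸ h1
  ext n
  rw [liftC_coeff, Igusa.coeff_scale, map_mul, twist_coeff, mul_comm, liftC_coeff]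
  congr 1
  rw [Units.val_zpow_eq_zpow_val, Units.val_pow_eq_pow_val, coe_zetaQUnit, map_zpow₀, map_pow,
    iotaC_zetaQ, mul_one, zpow_natCast]

theorem qExpand_normFF_uRep (x : FF M) :
    qExpand Qbar q (((uRep q hq hqM).normFF x : FF M) : LaurentSeries Qbar) =
      ∏ b : Fin q, Igusa.scale (zetaQUnit q ^ (b : ℕ)) (x : LaurentSeries Qbar) := by
  obtain ⟨f, g, hg, rfl⟩ := exists_eq_div x
  rw [show (uRep q hq hqM).normFF (toFF f / toFF g) = _ from (uRep q hq hqM).normFun_eq hg rfl,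
    IntermediateField.coe_div, IntermediateField.coe_div, coe_toFF, coe_toFF, coe_toFF, coe_toFF,
    map_div₀, qExpand_ser_uRep, qExpand_ser_uRep, ← Finset.prod_div_distrib]
  exact Finset.prod_congr rfl fun b _ =>
    (map_div₀ (Igusa.scale (zetaQUnit q ^ (b : ℕ)) : LaurentSeries Qbar →+* _) _ _).symm

end UOp

end FLTAgent.IgusaCover

end
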