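import Fermat.Agent.IgusaCover.Bounded
import Fermat.Agent.IgusaCover.Hensel
import Fermat.Agent.IgusaCover.Operators
import Mathlib.FieldTheory.KummerPolynomial

/-!
# The field `F_N(j(qτ))`

`FFJ N q` is scalable, and its residue field at the Gauss branch above a place over `q` is that
of `F_N` (`resField_FFJ_le`): modulo the branch the modular equation becomes
`(X - j ^ q)(X ^ q - j)`, which has the simple root `j ^ q`.
-/

set_option autoImplicit false

noncomputable section

open ModularCurve UpperHalfPlane Polynomial CongruenceSubgroup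
open scoped IntermediateField

namespace FLTAgent.IgusaCover

open FLTAgent.GammaH

local notation "Qbar" => AlgebraicClosure ℚ

variable (N q : ℕ) [NeZero N] [NeZero q]

/-- `j(qτ)` as a series. -/
def jqSer : LaurentSeries Qbar := qExpand Qbar q (jqModC Qbar)

/-- `F_N(j(qτ))` over `F_N`. -/
abbrev adjJ : IntermediateField (FF N) (LaurentSeries Qbar) := (FF N)⟮jqSer q⟯

/-- `F_N(j(qτ))`. -/
def FFJ : IntermediateField Qbar (LaurentSeries Qbar) := (adjJ N q).restrictScalars Qbar

omit [NeZero N] in
theorem FF_le_FFJ : FF N ≤ FFJ N q := fun x hx =>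
  (adjJ N q).algebraMap_mem ⟨x, hx⟩

omit [NeZero N] in
theorem jqSer_mem_FFJ : jqSer q ∈ FFJ N q :=
  (IntermediateField.mem_restrictScalars Qbar).mpr
    (IntermediateField.mem_adjoin_simple_self (FF N) (jqSer q))

omit [NeZero N] in
theorem FFJ_le {F : IntermediateField Qbar (LaurentSeries Qbar)} (h : FF N ≤ F)
    (hj : jqSer q ∈ F) : FFJ N q ≤ F := by
  rw [FFJ, IntermediateField.restrictScalars_adjoin, IntermediateField.adjoin_le_iff]
  exact Set.union_subset h (Set.singleton_subset_iff.mpr hj)

variable [Fact (1 < N)]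

theorem FFJ_scalable (B : ValuationSubring Qbar) : Scalable B (FFJ N q) := by
  refine scalable_of_div (fun x hx => ?_) B
  rw [FFJ, IntermediateField.restrictScalars_adjoin] at hx
  have hle := FF_le_FFJ N q
  induction hx using IntermediateField.adjoin_induction with
  | mem z hz =>
    rcases hz with hz | hz
    · obtain ⟨G, H, hG, hH, h1, h2, h3, h4⟩ := exists_div_fgCoeff hz
      exact ⟨G, H, hle hG, hle hH, h1, h2, h3, h4⟩
    · rw [Set.mem_singleton_iff] at hz
      subst hz
      exact ⟨_, 1, jqSer_mem_FFJ N q, one_mem _, (fgCoeff_qExpand q).mpr fgCoeff_jqModC,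
        by simpa using fgCoeff_C 1, one_ne_zero, (div_one _).symm⟩
  | algebraMap c =>
    rw [algebraMap_laurentSeries_eq_single, ← HahnSeries.C_apply]
    exact ⟨_, 1, C_mem _, one_mem _, fgCoeff_C c, by simpa using fgCoeff_C 1, one_ne_zero,
      (div_one _).symm⟩
  | add y z _ _ hy hz =>
    obtain ⟨G, H, hG, hH, h1, h2, h3, rfl⟩ := hy
    obtain ⟨G', H', hG', hH', h1', h2', h3', rfl⟩ := hz
    exact ⟨G * H' + H * G', H * H', add_mem (mul_mem hG hH') (mul_mem hH hG'), mul_mem hH hH',
      (h1.mul h2').add (h2.mul h1'), h2.mul h2', mul_ne_zero h3 h3', div_add_div _ _ h3 h3'⟩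
  | inv y _ hy =>
    obtain ⟨G, H, hG, hH, h1, h2, h3, rfl⟩ := hy
    rcases eq_or_ne G 0 with rfl | hG0
    · exact ⟨0, 1, zero_mem _, one_mem _, by simpa using fgCoeff_C 0, by simpa using fgCoeff_C 1,
        one_ne_zero, by simp⟩
    · exact ⟨H, G, hH, hG, h2, h1, hG0, inv_div _ _⟩
  | mul y z _ _ hy hz =>
    obtain ⟨G, H, hG, hH, h1, h2, h3, rfl⟩ := hy
    obtain ⟨G', H', hG', hH', h1', h2', h3', rfl⟩ := hz
    exact ⟨G * G', H * H', mul_mem hG hG', mul_mem hH hH', h1.mul h1', h2.mul h2',
      mul_ne_zero h3 h3', div_mul_div_comm _ _ _ _⟩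

section Equation

variable [hqp : Fact q.Prime] (B : ValuationSubring Qbar)

omit hqp in
theorem zetaQ_mem : zetaQ q ∈ B := by
  refine mem_of_isIntegral_int ?_
  exact (zetaQ_isPrimitiveRoot (M := q)).isIntegral (NeZero.pos q)

/-- `ℤ[ζ_q] → B`. -/
def zetaB : Igusa.ZetaRing q →+* B :=
  AdjoinRoot.lift (Int.castRingHom B) ⟨zetaQ q, zetaQ_mem q B⟩ (by
    apply B.subtype_injective
    rw [map_zero, Polynomial.hom_eval₂, RingHom.ext_int (B.subtype.comp _) (Int.castRingHom Qbar),
      ← Polynomial.eval_map, Polynomial.map_cyclotomic]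
    exact (zetaQ_isPrimitiveRoot (M := q)).isRoot_cyclotomic (NeZero.pos q))

omit hqp in
theorem subtype_comp_zetaB : B.subtype.comp (zetaB q B) =
    Igusa.zetaHom (zetaQ q) (zetaQ_isPrimitiveRoot (M := q)) := by
  refine AdjoinRoot.ringHom_ext ?_ ?_
  · exact RingHom.ext_int _ _
  · simp [zetaB, Igusa.zetaHom]

/-- `j` in the branch. -/
def jB (hN : Scalable B (FF N)) : branch hN :=
  ⟨jF N, ⟨jqModC B, 1, by
    show inclA B _ ∈ FF N
    rw [inclA, coeffMap_jqModC, ← coe_jF (M := N)]
    exact (jF N).2, one_mem _, by simp, by rw [map_one, mul_one, coe_jF, inclA, coeffMap_jqModC]⟩⟩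

/-- `B[X] → branch`, `X ↦ j`. -/
def polyB (hN : Scalable B (FF N)) : Polynomial B →+* branch hN :=
  Polynomial.eval₂RingHom (((algebraMap Qbar (FF N)).comp B.subtype).codRestrict
    (branch hN).toSubring fun a => algebraMap_mem_branch a) (jB N B hN)

omit [Fact (1 < N)] in
theorem branchRed_jB (hN : Scalable B (FF N)) :
    branchRed hN (jB N B hN) = jqModC (ResK B) := by
  refine (branchRed_apply (g := jqModC B) (h := 1) ?_ (one_mem _) (by simp) ?_).trans ?_
  · show inclA B _ ∈ FF N
    rw [inclA, coeffMap_jqModC, ← coe_jF (M := N)]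
    exact (jF N).2
  · show ((jF N : FF N) : LaurentSeries Qbar) * _ = _
    rw [map_one, mul_one, coe_jF, inclA, coeffMap_jqModC]
  · rw [map_one, div_one, redA, coeffMap_jqModC]

omit [Fact (1 < N)] in
theorem red_comp_polyB (hN : Scalable B (FF N)) :
    (branchRed hN).comp (polyB N B hN) = (Polynomial.aeval (jqModC (ResK B))).toRingHom.comp
      (Polynomial.mapRingHom (IsLocalRing.residue B)) := by
  refine Polynomial.ringHom_ext (fun a => ?_) ?_
  · simp only [RingHom.comp_apply, polyB, Polynomial.coe_eval₂RingHom, Polynomial.eval₂_C,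
      Polynomial.coe_mapRingHom, Polynomial.map_C, AlgHom.toRingHom_eq_coe, RingHom.coe_coe,
      Polynomial.aeval_C]
    rw [algebraMap_laurentSeries_eq_single, ← HahnSeries.C_apply]
    exact branchRed_algebraMap a
  · simp only [RingHom.comp_apply, polyB, Polynomial.coe_eval₂RingHom, Polynomial.eval₂_X,
      Polynomial.coe_mapRingHom, Polynomial.map_X, AlgHom.toRingHom_eq_coe, RingHom.coe_coe,
      Polynomial.aeval_X]
    exact branchRed_jB N B hN

/-- The coercion of a branch into series. -/
def branchVal {F : IntermediateField Qbar (LaurentSeries Qbar)} (hF : Scalable B F) :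
    branch hF →+* LaurentSeries Qbar :=
  F.val.toRingHom.comp (branch hF).subtype

omit [Fact (1 < N)] in
theorem val_comp_polyB (hN : Scalable B (FF N)) :
    (branchVal B hN).comp (polyB N B hN) = (Polynomial.aeval (jqModC Qbar)).toRingHom.comp
      (Polynomial.mapRingHom B.subtype) := by
  refine Polynomial.ringHom_ext (fun a => ?_) ?_
  · simp only [RingHom.comp_apply, polyB, Polynomial.coe_eval₂RingHom, Polynomial.eval₂_C,
      Polynomial.coe_mapRingHom, Polynomial.map_C, AlgHom.toRingHom_eq_coe, RingHom.coe_coe,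
      Polynomial.aeval_C]
    exact (IsScalarTower.algebraMap_apply Qbar (FF N) (LaurentSeries Qbar) (a : Qbar)).symm
  · simp only [RingHom.comp_apply, polyB, Polynomial.coe_eval₂RingHom, Polynomial.eval₂_X,
      Polynomial.coe_mapRingHom, Polynomial.map_X, AlgHom.toRingHom_eq_coe, RingHom.coe_coe,
      Polynomial.aeval_X]
    exact coe_jF

/-- The modular equation over the branch of level `N`. -/
def modEq (hN : Scalable B (FF N)) : Polynomial (branch hN) :=
  (CongruenceRel.modPolyMap q (zetaB q B)).map (polyB N B hN)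

omit [Fact (1 < N)] in
theorem modEq_monic (hN : Scalable B (FF N)) : (modEq N q B hN).Monic :=
  (CongruenceRel.modPolyMap_monic q _).map _

omit [Fact (1 < N)] in
theorem map_modEq_red (hN : Scalable B (FF N)) (hB : B.LiesOverPrime q) :
    (modEq N q B hN).map (branchRed hN) = (X - C (jqModC (ResK B) ^ q)) *
      (X ^ q - C (jqModC (ResK B))) := by
  have := charP_resK B hqp.out hB
  rw [modEq, Polynomial.map_map, red_comp_polyB, ← Polynomial.map_map,
    CongruenceRel.modPolyMap_comp, CongruenceRel.modPolyMap_char]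
  simp [Polynomial.map_mul, Polynomial.map_sub, Polynomial.map_pow]

/-- `j(qτ)` in the branch. -/
def jqB : branch (FFJ_scalable N q B) :=
  ⟨⟨jqSer q, jqSer_mem_FFJ N q⟩, ⟨qExpand B q (jqModC B), 1, by
    show inclA B _ ∈ FFJ N q
    rw [inclA, coeffMap_qExpand, coeffMap_jqModC]
    exact jqSer_mem_FFJ N q, one_mem _, by simp,
    by rw [map_one, mul_one, inclA, coeffMap_qExpand, coeffMap_jqModC]; rfl⟩⟩

theorem branchRed_jqB (hB : B.LiesOverPrime q) :
    branchRed (FFJ_scalable N q B) (jqB N q B) = jqModC (ResK B) ^ q := by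
  have := charP_resK B hqp.out hB
  refine (branchRed_apply (g := qExpand B q (jqModC B)) (h := 1) ?_ (one_mem _)
    (by simp) ?_).trans ?_
  · show inclA B _ ∈ FFJ N q
    rw [inclA, coeffMap_qExpand, coeffMap_jqModC]
    exact jqSer_mem_FFJ N q
  · show jqSer q * _ = _
    rw [map_one, mul_one, inclA, coeffMap_qExpand, coeffMap_jqModC]; rfl
  · rw [map_one, div_one, redA, coeffMap_qExpand, coeffMap_jqModC]
    have h := CongruenceRel.qExpand_jqModC_char q (ResK B) 1
    rw [qExpand_one_apply, qExpand_congr (one_mul q)] at h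
    exact h

theorem eval_modEq :
    (modEq N q B (scalable_FF B)).eval₂
      (branchIncl (FF_le_FFJ N q) (scalable_FF B) (FFJ_scalable N q B)) (jqB N q B) = 0 := by
  refine Subtype.ext (Subtype.ext ?_)
  show branchVal B (FFJ_scalable N q B) _ = _
  rw [Polynomial.hom_eval₂, modEq, Polynomial.eval₂_map,
    show (branchVal B (FFJ_scalable N q B)).comp
        (branchIncl (FF_le_FFJ N q) (scalable_FF B) (FFJ_scalable N q B)) =
      branchVal B (scalable_FF B) from RingHom.ext fun f => rfl,
    val_comp_polyB, ← Polynomial.eval₂_map, CongruenceRel.modPolyMap_comp, subtype_comp_zetaB,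
    ← Polynomial.eval_map]
  have h := CongruenceRel.eval_modPolyMap q (k := Qbar) (ζ := zetaQUnit q)
    (zetaQ_isPrimitiveRoot (M := q))
  exact h

omit [NeZero q] in
theorem jqModC_pow_sub_ne (k : Type) [Field k] :
    (jqModC k ^ q) ^ q - jqModC k ≠ 0 := by
  intro h
  have ht : Transcendental k (jqModC k) := by
    rw [← Igusa.jv_one_one]; exact Igusa.transcendental_jv 1 one_ne_zero
  refine ht ⟨X ^ (q * q) - X, ?_, by simp [pow_mul, h]⟩
  intro e
  have := congrArg (fun p : Polynomial k => p.coeff 1) e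
  have h2 : 2 ≤ q * q := le_trans (by norm_num) (Nat.mul_le_mul hqp.out.two_le hqp.out.two_le)
  simp [Polynomial.coeff_X_pow, show ¬ 1 = q * q by omega] at this

/-- The residue field of `F_N(j(qτ))` is that of `F_N`. -/
theorem resField_FFJ_le (hB : B.LiesOverPrime q) :
    resField (FFJ_scalable N q B) ≤ resField (scalable_FF (M := N) B) := by
  have := charP_resK B hqp.out hB
  refine resField_le_of_newton (hle := FF_le_FFJ N q) (modEq N q B (scalable_FF B)) (jqB N q B)
    (eval_modEq N q B) (a₀ := jB N B (scalable_FF B) ^ q) ?_ ?_ (fun b ε hε =>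
      exists_pow_mul_mem_branch hqp.out hB _ b ε hε) ?_
  · rw [map_pow, branchRed_jB, branchRed_jqB N q B hB]
  · rw [← Polynomial.eval_map_apply, ← Polynomial.derivative_map, map_modEq_red N q B _ hB,
      map_pow, branchRed_jB]
    simpa [Polynomial.derivative_mul, Polynomial.derivative_pow] using jqModC_pow_sub_ne q (ResK B)
  · intro z
    have halg : IsAlgebraic (FF N) (jqSer q) := by
      refine IsIntegral.isAlgebraic
        ⟨(modEq N q B (scalable_FF B)).map (branch (scalable_FF B)).subtype,
        (modEq_monic N q B _).map _, ?_⟩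
      have h := congrArg (branchVal B (FFJ_scalable N q B)) (eval_modEq N q B)
      rw [map_zero, Polynomial.hom_eval₂] at h
      rw [Polynomial.eval₂_map]
      exact h
    have hz : (z : LaurentSeries Qbar) ∈ (adjJ N q).toSubalgebra := z.2
    rw [IntermediateField.adjoin_simple_toSubalgebra_of_isAlgebraic halg,
      Algebra.adjoin_singleton_eq_range_aeval] at hz
    obtain ⟨P, hP⟩ := hz
    refine ⟨P, Subtype.ext ?_⟩
    show (FFJ N q).val.toRingHom _ = _
    rw [Polynomial.hom_eval₂]
    exact hP

end Equation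

end FLTAgent.IgusaCover

end
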