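import Fermat.Agent.IgusaCover.BaseDegree
import Mathlib.GroupTheory.Index
import Mathlib.Data.ZMod.Units

/-!
# Invariants of the diamonds congruent to `1` modulo `N`

In the function field of `X₁(Nq)` the diamonds `≡ 1 (mod N)` have fixed field `F_N(j(qτ))`
(`mem_FFJ_of_fixed`), so their traces land there (`trace_mem_FFJ`).
-/

set_option autoImplicit false

noncomputable section

open ModularCurve UpperHalfPlane CongruenceSubgroup
open scoped MatrixGroups IntermediateField Manifold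

namespace FLTAgent.IgusaCover

open FLTAgent.GammaH FLTAgent.LevelM FLTAgent.HeckeJacobian

local notation "Qbar" => AlgebraicClosure ℚ
local notation "Mat" => Matrix (Fin 2) (Fin 2) ℤ

section Index

variable {N q : ℕ} [NeZero N] [hqp : Fact q.Prime]

omit [NeZero N] in
theorem intCast_eq_of_coprime (hc : N.Coprime q) {a b : ℤ} (h1 : (a : ZMod N) = b)
    (h2 : (a : ZMod q) = b) : (a : ZMod (N * q)) = b := by
  rw [ZMod.intCast_eq_intCast_iff_dvd_sub] at h1 h2 ⊢
  push_cast
  exact (Int.isCoprime_iff_gcd_eq_one.mpr (by rw [Int.gcd_natCast_natCast]; exact hc)).mul_dvd h1 h2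

omit [NeZero N] in
theorem mem_Gamma1_mul {γ : SL(2, ℤ)} (hc : N.Coprime q) (h1 : γ ∈ Gamma1 N)
    (h10 : ((γ 1 0 : ℤ) : ZMod q) = 0) (h11 : ((γ 1 1 : ℤ) : ZMod q) = 1) :
    γ ∈ Gamma1 (N * q) := by
  obtain ⟨a, d, c⟩ := (Gamma1_mem N γ).mp h1
  have hdet := congrArg (fun z : ℤ => (z : ZMod q))
    (γ.det_coe ▸ (Matrix.det_fin_two (γ : Mat)).symm)
  simp [h10, h11] at hdet
  exact (Gamma1_mem (N * q) γ).mpr
    ⟨by simpa using intCast_eq_of_coprime hc (b := 1) (by simpa using a) (by simpa using hdet),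
      by simpa using intCast_eq_of_coprime hc (b := 1) (by simpa using d) (by simpa using h11),
      by simpa using intCast_eq_of_coprime hc (b := 0) (by simpa using c) (by simpa using h10)⟩

/-- The bottom row modulo `q`. -/
def botRow (q : ℕ) (γ : SL(2, ℤ)) : ZMod q × ZMod q :=
  (((γ 1 0 : ℤ) : ZMod q), ((γ 1 1 : ℤ) : ZMod q))

theorem botRow_ne (γ : SL(2, ℤ)) : botRow q γ ≠ 0 := fun h => by
  have hdet := congrArg (fun z : ℤ => (z : ZMod q))
    (γ.det_coe ▸ (Matrix.det_fin_two (γ : Mat)).symm)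
  have h0 : ((γ 1 0 : ℤ) : ZMod q) = 0 := congrArg Prod.fst h
  have h1 : ((γ 1 1 : ℤ) : ZMod q) = 0 := congrArg Prod.snd h
  simp [h0, h1] at hdet

theorem mul_inv_mem_of_botRow {g h : SL(2, ℤ)} (e : botRow q g = botRow q h) :
    (((g * h⁻¹) 1 0 : ℤ) : ZMod q) = 0 ∧ (((g * h⁻¹) 1 1 : ℤ) : ZMod q) = 1 := by
  have hdet := congrArg (fun z : ℤ => (z : ZMod q))
    (h.det_coe ▸ (Matrix.det_fin_two (h : Mat)).symm)
  have e0 : ((g 1 0 : ℤ) : ZMod q) = ((h 1 0 : ℤ) : ZMod q) := congrArg Prod.fst e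
  have e1 : ((g 1 1 : ℤ) : ZMod q) = ((h 1 1 : ℤ) : ZMod q) := congrArg Prod.snd e
  push_cast at hdet
  constructor <;>
    simp [Matrix.SpecialLinearGroup.coe_inv, Matrix.adjugate_fin_two, Matrix.mul_apply,
      Fin.sum_univ_two, e0, e1]
  · ring
  · linear_combination hdet

omit [NeZero N] in
theorem index_gammaPM_le (hc : N.Coprime q) :
    (gammaPM (N * q)).index ≤ (q * q - 1) * (gammaPM N).index := by
  classical
  have hle : gammaPM (N * q) ≤ gammaPM N := fun γ hγ => by
    have hmono : ∀ {g : SL(2, ℤ)}, g ∈ Gamma1 (N * q) → g ∈ Gamma1 N := fun {g} hg => by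
      obtain ⟨a, d, c⟩ := (Gamma1_mem _ g).mp hg
      refine (Gamma1_mem N g).mpr ⟨?_, ?_, ?_⟩
      · simpa using congrArg (ZMod.castHom (dvd_mul_right N q) (ZMod N)) a
      · simpa using congrArg (ZMod.castHom (dvd_mul_right N q) (ZMod N)) d
      · simpa using congrArg (ZMod.castHom (dvd_mul_right N q) (ZMod N)) c
    exact hγ.imp hmono hmono
  rw [← Subgroup.relIndex_mul_index hle]
  refine Nat.mul_le_mul_right _ ?_
  rw [Subgroup.relIndex, Subgroup.index]
  set H := (gammaPM (N * q)).subgroupOf (gammaPM N)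
  let lift' : gammaPM N → SL(2, ℤ) := fun x =>
    if (x : SL(2, ℤ)) ∈ Gamma1 N then x else -(x : SL(2, ℤ))
  have hlift : ∀ x : gammaPM N, lift' x ∈ Gamma1 N := fun x => by
    by_cases h : (x : SL(2, ℤ)) ∈ Gamma1 N
    · simp only [lift', if_pos h]; exact h
    · simp only [lift', if_neg h]; exact x.2.resolve_left h
  let T := {v : ZMod q × ZMod q // v ≠ 0}
  let f : (gammaPM N) ⧸ H → T := fun x => ⟨botRow q (lift' x.out)⁻¹, botRow_ne _⟩
  have hf : Function.Injective f := fun x y hxy => by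
    have e := mul_inv_mem_of_botRow (congrArg Subtype.val hxy)
    rw [inv_inv] at e
    have hm := mem_Gamma1_mul hc (mul_mem (inv_mem (hlift x.out)) (hlift y.out)) e.1 e.2
    rw [← x.out_eq, ← y.out_eq]
    refine QuotientGroup.eq.mpr ?_
    show ((x.out : SL(2, ℤ)))⁻¹ * (y.out : SL(2, ℤ)) ∈ gammaPM (N * q)
    by_cases hx : (x.out : SL(2, ℤ)) ∈ Gamma1 N <;> by_cases hy : (y.out : SL(2, ℤ)) ∈ Gamma1 N <;>
      simp only [lift', hx, hy, if_true, if_false] at hm
    · exact Or.inl hm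
    · exact Or.inr (by simpa using hm)
    · exact Or.inr (by simpa [mul_neg, neg_mul] using hm)
    · exact Or.inl (by simpa [mul_neg, neg_mul] using hm)
  refine (Nat.card_le_card_of_injective f hf).trans ?_
  rw [Nat.card_eq_fintype_card, Fintype.card_subtype_compl, Fintype.card_subtype_eq,
    Fintype.card_prod, ZMod.card]

end Index

variable (N q : ℕ) [NeZero N] [hqp : Fact q.Prime] [Fact (1 < N)]

instance instNeZeroMul : NeZero (N * q) := ⟨mul_ne_zero (NeZero.ne N) hqp.out.ne_zero⟩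

instance instFactMul : Fact (1 < N * q) :=
  ⟨(Fact.out : 1 < N).trans_le (Nat.le_mul_of_pos_right N hqp.out.pos)⟩

/-- The units `≡ 1 (mod N)`. -/
def dKer : Subgroup (ZMod (N * q))ˣ := (ZMod.unitsMap (dvd_mul_right N q)).ker

/-- The diamonds `≡ 1 (mod N)`. -/
def dKerAct : dKer N q →* (FF (N * q) ≃ₐ[Qbar] FF (N * q)) := dAct.comp (dKer N q).subtype

omit [Fact (1 < N)] in
theorem card_dKer (hc : N.Coprime q) : Nat.card (dKer N q) = q - 1 := by
  have h := Subgroup.card_mul_index (dKer N q)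
  rw [dKer, Subgroup.index_ker, MonoidHom.range_eq_top.mpr (ZMod.unitsMap_surjective _),
    Subgroup.card_top, Nat.card_eq_fintype_card (α := (ZMod (N * q))ˣ),
    Nat.card_eq_fintype_card (α := (ZMod N)ˣ), ZMod.card_units_eq_totient,
    ZMod.card_units_eq_totient, Nat.totient_mul hc, Nat.totient_prime hqp.out,
    mul_comm (Nat.totient N)] at h
  exact Nat.eq_of_mul_eq_mul_right (Nat.totient_pos.mpr (NeZero.pos N)) h

omit [NeZero N] [Fact (1 < N)] hqp in
theorem dKer_cast (u : dKer N q) :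
    ZMod.castHom (dvd_mul_right N q) (ZMod N) ((u : (ZMod (N * q))ˣ) : ZMod (N * q)) = 1 := by
  have h := congrArg (Units.val : (ZMod N)ˣ → ZMod N) (MonoidHom.mem_ker.mp u.2)
  simpa [ZMod.unitsMap] using h

theorem dKerAct_injective (h3 : 3 ≤ N) : Function.Injective (dKerAct N q) := by
  rw [injective_iff_map_eq_one]
  intro u hu
  rcases eq_or_eq_neg_of_dAct_eq_one (u := (u : (ZMod (N * q))ˣ)) hu with h | h
  · exact Subtype.ext (Units.ext h)
  · exfalso
    have h1 := dKer_cast N q u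
    rw [h, map_neg, map_one] at h1
    have h2 : ((2 : ℕ) : ZMod N) = 0 := by push_cast; linear_combination -h1
    rw [ZMod.natCast_eq_zero_iff] at h2
    exact absurd (Nat.le_of_dvd two_pos h2) (by omega)

omit [Fact (1 < N)] in
theorem dKer_gamma0 (u : dKer N q) : ∃ σ : SL(2, ℤ), ∃ _ : σ ∈ Gamma0 (N * q),
    (u : (ZMod (N * q))ˣ).val = ((σ 1 1 : ℤ) : ZMod (N * q)) ∧ σ ∈ Gamma1 N ∧
    (q : ℤ) ∣ σ 1 0 := by
  obtain ⟨σ, hσ, hu⟩ := exists_gamma0 (M := N * q) (u : (ZMod (N * q))ˣ)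
  have h10 := Gamma0_mem.mp hσ
  have hd : ((σ 1 1 : ℤ) : ZMod N) = 1 := by
    have := dKer_cast N q u
    rwa [← hu, map_intCast] at this
  have hc : ((σ 1 0 : ℤ) : ZMod N) = 0 := by
    simpa using congrArg (ZMod.castHom (dvd_mul_right N q) (ZMod N)) h10
  have hdet := congrArg (fun z : ℤ => (z : ZMod N))
    (σ.det_coe ▸ (Matrix.det_fin_two (σ : Mat)).symm)
  simp [hd, hc] at hdet
  exact ⟨σ, hσ, hu.symm, (Gamma1_mem N σ).mpr ⟨hdet, hd, hc⟩,
    (Int.natCast_dvd_natCast.mpr (dvd_mul_left q N)).trans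
      ((ZMod.intCast_zmod_eq_zero_iff_dvd _ _).mp h10)⟩

theorem dKerAct_fix_toFF (u : dKer N q) {f : modFun (N * q)}
    (hf : ∀ σ : SL(2, ℤ), σ ∈ Gamma0 (N * q) → σ ∈ Gamma1 N → (q : ℤ) ∣ σ 1 0 →
      act σ (f : ℍ → ℂ) = f) : dKerAct N q u (toFF f) = toFF f := by
  obtain ⟨σ, hσ, hu, h1, h2⟩ := dKer_gamma0 N q u
  show dAct (u : (ZMod (N * q))ˣ) (toFF f) = toFF f
  rw [dAct_apply, ← dFF_eq_dUnit σ hσ _ hu.symm, dFF_toFF]
  exact congrArg _ (Subtype.ext (hf σ hσ h1 h2))

theorem jqSer_mem_FF : jqSer q ∈ FF (N * q) := by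
  rw [jqSer_eq_ser N q (N * q) dvd_rfl]; exact ser_mem _

theorem FFJ_le_FF : FFJ N q ≤ FF (N * q) :=
  FFJ_le N q (FF_le_of_dvd (dvd_mul_right N q)) (jqSer_mem_FF N q)

theorem dKerAct_fix (u : dKer N q) {f : FF (N * q)} (hf : (f : LaurentSeries Qbar) ∈ FFJ N q) :
    dKerAct N q u f = f := by
  obtain ⟨x, hx⟩ := f
  simp only at hf
  rw [FFJ, IntermediateField.restrictScalars_adjoin] at hf
  revert hx
  have hN : ∀ g : modFun N, ∀ hx, dKerAct N q u ⟨ser g, hx⟩ = ⟨ser g, hx⟩ := fun g hx => by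
    have e : (⟨ser g, hx⟩ : FF (N * q)) =
        toFF ((degRep 1 one_pos (show N * 1 ∣ N * q by simp)).prodMF g) :=
      Subtype.ext (by rw [coe_toFF, ser_degRep, qExpand_one_apply])
    rw [e]
    refine dKerAct_fix_toFF N q u fun σ _ h1 _ => ?_
    have h1' : ((degRep 1 one_pos (show N * 1 ∣ N * q by simp)).prodMF g : ℍ → ℂ) = g := by
      rw [HeckeReps.coe_prodMF, prodF_degRep]
      funext τ
      rw [pullF_apply]
      have h1 : (!![((1 : ℕ) : ℤ), 0; 0, 1] : Mat) = ((1 : SL(2, ℤ)) : Mat) := by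
        ext i j; fin_cases i <;> fin_cases j <;> simp
      simp only [h1]
      rw [mSmul_SL, one_smul]
    rw [h1', modFun_act g h1]
  induction hf using IntermediateField.adjoin_induction with
  | mem z hz =>
    intro hx
    rcases hz with hz | hz
    · obtain ⟨a, b, hb, rfl⟩ := mem_FF_iff.mp hz
      have ha' : ser a ∈ FF (N * q) := FF_le_of_dvd (dvd_mul_right N q) (ser_mem a)
      have hb' : ser b ∈ FF (N * q) := FF_le_of_dvd (dvd_mul_right N q) (ser_mem b)
      rw [show (⟨_, hx⟩ : FF (N * q)) = ⟨_, ha'⟩ / ⟨_, hb'⟩ from Subtype.ext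
        (IntermediateField.coe_div _ (⟨_, ha'⟩ : FF (N * q)) ⟨_, hb'⟩).symm, map_div₀, hN, hN]
    · rw [Set.mem_singleton_iff] at hz
      subst hz
      rw [show (⟨_, hx⟩ : FF (N * q)) =
        toFF ((degRep q (NeZero.pos q) (dvd_refl (N * q))).prodMF (jMod N)) from
        Subtype.ext (jqSer_eq_ser N q (N * q) dvd_rfl)]
      refine dKerAct_fix_toFF N q u fun σ _ _ h2 => ?_
      rw [HeckeReps.coe_prodMF, prodF_degRep]
      obtain ⟨c, hc⟩ := h2
      have hdet := σ.det_coe
      rw [Matrix.det_fin_two, hc] at hdet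
      let γ' : SL(2, ℤ) := ⟨!![σ 0 0, (q : ℤ) * σ 0 1; c, σ 1 1],
        by rw [Matrix.det_fin_two_of]; linear_combination hdet⟩
      have e : diagQ q * (σ : Mat) = (γ' : Mat) * diagQ q := by
        ext i j
        fin_cases i <;> fin_cases j <;>
          simp [γ', Matrix.mul_apply, Fin.sum_univ_two, hc, mul_comm]
      rw [act_pullF, pullF_SL_mul (diagQ_det q) _ γ' e,
        show act γ' ((jMod N : modFun N) : ℍ → ℂ) = jMod N from
          funext fun τ => ModularFF.jFun_smul γ' τ]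
  | algebraMap c =>
    intro hx
    exact (congrArg _ (Subtype.ext rfl)).trans (AlgEquiv.commutes (dKerAct N q u) c)
  | add y z hy₀ hz₀ hy hz =>
    intro hx
    have hy' : y ∈ FF (N * q) := FFJ_le_FF N q (by
      rwa [FFJ, IntermediateField.restrictScalars_adjoin])
    have hz' : z ∈ FF (N * q) := FFJ_le_FF N q (by
      rwa [FFJ, IntermediateField.restrictScalars_adjoin])
    rw [show (⟨_, hx⟩ : FF (N * q)) = ⟨_, hy'⟩ + ⟨_, hz'⟩ from rfl, map_add, hy, hz]
  | inv y hy₀ hy =>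
    intro hx
    have hy' : y ∈ FF (N * q) := FFJ_le_FF N q (by
      rwa [FFJ, IntermediateField.restrictScalars_adjoin])
    rw [show (⟨_, hx⟩ : FF (N * q)) = (⟨_, hy'⟩ : FF (N * q))⁻¹ from rfl, map_inv₀, hy]
  | mul y z hy₀ hz₀ hy hz =>
    intro hx
    have hy' : y ∈ FF (N * q) := FFJ_le_FF N q (by
      rwa [FFJ, IntermediateField.restrictScalars_adjoin])
    have hz' : z ∈ FF (N * q) := FFJ_le_FF N q (by
      rwa [FFJ, IntermediateField.restrictScalars_adjoin])
    rw [show (⟨_, hx⟩ : FF (N * q)) = ⟨_, hy'⟩ * ⟨_, hz'⟩ from rfl, map_mul, hy, hz]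

theorem relfinrank_base (M : ℕ) [NeZero M] [Fact (1 < M)] :
    IntermediateField.relfinrank Qbar⟮jqModC Qbar⟯ (FF M) = (gammaPM M).index := by
  rw [← finrank_baseJ (M := M), ← IntermediateField.relfinrank_top_right (baseJ M),
    ← IntermediateField.relfinrank_map_map (baseJ M) ⊤ (FF M).val, ← coe_jF (M := M)]
  congr 1
  · exact (IntermediateField.lift_adjoin_simple Qbar (FF M) (jF M)).symm
  · exact ((AlgHom.fieldRange_eq_map (f := (FF M).val)).symm.trans
      (IntermediateField.fieldRange_val (FF M))).symm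

theorem base_le_FF (M : ℕ) [NeZero M] : Qbar⟮jqModC Qbar⟯ ≤ FF M := by
  rw [IntermediateField.adjoin_simple_le_iff, ← coe_jF (M := M)]
  exact (jF M).2

theorem finrank_over_FFJ (hqN : ¬ q ∣ N) (B : ValuationSubring Qbar) (hB : B.LiesOverPrime q) :
    0 < Module.finrank (FFJ N q) (IntermediateField.extendScalars (FFJ_le_FF N q)) ∧
      Module.finrank (FFJ N q) (IntermediateField.extendScalars (FFJ_le_FF N q)) ≤ q - 1 := by
  have hc : N.Coprime q := (hqp.out.coprime_iff_not_dvd.mpr hqN).symm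
  rw [← IntermediateField.relfinrank_eq_finrank_of_le]
  have h1 := relfinrank_base (N * q)
  have h2 := relfinrank_base N
  rw [← IntermediateField.relfinrank_mul_relfinrank
    ((base_le_FF N).trans (FF_le_FFJ N q)) (FFJ_le_FF N q),
    ← IntermediateField.relfinrank_mul_relfinrank (base_le_FF N) (FF_le_FFJ N q), h2] at h1
  have he : q + 1 ≤ IntermediateField.relfinrank (FF N) (FFJ N q) := by
    rw [IntermediateField.relfinrank_eq_finrank_of_le (FF_le_FFJ N q),
      show IntermediateField.extendScalars (FF_le_FFJ N q) = adjJ N q from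
        IntermediateField.ext fun x => Iff.rfl]
    exact (finrank_adjJ N q B hqN hB).2
  set i := (gammaPM N).index
  set e := IntermediateField.relfinrank (FF N) (FFJ N q)
  set d := IntermediateField.relfinrank (FFJ N q) (FF (N * q))
  have hle := index_gammaPM_le (N := N) (q := q) hc
  have hne : (gammaPM (N * q)).index ≠ 0 := Subgroup.FiniteIndex.index_ne_zero
  rw [← h1] at hle hne
  have hi : 0 < i := Nat.pos_of_ne_zero fun h => hne (by rw [h, zero_mul, zero_mul])
  refine ⟨Nat.pos_of_ne_zero fun h => hne (by rw [h, mul_zero]), ?_⟩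
  have h5 : (q + 1) * d ≤ q * q - 1 := by
    refine le_trans (Nat.mul_le_mul_right d he) ?_
    exact Nat.le_of_mul_le_mul_left (by rwa [← mul_assoc, mul_comm i (q * q - 1)]) hi
  have h6 : q * q - 1 = (q + 1) * (q - 1) := by
    simpa using Nat.sq_sub_sq q 1 ▸ (by simp [sq] : q * q - 1 = q ^ 2 - 1 ^ 2)
  rw [h6] at h5
  exact Nat.le_of_mul_le_mul_left h5 (Nat.succ_pos q)

/-- Functions fixed by the diamonds `≡ 1 (mod N)` lie in `F_N(j(qτ))`. -/
theorem mem_FFJ_of_fixed (h3 : 3 ≤ N) (hqN : ¬ q ∣ N) (B : ValuationSubring Qbar)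
    (hB : B.LiesOverPrime q) (f : FF (N * q)) (hf : ∀ u, dKerAct N q u f = f) :
    (f : LaurentSeries Qbar) ∈ FFJ N q := by
  classical
  have hc : N.Coprime q := (hqp.out.coprime_iff_not_dvd.mpr hqN).symm
  let E : IntermediateField (FFJ N q) (LaurentSeries Qbar) :=
    IntermediateField.extendScalars (FFJ_le_FF N q)
  obtain ⟨hpos, hle⟩ := finrank_over_FFJ N q hqN B hB
  have : FiniteDimensional (FFJ N q) E := Module.finite_of_finrank_pos hpos
  let toE : FF (N * q) → E := fun x => ⟨x, x.2⟩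
  let ofE : E → FF (N * q) := fun x => ⟨x, x.2⟩
  let aut : dKer N q → (E ≃ₐ[FFJ N q] E) := fun u =>
    { toFun := fun x => toE (dKerAct N q u (ofE x))
      invFun := fun x => toE ((dKerAct N q u).symm (ofE x))
      left_inv := fun x => Subtype.ext (congrArg (Subtype.val : FF (N * q) → LaurentSeries Qbar)
        ((dKerAct N q u).symm_apply_apply (ofE x)))
      right_inv := fun x => Subtype.ext (congrArg (Subtype.val : FF (N * q) → LaurentSeries Qbar)
        ((dKerAct N q u).apply_symm_apply (ofE x)))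
      map_mul' := fun x y => Subtype.ext (congrArg (Subtype.val : FF (N * q) → LaurentSeries Qbar)
        (map_mul (dKerAct N q u) (ofE x) (ofE y)))
      map_add' := fun x y => Subtype.ext (congrArg (Subtype.val : FF (N * q) → LaurentSeries Qbar)
        (map_add (dKerAct N q u) (ofE x) (ofE y)))
      commutes' := fun c => Subtype.ext (congrArg (Subtype.val : FF (N * q) → LaurentSeries Qbar)
        (dKerAct_fix N q u (f := ofE (algebraMap (FFJ N q) E c)) c.2)) }
  have haut : Function.Injective aut := fun u v h => dKerAct_injective N q h3 (AlgEquiv.ext fun x =>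
    Subtype.ext (congrArg (Subtype.val : E → LaurentSeries Qbar) (DFunLike.congr_fun h (toE x))))
  have hcard : q - 1 ≤ Nat.card (E ≃ₐ[FFJ N q] E) :=
    card_dKer N q hc ▸ Nat.card_le_card_of_injective aut haut
  have hcard' : Nat.card (E ≃ₐ[FFJ N q] E) ≤ Module.finrank (FFJ N q) E := by
    rw [Nat.card_eq_fintype_card]; exact AlgEquiv.card_le
  have hgal : IsGalois (FFJ N q) E :=
    IsGalois.of_card_aut_eq_finrank (FFJ N q) E (le_antisymm hcard' (hle.trans hcard))
  have hsurj : Function.Surjective aut := ((Nat.bijective_iff_injective_and_card aut).mpr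
    ⟨haut, le_antisymm (card_dKer N q hc ▸ hcard)
      ((hcard'.trans hle).trans (card_dKer N q hc).ge)⟩).2
  have hbot : toE f ∈ (⊥ : IntermediateField (FFJ N q) E) := by
    refine (IsGalois.mem_bot_iff_fixed _).mpr fun g => ?_
    obtain ⟨u, rfl⟩ := hsurj g
    exact Subtype.ext (congrArg (Subtype.val : FF (N * q) → LaurentSeries Qbar) (hf u))
  obtain ⟨c, hc⟩ := IntermediateField.mem_bot.mp hbot
  have h := congrArg (Subtype.val : E → LaurentSeries Qbar) hc
  exact h ▸ c.2

/-- Traces land in `F_N(j(qτ))`. -/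
theorem trace_mem_FFJ [Fintype (dKer N q)] (h3 : 3 ≤ N) (hqN : ¬ q ∣ N)
    (B : ValuationSubring Qbar) (hB : B.LiesOverPrime q) (f : FF (N * q)) :
    ((∑ u, dKerAct N q u f : FF (N * q)) : LaurentSeries Qbar) ∈ FFJ N q := by
  refine mem_FFJ_of_fixed N q h3 hqN B hB _ fun v => ?_
  rw [map_sum]
  refine Fintype.sum_equiv (Equiv.mulLeft v) _ _ fun u => ?_
  rw [Equiv.coe_mulLeft, map_mul, AlgEquiv.mul_apply]

end FLTAgent.IgusaCover

end
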