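import Fermat.Agent.IgusaCover.Residual
import Fermat.Agent.GammaH.Field
import Fermat.Agent.Eisenstein.LevelOne

/-!
# Modular functions have scalable expansions

The expansions of modular functions on `Γ₁(M)` over `ℚ̄` have finitely generated coefficients, so
the function field `FF M` is scalable at every place of `ℚ̄` (`scalable_FF`).
-/

set_option autoImplicit false

noncomputable section

open ModularCurve UpperHalfPlane
open scoped Manifold MatrixGroups

namespace FLTAgent.IgusaCover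

local notation "Qbar" => AlgebraicClosure ℚ

/-- All coefficients lie in one finitely generated group. -/
def FGCoeff (s : LaurentSeries Qbar) : Prop :=
  ∃ Λ : Submodule ℤ Qbar, Λ.FG ∧ ∀ n, s.coeff n ∈ Λ

theorem FGCoeff.add {s t : LaurentSeries Qbar} (hs : FGCoeff s) (ht : FGCoeff t) :
    FGCoeff (s + t) := by
  obtain ⟨Λ, hΛ, h⟩ := hs
  obtain ⟨Λ', hΛ', h'⟩ := ht
  exact ⟨Λ ⊔ Λ', hΛ.sup hΛ', fun n => by
    rw [HahnSeries.coeff_add]
    exact add_mem (Submodule.mem_sup_left (h n)) (Submodule.mem_sup_right (h' n))⟩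

theorem FGCoeff.mul {s t : LaurentSeries Qbar} (hs : FGCoeff s) (ht : FGCoeff t) :
    FGCoeff (s * t) := by
  obtain ⟨Λ, hΛ, h⟩ := hs
  obtain ⟨Λ', hΛ', h'⟩ := ht
  refine ⟨Λ * Λ', hΛ.mul hΛ', fun n => ?_⟩
  rw [HahnSeries.coeff_mul]
  exact sum_mem fun ij _ => Submodule.mul_mem_mul (h _) (h' _)

theorem fgCoeff_C (c : Qbar) : FGCoeff (HahnSeries.C c) := by
  refine ⟨Submodule.span ℤ {c}, Submodule.fg_span (Set.finite_singleton c), fun n => ?_⟩
  rcases eq_or_ne n 0 with rfl | hn
  · rw [HahnSeries.C_apply, HahnSeries.coeff_single_same]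
    exact Submodule.mem_span_singleton_self c
  · rw [HahnSeries.C_apply, HahnSeries.coeff_single_of_ne hn]
    exact zero_mem _

theorem fgCoeff_intMap (s : LaurentSeries ℤ) : FGCoeff (coeffMap (Int.castRingHom Qbar) s) := by
  refine ⟨Submodule.span ℤ {1}, Submodule.fg_span (Set.finite_singleton 1), fun n => ?_⟩
  rw [coeffMap_coeff, eq_intCast]
  exact Submodule.mem_span_singleton.mpr ⟨s.coeff n, zsmul_one _⟩

theorem fgCoeff_qExpand (m : ℕ) [NeZero m] {s : LaurentSeries Qbar} :
    FGCoeff (qExpand Qbar m s) ↔ FGCoeff s := by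
  constructor
  · rintro ⟨Λ, hΛ, h⟩
    exact ⟨Λ, hΛ, fun n => qExpand_coeff_mul m s n ▸ h _⟩
  · rintro ⟨Λ, hΛ, h⟩
    refine ⟨Λ, hΛ, fun n => ?_⟩
    by_cases hn : (m : ℤ) ∣ n
    · obtain ⟨i, rfl⟩ := hn
      rw [qExpand_coeff_mul]; exact h i
    · rw [qExpand_coeff_of_not_dvd m s hn]; exact zero_mem _

/-- A series with finitely generated coefficients is a scalar times an integral series with
nonzero reduction. -/
theorem FGCoeff.exists_scale {s : LaurentSeries Qbar} (hs : FGCoeff s) (h0 : s ≠ 0)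
    (A : ValuationSubring Qbar) :
    ∃ (c : Qbar) (g : LaurentSeries A), c ≠ 0 ∧ redA A g ≠ 0 ∧
      s = HahnSeries.C c * inclA A g := by
  classical
  obtain ⟨Λ, hΛ, hmem⟩ := hs
  have : Module.Finite ℤ Λ := Module.Finite.iff_fg.mpr hΛ
  have : IsNoetherian ℤ Λ := isNoetherian_of_isNoetherianRing_of_finite ℤ Λ
  have hle : Submodule.span ℤ (Set.range s.coeff) ≤ Λ :=
    Submodule.span_le.mpr (Set.range_subset_iff.mpr hmem)
  have hfg : (Submodule.span ℤ (Set.range s.coeff)).FG :=
    isNoetherian_submodule.mp inferInstance _ hle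
  obtain ⟨T, hT⟩ := hfg
  have hsub : ∀ x ∈ T, ∃ t : Finset Qbar, (t : Set Qbar) ⊆ Set.range s.coeff ∧
      x ∈ Submodule.span ℤ (t : Set Qbar) := fun x hx =>
    Submodule.mem_span_finite_of_mem_span (hT ▸ Submodule.subset_span hx)
  choose t ht hxt using hsub
  let U : Finset Qbar := T.attach.biUnion fun x => t x.1 x.2
  have hspan : ∀ n, s.coeff n ∈ Submodule.span ℤ (U : Set Qbar) := fun n => by
    have h1 : Submodule.span ℤ (Set.range s.coeff) ≤ Submodule.span ℤ (U : Set Qbar) := by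
      rw [← hT, Submodule.span_le]
      intro x hx
      refine Submodule.span_mono (fun y hy => ?_) (hxt x hx)
      exact Finset.mem_biUnion.mpr ⟨⟨x, hx⟩, Finset.mem_attach _ _, hy⟩
    exact h1 (Submodule.subset_span ⟨n, rfl⟩)
  obtain ⟨n₀, hn₀⟩ : ∃ n, s.coeff n ≠ 0 := by
    by_contra! h
    exact h0 (HahnSeries.ext (funext h))
  have hU : U.Nonempty := by
    rw [Finset.nonempty_iff_ne_empty]
    intro hU
    have := hspan n₀
    rw [hU, Finset.coe_empty, Submodule.span_empty, Submodule.mem_bot] at this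
    exact hn₀ this
  obtain ⟨c, hc, hmax⟩ := U.exists_max_image A.valuation hU
  obtain ⟨n₁, hn₁⟩ : ∃ n, s.coeff n = c := by
    obtain ⟨x, -, hx⟩ := Finset.mem_biUnion.mp hc
    exact ht x.1 x.2 hx
  have hbound : ∀ n, A.valuation (s.coeff n) ≤ A.valuation c := fun n => by
    have hn := hspan n
    generalize s.coeff n = z at hn
    induction hn using Submodule.span_induction with
    | mem x hx => exact hmax x hx
    | zero => rw [map_zero]; exact zero_le
    | add x y _ _ hx hy => exact A.valuation.map_add_le hx hy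
    | smul a x _ hx =>
      rw [zsmul_eq_mul, map_mul]
      have ha : A.valuation (a : Qbar) ≤ 1 := (A.valuation_le_one_iff _).mpr (intCast_mem A a)
      exact (mul_le_mul' ha le_rfl).trans (by rw [one_mul]; exact hx)
  have hc0 : c ≠ 0 := fun e => by
    have := hbound n₀
    rw [e, map_zero, le_zero_iff, map_eq_zero] at this
    exact hn₀ this
  let g : LaurentSeries A :=
    { coeff := fun n => ⟨c⁻¹ * s.coeff n, (A.valuation_le_one_iff _).mp (by
        rw [map_mul, map_inv₀]
        exact inv_mul_le_one_of_le₀ (hbound n) zero_le)⟩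
      isPWO_support' := s.isPWO_support'.mono fun n hn h => hn (Subtype.ext (by simp [h])) }
  refine ⟨c, g, hc0, fun h => ?_, ?_⟩
  · have h1 := congrArg (fun u : LaurentSeries (ResK A) => u.coeff n₁) h
    simp only [redA, coeffMap_coeff, HahnSeries.coeff_zero] at h1
    have h2 : g.coeff n₁ = 1 := Subtype.ext (show c⁻¹ * s.coeff n₁ = 1 by
      rw [hn₁, inv_mul_cancel₀ hc0])
    rw [h2, map_one] at h1
    exact one_ne_zero h1
  · ext n
    rw [HahnSeries.C_apply, HahnSeries.coeff_single_zero_mul]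
    show s.coeff n = c * (c⁻¹ * s.coeff n)
    rw [← mul_assoc, mul_inv_cancel₀ hc0, one_mul]

/-! ## Generators -/

theorem hasExp_levelOne {k : ℤ} (G : ModularForm 𝒮ℒ k) (P : PowerSeries ℤ)
    (h : qExpansion 1 G = P.map (Int.castRingHom ℂ)) :
    LevelM.HasExp 1 (G : ℍ → ℂ) (HahnSeries.ofPowerSeries ℤ ℂ (P.map (Int.castRingHom ℂ))) := by
  refine Filter.Eventually.of_forall fun τ => ?_
  refine (Nat.cast_injective.hasSum_iff (g := ((↑) : ℕ → ℤ)) fun k hk => ?_).mp ?_
  · rw [ofPowerSeries_coeff_of_neg, zero_mul]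
    by_contra h0
    exact hk ⟨k.toNat, Int.toNat_of_nonneg (not_lt.mp h0)⟩
  · have := ModularForm.hasSum_qExpansion (f := G) one_pos one_mem_strictPeriods_SL τ
    refine this.congr_fun fun m => ?_
    simp [Function.comp_apply, h]

/-- The integral series of `E₄ E₆ / Δ`. -/
def gInt : LaurentSeries ℤ :=
  HahnSeries.single (-1 : ℤ) 1 *
    HahnSeries.ofPowerSeries ℤ ℤ (Eisenstein.serE4 * Eisenstein.serE6 * Eisenstein.serUinv)

theorem coeffMap_ofPowerSeries {R S : Type*} [CommRing R] [CommRing S] (f : R →+* S)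
    (P : PowerSeries R) : coeffMap f (HahnSeries.ofPowerSeries ℤ R P) =
      HahnSeries.ofPowerSeries ℤ S (P.map f) := by
  ext n
  rw [coeffMap_coeff]
  rcases lt_or_ge n 0 with hn | hn
  · rw [ofPowerSeries_coeff_of_neg _ hn, ofPowerSeries_coeff_of_neg _ hn, map_zero]
  · obtain ⟨i, rfl⟩ := Int.eq_ofNat_of_zero_le hn
    rw [LaurentSeries.coeff_coe_powerSeries, LaurentSeries.coeff_coe_powerSeries,
      PowerSeries.coeff_map]

theorem fgCoeff_gSer (M : ℕ) [NeZero M] :
    FGCoeff (qExpand Qbar M (coeffEmb Qbar GammaH.gSer)) := by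
  rw [fgCoeff_qExpand]
  suffices h : coeffEmb Qbar GammaH.gSer = coeffMap (Int.castRingHom Qbar) gInt by
    rw [h]; exact fgCoeff_intMap _
  have hD : LevelM.HasExp 1 (ModularForm.discriminant)
      (HahnSeries.single (1 : ℤ) 1 *
        coeffMap (Int.castRingHom ℂ) (HahnSeries.ofPowerSeries ℤ ℤ Eisenstein.serU)) := by
    have h1 := hasExp_levelOne (CuspForm.discriminant : ModularForm 𝒮ℒ 12) Eisenstein.serD
      (by simpa using Eisenstein.qExpansion_Delta)
    rw [Eisenstein.serD_eq, map_mul, PowerSeries.map_X, map_mul, HahnSeries.ofPowerSeries_X,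
      ← coeffMap_ofPowerSeries] at h1
    simpa using h1
  have hne : HahnSeries.single (1 : ℤ) 1 *
      coeffMap (Int.castRingHom ℂ) (HahnSeries.ofPowerSeries ℤ ℤ Eisenstein.serU) *
      (HahnSeries.single (-1 : ℤ) 1 *
        coeffMap (Int.castRingHom ℂ) (HahnSeries.ofPowerSeries ℤ ℤ Eisenstein.serUinv)) = 1 := by
    rw [mul_mul_mul_comm, HahnSeries.single_mul_single, ← map_mul, ← map_mul,
      Eisenstein.serU_mul_inv, map_one, map_one]
    simp
  have hg : LevelM.HasExp 1 GammaH.gTen (coeffMap (Int.castRingHom ℂ) gInt) := by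
    have h4 := hasExp_levelOne ModularForm.E₄ _ Eisenstein.qExpansion_E4
    have h6 := hasExp_levelOne ModularForm.E₆ _ Eisenstein.qExpansion_E6
    have hi := hD.inv one_pos (fun e => by rw [e, zero_mul] at hne; exact zero_ne_one hne)
    rw [inv_eq_of_mul_eq_one_right hne] at hi
    convert (h4.mul h6).mul hi using 1
    · rfl
    rw [gInt, map_mul, coeffMap_single, map_one, map_mul, map_mul, map_mul, map_mul,
      coeffMap_ofPowerSeries, coeffMap_ofPowerSeries, coeffMap_ofPowerSeries]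
    ring
  have hu := GammaH.ratExp_gTen.choose_spec.unique one_pos hg
  apply GammaH.liftC_injective
  rw [GammaH.liftC, coeffEmb, coeffMap_coeffMap, coeffMap_coeffMap]
  refine Eq.trans ?_ (hu.trans ?_)
  · exact coeffMap_congr (RingHom.ext_rat _ _) _
  · exact coeffMap_congr (RingHom.ext_int _ _) _

variable {M : ℕ} [NeZero M]

theorem fgCoeff_ySerQ (v : Fin 2 → ZMod M) : FGCoeff (GammaH.ySerQ v) := by
  classical
  let O : Submodule ℤ Qbar :=
    Submodule.span ℤ (Set.range fun i : Fin M => GammaH.zetaQ M ^ (i : ℕ))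
  let Λ : Submodule ℤ Qbar := O ⊔ Submodule.span ℤ {GammaH.yCoeffQ v 0}
  have hz : ∀ c : ℤ, GammaH.zetaQ M ^ c ∈ O := fun c => by
    have h : GammaH.zetaQ M ^ c = GammaH.zetaQ M ^ ((c % M).toNat) := by
      rw [← zpow_natCast, Int.toNat_of_nonneg (Int.emod_nonneg _ (by simp [NeZero.ne M]))]
      conv_lhs => rw [← Int.emod_add_mul_ediv c M]
      rw [zpow_add₀ (GammaH.zetaQ_isPrimitiveRoot.ne_zero (NeZero.ne M)), zpow_mul, zpow_natCast,
        GammaH.zetaQ_isPrimitiveRoot.pow_eq_one, one_zpow, mul_one]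
    rw [h]
    refine Submodule.subset_span ⟨⟨(c % M).toNat, ?_⟩, rfl⟩
    exact (Int.toNat_lt' (NeZero.pos M)).mpr
      (Int.emod_lt_of_pos c (Int.natCast_pos.mpr (NeZero.pos M)))
  have hx : ∀ (a b : ℤ) (m : ℕ), m ≠ 0 → GammaH.xCoeffQ M a b m ∈ O := fun a b m hm => by
    rw [GammaH.xCoeffQ, if_neg hm]
    refine sum_mem fun p _ => ?_
    rw [GammaH.xTermQ]
    split_ifs
    · rw [← nsmul_eq_mul]; exact nsmul_mem (hz _) _
    · exact zero_mem _
  refine ⟨Λ, (Submodule.fg_span (Set.finite_range _)).sup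
    (Submodule.fg_span (Set.finite_singleton _)), fun n => ?_⟩
  rw [GammaH.ySerQ]
  rcases lt_or_ge n 0 with hn | hn
  · rw [ofPowerSeries_coeff_of_neg _ hn]; exact zero_mem _
  · lift n to ℕ using hn
    rw [HahnSeries.ofPowerSeries_apply_coeff, PowerSeries.coeff_mk]
    rcases eq_or_ne n 0 with rfl | hn0
    · exact Submodule.mem_sup_right (Submodule.mem_span_singleton_self _)
    · exact Submodule.mem_sup_left (sum_mem fun u _ => sub_mem (hx _ _ _ hn0) (hx _ _ _ hn0))

variable [Fact (1 < M)]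

theorem fgCoeff_wGen : FGCoeff (GammaH.ser (GammaH.wGen M)) := by
  rw [← fgCoeff_qExpand M, GammaH.wGen, GammaH.qExpand_ser_wMod, GammaH.wSerQ]
  exact (fgCoeff_gSer M).mul (fgCoeff_ySerQ _)

theorem fgCoeff_jqModC : FGCoeff (jqModC Qbar) := by
  have h : jqModC Qbar = coeffMap (Int.castRingHom Qbar) (jqModC ℤ) := (coeffMap_jqModC _).symm
  rw [h]
  exact fgCoeff_intMap _

/-- Every function is a quotient of two with finitely generated coefficients. -/
theorem exists_div_fgCoeff {x : LaurentSeries Qbar} (hx : x ∈ GammaH.FF M) :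
    ∃ G H : LaurentSeries Qbar, G ∈ GammaH.FF M ∧ H ∈ GammaH.FF M ∧ FGCoeff G ∧ FGCoeff H ∧
      H ≠ 0 ∧ x = G / H := by
  have hgen : (⟨x, hx⟩ : GammaH.FF M) ∈ IntermediateField.adjoin Qbar
      ({GammaH.jF M} ∪ {GammaH.toFF (GammaH.wGen M)} : Set (GammaH.FF M)) := by
    rw [← IntermediateField.adjoin_adjoin_left, IntermediateField.mem_restrictScalars,
      GammaH.adjoin_wGen_eq_top]
    trivial
  obtain ⟨a, ha, b, hb, he⟩ := IntermediateField.mem_adjoin_iff_div.mp hgen
  have key : ∀ z ∈ Algebra.adjoin Qbar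
      ({GammaH.jF M} ∪ {GammaH.toFF (GammaH.wGen M)} : Set (GammaH.FF M)),
      FGCoeff (z : LaurentSeries Qbar) := by
    intro z hz
    induction hz using Algebra.adjoin_induction with
    | mem z hz =>
      rcases hz with rfl | rfl
      · rw [GammaH.coe_jF]; exact fgCoeff_jqModC
      · exact fgCoeff_wGen
    | algebraMap c => rw [coe_algebraMap_series]; exact fgCoeff_C c
    | add y z _ _ hy hz => exact hy.add hz
    | mul y z _ _ hy hz => exact hy.mul hz
  rcases eq_or_ne b 0 with rfl | hb0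
  · refine ⟨0, 1, zero_mem _, one_mem _, ?_, ?_, one_ne_zero, ?_⟩
    · simpa using key 0 (zero_mem _)
    · simpa using key 1 (one_mem _)
    · rw [div_zero] at he
      simpa using congrArg Subtype.val he
  · refine ⟨a, b, a.2, b.2, key a ha, key b hb, fun e => hb0 (Subtype.ext e), ?_⟩
    exact (congrArg Subtype.val he).trans (IntermediateField.coe_div _ a b)

/-- A field all whose elements are quotients of series with finitely generated coefficients
is scalable. -/
theorem scalable_of_div {F : IntermediateField Qbar (LaurentSeries Qbar)}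
    (hF : ∀ x ∈ F, ∃ G H : LaurentSeries Qbar, G ∈ F ∧ H ∈ F ∧ FGCoeff G ∧ FGCoeff H ∧
      H ≠ 0 ∧ x = G / H) (A : ValuationSubring Qbar) : Scalable A F := by
  intro f hf hf0
  obtain ⟨G, H, hG, hH, hGf, hHf, hH0, rfl⟩ := hF f hf
  obtain ⟨c, g, hc, hg0, rfl⟩ := hGf.exists_scale (fun e => hf0 (by rw [e, zero_div])) A
  obtain ⟨d, h, hd, hh0, rfl⟩ := hHf.exists_scale hH0 A
  have hmem : ∀ {e : Qbar} {u : LaurentSeries A}, e ≠ 0 →
      HahnSeries.C e * inclA A u ∈ F → u ∈ intSer A (F) := by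
    intro e u he hm
    show inclA A u ∈ F
    have h1 : inclA A u = HahnSeries.C e⁻¹ * (HahnSeries.C e * inclA A u) := by
      rw [← mul_assoc, ← map_mul, inv_mul_cancel₀ he, map_one, one_mul]
    rw [h1]
    exact mul_mem (C_mem _) hm
  refine ⟨c / d, g, h, div_ne_zero hc hd, hmem hc hG, hmem hd hH, hg0, hh0, ?_⟩
  rw [div_mul_eq_mul_div, div_eq_iff hH0, mul_assoc]
  have h1 : HahnSeries.C (c / d) * HahnSeries.C d = (HahnSeries.C c : LaurentSeries Qbar) := by
    rw [← map_mul, div_mul_cancel₀ _ hd]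
  rw [← h1]
  ring

/-- The field of `X₁(M)` is scalable at every place of `ℚ̄`. -/
theorem scalable_FF (A : ValuationSubring Qbar) : Scalable A (GammaH.FF M) :=
  scalable_of_div (fun _ hx => exists_div_fgCoeff hx) A

end FLTAgent.IgusaCover

end
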