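import Fermat.Agent.GammaH.HeckeCommute
import Fermat.Agent.IgusaCover.Operators

/-!
# Comparison of transfers

Transfers along changes of representatives and of level: the degeneracy maps `degHom` on
homomorphisms of `Γ₁`, and their compatibility with `T_l` and the diamonds
(`homT_tRep_degHom`, `homT_dRep`).
-/

set_option autoImplicit false

noncomputable section

open CongruenceSubgroup
open scoped MatrixGroups

namespace FLTAgent.IgusaCover

open FLTAgent.GammaH

local notation "Mat" => Matrix (Fin 2) (Fin 2) ℤ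

attribute [local instance] HeckeReps.fin

/-- Right cancellation of a matrix of nonzero determinant. -/
theorem mat_mul_right_cancel {X Y Z : Mat} (hZ : Z.det ≠ 0) (h : X * Z = Y * Z) : X = Y := by
  have h' := congrArg (· * Z.adjugate) h
  simp only [Matrix.mul_assoc, Matrix.mul_adjugate, Matrix.mul_smul, Matrix.mul_one] at h'
  exact smul_right_injective _ hZ h'

theorem SL_mat_mul_right_cancel {X Y : SL(2, ℤ)} {Z : Mat} (hZ : Z.det ≠ 0)
    (h : (X : Mat) * Z = (Y : Mat) * Z) : X = Y :=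
  Subtype.ext (mat_mul_right_cancel hZ h)

theorem det_diag_ne {d : ℕ} [NeZero d] : (!![(d : ℤ), 0; 0, 1] : Mat).det ≠ 0 := by
  rw [Matrix.det_fin_two_of]; simpa using NeZero.ne d

/-- The value of a transfer computed from any equivalent family of representatives. -/
theorem homT_eq_sum {M' M : ℕ} (R : HeckeReps M' M) {A : Type*} [AddCommGroup A]
    (c : Additive (Gamma1 M) →+ A) (γ : Gamma1 M') {κ : Type*} [Fintype κ] (β : κ → Mat)
    (e : κ ≃ R.ι) (h : κ → Gamma1 M) (hβ : ∀ i, β i = ((h i : SL(2, ℤ)) : Mat) * R.β (e i))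
    (π : κ → κ) (g : κ → Gamma1 M)
    (hrel : ∀ i, β i * ((γ : SL(2, ℤ)) : Mat) = ((g i : SL(2, ℤ)) : Mat) * β (π i)) :
    R.homT A c (Additive.ofMul γ) = ∑ i, c (Additive.ofMul (g i)) := by
  have key : ∀ i, R.pi γ (e i) = e (π i) ∧ R.elt γ (e i) = (h i)⁻¹ * g i * h (π i) := fun i => by
    refine R.eq_of_rel ?_
    have h1 : R.β (e i) = (((h i)⁻¹ : Gamma1 M) : SL(2, ℤ)) * β i := by
      rw [hβ, ← Matrix.mul_assoc, ← Matrix.SpecialLinearGroup.coe_mul, ← Subgroup.coe_mul,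
        inv_mul_cancel, OneMemClass.coe_one, Matrix.SpecialLinearGroup.coe_one, Matrix.one_mul]
    rw [h1, Matrix.mul_assoc, hrel, hβ (π i)]
    simp only [Subgroup.coe_mul, Matrix.SpecialLinearGroup.coe_mul, Matrix.mul_assoc]
  rw [R.homT_apply, ← Equiv.sum_comp e (fun j => c (Additive.ofMul (R.elt γ j)))]
  have hπ : Function.Bijective π := by
    have hfun : π = e.symm ∘ R.piEquiv γ ∘ e := funext fun i => by
      rw [Function.comp_apply, Function.comp_apply, HeckeReps.piEquiv_apply, (key i).1,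
        e.symm_apply_apply]
    rw [hfun]
    exact e.symm.bijective.comp ((R.piEquiv γ).bijective.comp e.bijective)
  simp only [(key _).2, ofMul_mul, ofMul_inv, map_add, map_neg, Finset.sum_add_distrib,
    Finset.sum_neg_distrib]
  rw [show (∑ i, c (Additive.ofMul (h (π i)))) = ∑ i, c (Additive.ofMul (h i)) from
    hπ.sum_comp (fun i => c (Additive.ofMul (h i)))]
  abel

section Level

variable {N M' : ℕ} {d : ℕ} [NeZero d] (hd : N * d ∣ M')

/-- `γ ↦ (d 0; 0 1) γ (d 0; 0 1)⁻¹`, as a function. -/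
def conjDegFun (γ : Gamma1 M') : Gamma1 N := (exists_conj_diag (NeZero.pos d) hd γ).choose

theorem conjDegFun_spec (γ : Gamma1 M') : !![(d : ℤ), 0; 0, 1] * ((γ : SL(2, ℤ)) : Mat) =
    ((conjDegFun hd γ : SL(2, ℤ)) : Mat) * !![(d : ℤ), 0; 0, 1] :=
  (exists_conj_diag (NeZero.pos d) hd γ).choose_spec.1

/-- `γ ↦ (d 0; 0 1) γ (d 0; 0 1)⁻¹`. -/
def conjDeg : Gamma1 M' →* Gamma1 N :=
  MonoidHom.mk' (conjDegFun hd) fun γ δ => by
    refine Subtype.ext (SL_mat_mul_right_cancel (det_diag_ne (d := d))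
      ((conjDegFun_spec hd (γ * δ)).symm.trans ?_))
    simp only [Subgroup.coe_mul, Matrix.SpecialLinearGroup.coe_mul]
    rw [← Matrix.mul_assoc, conjDegFun_spec hd γ, Matrix.mul_assoc, conjDegFun_spec hd δ,
      ← Matrix.mul_assoc]

theorem conjDeg_spec (γ : Gamma1 M') : !![(d : ℤ), 0; 0, 1] * ((γ : SL(2, ℤ)) : Mat) =
    ((conjDeg hd γ : SL(2, ℤ)) : Mat) * !![(d : ℤ), 0; 0, 1] :=
  conjDegFun_spec hd γ

theorem conjDeg_eq {γ : Gamma1 M'} {g : Gamma1 N}
    (h : !![(d : ℤ), 0; 0, 1] * ((γ : SL(2, ℤ)) : Mat) =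
      ((g : SL(2, ℤ)) : Mat) * !![(d : ℤ), 0; 0, 1]) : conjDeg hd γ = g :=
  Subtype.ext (SL_mat_mul_right_cancel (det_diag_ne (d := d)) ((conjDeg_spec hd γ).symm.trans h))

theorem coe_conjDeg_one (h : N * 1 ∣ M') (γ : Gamma1 M') :
    (conjDeg h γ : SL(2, ℤ)) = (γ : SL(2, ℤ)) := by
  refine SL_mat_mul_right_cancel (det_diag_ne (d := 1)) ((conjDeg_spec h γ).symm.trans ?_)
  have h1 : (!![((1 : ℕ) : ℤ), 0; 0, 1] : Mat) = 1 := by
    ext i j; fin_cases i <;> fin_cases j <;> simp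
  rw [h1, Matrix.one_mul, Matrix.mul_one]

/-- Pulling back along `conjDeg`. -/
def degHom (A : Type*) [AddCommGroup A] :
    (Additive (Gamma1 N) →+ A) →+ (Additive (Gamma1 M') →+ A) :=
  (MonoidHom.toAdditive (conjDeg hd)).compHom'

theorem degHom_apply {A : Type*} [AddCommGroup A] (c : Additive (Gamma1 N) →+ A) (γ : Gamma1 M') :
    degHom hd A c (Additive.ofMul γ) = c (Additive.ofMul (conjDeg hd γ)) := rfl

theorem homT_degRep (A : Type*) [AddCommGroup A] (c : Additive (Gamma1 N) →+ A) :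
    (degRep d (NeZero.pos d) hd).homT A c = degHom hd A c := by
  refine AddMonoidHom.ext fun γ => ?_
  obtain ⟨γ, rfl⟩ := Additive.ofMul.surjective γ
  set R := degRep d (NeZero.pos d) hd
  rw [R.homT_apply, degHom_apply]
  have h : R.elt γ () = conjDeg hd γ :=
    ((R.eq_of_rel (i := ()) (j := ()) (g := conjDeg hd γ)) (conjDeg_spec hd γ)).2
  rw [← h]
  exact Fintype.sum_unique (fun i : Unit => c (Additive.ofMul (R.elt γ i)))

/-- Transfers commute with degeneracy maps when the representatives correspond. -/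
theorem homT_degHom {L L' : ℕ} (R : HeckeReps N L) (R' : HeckeReps M' L') (hd' : L * d ∣ L')
    {A : Type*} [AddCommGroup A] (c : Additive (Gamma1 L) →+ A) (B : R'.ι → Mat)
    (hB : ∀ i, !![(d : ℤ), 0; 0, 1] * R'.β i = B i * !![(d : ℤ), 0; 0, 1])
    (e : R'.ι ≃ R.ι) (h : R'.ι → Gamma1 L)
    (hh : ∀ i, B i = ((h i : SL(2, ℤ)) : Mat) * R.β (e i)) :
    R'.homT A (degHom hd' A c) = degHom hd A (R.homT A c) := by
  refine AddMonoidHom.ext fun γ => ?_
  obtain ⟨γ, rfl⟩ := Additive.ofMul.surjective γ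
  rw [R'.homT_apply, degHom_apply,
    homT_eq_sum R c (conjDeg hd γ) B e h hh (R'.pi γ) (fun i => conjDeg hd' (R'.elt γ i))]
  · rfl
  intro i
  refine mat_mul_right_cancel (det_diag_ne (d := d)) ?_
  rw [Matrix.mul_assoc, ← conjDeg_spec, ← Matrix.mul_assoc, ← hB, Matrix.mul_assoc, R'.rel,
    ← Matrix.mul_assoc, conjDeg_spec hd', Matrix.mul_assoc, hB, ← Matrix.mul_assoc]

end Level

section TRep

variable {N M' : ℕ} [NeZero N] [NeZero M'] {l : ℕ}

omit [NeZero N] [NeZero M'] in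
theorem tRep_beta_cast (hN : N ∣ M') {m : Mat} (hc : ((m 1 0 : ℤ) : ZMod M') = 0)
    (ha : ((m 0 0 : ℤ) : ZMod M') = 1) :
    ((m 1 0 : ℤ) : ZMod N) = 0 ∧ ((m 0 0 : ℤ) : ZMod N) = 1 := by
  have h1 := congrArg (ZMod.castHom hN (ZMod N)) hc
  have h2 := congrArg (ZMod.castHom hN (ZMod N)) ha
  rw [map_intCast, map_zero] at h1
  rw [map_intCast, map_one] at h2
  exact ⟨h1, h2⟩

omit [NeZero N] in
/-- A family shaped like the representatives of `T_l` is equivalent to them. -/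
theorem exists_tRep_equiv (hl : l.Prime) (hlN : ¬ l ∣ N) (B : Option (Fin l) → Mat) (t : ℕ)
    (ht : ¬ l ∣ t) (hsome : ∀ b : Fin l, B (some b) = !![1, (t : ℤ) * (b : ℕ); 0, (l : ℤ)])
    (hnone : (l : ℤ) ∣ B none 0 0 ∧ (l : ℤ) ∣ B none 1 0) (hdet : ∀ i, (B i).det = l)
    (hc : ∀ i, ((B i 1 0 : ℤ) : ZMod N) = 0) (ha : ∀ i, ((B i 0 0 : ℤ) : ZMod N) = 1) :
    ∃ (e : Option (Fin l) ≃ (tRep l hl hlN).ι) (h : Option (Fin l) → Gamma1 N),
      ∀ i, B i = ((h i : SL(2, ℤ)) : Mat) * (tRep l hl hlN).β (e i) := by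
  have hex := fun i => tRep_exists hl hlN (hdet i) (hc i) (ha i)
  choose f h hf using hex
  have key : ∀ i i', f i = f i' → ∃ g : SL(2, ℤ), B i = (g : Mat) * B i' := fun i i' e => by
    refine ⟨(h i : SL(2, ℤ)) * (h i' : SL(2, ℤ))⁻¹, ?_⟩
    rw [hf i, hf i', e, ← Matrix.mul_assoc, ← Matrix.SpecialLinearGroup.coe_mul,
      inv_mul_cancel_right]
  have hsn : ∀ (b : Fin l) (g : SL(2, ℤ)), B (some b) ≠ (g : Mat) * B none := fun b g e => by
    have h00 := congrFun (congrFun e 0) 0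
    rw [hsome] at h00
    simp only [Matrix.mul_apply, Fin.sum_univ_two, Matrix.of_apply,
      Matrix.cons_val_zero] at h00
    have h1 : (l : ℤ) ∣ 1 := h00 ▸ dvd_add (hnone.1.mul_left _) (hnone.2.mul_left _)
    exact hl.one_lt.ne' (by exact_mod_cast Int.eq_one_of_dvd_one (Int.natCast_nonneg l) h1)
  have hinj : Function.Injective f := by
    intro i i' e
    obtain ⟨g, hg⟩ := key i i' e
    cases i with
    | none =>
      cases i' with
      | none => rfl
      | some b =>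
        obtain ⟨g', hg'⟩ := key _ _ e.symm
        exact absurd hg' (hsn b g')
    | some b =>
      cases i' with
      | none => exact absurd hg (hsn b g)
      | some b' =>
        rw [hsome, hsome] at hg
        have h00 := congrFun (congrFun hg 0) 0
        have h01 := congrFun (congrFun hg 0) 1
        simp [Matrix.mul_apply, Fin.sum_univ_two] at h00 h01
        rw [← h00, one_mul] at h01
        have hdvd : (l : ℤ) ∣ (t : ℤ) * ((b : ℕ) - (b' : ℕ)) :=
          ⟨(g : Mat) 0 1, by linear_combination h01⟩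
        rcases Int.Prime.dvd_mul' hl hdvd with h' | h'
        · exact absurd (by exact_mod_cast h') ht
        · have hb := b.2
          have hb' := b'.2
          have := Int.eq_zero_of_abs_lt_dvd h' (by rw [abs_lt]; omega)
          exact congrArg some (Fin.ext (by omega))
  have hcard : Function.Bijective f := by
    refine (Fintype.bijective_iff_injective_and_card f).mpr ⟨hinj, ?_⟩
    show Fintype.card (Option (Fin l)) = @Fintype.card (Option (Fin l)) _
    exact Fintype.card_congr (Equiv.refl _)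
  exact ⟨Equiv.ofBijective f hcard, h, hf⟩

omit [NeZero N] [NeZero M'] in
/-- The representatives at level `M'` seen at level `N` through `(d 0; 0 1)`. -/
theorem exists_tRep_deg (hN : N ∣ M') (hl : l.Prime) (hlN : ¬ l ∣ N) (hlM : ¬ l ∣ M') (d : ℕ)
    [NeZero d] (hd : N * d ∣ M') (hld : ¬ l ∣ d) :
    ∃ B : (tRep (M := M') l hl hlM).ι → Mat,
      (∀ i, !![(d : ℤ), 0; 0, 1] * (tRep (M := M') l hl hlM).β i =
        B i * !![(d : ℤ), 0; 0, 1]) ∧
      ∃ (e : (tRep (M := M') l hl hlM).ι ≃ (tRep (M := N) l hl hlN).ι)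
        (h : (tRep (M := M') l hl hlM).ι → Gamma1 N),
        ∀ i, B i = ((h i : SL(2, ℤ)) : Mat) * (tRep (M := N) l hl hlN).β (e i) := by
  set σ := sigmaP M' l ((hl.coprime_iff_not_dvd).mpr hlM)
  have hσ0 : ((σ 1 0 : ℤ) : ZMod M') = 0 := Gamma0_mem.mp (sigmaP_mem l _)
  obtain ⟨c, hc⟩ : ((N * d : ℕ) : ℤ) ∣ σ 1 0 :=
    (Int.natCast_dvd_natCast.mpr hd).trans ((ZMod.intCast_zmod_eq_zero_iff_dvd _ _).mp hσ0)
  let B : Option (Fin l) → Mat := fun i => match i with
    | some b => !![1, (d : ℤ) * (b : ℕ); 0, (l : ℤ)]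
    | none => !![σ 0 0 * l, (d : ℤ) * σ 0 1; (N : ℤ) * c * l, σ 1 1]
  have hdet : ∀ i, (B i).det = l := by
    rintro (- | b)
    · have hd1 := σ.det_coe
      rw [Matrix.det_fin_two, hc] at hd1
      simp only [B, Matrix.det_fin_two_of]
      push_cast at hd1
      linear_combination (l : ℤ) * hd1
    · simp [B, Matrix.det_fin_two_of]
  have hspec := tRep_beta_spec (M := M') hl hlM none
  have h00 : ((σ 0 0 * l : ℤ) : ZMod N) = 1 := by
    refine (tRep_beta_cast hN (m := (σ : Mat) * !![(l : ℤ), 0; 0, 1]) hspec.2.1 hspec.2.2).2 |>.symm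
      |>.trans ?_ |>.symm
    simp [Matrix.mul_apply, Fin.sum_univ_two]
  obtain ⟨e, h, hh⟩ := exists_tRep_equiv (N := N) hl hlN B d hld (fun b => rfl)
    ⟨dvd_mul_left _ _, dvd_mul_left _ _⟩ hdet
    (by rintro (- | b) <;> simp [B]) (by
      rintro (- | b)
      · simpa [B] using h00
      · simp [B])
  refine ⟨B, ?_, e, h, hh⟩
  rintro (- | b)
  · show !![(d : ℤ), 0; 0, 1] * ((σ : Mat) * !![(l : ℤ), 0; 0, 1]) =
      !![σ 0 0 * l, (d : ℤ) * σ 0 1; (N : ℤ) * c * l, σ 1 1] * !![(d : ℤ), 0; 0, 1]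
    ext i j
    fin_cases i <;> fin_cases j <;> simp [Matrix.mul_apply, Fin.sum_univ_two, hc] <;> ring
  · show !![(d : ℤ), 0; 0, 1] * !![1, ((b : ℕ) : ℤ); 0, (l : ℤ)] =
      !![1, (d : ℤ) * (b : ℕ); 0, (l : ℤ)] * !![(d : ℤ), 0; 0, 1]
    ext i j
    fin_cases i <;> fin_cases j <;> simp [Matrix.mul_apply, Fin.sum_univ_two, mul_comm]

omit [NeZero N] [NeZero M'] in
/-- Degeneracy maps commute with `T_l`. -/
theorem homT_tRep_degHom (hN : N ∣ M') (hl : l.Prime) (hlN : ¬ l ∣ N) (hlM : ¬ l ∣ M') (d : ℕ)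
    [NeZero d] (hd : N * d ∣ M') (hld : ¬ l ∣ d) {A : Type*} [AddCommGroup A]
    (c : Additive (Gamma1 N) →+ A) :
    (tRep (M := M') l hl hlM).homT A (degHom hd A c) =
      degHom hd A ((tRep (M := N) l hl hlN).homT A c) := by
  obtain ⟨B, hB, e, h, hh⟩ := exists_tRep_deg hN hl hlN hlM d hd hld
  exact homT_degHom hd (tRep l hl hlN) (tRep l hl hlM) hd c B hB e h hh

omit [NeZero N] in
theorem homT_dRep (σ : SL(2, ℤ)) (hσ : σ ∈ Gamma0 N) {A : Type*} [AddCommGroup A]
    (c : Additive (Gamma1 N) →+ A) (γ : Gamma1 N) :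
    (dRep σ hσ).homT A c (Additive.ofMul γ) =
      c (Additive.ofMul (⟨σ * (γ : SL(2, ℤ)) * σ⁻¹, conj_mem_Gamma1 hσ γ.2⟩ : Gamma1 N)) := by
  set R := dRep (M := N) σ hσ
  rw [R.homT_apply]
  have h : R.elt γ () = ⟨σ * (γ : SL(2, ℤ)) * σ⁻¹, conj_mem_Gamma1 hσ γ.2⟩ :=
    (R.eq_of_rel (γ := γ) (i := ()) (j := ())
      (g := ⟨σ * (γ : SL(2, ℤ)) * σ⁻¹, conj_mem_Gamma1 hσ γ.2⟩) (by
      show (σ : Mat) * _ = ((σ * (γ : SL(2, ℤ)) * σ⁻¹ : SL(2, ℤ)) : Mat) * (σ : Mat)
      rw [← Matrix.SpecialLinearGroup.coe_mul, ← Matrix.SpecialLinearGroup.coe_mul,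
        inv_mul_cancel_right])).2
  exact (Fintype.sum_unique (fun i : Unit => c (Additive.ofMul (R.elt γ i)))).trans
    (by rw [show (default : Unit) = () from rfl, h])

end TRep

end FLTAgent.IgusaCover

end
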