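import Fermat.Agent.ModularityLifting.CharSymbols
import Fermat.Agent.LevelRaising.SymbolsIhara
import Fermat.Agent.Periods.Primitive
import Fermat.Agent.GammaH.HeckeCommute
import Fermat.Agent.IgusaCover.Transfer

/-!
# Periods of modular symbols as parabolic homomorphisms

The period homomorphism `periodHom` of a modular symbol with character is parabolic and an
eigenvector with the same eigenvalues (`tRep_periodHom`, `uRep_periodHom`, `dRep_periodHom`);
it is nonzero for a nonzero non-Eisenstein eigen-symbol (`periodHom_ne_zero`).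
-/

set_option autoImplicit false

noncomputable section

open CongruenceSubgroup OnePoint
open scoped MatrixGroups

namespace FLTAgent.IgusaCover

open FLTAgent.GammaH FLTAgent.LevelRaising FLTAgent.ModularityLifting

local notation "Mat" => Matrix (Fin 2) (Fin 2) ℤ

attribute [local instance] HeckeReps.fin

variable {R : Type} [CommRing R] {L : ℕ} {δ : DirichletCharacter R L} {Φ : Cusp → Cusp → R}

theorem symb_self (hΦ : Φ ∈ SymbChar R δ) (x : Cusp) : Φ x x = 0 := by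
  have := hΦ.1 x x x
  linear_combination this

theorem symb_swap (hΦ : Φ ∈ SymbChar R δ) (x y : Cusp) : Φ y x = -Φ x y := by
  have := hΦ.1 x y x
  rw [symb_self hΦ] at this
  linear_combination this

theorem symb_invariant (hΦ : Φ ∈ SymbChar R δ) {γ : SL(2, ℤ)} (hγ : γ ∈ Gamma1 L) (x y : Cusp) :
    Φ (glQ γ • x) (glQ γ • y) = Φ x y := by
  rw [hΦ.2 γ (Gamma1_in_Gamma0 L hγ), ((Gamma1_mem L γ).mp hγ).2.1, map_one, one_mul]

variable (hΦ : Φ ∈ SymbChar R δ)

/-- The period homomorphism. -/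
def periodHom : Additive (Gamma1 L) →+ R :=
  AddMonoidHom.mk' (fun γ => Φ ∞ (glQ ((Additive.toMul γ : Gamma1 L) : SL(2, ℤ)) • ∞)) fun a b => by
    rw [toMul_add, Subgroup.coe_mul, glQ_mul_smul, ← hΦ.1 ∞
      (glQ ((Additive.toMul a : Gamma1 L) : SL(2, ℤ)) • ∞), symb_invariant hΦ (Additive.toMul a).2]

/-- The period does not depend on the base point. -/
theorem periodHom_apply (γ : Gamma1 L) (x : Cusp) :
    periodHom hΦ (Additive.ofMul γ) = Φ x (glQ (γ : SL(2, ℤ)) • x) := by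
  show Φ ∞ (glQ (γ : SL(2, ℤ)) • ∞) = _
  have h1 := hΦ.1 ∞ x (glQ (γ : SL(2, ℤ)) • x)
  have h2 := hΦ.1 ∞ (glQ (γ : SL(2, ℤ)) • x) (glQ (γ : SL(2, ℤ)) • ∞)
  rw [symb_invariant hΦ γ.2, symb_swap hΦ ∞ x] at h2
  linear_combination -h2 - h1

theorem periodHom_parabolic : ModularCurve.Period.IsParabolicHom (Gamma1 L) (periodHom hΦ) := by
  intro γ hγ
  obtain ⟨d, hd⟩ := Periods.exists_conj_lowerLeft_eq_zero hγ
  rw [periodHom_apply hΦ γ (glQ d • ∞)]
  have h0 : glQ (d⁻¹ * (γ : SL(2, ℤ)) * d) • (∞ : Cusp) = ∞ := by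
    rw [OnePoint.smul_infty_eq_ite, glQ_apply, hd]; simp
  have hfix : glQ (γ : SL(2, ℤ)) • glQ d • (∞ : Cusp) = glQ d • ∞ := by
    calc glQ (γ : SL(2, ℤ)) • glQ d • (∞ : Cusp)
        = glQ d • glQ (d⁻¹ * (γ : SL(2, ℤ)) * d) • (∞ : Cusp) := by
          rw [← glQ_mul_smul, ← glQ_mul_smul]; congr 2; group
      _ = glQ d • ∞ := by rw [h0]
  rw [hfix, symb_self hΦ]

/-- A transfer of the period homomorphism is the period of the sum of translates. -/
theorem homT_periodHom (T : HeckeReps L L) (γ : Gamma1 L) :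
    T.homT R (periodHom hΦ) (Additive.ofMul γ) =
      ∑ i, Φ (ofMat (T.β i) • ∞) (ofMat (T.β i) • glQ (γ : SL(2, ℤ)) • ∞) := by
  have hdet : ∀ i, (T.β i).det ≠ 0 := fun i => (T.det_pos i).ne'
  let y : T.ι → Cusp := fun i => ofMat (T.β i) • (∞ : Cusp)
  have h : ∀ i, periodHom hΦ (Additive.ofMul (T.elt γ i)) =
      Φ (y i) (ofMat (T.β i) • glQ (γ : SL(2, ℤ)) • ∞) +
        (Φ ∞ (y i) - Φ ∞ (y (T.pi γ i))) := fun i => by
    have e : ofMat (T.β i) • glQ (γ : SL(2, ℤ)) • (∞ : Cusp) =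
        glQ (T.elt γ i : SL(2, ℤ)) • y (T.pi γ i) := by
      rw [← ofMat_coe, ← ofMat_coe, ← mul_smul, ← mul_smul, ← ofMat_mul (hdet i) (sl_det_ne_zero _),
        T.rel γ i, ofMat_mul (sl_det_ne_zero _) (hdet _)]
    rw [periodHom_apply hΦ (T.elt γ i) (y (T.pi γ i)), e,
      ← hΦ.1 (y (T.pi γ i)) (y i) (glQ (T.elt γ i : SL(2, ℤ)) • y (T.pi γ i)),
      ← hΦ.1 (y (T.pi γ i)) ∞ (y i), symb_swap hΦ ∞ (y (T.pi γ i))]
    ring
  rw [T.homT_apply, Finset.sum_congr rfl fun i _ => h i, Finset.sum_add_distrib,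
    Finset.sum_sub_distrib,
    show ∑ i, Φ ∞ (y (T.pi γ i)) = ∑ i, Φ ∞ (y i) from
      Equiv.sum_comp (T.piEquiv γ) (fun i => Φ ∞ (y i)), sub_self, add_zero]

variable [NeZero L]

omit [NeZero L] in
theorem tRep_periodHom {l : ℕ} (hl : l.Prime) (hlL : ¬ l ∣ L) {a : R}
    (ha : tOpChar R δ l Φ = a • Φ) :
    (tRep l hl hlL).homT R (periodHom hΦ) = a • periodHom hΦ := by
  refine AddMonoidHom.ext fun γ => ?_
  obtain ⟨γ, rfl⟩ := Additive.ofMul.surjective γ
  rw [homT_periodHom, AddMonoidHom.smul_apply, periodHom_apply hΦ γ ∞]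
  have h := congrFun (congrFun ha ∞) (glQ (γ : SL(2, ℤ)) • ∞)
  rw [tOpChar] at h
  simp only [LinearMap.add_apply, LinearMap.smul_apply, LinearMap.sum_apply, Pi.add_apply,
    Pi.smul_apply, Finset.sum_apply, pull_apply] at h
  rw [← h]
  let f : Option (Fin l) → R := fun i => Φ (ofMat ((tRep (M := L) l hl hlL).β i) • ∞)
    (ofMat ((tRep (M := L) l hl hlL).β i) • glQ (γ : SL(2, ℤ)) • ∞)
  show ∑ i : Option (Fin l), f i = _
  rw [Fintype.sum_option]
  congr 1
  set σ := sigmaP L l ((hl.coprime_iff_not_dvd).mpr hlL)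
  show Φ (ofMat ((σ : Mat) * !![(l : ℤ), 0; 0, 1]) • ∞)
    (ofMat ((σ : Mat) * !![(l : ℤ), 0; 0, 1]) • glQ (γ : SL(2, ℤ)) • ∞) = _
  rw [ofMat_mul (sl_det_ne_zero σ) (by simp [hl.ne_zero]), mul_smul, mul_smul, ofMat_coe,
    hΦ.2 σ (sigmaP_mem l _), sigmaP_apply, heckeFam_none]
  rfl

omit [NeZero L] in
theorem uRep_periodHom {q : ℕ} (hq : q.Prime) (hqL : q ∣ L) {b : R}
    (hb : uOp R q Φ = b • Φ) : (uRep q hq hqL).homT R (periodHom hΦ) = b • periodHom hΦ := by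
  refine AddMonoidHom.ext fun γ => ?_
  obtain ⟨γ, rfl⟩ := Additive.ofMul.surjective γ
  rw [homT_periodHom, AddMonoidHom.smul_apply, periodHom_apply hΦ γ ∞]
  have h := congrFun (congrFun hb ∞) (glQ (γ : SL(2, ℤ)) • ∞)
  simp only [uOp, pullFam_apply, Finset.sum_apply, pull_apply, Pi.smul_apply] at h
  rw [← h]
  rfl

omit [NeZero L] in
theorem dRep_periodHom (σ : SL(2, ℤ)) (hσ : σ ∈ Gamma0 L) :
    (dRep σ hσ).homT R (periodHom hΦ) = δ ((σ 1 1 : ℤ) : ZMod L) • periodHom hΦ := by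
  refine AddMonoidHom.ext fun γ => ?_
  obtain ⟨γ, rfl⟩ := Additive.ofMul.surjective γ
  rw [AddMonoidHom.smul_apply, homT_dRep, periodHom_apply hΦ γ ∞,
    periodHom_apply hΦ _ (glQ σ • ∞), smul_eq_mul]
  show Φ (glQ σ • ∞) (glQ (σ * (γ : SL(2, ℤ)) * σ⁻¹) • glQ σ • ∞) = _
  rw [← glQ_mul_smul, inv_mul_cancel_right, glQ_mul_smul, hΦ.2 σ hσ]

omit [NeZero L] in
/-- A symbol without periods is multiplied by `1 + l` under `T_l` for `l ≡ 1` modulo the level. -/
theorem periodHom_ne_zero [IsDomain R] (hne : Φ ≠ 0) {l : ℕ} (hl : l.Prime)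
    (h1 : l ≡ 1 [MOD L]) {a : R} (ha : tOpChar R δ l Φ = a • Φ) (hal : a ≠ 1 + l) :
    periodHom hΦ ≠ 0 := by
  intro h0
  have hper : ∀ γ ∈ CongruenceSubgroup.Gamma L, ∀ x, Φ x (glQ γ • x) = 0 := fun γ hγ x => by
    have hγ1 : γ ∈ Gamma1 L := by
      obtain ⟨e00, -, e10, e11⟩ := CongruenceSubgroup.Gamma_mem.mp hγ
      exact (Gamma1_mem L γ).mpr ⟨e00, e11, e10⟩
    rw [← periodHom_apply hΦ ⟨γ, hγ1⟩ x, h0, AddMonoidHom.zero_apply]
  have key : ∀ i, pull R (ofMat (heckeFam l i)) Φ = Φ := by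
    intro i
    obtain ⟨k, hk⟩ := exists_translate_heckeFam hl h1 i
    have hnd := heckeFam_det_ne_zero hl.ne_zero i
    have hT : (((ModularGroup.T ^ k) 1 1 : ℤ) : ZMod L) = 1 := by
      simp [ModularGroup.coe_T_zpow]
    have hpull : pull R (ofMat (((mT ^ k : SL(2, ℤ)) : Mat) * heckeFam l i)) Φ =
        pull R (ofMat (heckeFam l i)) Φ := by
      rw [pull_ofMat_mul (sl_det_ne_zero _) hnd, ofMat_coe,
        pull_glQ_char hΦ (mT_zpow_mem_Gamma0 L k), show (((mT ^ k : SL(2, ℤ)) 1 1 : ℤ) : ZMod L) = 1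
          from hT, map_one, one_smul]
    rw [← hpull]
    set A := ((mT ^ k : SL(2, ℤ)) : Mat) * heckeFam l i with hA
    have hdet : A.det = l := by
      rw [hA, Matrix.det_mul, Matrix.SpecialLinearGroup.det_coe, one_mul, heckeFam_det]
    funext r s
    obtain ⟨γ, hγ, er⟩ := exists_gamma_smul_eq hl h1 hdet hk r
    obtain ⟨γ', hγ', es⟩ := exists_gamma_smul_eq hl h1 hdet hk s
    rw [pull_apply, er, es, ← hΦ.1 _ r, ← hΦ.1 r s, symb_swap hΦ r, hper γ hγ, hper γ' hγ']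
    simp
  refine hal (sub_eq_zero.mp ?_)
  by_contra hsub
  refine hne (funext fun x => funext fun y => ?_)
  have h := congrFun (congrFun ha x) y
  have hδ : δ (l : ZMod L) = 1 := by
    rw [show ((l : ℕ) : ZMod L) = 1 by
      have := (ZMod.natCast_eq_natCast_iff l 1 L).mpr h1
      simpa using this, map_one]
  rw [tOpChar, hδ, one_smul, LinearMap.add_apply, LinearMap.sum_apply, key,
    Finset.sum_congr rfl fun j _ => key (Option.some j), Finset.sum_const, Finset.card_univ,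
    Fintype.card_fin, Pi.add_apply, Pi.add_apply, Pi.smul_apply, Pi.smul_apply, Pi.smul_apply,
    Pi.smul_apply, smul_eq_mul, nsmul_eq_mul] at h
  refine (mul_eq_zero.mp (?_ : (a - (1 + (l : R))) * Φ x y = 0)).resolve_left hsub
  linear_combination -h

end FLTAgent.IgusaCover

end
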