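import Mathlib.Algebra.MonoidAlgebra.Basic
import Mathlib.LinearAlgebra.Matrix.Trace
import Mathlib.LinearAlgebra.Matrix.Adjugate
import Mathlib.Tactic.NoncommRing

/-!
# Factorisation through a representation with full span

A representation satisfying the Cayley–Hamilton relation (`IsCH`) of a `2 × 2` representation
with full span factors through that representation (`IsCH.exists_algHom`).
-/

set_option autoImplicit false

noncomputable section

open Matrix

namespace FLTAgent.IgusaCover

variable {R : Type*} [CommRing R] {G : Type*} [Group G] {B : Type*} [Ring B] [Algebra R B]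

theorem det_add_fin_two (X Y : (Matrix (Fin 2) (Fin 2) R)) :
    (X + Y).det = X.det + Y.det + (X.trace * Y.trace - (X * Y).trace) := by
  simp [det_fin_two, trace_fin_two, Matrix.mul_apply, Fin.sum_univ_two]
  ring

theorem trace_mul_adjugate_fin_two (X Y : (Matrix (Fin 2) (Fin 2) R)) :
    (X * Y.adjugate).trace = X.trace * Y.trace - (X * Y).trace := by
  simp [adjugate_fin_two, trace_fin_two, Matrix.mul_apply, Fin.sum_univ_two]
  ring

variable (ρ : G →* (Matrix (Fin 2) (Fin 2) R)) (ψ : G →* B)

/-- The hypothesis: every group element satisfies the characteristic polynomial of its image. -/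
def IsCH : Prop :=
  ∀ g, ψ g * ψ g - (ρ g).trace • ψ g + (ρ g).det • (1 : B) = 0

variable {ρ ψ}

theorem IsCH.det_smul_inv (h : IsCH ρ ψ) (g : G) :
    (ρ g).det • ψ g⁻¹ = (ρ g).trace • (1 : B) - ψ g := by
  have h1 := congrArg (fun b => b * ψ g⁻¹) (h g)
  simp only [add_mul, sub_mul, smul_mul_assoc, mul_assoc, one_mul, zero_mul, ← map_mul,
    mul_inv_cancel, map_one, mul_one] at h1
  rw [eq_sub_iff_add_eq, ← sub_eq_zero, ← h1]
  noncomm_ring

theorem IsCH.polar (h : IsCH ρ ψ) (g k : G) :
    ψ g * ψ k + ψ k * ψ g - (ρ g).trace • ψ k - (ρ k).trace • ψ g +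
      ((ρ g).trace * (ρ k).trace - (ρ g * ρ k).trace) • (1 : B) = 0 := by
  have hu : ψ (g * k⁻¹) + (ρ (g * k⁻¹)).det • ψ (g * k⁻¹)⁻¹ =
      (ρ (g * k⁻¹)).trace • (1 : B) := by
    rw [h.det_smul_inv]; abel
  have h2 := congrArg (fun b => (ρ k).det • b) hu
  have hdet : (ρ k).det * (ρ (g * k⁻¹)).det = (ρ g).det := by
    rw [mul_comm, ← det_mul, ← map_mul, inv_mul_cancel_right]
  have hadj : (ρ k).adjugate = (ρ k).det • ρ k⁻¹ := by
    have h3 : ρ k * ρ k⁻¹ = 1 := by rw [← map_mul, mul_inv_cancel, map_one]
    calc (ρ k).adjugate = (ρ k).adjugate * (ρ k * ρ k⁻¹) := by rw [h3, mul_one]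
      _ = _ := by rw [← mul_assoc, adjugate_mul, smul_mul_assoc, one_mul]
  have htr : (ρ k).det * (ρ (g * k⁻¹)).trace =
      (ρ g).trace * (ρ k).trace - (ρ g * ρ k).trace := by
    rw [← trace_mul_adjugate_fin_two, hadj, mul_smul_comm, trace_smul, smul_eq_mul, map_mul]
  simp only [smul_add, smul_smul, hdet, htr] at h2
  simp only [_root_.mul_inv_rev, inv_inv, map_mul, ← mul_smul_comm, h.det_smul_inv] at h2
  rw [← h2, mul_sub, mul_sub, mul_smul_comm, mul_one, mul_smul_comm, mul_one]
  abel

variable (ρ ψ)

/-- The linear extension of `ρ` to the group algebra. -/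
abbrev liftRho : MonoidAlgebra R G →ₐ[R] (Matrix (Fin 2) (Fin 2) R) :=
  MonoidAlgebra.lift R (Matrix (Fin 2) (Fin 2) R) G ρ

/-- The linear extension of `ψ` to the group algebra. -/
abbrev liftPsi : MonoidAlgebra R G →ₐ[R] B := MonoidAlgebra.lift R B G ψ

variable {ρ ψ}

/-- The polarised relation, as a bilinear expression. -/
def polarExpr (x y : MonoidAlgebra R G) : B :=
  liftPsi ψ x * liftPsi ψ y + liftPsi ψ y * liftPsi ψ x - (liftRho ρ x).trace • liftPsi ψ y -
    (liftRho ρ y).trace • liftPsi ψ x +
    ((liftRho ρ x).trace * (liftRho ρ y).trace - (liftRho ρ x * liftRho ρ y).trace) • (1 : B)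

theorem polarExpr_add_left (x x' y : MonoidAlgebra R G) :
    polarExpr (ρ := ρ) (ψ := ψ) (x + x') y =
      polarExpr (ρ := ρ) (ψ := ψ) x y + polarExpr (ρ := ρ) (ψ := ψ) x' y := by
  simp only [polarExpr, map_add, trace_add, add_mul, mul_add, add_smul, sub_smul, smul_add]
  abel

theorem polarExpr_smul_left (c : R) (x y : MonoidAlgebra R G) :
    polarExpr (ρ := ρ) (ψ := ψ) (c • x) y = c • polarExpr (ρ := ρ) (ψ := ψ) x y := by
  simp only [polarExpr, map_smul, trace_smul, smul_mul_assoc, mul_smul_comm, smul_eq_mul,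
    smul_add, smul_sub, smul_smul, mul_assoc, mul_sub]
  rw [mul_comm (liftRho ρ y).trace c]

theorem polarExpr_comm (x y : MonoidAlgebra R G) :
    polarExpr (ρ := ρ) (ψ := ψ) x y = polarExpr (ρ := ρ) (ψ := ψ) y x := by
  rw [polarExpr, polarExpr, mul_comm (liftRho ρ x).trace, trace_mul_comm]
  abel

theorem IsCH.polarExpr_eq_zero (h : IsCH ρ ψ) (x y : MonoidAlgebra R G) :
    polarExpr (ρ := ρ) (ψ := ψ) x y = 0 := by
  induction x using MonoidAlgebra.induction_on with
  | of g =>
    induction y using MonoidAlgebra.induction_on with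
    | of k => simpa [polarExpr] using h.polar g k
    | add a b ha hb => rw [polarExpr_comm, polarExpr_add_left, polarExpr_comm, ha,
        polarExpr_comm, hb, add_zero]
    | smul c a ha => rw [polarExpr_comm, polarExpr_smul_left, polarExpr_comm, ha, smul_zero]
  | add a b ha hb => rw [polarExpr_add_left, ha, hb, add_zero]
  | smul c a ha => rw [polarExpr_smul_left, ha, smul_zero]

theorem IsCH.liftPsi_ch (h : IsCH ρ ψ) (x : MonoidAlgebra R G) :
    liftPsi ψ x * liftPsi ψ x - (liftRho ρ x).trace • liftPsi ψ x +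
      (liftRho ρ x).det • (1 : B) = 0 := by
  induction x using MonoidAlgebra.induction_on with
  | of g => simpa using h g
  | add a b ha hb =>
    have := h.polarExpr_eq_zero a b
    rw [polarExpr] at this
    simp only [map_add, trace_add, det_add_fin_two, add_smul, mul_add, add_mul, smul_add]
    refine Eq.trans ?_ ((congrArg₂ (· + ·) (congrArg₂ (· + ·) ha hb) this).trans (by simp))
    abel
  | smul c a ha =>
    simp only [map_smul, trace_smul, det_smul, Fintype.card_fin, smul_mul_assoc, mul_smul_comm,
      smul_smul, smul_eq_mul]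
    rw [show c * (liftRho ρ a).trace * c = c * c * (liftRho ρ a).trace by ring, sq,
      ← smul_smul (c * c), ← smul_smul (c * c), ← smul_sub, ← smul_add, ha, smul_zero]

/-- Elements killed by `ρ` are killed by `ψ`. -/
theorem IsCH.liftPsi_eq_zero (h : IsCH ρ ψ) (hsurj : Function.Surjective (liftRho ρ))
    {x : MonoidAlgebra R G} (hx : liftRho ρ x = 0) : liftPsi ψ x = 0 := by
  obtain ⟨u, hu⟩ := hsurj !![0, 1; 0, 0]
  obtain ⟨w, hw⟩ := hsurj !![0, 0; 1, 0]
  set U := liftPsi ψ u
  set W := liftPsi ψ w
  set X := liftPsi ψ x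
  have hk : ∀ y, X * liftPsi ψ y + liftPsi ψ y * X = (liftRho ρ y).trace • X := fun y => by
    have := h.polarExpr_eq_zero x y
    simp only [polarExpr, hx, trace_zero, zero_smul, sub_zero, zero_mul] at this
    rwa [add_zero, sub_eq_zero] at this
  have hXu : X * U + U * X = 0 := by rw [hk, hu]; simp [trace_fin_two]
  have hXw : X * W + W * X = 0 := by rw [hk, hw]; simp [trace_fin_two]
  have hXe : X * (U * W) + U * W * X = X := by
    rw [← map_mul, hk, map_mul, hu, hw]; simp [trace_fin_two]
  have hUU : U * U = 0 := by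
    have := h.liftPsi_ch u
    rw [hu] at this
    simpa [trace_fin_two, det_fin_two] using this
  have hWW : W * W = 0 := by
    have := h.liftPsi_ch w
    rw [hw] at this
    simpa [trace_fin_two, det_fin_two] using this
  have hone : U * W + W * U = 1 := by
    have := h.polarExpr_eq_zero u w
    simp only [polarExpr, hu, hw] at this
    simp [trace_fin_two] at this
    exact add_neg_eq_zero.mp this
  have hWUW : W * U * W = W := by
    calc W * U * W = (U * W + W * U) * W - U * (W * W) := by noncomm_ring
      _ = _ := by rw [hone, hWW]; simp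
  have hUWU : U * W * U = U := by
    calc U * W * U = U * (U * W + W * U) - U * U * W := by noncomm_ring
      _ = _ := by rw [hone, hUU]; simp
  have hEXE : U * W * X * (U * W) = 0 := by
    have h1 := congrArg (fun b => U * W * b * (U * W)) hXe
    have h2 : U * W * (X * (U * W) + U * W * X) * (U * W) =
        U * W * X * ((U * W * U) * W) + (U * W * U) * W * X * (U * W) := by noncomm_ring
    simp only [h2, hUWU] at h1
    exact add_eq_left.mp h1
  have hFXF : W * U * X * (W * U) = 0 := by
    have h1 := congrArg (fun b => W * U * b * (W * U)) hXe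
    have h2 : W * U * (X * (U * W) + U * W * X) * (W * U) =
        W * U * X * U * (W * W) * U + W * (U * U) * W * X * (W * U) := by noncomm_ring
    simp only [h2, hUU, hWW, mul_zero, zero_mul, add_zero] at h1
    exact h1.symm
  have hFXE : W * U * X * (U * W) = 0 := by
    have h1 := congrArg (fun b => W * (U * W) * b * (U * W)) hXu
    have h2 : W * (U * W) * (X * U + U * X) * (U * W) =
        W * U * W * X * (U * U) * W + W * (U * W * U) * X * (U * W) := by noncomm_ring
    simp only [h2, hUU, hUWU, mul_zero, zero_mul, zero_add] at h1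
    exact h1
  have hEXF : U * W * X * (W * U) = 0 := by
    have h1 := congrArg (fun b => U * W * b * ((U * W) * U)) hXw
    have h2 : U * W * (X * W + W * X) * (U * W * U) =
        U * W * X * (W * U * W) * U + U * (W * W) * X * (U * W * U) := by noncomm_ring
    simp only [h2, hWW, hWUW, mul_zero, zero_mul, add_zero] at h1
    simpa [mul_assoc] using h1
  calc X = (U * W + W * U) * X * (U * W + W * U) := by rw [hone]; simp
    _ = U * W * X * (U * W) + U * W * X * (W * U) + (W * U * X * (U * W) + W * U * X * (W * U)) :=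
      by noncomm_ring
    _ = 0 := by rw [hEXE, hEXF, hFXE, hFXF]; simp

/-- `ψ` factors through the matrix algebra. -/
theorem IsCH.exists_algHom (h : IsCH ρ ψ) (hspan : Submodule.span R (Set.range ρ) = ⊤) :
    ∃ Ψ : (Matrix (Fin 2) (Fin 2) R) →ₐ[R] B, ∀ g, Ψ (ρ g) = ψ g := by
  have hsurj : Function.Surjective (liftRho ρ) := by
    intro X
    have hX : X ∈ Submodule.span R (Set.range ρ) := hspan ▸ Submodule.mem_top
    induction hX using Submodule.span_induction with
    | mem X hX => obtain ⟨g, rfl⟩ := hX; exact ⟨MonoidAlgebra.of R G g, by simp⟩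
    | zero => exact ⟨0, map_zero _⟩
    | add _ _ _ _ h1 h2 =>
      obtain ⟨a, rfl⟩ := h1; obtain ⟨b, rfl⟩ := h2; exact ⟨a + b, map_add _ _ _⟩
    | smul c _ _ h1 => obtain ⟨a, rfl⟩ := h1; exact ⟨c • a, map_smul _ _ _⟩
  choose s hs using hsurj
  have key : ∀ {x y : MonoidAlgebra R G}, liftRho ρ x = liftRho ρ y →
      liftPsi ψ x = liftPsi ψ y := fun {x y} hxy =>
    sub_eq_zero.mp (by
      rw [← map_sub]; exact h.liftPsi_eq_zero (fun X => ⟨s X, hs X⟩)
        (by rw [map_sub, hxy, sub_self]))
  refine ⟨{ toFun := fun X => liftPsi ψ (s X)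
            map_one' := by rw [← map_one (liftPsi (R := R) ψ)]; exact key (by rw [hs, map_one])
            map_mul' := fun X Y => by rw [← map_mul]; exact key (by rw [hs, map_mul, hs, hs])
            map_zero' := by rw [← map_zero (liftPsi (R := R) ψ)]; exact key (by rw [hs, map_zero])
            map_add' := fun X Y => by rw [← map_add]; exact key (by rw [hs, map_add, hs, hs])
            commutes' := fun c => by
              rw [← AlgHom.commutes (liftPsi (R := R) ψ)]; exact key
                (by rw [hs, AlgHom.commutes]) },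
    fun g => ?_⟩
  show liftPsi ψ (s (ρ g)) = ψ g
  rw [key (y := MonoidAlgebra.of R G g) (by rw [hs]; simp)]
  simp

end FLTAgent.IgusaCover

end
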