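import Mathlib.RingTheory.DiscreteValuationRing.Basic
import Mathlib.RingTheory.Finiteness.Cardinality
import Mathlib.RingTheory.Ideal.Quotient.Index
import Mathlib.RingTheory.LocalRing.ResidueField.Basic
import Mathlib.Algebra.Algebra.ZMod
import Mathlib.Algebra.Field.ZMod
import Mathlib.Algebra.Module.ZMod

/-!
# The coefficient rings `O/p ^ k`

For a discrete valuation ring with finite residue field: coordinates of `O/n` over `ℤ/n`
(`exists_coords`) and the socle of `O/n` as a line over the residue field (`exists_socle`).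
-/

set_option autoImplicit false

noncomputable section

namespace FLTAgent.IgusaCover

open IsLocalRing

variable {O : Type} [CommRing O] [IsDomain O] [IsDiscreteValuationRing O] [CharZero O]
  [Finite (ResidueField O)]
variable (p : ℕ) [hp : Fact p.Prime]

theorem finite_quot_natCast {n : ℕ} (hn : n ≠ 0) : Finite (O ⧸ Ideal.span {(n : O)}) := by
  obtain ⟨ϖ, hϖ⟩ := IsDiscreteValuationRing.exists_irreducible O
  obtain ⟨k, u, hu⟩ := IsDiscreteValuationRing.eq_unit_mul_pow_irreducible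
    (show (n : O) ≠ 0 from Nat.cast_ne_zero.mpr hn) hϖ
  have : Finite (O ⧸ maximalIdeal O) := ‹Finite (ResidueField O)›
  have h : Ideal.span {(n : O)} = maximalIdeal O ^ k := by
    rw [(IsDiscreteValuationRing.irreducible_iff_uniformizer ϖ).mp hϖ, Ideal.span_singleton_pow, hu,
      Ideal.span_singleton_mul_left_unit u.isUnit]
  rw [h]
  exact Ideal.finite_quotient_pow (IsNoetherian.noetherian _) k

omit [CommRing O] [IsDomain O] [IsDiscreteValuationRing O] [CharZero O] [Finite (ResidueField O)] in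
theorem exists_int_basis' (Q : Type) [AddCommGroup Q] [Finite Q] [Module (ZMod p) Q] :
    ∃ (d : ℕ) (b : Fin d → Q), (∀ x, ∃ z : Fin d → ℤ, ∑ i, z i • b i = x) ∧
      ∀ z : Fin d → ℤ, ∑ i, z i • b i = 0 → ∀ i, (p : ℤ) ∣ z i := by
  let B := Module.finBasis (ZMod p) Q
  refine ⟨_, B, fun x => ?_, fun z hz i => ?_⟩
  · choose z hz using fun i => ZMod.intCast_surjective (B.repr x i)
    exact ⟨z, by simp only [← Int.cast_smul_eq_zsmul (ZMod p), hz, B.sum_repr]⟩
  · simp only [← Int.cast_smul_eq_zsmul (ZMod p)] at hz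
    exact (ZMod.intCast_zmod_eq_zero_iff_dvd _ _).mp
      (Fintype.linearIndependent_iff.mp B.linearIndependent _ hz i)

omit [CommRing O] [IsDomain O] [IsDiscreteValuationRing O] [CharZero O] [Finite (ResidueField O)] in
theorem exists_int_basis (Q : Type) [AddCommGroup Q] [Finite Q] (h : ∀ x : Q, p • x = 0) :
    ∃ (d : ℕ) (b : Fin d → Q), (∀ x, ∃ z : Fin d → ℤ, ∑ i, z i • b i = x) ∧
      ∀ z : Fin d → ℤ, ∑ i, z i • b i = 0 → ∀ i, (p : ℤ) ∣ z i :=
  @exists_int_basis' p hp Q _ _ (AddCommGroup.zmodModule h)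

/-- Coordinates on `O/n` for a power `n` of `p`. -/
theorem exists_coords {n k : ℕ} (hn : n = p ^ k) :
    ∃ d : ℕ, Nonempty ((O ⧸ Ideal.span {(n : O)}) ≃+ (Fin d → ZMod n)) := by
  classical
  let Q := O ⧸ Ideal.span {(p : O)}
  have : Finite Q := finite_quot_natCast hp.out.ne_zero
  obtain ⟨d, B, hBs, hBi⟩ := exists_int_basis p Q fun x => by
    obtain ⟨y, rfl⟩ := Ideal.Quotient.mk_surjective x
    rw [nsmul_eq_mul, ← map_natCast (Ideal.Quotient.mk _), ← map_mul]
    exact Ideal.Quotient.eq_zero_iff_mem.mpr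
      (Ideal.mul_mem_right _ _ (Ideal.subset_span rfl))
  refine ⟨d, ?_⟩
  choose w hw using fun i => Ideal.Quotient.mk_surjective (B i)
  let S : (Fin d → ℤ) → O := fun z => ∑ i, (z i : O) * w i
  have hS : ∀ y z, S (y + z) = S y + S z := fun y z => by
    simp only [S, Pi.add_apply, Int.cast_add, add_mul, Finset.sum_add_distrib]
  have hSc : ∀ (c : ℤ) z, S (fun i => c * z i) = (c : O) * S z := fun c z => by
    simp only [S, Int.cast_mul, mul_assoc, Finset.mul_sum]
  have hmk : ∀ z, Ideal.Quotient.mk (Ideal.span {(p : O)}) (S z) =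
      ∑ i, z i • B i := fun z => by
    rw [map_sum]
    refine Finset.sum_congr rfl fun i _ => ?_
    rw [map_mul, map_intCast, hw, zsmul_eq_mul]
  have hpk : ∀ r : ℕ, ((p : O) ^ r) ≠ 0 := fun r =>
    pow_ne_zero _ (Nat.cast_ne_zero.mpr hp.out.ne_zero)
  have hinj : ∀ (r : ℕ) z, (p : O) ^ r ∣ S z → ∀ i, (p : ℤ) ^ r ∣ z i := by
    intro r
    induction r with
    | zero => intro z _ i; simp
    | succ r ih =>
      intro z hz
      choose y hy using ih z ((pow_dvd_pow _ r.le_succ).trans hz)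
      have hzy : z = fun i => (p : ℤ) ^ r * y i := funext hy
      rw [hzy, hSc, Int.cast_pow, Int.cast_natCast, pow_succ,
        mul_dvd_mul_iff_left (hpk r)] at hz
      have h0 : ∑ i, y i • B i = 0 := by
        rw [← hmk]
        exact Ideal.Quotient.eq_zero_iff_dvd _ _ |>.mpr hz
      intro i
      rw [hy i, pow_succ]
      exact mul_dvd_mul_left _ (hBi y h0 i)
  have hsurj : ∀ (r : ℕ) (x : O), ∃ z, (p : O) ^ r ∣ x - S z := by
    intro r x
    induction r with
    | zero => exact ⟨0, by simp⟩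
    | succ r ih =>
      obtain ⟨z, c, hc⟩ := ih
      obtain ⟨y, hy⟩ := hBs (Ideal.Quotient.mk (Ideal.span {(p : O)}) c)
      obtain ⟨c', hc'⟩ : (p : O) ∣ c - S y := by
        rw [← Ideal.mem_span_singleton, ← Ideal.Quotient.eq_zero_iff_mem, map_sub, hmk, hy,
          sub_self]
      refine ⟨z + fun i => (p : ℤ) ^ r * y i, c', ?_⟩
      rw [hS, hSc, Int.cast_pow, Int.cast_natCast, pow_succ]
      linear_combination hc + (p : O) ^ r * hc'
  subst hn
  let R := O ⧸ Ideal.span {((p ^ k : ℕ) : O)}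
  have hnR : ∀ i, zmultiplesHom R (Ideal.Quotient.mk _ (w i)) ((p ^ k : ℕ) : ℤ) = 0 := fun i => by
    rw [zmultiplesHom_apply, zsmul_eq_mul, Int.cast_natCast,
      show (((p ^ k : ℕ)) : R) = Ideal.Quotient.mk _ ((p ^ k : ℕ) : O) from (map_natCast _ _).symm,
      Ideal.Quotient.mk_singleton_self, zero_mul]
  let f : (Fin d → ZMod (p ^ k)) →+ R :=
    ∑ i, (ZMod.lift (p ^ k) ⟨_, hnR i⟩).comp (Pi.evalAddMonoidHom (fun _ => ZMod (p ^ k)) i)
  have hf : ∀ z : Fin _ → ℤ, f (fun i => (z i : ZMod (p ^ k))) = Ideal.Quotient.mk _ (S z) := by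
    intro z
    rw [AddMonoidHom.finsetSum_apply, map_sum]
    refine Finset.sum_congr rfl fun i _ => ?_
    rw [map_mul, map_intCast, AddMonoidHom.comp_apply, Pi.evalAddMonoidHom_apply, ZMod.lift_coe,
      zmultiplesHom_apply, zsmul_eq_mul]
  refine ⟨(AddEquiv.ofBijective f ⟨(injective_iff_map_eq_zero f).mpr fun v hv => ?_,
    fun x => ?_⟩).symm⟩
  · choose z hz using fun i => ZMod.intCast_surjective (v i)
    have hv' : v = fun i => (z i : ZMod (p ^ k)) := funext fun i => (hz i).symm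
    rw [hv', hf, Ideal.Quotient.eq_zero_iff_dvd, Nat.cast_pow] at hv
    refine funext fun i => ?_
    rw [← hz i, Pi.zero_apply, ZMod.intCast_zmod_eq_zero_iff_dvd, Nat.cast_pow]
    exact hinj k z hv i
  · obtain ⟨y, rfl⟩ := Ideal.Quotient.mk_surjective x
    obtain ⟨z, hz⟩ := hsurj k y
    exact ⟨fun i => (z i : ZMod (p ^ k)), by
      rw [hf, eq_comm, Ideal.Quotient.mk_eq_mk_iff_sub_mem, Ideal.mem_span_singleton, Nat.cast_pow]
      exact hz⟩

omit [CharZero O] in
/-- Coordinates on the residue field. -/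
theorem exists_coords_residue [CharP (ResidueField O) p] :
    ∃ d : ℕ, Nonempty (ResidueField O ≃+ (Fin d → ZMod p)) := by
  let : Algebra (ZMod p) (ResidueField O) := ZMod.algebra _ p
  exact ⟨_, ⟨(Module.finBasis (ZMod p) (ResidueField O)).equivFun.toAddEquiv⟩⟩

variable {n : ℕ}

/-- Reduction `O/n → κ`. -/
def quotResidue (hn : residue O (n : O) = 0) : O ⧸ Ideal.span {(n : O)} →+* ResidueField O :=
  Ideal.Quotient.lift _ (residue O) fun x hx => by
    obtain ⟨y, rfl⟩ := Ideal.mem_span_singleton.mp hx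
    rw [map_mul, hn, zero_mul]

omit [CharZero O] [Finite (ResidueField O)] in
theorem quotResidue_mk (hn : residue O (n : O) = 0) (x : O) :
    quotResidue hn (Ideal.Quotient.mk _ x) = residue O x := Ideal.Quotient.lift_mk _ _ _

omit [Finite (ResidueField O)] in
/-- The socle of `O/n` is a line over the residue field. -/
theorem exists_socle (hn0 : n ≠ 0) (hn : residue O (n : O) = 0) :
    ∃ (ϖ : O ⧸ Ideal.span {(n : O)}) (g : ResidueField O →+ O ⧸ Ideal.span {(n : O)}) (K : ℕ),
      Function.Injective g ∧ (∀ r c, g (quotResidue hn r * c) = r * g c) ∧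
        (∀ y, ϖ * y = 0 → ∃ c, g c = y) ∧ ϖ ^ K = 0 := by
  obtain ⟨π, hπ⟩ := IsDiscreteValuationRing.exists_irreducible O
  obtain ⟨N, u, hu⟩ := IsDiscreteValuationRing.eq_unit_mul_pow_irreducible
    (show (n : O) ≠ 0 from Nat.cast_ne_zero.mpr hn0) hπ
  have hmem : ∀ x : O, residue O x = 0 ↔ π ∣ x := fun x => by
    rw [residue_eq_zero_iff, (IsDiscreteValuationRing.irreducible_iff_uniformizer π).mp hπ,
      Ideal.mem_span_singleton]
  obtain ⟨N', rfl⟩ : ∃ N', N = N' + 1 := Nat.exists_eq_succ_of_ne_zero fun h => by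
    rw [h, pow_zero, mul_one] at hu
    exact ((residue_ne_zero_iff_isUnit _).mpr (hu ▸ u.isUnit)) hn
  have hzero : ∀ x : O, Ideal.Quotient.mk (Ideal.span {(n : O)}) x = 0 ↔
      π ^ (N' + 1) ∣ x := fun x => by
    rw [Ideal.Quotient.eq_zero_iff_dvd, hu, Units.mul_left_dvd]
  let s := Function.surjInv (residue_surjective (R := O))
  have key : ∀ y : O, Ideal.Quotient.mk (Ideal.span {(n : O)}) (s (residue O y) * π ^ N') =
      Ideal.Quotient.mk _ (y * π ^ N') := fun y => by
    rw [← sub_eq_zero, ← map_sub, hzero, ← sub_mul, pow_succ']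
    refine mul_dvd_mul_right ((hmem _).mp ?_) _
    rw [map_sub, Function.surjInv_eq residue_surjective, sub_self]
  let g : ResidueField O →+ O ⧸ Ideal.span {(n : O)} :=
    AddMonoidHom.mk' (fun c => Ideal.Quotient.mk _ (s c * π ^ N')) fun a b => by
      obtain ⟨a, rfl⟩ := residue_surjective a
      obtain ⟨b, rfl⟩ := residue_surjective b
      rw [← map_add (residue O), key, key, key, ← map_add, add_mul]
  have hg : ∀ y, g (residue O y) = Ideal.Quotient.mk _ (y * π ^ N') := key
  refine ⟨Ideal.Quotient.mk _ π, g, N' + 1, (injective_iff_map_eq_zero g).mpr fun c hc => ?_,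
    fun r c => ?_, fun y hy => ?_, by rw [← map_pow, hzero]⟩
  · obtain ⟨c, rfl⟩ := residue_surjective c
    rw [hg, hzero, pow_succ', mul_dvd_mul_iff_right (pow_ne_zero _ hπ.ne_zero)] at hc
    exact (hmem c).mpr hc
  · obtain ⟨r, rfl⟩ := Ideal.Quotient.mk_surjective r
    obtain ⟨c, rfl⟩ := residue_surjective c
    rw [quotResidue_mk, ← map_mul, hg, hg, ← map_mul, mul_assoc]
  · obtain ⟨y, rfl⟩ := Ideal.Quotient.mk_surjective y
    rw [← map_mul, hzero, pow_succ', mul_dvd_mul_iff_left hπ.ne_zero] at hy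
    obtain ⟨z, rfl⟩ := hy
    exact ⟨residue O z, by rw [hg, mul_comm]⟩

end FLTAgent.IgusaCover

end
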