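import Fermat.Agent.IgusaCover.Congruence
import Mathlib.Data.Nat.Prime.Infinite
import Mathlib.Algebra.Ring.GeomSum
import Mathlib.GroupTheory.OrderOfElement

/-!
# Residue classes fixed by a decomposition group

For a finite group acting on a scalable field with traces in a subfield, of order prime to the
residue characteristic: residues fixed by the stabiliser of the branch come from the residue
field of the subfield (`branchRed_mem_resField_of_fixed`).
-/

set_option autoImplicit false

noncomputable section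

open ModularCurve

namespace FLTAgent.IgusaCover

section Separation

variable {F : Type*} [Field F] {ι : Type*} [Fintype ι] (O : ι → ValuationSubring F)

theorem subsingleton_bad {k : Type*} [Field k] (z : k) :
    {r : ℕ | r.Prime ∧ ∑ i ∈ Finset.range r, z ^ i = 0}.Subsingleton := by
  rintro a ⟨ha, ha0⟩ b ⟨hb, hb0⟩
  rcases eq_or_ne z 1 with rfl | hz
  · simp only [one_pow, Finset.sum_const, Finset.card_range, nsmul_one] at ha0 hb0
    by_contra hne
    have h1 := (CharP.cast_eq_zero_iff k (ringChar k) a).mp ha0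
    have h2 := (CharP.cast_eq_zero_iff k (ringChar k) b).mp hb0
    have h3 : ringChar k ∣ 1 := (Nat.coprime_primes ha hb).mpr hne ▸ Nat.dvd_gcd h1 h2
    exact CharP.ringChar_ne_one (R := k) (Nat.dvd_one.mp h3)
  · have key : ∀ r : ℕ, ∑ i ∈ Finset.range r, z ^ i = 0 → z ^ r = 1 := fun r h => by
      have := geom_sum_mul z r
      rw [h, zero_mul] at this
      exact sub_eq_zero.mp this.symm
    by_contra hne
    apply hz
    rw [← orderOf_eq_one_iff, ← Nat.dvd_one, ← ((Nat.coprime_primes ha hb).mpr hne).gcd_eq_one]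
    exact Nat.dvd_gcd (orderOf_dvd_of_pow_eq_one (key a ha0))
      (orderOf_dvd_of_pow_eq_one (key b hb0))

/-- An element bounded everywhere, a unit where `x` is integral, small where it is not, and
clearing the poles of `x`. -/
theorem exists_clear (x : F) : ∃ y : F, ∀ i, y ∈ O i ∧ x * y ∈ O i ∧
    (x ∈ O i → (O i).valuation y = 1) ∧ (x ∉ O i → y ∈ (O i).nonunits) := by
  classical
  let bad : ι → Set ℕ := fun i => {r : ℕ | r.Prime ∧ ∃ h : x ∈ O i, ∑ j ∈ Finset.range r,
    IsLocalRing.residue (O i) ⟨x, h⟩ ^ j = 0}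
  have hfin : ∀ i, (bad i).Finite := fun i => by
    by_cases h : x ∈ O i
    · exact (subsingleton_bad (IsLocalRing.residue (O i) ⟨x, h⟩)).finite.subset
        fun r hr => ⟨hr.1, hr.2.choose_spec⟩
    · exact Set.finite_empty.subset fun r hr => absurd hr.2.choose h
  obtain ⟨r, hr, hrb⟩ := (Nat.infinite_setOfPred_prime.sdiff
    ((Set.finite_iUnion hfin).union (Set.finite_singleton 2))).nonempty
  simp only [Set.mem_union, Set.mem_iUnion, Set.mem_singleton_iff, not_or, not_exists] at hrb
  obtain ⟨hbad, hr2⟩ := hrb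
  replace hr : r.Prime := hr
  have hr3 : 3 ≤ r := lt_of_le_of_ne hr.two_le (Ne.symm hr2)
  refine ⟨(∑ j ∈ Finset.range r, x ^ j)⁻¹, fun i => ?_⟩
  set s : F := ∑ j ∈ Finset.range r, x ^ j with hs
  by_cases h : x ∈ O i
  · have hu : (O i).valuation s = 1 := by
      have hres : IsLocalRing.residue (O i) (∑ j ∈ Finset.range r, (⟨x, h⟩ : O i) ^ j) ≠ 0 := by
        rw [map_sum]
        simp only [map_pow]
        exact fun h0 => hbad i ⟨hr, h, h0⟩
      rw [IsLocalRing.residue_ne_zero_iff_isUnit] at hres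
      have := ((O i).valuation_eq_one_iff _).mp hres
      simpa [hs] using this
    have hy : (O i).valuation s⁻¹ = 1 := by rw [map_inv₀, hu, inv_one]
    refine ⟨((O i).valuation_le_one_iff _).mp hy.le, ((O i).valuation_le_one_iff _).mp ?_,
      fun _ => hy, fun h' => absurd h h'⟩
    rw [map_mul, hy, mul_one]
    exact ((O i).valuation_le_one_iff _).mpr h
  · have hx : 1 < (O i).valuation x :=
      lt_of_not_ge fun hle => h (((O i).valuation_le_one_iff x).mp hle)
    have hx0 : (O i).valuation x ≠ 0 := (zero_lt_one.trans hx).ne'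
    have hvs : (O i).valuation s * (O i).valuation x = (O i).valuation x ^ r := by
      have h1 : (O i).valuation (x - 1) = (O i).valuation x :=
        (O i).valuation.map_sub_eq_of_lt_left (by rwa [map_one])
      have h2 : (O i).valuation (x ^ r - 1) = (O i).valuation x ^ r := by
        rw [(O i).valuation.map_sub_eq_of_lt_left, map_pow]
        rw [map_one, map_pow]
        exact one_lt_pow₀ hx hr.ne_zero
      rw [← h1, ← map_mul, hs, geom_sum_mul, h2, h1]
    have hvs' : (O i).valuation s = (O i).valuation x ^ (r - 1) := by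
      rw [← mul_left_inj' hx0, hvs, ← pow_succ, Nat.sub_add_cancel hr.pos]
    have hlt : (O i).valuation s⁻¹ < 1 := by
      rw [map_inv₀, hvs']
      exact inv_lt_one_of_one_lt₀ (one_lt_pow₀ hx (by omega))
    refine ⟨((O i).valuation_le_one_iff _).mp hlt.le, ((O i).valuation_le_one_iff _).mp ?_,
      fun h' => absurd h' h, fun _ => (O i).mem_nonunits_iff.mpr hlt⟩
    rw [map_mul, map_inv₀, hvs', show r - 1 = (r - 2) + 1 by omega, pow_succ, mul_inv_rev,
      ← mul_assoc, mul_inv_cancel₀ hx0, one_mul]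
    exact (inv_le_one_of_one_le₀ (one_le_pow₀ hx.le))

/-- An element bounded everywhere, a unit at `O i₀` and small at the other rings. -/
theorem exists_separating (i₀ : ι) (hinc : ∀ i, O i ≠ O i₀ → ¬ O i₀ ≤ O i) :
    ∃ b : F, (∀ i, b ∈ O i) ∧ (O i₀).valuation b = 1 ∧ ∀ i, O i ≠ O i₀ → b ∈ (O i).nonunits := by
  classical
  have hx : ∀ i, ∃ y : F, (∀ j, y ∈ O j) ∧ (O i₀).valuation y = 1 ∧
      (O i ≠ O i₀ → y ∈ (O i).nonunits) := fun i => by
    by_cases h : O i = O i₀
    · exact ⟨1, fun j => one_mem _, map_one _, fun h' => absurd h h'⟩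
    · obtain ⟨x, hx₀, hxi⟩ := SetLike.not_le_iff_exists.mp (hinc i h)
      obtain ⟨y, hy⟩ := exists_clear O x
      exact ⟨y, fun j => (hy j).1, (hy i₀).2.2.1 hx₀, fun _ => (hy i).2.2.2 hxi⟩
  choose y hy hy0 hyn using hx
  refine ⟨∏ i, y i, fun j => prod_mem fun i _ => hy i j, ?_, fun i hi => ?_⟩
  · rw [map_prod]; exact Finset.prod_eq_one fun i _ => hy0 i
  · rw [(O i).mem_nonunits_iff, map_prod,
      ← Finset.mul_prod_erase _ _ (Finset.mem_univ i)]
    exact mul_lt_one_of_lt_of_le ((O i).mem_nonunits_iff.mp (hyn i hi))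
      (Finset.prod_le_one' fun j _ => ((O i).valuation_le_one_iff _).mpr (hy j i))

end Separation

section Fixed

universe u

variable {K : Type u} [Field K] {A : ValuationSubring K}
variable {F₀ F : IntermediateField K (LaurentSeries K)} {hF₀ : Scalable A F₀} {hF : Scalable A F}
variable {G : Type*} [Group G] [Fintype G] (act : G →* (F ≃ₐ[K] F))

theorem branchRed_eq_zero_of_nonunit {f : branch hF} (h : (f : F) ∈ (branch hF).nonunits) :
    branchRed hF f = 0 := by
  by_contra h0
  have h1 := (branch hF).mem_nonunits_iff.mp h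
  have h2 := ((branch hF).valuation_le_one_iff _).mpr (inv_mem_branch h0)
  have h3 : (f : F) ≠ 0 := fun e => h0 (by rw [show f = 0 from Subtype.ext e, map_zero])
  rw [map_inv₀, inv_le_one₀ (((branch hF).valuation.pos_iff).mpr h3)] at h2
  exact absurd h1 (not_lt.mpr h2)

theorem branchRed_ne_zero_of_valuation {f : F} (hf : (branch hF).valuation f = 1) :
    ∃ hm : f ∈ branch hF, branchRed hF ⟨f, hm⟩ ≠ 0 := by
  have hm : f ∈ branch hF := ((branch hF).valuation_le_one_iff _).mp hf.le
  have hi : f⁻¹ ∈ branch hF := ((branch hF).valuation_le_one_iff _).mp (by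
    rw [map_inv₀, hf, inv_one])
  have hf0 : f ≠ 0 := fun e => by rw [e, map_zero] at hf; exact zero_ne_one hf
  refine ⟨hm, fun h0 => one_ne_zero (α := LaurentSeries (ResK A)) ?_⟩
  calc (1 : LaurentSeries (ResK A)) = branchRed hF (⟨f, hm⟩ * ⟨f⁻¹, hi⟩) := by
        rw [show (⟨f, hm⟩ : branch hF) * ⟨f⁻¹, hi⟩ = 1 from Subtype.ext (mul_inv_cancel₀ hf0),
          map_one]
    _ = 0 := by rw [map_mul, h0, zero_mul]

/-- A branch element lying in a smaller field is a branch element of that field. -/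
theorem branchRed_mem_resField_of_mem (hle : F₀ ≤ F) (hF₀ : Scalable A F₀) {f : branch hF}
    (h : ((f : F) : LaurentSeries K) ∈ F₀) : branchRed hF f ∈ resField hF₀ := by
  rcases eq_or_ne (branchRed hF f) 0 with h0 | h0
  · rw [h0]; exact (resField hF₀).zero_mem
  let f₀ : F₀ := ⟨_, h⟩
  have hf₀ : f₀ ≠ 0 := fun e => h0 (by
    rw [show f = 0 from Subtype.ext (Subtype.ext (by simpa [f₀] using congrArg Subtype.val e)),
      map_zero])
  obtain ⟨c, hc, -, hc0⟩ := exists_smul_branch hF₀ hf₀
  let θ : F₀ →*₀ F := (IntermediateField.inclusion hle : F₀ →ₐ[K] F).toRingHom.toMonoidWithZeroHom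
  have hθ : Lifts (A := A) θ (MonoidWithZeroHom.id _) := lifts_id θ fun _ => rfl
  obtain ⟨hm, he⟩ := hθ.map_branch hF₀ hF ⟨_, hc⟩
  have hm' : algebraMap K F c * (f : F) ∈ branch hF :=
    (congrArg (· ∈ branch hF) (map_mul θ (algebraMap K F₀ c) f₀)).mp hm
  have he' : branchRed hF ⟨_, hm'⟩ = branchRed hF₀ ⟨_, hc⟩ := he ▸ rfl
  obtain ⟨a, ha, hae⟩ := exists_const_of_smul (c := c) (c' := 1) hm' (by simp)
    (he' ▸ hc0) (by
      rwa [show (⟨algebraMap K F 1 * (f : F), by simp⟩ : branch hF) = f from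
        Subtype.ext (by simp)])
  rw [show (⟨algebraMap K F 1 * (f : F), by simp⟩ : branch hF) = f from Subtype.ext (by simp)]
    at hae
  rw [hae, he']
  exact (resField hF₀).mul_mem (C_mem_resField a) (branchRed_mem _)

/-- The residue of a sum over the group only sees the stabiliser. -/
theorem trace_mem_resField (hle : F₀ ≤ F) (hF₀ : Scalable A F₀)
    (htr : ∀ f : F, ((∑ g, act g f : F) : LaurentSeries K) ∈ F₀) (D : Finset G) (z : F)
    (hz : ∀ g, act g z ∈ branch hF)
    (hzn : ∀ g, g ∉ D → act g z ∈ (branch hF).nonunits) (c : LaurentSeries (ResK A))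
    (hc : ∀ g ∈ D, branchRed hF ⟨act g z, hz g⟩ = c) :
    ((D.card : ℕ) : LaurentSeries (ResK A)) * c ∈ resField hF₀ := by
  let t : G → branch hF := fun g => ⟨act g z, hz g⟩
  have hval : branchRed hF (∑ g, t g) = (D.card : LaurentSeries (ResK A)) * c := by
    rw [map_sum, ← Finset.sum_subset (Finset.subset_univ D) fun g _ hg =>
      branchRed_eq_zero_of_nonunit (hzn g hg), Finset.sum_congr rfl fun g hg => hc g hg,
      Finset.sum_const, nsmul_eq_mul]
  rw [← hval]
  refine branchRed_mem_resField_of_mem hle hF₀ ?_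
  show (((branch hF).subtype (∑ g, t g) : F) : LaurentSeries K) ∈ F₀
  rw [map_sum]
  exact htr z

theorem comap_eq_of_le {O : ValuationSubring F} {g : F ≃ₐ[K] F} (hg : IsOfFinOrder g)
    (h : O ≤ O.comap (g : F →+* F)) : O.comap (g : F →+* F) = O := by
  refine le_antisymm (fun x hx => ?_) h
  obtain ⟨n, hn, hgn⟩ := isOfFinOrder_iff_pow_eq_one.mp hg
  have hiter : ∀ m : ℕ, ∀ z ∈ O, (g ^ m) z ∈ O := fun m => by
    induction m with
    | zero => exact fun z hz => hz
    | succ m ih => exact fun z hz => by rw [pow_succ, AlgEquiv.mul_apply]; exact ih _ (h hz)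
  have h1 := hiter (n - 1) (g x) hx
  rwa [← AlgEquiv.mul_apply, ← pow_succ, Nat.sub_add_cancel hn, hgn, AlgEquiv.one_apply] at h1

/-- Residues fixed by the stabiliser of the branch come from the field of invariants. -/
theorem branchRed_mem_resField_of_fixed (hle : F₀ ≤ F) (hF₀ : Scalable A F₀)
    (htr : ∀ f : F, ((∑ g, act g f : F) : LaurentSeries K) ∈ F₀)
    (hcard : ((Nat.card G : ℕ) : ResK A) ≠ 0) (s : branch hF)
    (hfix : ∀ g, ∀ hg : ∀ z ∈ branch hF, act g z ∈ branch hF,
      branchRed hF ⟨act g (s : F), hg _ s.2⟩ = branchRed hF s) :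
    branchRed hF s ∈ resField hF₀ := by
  classical
  let O : G → ValuationSubring F := fun g => (branch hF).comap (act g : F →+* F)
  have hO1 : O 1 = branch hF := by
    ext z; show act 1 z ∈ branch hF ↔ _; rw [map_one, AlgEquiv.one_apply]
  have hinc : ∀ g, O g ≠ O 1 → ¬ O 1 ≤ O g := fun g hne hle' => hne (by
    rw [hO1] at hle' ⊢
    exact comap_eq_of_le (act.isOfFinOrder (isOfFinOrder_of_finite g)) hle')
  obtain ⟨b, hb, hb1, hbn⟩ := exists_separating O 1 hinc
  obtain ⟨b', hb'⟩ := exists_clear O (s : F)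
  let D : Finset G := Finset.univ.filter fun g => O g = O 1
  have hD : ∀ {g}, g ∈ D ↔ O g = O 1 := by simp [D]
  have hcomp : ∀ g g', ∀ z, act g z ∈ O g' ↔ z ∈ O (g' * g) := fun g g' z => by
    show act g' (act g z) ∈ branch hF ↔ act (g' * g) z ∈ branch hF
    rw [map_mul, AlgEquiv.mul_apply]
  set c₀ : F := b' * b with hc₀
  set β : F := ∏ d ∈ D, act d c₀ with hβ
  have hmemD : ∀ {d}, d ∈ D → ∀ z ∈ branch hF, act d z ∈ branch hF := fun {d} hd z hz => by
    have : z ∈ O d := by rw [hD.mp hd, hO1]; exact hz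
    exact this
  have hDmulD : ∀ {d}, d ∈ D → ∀ g, O (d * g) = O g := fun {d} hd g => by
    ext z
    rw [← hcomp, hD.mp hd, hO1]
    exact Iff.rfl
  have hc₀O : ∀ g, c₀ ∈ O g := fun g => mul_mem (hb' g).1 (hb g)
  have hβO : ∀ g, β ∈ O g := fun g => prod_mem fun d _ => (hcomp d g c₀).mpr (hc₀O _)
  have hsβ : ∀ g, (s : F) * β ∈ O g := by
    intro g
    rw [hβ, ← Finset.mul_prod_erase D _ (hD.mpr rfl : (1 : G) ∈ D), map_one, AlgEquiv.one_apply,
      ← mul_assoc, hc₀, ← mul_assoc]
    exact mul_mem (mul_mem (hb' g).2.1 (hb g))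
      (prod_mem fun d _ => (hcomp d g c₀).mpr (hc₀O _))
  have hβ1 : (branch hF).valuation β = 1 := by
    rw [hβ, map_prod]
    refine Finset.prod_eq_one fun d hd => ?_
    have hu : c₀ ∈ O d ∧ c₀⁻¹ ∈ O d := by
      rw [hD.mp hd]
      refine ⟨hc₀O 1, ((O 1).valuation_le_one_iff _).mp ?_⟩
      rw [map_inv₀, hc₀, map_mul, hb1, (hb' 1).2.2.1 (by rw [hO1]; exact s.2), one_mul, inv_one]
    refine le_antisymm (((branch hF).valuation_le_one_iff _).mpr hu.1) ?_
    have h2 := ((branch hF).valuation_le_one_iff _).mpr hu.2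
    rw [show (act d : F →+* F) c₀⁻¹ = (act d c₀)⁻¹ from map_inv₀ _ _, map_inv₀] at h2
    have hne : c₀ ≠ 0 := fun e => by
      have h3 : (O 1).valuation c₀ = 1 := by
        rw [hc₀, map_mul, hb1, (hb' 1).2.2.1 (by rw [hO1]; exact s.2), one_mul]
      rw [e, map_zero] at h3
      exact zero_ne_one h3
    exact (inv_le_one₀ ((branch hF).valuation.pos_iff.mpr (by simpa using hne))).mp h2
  obtain ⟨hβm, hβ0⟩ := branchRed_ne_zero_of_valuation hβ1
  have hβfix : ∀ d ∈ D, act d β = β := fun d hd => by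
    rw [hβ, map_prod]
    refine Finset.prod_nbij (fun e => d * e) (fun e he => ?_) (fun a _ b _ h => mul_left_cancel h)
      (fun e he => ⟨d⁻¹ * e, ?_, mul_inv_cancel_left d e⟩) (fun e _ => by
        rw [← AlgEquiv.mul_apply, ← map_mul])
    · exact hD.mpr ((hDmulD hd e).trans (hD.mp he))
    · exact hD.mpr (by rw [← hDmulD hd, mul_inv_cancel_left]; exact hD.mp he)
  have hnonunit : ∀ g, ∀ z ∈ (O g).nonunits, act g z ∈ (branch hF).nonunits := fun g z hz => by
    have h1 := (O g).mem_nonunits_iff.mp hz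
    have hmem : z ∈ O g := ((O g).valuation_le_one_iff _).mp h1.le
    refine (branch hF).mem_nonunits_iff.mpr (lt_of_le_of_ne
      (((branch hF).valuation_le_one_iff _).mpr hmem) fun he => ?_)
    obtain ⟨h', h0⟩ := branchRed_ne_zero_of_valuation he
    have h2 : z⁻¹ ∈ O g := by
      show (act g : F →+* F) z⁻¹ ∈ branch hF
      exact (congrArg (· ∈ branch hF) (map_inv₀ (act g : F →+* F) z)).mpr
        (inv_mem_branch (f := ⟨act g z, h'⟩) h0)
    have hz0 : z ≠ 0 := fun e => by simp [e] at he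
    have h3 := ((O g).valuation_le_one_iff _).mpr h2
    rw [map_inv₀, inv_le_one₀ ((O g).valuation.pos_iff.mpr hz0)] at h3
    exact h1.not_ge h3
  have hn : ∀ g, g ∉ D → b ∈ (O g).nonunits := fun g hg => hbn g fun e => hg (hD.mpr e)
  have hbadn : ∀ g, g ∉ D → ∀ x ∈ O g, ∀ y ∈ (O g).nonunits, x * y ∈ (O g).nonunits :=
    fun g _ x hx y hy => by
      rw [(O g).mem_nonunits_iff, map_mul]
      rw [mul_comm]
      exact mul_lt_one_of_lt_of_le ((O g).mem_nonunits_iff.mp hy)
        (((O g).valuation_le_one_iff _).mpr hx)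
  have h2 := trace_mem_resField act hle hF₀ htr D β hβO (fun g hg => hnonunit g _ (by
      rw [hβ, ← Finset.mul_prod_erase D _ (hD.mpr rfl : (1 : G) ∈ D), map_one, AlgEquiv.one_apply,
        mul_comm, hc₀, ← mul_assoc]
      exact hbadn g hg _ (mul_mem (prod_mem fun d _ => (hcomp d g _).mpr (hc₀O _)) (hb' g).1)
        _ (hn g hg)))
    (branchRed hF ⟨β, hβm⟩) (fun g hg => congrArg _ (Subtype.ext (hβfix g hg)))
  have h1 := trace_mem_resField act hle hF₀ htr D ((s : F) * β) hsβ
    (fun g hg => hnonunit g _ (by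
      rw [hβ, ← Finset.mul_prod_erase D _ (hD.mpr rfl : (1 : G) ∈ D), map_one, AlgEquiv.one_apply,
        hc₀, ← mul_assoc, ← mul_assoc, mul_comm _ (∏ x ∈ D.erase 1, _), ← mul_assoc]
      exact hbadn g hg _ (mul_mem (prod_mem fun d _ => (hcomp d g _).mpr (hc₀O _)) (hb' g).2.1)
        _ (hn g hg)))
    (branchRed hF s * branchRed hF ⟨β, hβm⟩) (fun g hg => by
      rw [show (⟨act g ((s : F) * β), hsβ g⟩ : branch hF) =
          ⟨act g (s : F), hmemD hg _ s.2⟩ * ⟨β, hβm⟩ from
        Subtype.ext ((map_mul (act g) _ _).trans (congrArg (act g (s : F) * ·) (hβfix g hg))),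
        map_mul, hfix g (hmemD hg)])
  have hDne : ((D.card : ℕ) : LaurentSeries (ResK A)) ≠ 0 := by
    have hdvd : D.card ∣ Nat.card G := by
      let H : Subgroup G :=
        { carrier := {g | O g = O 1}
          one_mem' := rfl
          mul_mem' := fun {a b} ha hb' => (hDmulD (hD.mpr ha) b).trans hb'
          inv_mem' := fun {a} ha => by
            have h := hDmulD (hD.mpr ha) a⁻¹
            rw [mul_inv_cancel] at h
            exact h.symm }
      have : Nat.card H = D.card := by
        rw [Nat.card_eq_fintype_card]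
        exact Fintype.card_of_subtype D fun g => hD
      exact this ▸ H.card_subgroup_dvd_card
    intro h0
    rw [← map_natCast (HahnSeries.C : ResK A →+* LaurentSeries (ResK A))] at h0
    obtain ⟨m, hm⟩ := hdvd
    apply hcard
    rw [hm, Nat.cast_mul, show ((D.card : ℕ) : ResK A) = 0 from
      HahnSeries.C_injective (h0.trans (map_zero _).symm), zero_mul]
  have := (resField hF₀).div_mem h1 h2
  rwa [mul_div_mul_left _ _ hDne, mul_div_cancel_right₀ _ hβ0] at this

end Fixed

end FLTAgent.IgusaCover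

end
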