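import Fermat.Agent.IgusaCover.WElement

/-!
# Extension and transfer to level `N`

A homomorphism on `Γ₁(Nq)` which is invariant under `Γ₁(N) ∩ Γ₀(q)` and kills the obstruction
extends to that group (`exists_extension`); its transfer `traceHom` to `Γ₁(N)` is parabolic
(`traceHom_parabolic`).
-/

set_option autoImplicit false

noncomputable section

open CongruenceSubgroup
open scoped MatrixGroups

namespace FLTAgent.IgusaCover

open FLTAgent.GammaH

local notation "Mat" => Matrix (Fin 2) (Fin 2) ℤ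

attribute [local instance] HeckeReps.fin

variable {N q : ℕ} [NeZero N] [Fact (1 < N)] [hqp : Fact q.Prime]

/-- The lower right entry modulo `q`. -/
def dHom (N q : ℕ) [NeZero N] [Fact q.Prime] : gammaPrime N q →* (ZMod q)ˣ :=
  MonoidHom.mk' (fun γ => Units.mkOfMulEqOne _ (((γ : SL(2, ℤ)) 0 0 : ℤ) : ZMod q) (by
    have h := congrArg (fun z : ℤ => (z : ZMod q))
      ((γ : SL(2, ℤ)).det_coe ▸ (Matrix.det_fin_two ((γ : SL(2, ℤ)) : Mat)).symm)
    simp only [Int.cast_sub, Int.cast_mul, Int.cast_one, (mem_gammaPrime.mp γ.2).2, mul_zero,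
      sub_zero] at h
    rw [mul_comm]; exact h : (((γ : SL(2, ℤ)) 1 1 : ℤ) : ZMod q) * _ = 1)) fun γ δ => by
    refine Units.ext ?_
    show ((((γ * δ : gammaPrime N q) : SL(2, ℤ)) 1 1 : ℤ) : ZMod q) =
      (((γ : SL(2, ℤ)) 1 1 : ℤ) : ZMod q) * (((δ : SL(2, ℤ)) 1 1 : ℤ) : ZMod q)
    rw [Subgroup.coe_mul, Matrix.SpecialLinearGroup.coe_mul, Matrix.mul_apply, Fin.sum_univ_two,
      Int.cast_add, Int.cast_mul, Int.cast_mul, (mem_gammaPrime.mp γ.2).2, zero_mul, zero_add]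

omit [Fact (1 < N)] in
theorem coe_dHom (γ : gammaPrime N q) :
    (dHom N q γ : ZMod q) = (((γ : SL(2, ℤ)) 1 1 : ℤ) : ZMod q) := rfl

omit [Fact (1 < N)] in
theorem dHom_eq_one_iff (hc : N.Coprime q) (γ : gammaPrime N q) :
    dHom N q γ = 1 ↔ (γ : SL(2, ℤ)) ∈ Gamma1 (N * q) := by
  rw [gamma1_mul_iff hc, Units.ext_iff, coe_dHom, Units.val_one]
  exact ⟨fun h => ⟨γ.2, h⟩, fun h => h.2⟩

omit [Fact (1 < N)] in
theorem dHom_surjective (hc : N.Coprime q) : Function.Surjective (dHom N q) := fun u => by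
  let e := ZMod.chineseRemainder hc
  let u' : (ZMod (N * q))ˣ := (Units.mapEquiv e.toMulEquiv).symm
    (MulEquiv.prodUnits.symm ((1 : (ZMod N)ˣ), u))
  obtain ⟨σ, hσ, hu⟩ := exists_gamma0 u'
  have he : e (u' : ZMod (N * q)) = (1, (u : ZMod q)) := e.apply_symm_apply _
  have hd : (((σ 1 1 : ℤ) : ZMod N), ((σ 1 1 : ℤ) : ZMod q)) = (1, (u : ZMod q)) := by
    rw [← he, ← hu, map_intCast]; rfl
  have h10 := Gamma0_mem.mp hσ
  have hN : ((σ 1 0 : ℤ) : ZMod N) = 0 := by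
    simpa using congrArg (ZMod.castHom (dvd_mul_right N q) (ZMod N)) h10
  have hq : ((σ 1 0 : ℤ) : ZMod q) = 0 := by
    simpa using congrArg (ZMod.castHom (dvd_mul_left q N) (ZMod q)) h10
  have hdN : ((σ 1 1 : ℤ) : ZMod N) = 1 := congrArg Prod.fst hd
  have hdet := congrArg (fun z : ℤ => (z : ZMod N))
    (σ.det_coe ▸ (Matrix.det_fin_two (σ : Mat)).symm)
  simp [hdN, hN] at hdet
  exact ⟨⟨σ, mem_gammaPrime.mpr ⟨(Gamma1_mem N σ).mpr ⟨hdet, hdN, hN⟩, hq⟩⟩,
    Units.ext (congrArg Prod.snd hd)⟩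

omit [Fact (1 < N)] in
theorem exists_generator (hc : N.Coprime q) :
    ∃ σ : gammaPrime N q, ∀ u : (ZMod q)ˣ, u ∈ Subgroup.zpowers (dHom N q σ) := by
  obtain ⟨g, hg⟩ := IsCyclic.exists_generator (α := (ZMod q)ˣ)
  obtain ⟨σ, rfl⟩ := dHom_surjective hc g
  exact ⟨σ, hg⟩

variable {A : Type*} [AddCommGroup A]

/-- Invariance under conjugation by `Γ₁(N) ∩ Γ₀(q)`. -/
def IsInv (x : Additive (Gamma1 (N * q)) →+ A) : Prop :=
  ∀ σ ∈ Gamma0 (N * q), ∀ (γ γ' : Gamma1 (N * q)),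
    (γ' : SL(2, ℤ)) = σ * (γ : SL(2, ℤ)) * σ⁻¹ → x (Additive.ofMul γ') = x (Additive.ofMul γ)

omit [Fact (1 < N)] in
/-- The power of a generator landing in `Γ₁(Nq)`. -/
theorem pow_mem_gamma1 (hc : N.Coprime q) (σ : gammaPrime N q) :
    ((σ ^ (q - 1) : gammaPrime N q) : SL(2, ℤ)) ∈ Gamma1 (N * q) := by
  rw [← dHom_eq_one_iff hc, map_pow, ← ZMod.card_units q]
  exact pow_card_eq_one

omit [Fact (1 < N)] in
/-- A homomorphism killing the obstruction extends. -/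
theorem exists_extension (hc : N.Coprime q) {x : Additive (Gamma1 (N * q)) →+ A} (hx : IsInv x)
    {σ : gammaPrime N q} (hσ : ∀ u : (ZMod q)ˣ, u ∈ Subgroup.zpowers (dHom N q σ))
    (hob : x (Additive.ofMul ⟨_, pow_mem_gamma1 hc σ⟩) = 0) :
    ∃ x' : Additive (gammaPrime N q) →+ A, ∀ (γ : gammaPrime N q)
      (h : (γ : SL(2, ℤ)) ∈ Gamma1 (N * q)),
      x' (Additive.ofMul γ) = x (Additive.ofMul ⟨_, h⟩) := by
  have hex : ∀ γ : gammaPrime N q, ∃ i : ℤ,
      ((σ ^ (-i) * γ : gammaPrime N q) : SL(2, ℤ)) ∈ Gamma1 (N * q) := fun γ => by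
    obtain ⟨i, hi⟩ := Subgroup.mem_zpowers_iff.mp (hσ (dHom N q γ))
    refine ⟨i, (dHom_eq_one_iff hc _).mp ?_⟩
    rw [map_mul, map_zpow, ← hi, ← zpow_add, neg_add_cancel, zpow_zero]
  have hord : ∀ i : ℤ, ((σ ^ i : gammaPrime N q) : SL(2, ℤ)) ∈ Gamma1 (N * q) →
      ((q - 1 : ℕ) : ℤ) ∣ i := fun i hi => by
    rw [← ZMod.card_units q, ← Nat.card_eq_fintype_card, ← orderOf_eq_card_of_forall_mem_zpowers hσ,
      orderOf_dvd_iff_zpow_eq_one, ← map_zpow]
    exact (dHom_eq_one_iff hc _).mpr hi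
  have hval : ∀ (γ : gammaPrime N q) (i j : ℤ)
      (hi : ((σ ^ (-i) * γ : gammaPrime N q) : SL(2, ℤ)) ∈ Gamma1 (N * q))
      (hj : ((σ ^ (-j) * γ : gammaPrime N q) : SL(2, ℤ)) ∈ Gamma1 (N * q)),
      x (Additive.ofMul ⟨_, hi⟩) = x (Additive.ofMul ⟨_, hj⟩) := fun γ i j hi hj => by
    have hdiff : ((σ ^ (j - i) : gammaPrime N q) : SL(2, ℤ)) ∈ Gamma1 (N * q) := by
      rw [show σ ^ (j - i) = (σ ^ (-i) * γ) * (σ ^ (-j) * γ)⁻¹ by group]
      exact mul_mem hi (inv_mem hj)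
    obtain ⟨m, hm⟩ := hord _ hdiff
    have e : (⟨_, hi⟩ : Gamma1 (N * q)) = ⟨_, pow_mem_gamma1 hc σ⟩ ^ m * ⟨_, hj⟩ := by
      refine Subtype.ext ?_
      rw [Subgroup.coe_mul, SubgroupClass.coe_zpow]
      show ((σ ^ (-i) * γ : gammaPrime N q) : SL(2, ℤ)) =
        ((σ ^ (q - 1) : gammaPrime N q) : SL(2, ℤ)) ^ m *
          ((σ ^ (-j) * γ : gammaPrime N q) : SL(2, ℤ))
      rw [← SubgroupClass.coe_zpow, ← Subgroup.coe_mul, ← zpow_natCast σ, ← zpow_mul, ← hm]
      congr 1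
      group
    rw [e, ofMul_mul, map_add, ofMul_zpow, map_zsmul, hob, smul_zero, zero_add]
  choose idx hidx using hex
  refine ⟨AddMonoidHom.mk' (fun γ => x (Additive.ofMul ⟨_, hidx (Additive.toMul γ)⟩)) ?_, ?_⟩
  · intro a b
    set γ := Additive.toMul a
    set δ := Additive.toMul b
    have hij : ((σ ^ (-(idx γ + idx δ)) * (γ * δ) : gammaPrime N q) : SL(2, ℤ)) ∈
        Gamma1 (N * q) := by
      rw [show σ ^ (-(idx γ + idx δ)) * (γ * δ) =
        (σ ^ (-idx δ) * (σ ^ (-idx γ) * γ) * (σ ^ (-idx δ))⁻¹) * (σ ^ (-idx δ) * δ) by group]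
      exact mul_mem (by
        simp only [Subgroup.coe_mul, InvMemClass.coe_inv]
        exact conj_mem_Gamma1 (gammaPrime_le_gamma0 hc (σ ^ (-idx δ)).2) (hidx γ)) (hidx δ)
    show x (Additive.ofMul ⟨_, hidx (γ * δ)⟩) = _
    rw [hval _ _ _ (hidx (γ * δ)) hij]
    let g : Gamma1 (N * q) :=
      ⟨_, conj_mem_Gamma1 (gammaPrime_le_gamma0 hc (σ ^ (-idx δ)).2) (hidx γ)⟩
    have e : (⟨_, hij⟩ : Gamma1 (N * q)) = g * ⟨_, hidx δ⟩ := Subtype.ext (by
      show ((σ ^ (-(idx γ + idx δ)) * (γ * δ) : gammaPrime N q) : SL(2, ℤ)) = _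
      rw [show σ ^ (-(idx γ + idx δ)) * (γ * δ) =
        (σ ^ (-idx δ) * (σ ^ (-idx γ) * γ) * (σ ^ (-idx δ))⁻¹) * (σ ^ (-idx δ) * δ) by group]
      simp only [g, Subgroup.coe_mul, InvMemClass.coe_inv])
    rw [e, ofMul_mul, map_add]
    exact congrArg (· + _) (hx _ (gammaPrime_le_gamma0 hc (σ ^ (-idx δ)).2) ⟨_, hidx γ⟩ g rfl)
  · intro γ h
    show x (Additive.ofMul ⟨_, hidx γ⟩) = _
    rw [hval γ (idx γ) 0 (hidx γ) (by simpa using h)]
    exact congrArg (fun z => x (Additive.ofMul z)) (Subtype.ext (by simp))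

/-! ## Representatives of `Γ₁(N) ∩ Γ₀(q)` in `Γ₁(N)` -/

variable (w : WData N q)

/-- The nontrivial representatives. -/
def trSome (b : Fin q) : SL(2, ℤ) :=
  ⟨!![1, ((b : ℕ) : ℤ) + w.v; (N : ℤ), (N : ℤ) * (b : ℕ) + (q : ℤ) * w.s],
    by rw [Matrix.det_fin_two_of]; linear_combination w.eq⟩

/-- The representatives. -/
def trBeta : Option (Fin q) → SL(2, ℤ)
  | none => 1
  | some b => trSome w b

omit [NeZero N] [Fact (1 < N)] hqp in
theorem trBeta_mem (i : Option (Fin q)) : trBeta w i ∈ Gamma1 N := by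
  rcases i with - | b
  · exact one_mem _
  · refine (Gamma1_mem N _).mpr ⟨by simp [trBeta, trSome], ?_, by simp [trBeta, trSome]⟩
    have := congrArg (fun z : ℤ => (z : ZMod N)) w.eq
    simpa [trBeta, trSome] using this

omit [NeZero N] [Fact (1 < N)] hqp in
theorem trSome_mul (b : Fin q) :
    w.mat * !![1, ((b : ℕ) : ℤ); 0, (q : ℤ)] = (q : ℤ) • (trSome w b : Mat) := by
  ext i j
  fin_cases i <;> fin_cases j <;>
    simp [WData.mat, trSome, Matrix.mul_apply, Fin.sum_univ_two] <;> ring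

omit [NeZero N] [Fact (1 < N)] in
theorem cast_qs_eq : ((N : ℤ) : ZMod q) * (w.v : ZMod q) = -1 := by
  have := congrArg (fun z : ℤ => (z : ZMod q)) w.eq
  simp at this
  push_cast
  linear_combination -this

omit [NeZero N] [Fact (1 < N)] in
theorem trBeta_exists (hc : N.Coprime q) (g : SL(2, ℤ)) (hg : g ∈ Gamma1 N) :
    ∃ i, g * (trBeta w i)⁻¹ ∈ gammaPrime N q := by
  by_cases hq : ((g 1 0 : ℤ) : ZMod q) = 0
  · exact ⟨none, by rw [trBeta, inv_one, mul_one]; exact mem_gammaPrime.mpr ⟨hg, hq⟩⟩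
  · let b : Fin q := (ZMod.finEquiv q).symm
      (((g 1 1 : ℤ) : ZMod q) * (((g 1 0 : ℤ) : ZMod q))⁻¹)
    have hb : ((b : ℕ) : ZMod q) = ((g 1 1 : ℤ) : ZMod q) * (((g 1 0 : ℤ) : ZMod q))⁻¹ := by
      have hf : ∀ i : Fin q, ((i : ℕ) : ZMod q) = ZMod.finEquiv q i := fun i => by
        obtain ⟨r, hr⟩ := Nat.exists_eq_succ_of_ne_zero hqp.out.ne_zero
        subst hr
        show ((i : ℕ) : ZMod (r + 1)) = (i : Fin (r + 1))
        exact Fin.cast_val_eq_self i
      rw [hf, RingEquiv.apply_symm_apply]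
    refine ⟨some b, mem_gammaPrime.mpr ⟨mul_mem hg (inv_mem (trBeta_mem w _)), ?_⟩⟩
    show ((((g * (trSome w b)⁻¹ : SL(2, ℤ)) 1 0 : ℤ)) : ZMod q) = 0
    simp [trSome, Matrix.SpecialLinearGroup.coe_inv, Matrix.adjugate_fin_two, Matrix.mul_apply,
      Fin.sum_univ_two]
    rw [hb]
    field_simp
    ring

omit [NeZero N] [Fact (1 < N)] in
theorem trBeta_sep (_hc : N.Coprime q) (i j : Option (Fin q))
    (h : trBeta w i * (trBeta w j)⁻¹ ∈ gammaPrime N q) : i = j := by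
  have hN0 : ((N : ℤ) : ZMod q) ≠ 0 := by
    intro e
    have := cast_qs_eq w
    rw [e, zero_mul] at this
    exact one_ne_zero (neg_eq_zero.mp this.symm)
  have h' := (mem_gammaPrime.mp h).2
  rcases i with - | b <;> rcases j with - | b'
  · rfl
  · exfalso
    simp [trBeta, trSome, Matrix.SpecialLinearGroup.coe_inv, Matrix.adjugate_fin_two] at h'
    push_cast at hN0
    exact hN0 h'
  · exfalso
    simp [trBeta, trSome] at h'
    push_cast at hN0
    exact hN0 h'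
  · simp [trBeta, trSome, Matrix.SpecialLinearGroup.coe_inv, Matrix.adjugate_fin_two,
      Matrix.mul_apply, Fin.sum_univ_two] at h'
    push_cast at hN0
    have h2 : ((b' : ℕ) : ZMod q) = ((b : ℕ) : ZMod q) := by
      refine mul_left_cancel₀ (mul_ne_zero hN0 hN0) ?_
      linear_combination h'
    rw [ZMod.natCast_eq_natCast_iff', Nat.mod_eq_of_lt b'.2, Nat.mod_eq_of_lt b.2] at h2
    rw [Fin.ext h2]

variable (hc : N.Coprime q)

/-- The index reached by `β i γ`. -/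
def trPi (γ : Gamma1 N) (i : Option (Fin q)) : Option (Fin q) :=
  (trBeta_exists w hc (trBeta w i * (γ : SL(2, ℤ))) (mul_mem (trBeta_mem w i) γ.2)).choose

/-- The element of `Γ₁(N) ∩ Γ₀(q)`. -/
def trElt (γ : Gamma1 N) (i : Option (Fin q)) : gammaPrime N q :=
  ⟨_, (trBeta_exists w hc (trBeta w i * (γ : SL(2, ℤ))) (mul_mem (trBeta_mem w i) γ.2)).choose_spec⟩

omit [NeZero N] [Fact (1 < N)] in
theorem trElt_spec (γ : Gamma1 N) (i : Option (Fin q)) :
    trBeta w i * (γ : SL(2, ℤ)) = (trElt w hc γ i : SL(2, ℤ)) * trBeta w (trPi w hc γ i) := by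
  show _ = trBeta w i * (γ : SL(2, ℤ)) * (trBeta w (trPi w hc γ i))⁻¹ * trBeta w (trPi w hc γ i)
  rw [inv_mul_cancel_right]

omit [NeZero N] [Fact (1 < N)] in
theorem tr_eq {γ : Gamma1 N} {i j : Option (Fin q)} {g : gammaPrime N q}
    (h : trBeta w i * (γ : SL(2, ℤ)) = (g : SL(2, ℤ)) * trBeta w j) :
    trPi w hc γ i = j ∧ trElt w hc γ i = g := by
  have h' := (trElt_spec w hc γ i).symm.trans h
  have hj : trPi w hc γ i = j := trBeta_sep w hc _ _ (by
    rw [show trBeta w (trPi w hc γ i) * (trBeta w j)⁻¹ =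
      (trElt w hc γ i : SL(2, ℤ))⁻¹ * (g : SL(2, ℤ)) by
        rw [eq_inv_mul_iff_mul_eq, ← mul_assoc, h', mul_inv_cancel_right]]
    exact mul_mem (inv_mem (trElt w hc γ i).2) g.2)
  rw [hj] at h'
  exact ⟨hj, Subtype.ext (mul_right_cancel h')⟩

omit [NeZero N] [Fact (1 < N)] in
theorem tr_mul (γ δ : Gamma1 N) (i : Option (Fin q)) :
    trPi w hc (γ * δ) i = trPi w hc δ (trPi w hc γ i) ∧
      trElt w hc (γ * δ) i = trElt w hc γ i * trElt w hc δ (trPi w hc γ i) := by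
  refine tr_eq w hc ?_
  rw [Subgroup.coe_mul, Subgroup.coe_mul, ← mul_assoc, trElt_spec w hc γ i, mul_assoc,
    trElt_spec w hc δ, ← mul_assoc]

omit [NeZero N] [Fact (1 < N)] in
theorem trPi_one (i : Option (Fin q)) : trPi w hc 1 i = i :=
  (tr_eq w hc (g := 1) (by simp)).1

omit [NeZero N] [Fact (1 < N)] in
theorem trPi_bijective (γ : Gamma1 N) : Function.Bijective (trPi w hc γ) :=
  Function.bijective_iff_has_inverse.mpr ⟨trPi w hc γ⁻¹,
    fun i => by rw [← (tr_mul w hc γ γ⁻¹ i).1, mul_inv_cancel, trPi_one],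
    fun i => by rw [← (tr_mul w hc γ⁻¹ γ i).1, inv_mul_cancel, trPi_one]⟩

/-- The transfer to `Γ₁(N)`. -/
def traceHom (x : Additive (gammaPrime N q) →+ A) : Additive (Gamma1 N) →+ A :=
  AddMonoidHom.mk' (fun γ => ∑ i, x (Additive.ofMul (trElt w hc (Additive.toMul γ) i)))
    fun a b => by
      simp only [toMul_add, (tr_mul w hc _ _ _).2, ofMul_mul, map_add, Finset.sum_add_distrib]
      congr 1
      exact (trPi_bijective w hc (Additive.toMul a)).sum_comp
        (fun i => x (Additive.ofMul (trElt w hc (Additive.toMul b) i)))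

omit [NeZero N] [Fact (1 < N)] in
theorem traceHom_apply (x : Additive (gammaPrime N q) →+ A) (γ : Gamma1 N) :
    traceHom w hc x (Additive.ofMul γ) = ∑ i, x (Additive.ofMul (trElt w hc γ i)) := rfl

theorem mat_trace_sq_four {γ : SL(2, ℤ)} (h : (γ : Mat).trace ^ 2 = 4) :
    ∃ e : ℤ, e * e = 1 ∧ ((γ : Mat) - e • (1 : Mat)) * ((γ : Mat) - e • (1 : Mat)) = 0 := by
  set t := (γ : Mat).trace with ht
  obtain ⟨e, he, he2⟩ : ∃ e : ℤ, t = 2 * e ∧ e * e = 1 := by
    have h4 : (t - 2) * (t + 2) = 0 := by linear_combination h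
    rcases mul_eq_zero.mp h4 with h' | h'
    · exact ⟨1, by linear_combination h', by norm_num⟩
    · exact ⟨-1, by linear_combination h', by norm_num⟩
  refine ⟨e, he2, ?_⟩
  have hdet := γ.det_coe
  rw [Matrix.det_fin_two] at hdet
  rw [ht, Matrix.trace_fin_two] at he
  ext i j
  fin_cases i <;> fin_cases j <;> simp [Matrix.mul_apply, Fin.sum_univ_two, Matrix.intCast_apply]
  · linear_combination (γ 0 0) * he - hdet + he2
  · linear_combination (γ 0 1) * he
  · linear_combination (γ 1 0) * he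
  · linear_combination (γ 1 1) * he - hdet + he2

theorem pow_cast_eq_one {γ : SL(2, ℤ)} (h : (γ : Mat).trace ^ 2 = 4) :
    ((γ ^ (2 * q) : SL(2, ℤ)) : Mat).map (Int.cast : ℤ → ZMod q) = 1 := by
  obtain ⟨e, he, hsq⟩ := mat_trace_sq_four h
  set U := ((γ : Mat) - e • (1 : Mat)).map (Int.cast : ℤ → ZMod q) with hU
  have hU2 : U * U = 0 := by
    have hm := congrArg (fun X : Mat => X.map (Int.castRingHom (ZMod q))) hsq
    simp only [Matrix.map_mul, Matrix.map_zero _ (map_zero _)] at hm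
    exact hm
  have hγ : ((γ : Mat).map (Int.cast : ℤ → ZMod q)) = (e : ZMod q) • 1 + U := by
    ext i j; fin_cases i <;> fin_cases j <;> simp [hU, Matrix.intCast_apply]
  have hpow : ∀ k : ℕ, ((e : ZMod q) • (1 : Matrix (Fin 2) (Fin 2) (ZMod q)) + U) ^ k =
      (e : ZMod q) ^ k • 1 + ((k : ZMod q) * (e : ZMod q) ^ (k + 1)) • U := by
    intro k
    induction k with
    | zero => simp
    | succ k ih =>
      rw [pow_succ, ih, add_mul, mul_add, mul_add]
      simp only [smul_mul_assoc, one_mul, Algebra.mul_smul_comm, mul_one, hU2, smul_zero, add_zero,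
        smul_smul]
      have he' : (e : ZMod q) * (e : ZMod q) = 1 := by
        exact_mod_cast congrArg (Int.cast : ℤ → ZMod q) he
      rw [add_assoc, ← add_smul, pow_succ]
      congr 2
      all_goals push_cast
      all_goals first
        | ring1
        | linear_combination ((e : ZMod q) ^ k * (k : ZMod q)) * he'
        | linear_combination -((e : ZMod q) ^ k * (k : ZMod q)) * he'
        | linear_combination ((e : ZMod q) ^ k) * he'
        | linear_combination -((e : ZMod q) ^ k) * he'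
  have hcast : ((γ ^ (2 * q) : SL(2, ℤ)) : Mat).map (Int.cast : ℤ → ZMod q) =
      ((γ : Mat).map (Int.cast : ℤ → ZMod q)) ^ (2 * q) := by
    rw [Matrix.SpecialLinearGroup.coe_pow]
    exact map_pow (Int.castRingHom (ZMod q)).mapMatrix (γ : Mat) _
  rw [hcast, hγ, hpow, Nat.cast_mul, ZMod.natCast_self, mul_zero, zero_mul, zero_smul, add_zero,
    pow_mul, sq, show (e : ZMod q) * (e : ZMod q) = 1 by
      exact_mod_cast congrArg (Int.cast : ℤ → ZMod q) he,
    one_pow, one_smul]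

omit [NeZero N] [Fact (1 < N)] in
/-- The transfer is parabolic. -/
theorem traceHom_parabolic {x : Additive (gammaPrime N q) →+ A}
    {x₀ : Additive (Gamma1 (N * q)) →+ A} (hx₀ : ModularCurve.Period.IsParabolicHom _ x₀)
    (hres : ∀ (γ : gammaPrime N q) (h : (γ : SL(2, ℤ)) ∈ Gamma1 (N * q)),
      x (Additive.ofMul γ) = x₀ (Additive.ofMul ⟨_, h⟩))
    (h2q : ∀ a : A, (2 * q) • a = 0 → a = 0) :
    ModularCurve.Period.IsParabolicHom (Gamma1 N) (traceHom w hc x) := by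
  intro γ hγ
  refine h2q _ ?_
  rw [← map_nsmul, ← ofMul_pow, traceHom_apply]
  refine Finset.sum_eq_zero fun i _ => ?_
  have hfix : ∃ g : gammaPrime N q, trBeta w i * ((γ ^ (2 * q) : Gamma1 N) : SL(2, ℤ)) =
      (g : SL(2, ℤ)) * trBeta w i ∧ (g : SL(2, ℤ)) ∈ Gamma1 (N * q) := by
    set g := trBeta w i * ((γ ^ (2 * q) : Gamma1 N) : SL(2, ℤ)) * (trBeta w i)⁻¹ with hg
    have hgN : g ∈ Gamma1 N :=
      mul_mem (mul_mem (trBeta_mem w i) (γ ^ (2 * q) : Gamma1 N).2) (inv_mem (trBeta_mem w i))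
    have hgq : (g : Mat).map (Int.cast : ℤ → ZMod q) = 1 := by
      rw [hg, Matrix.SpecialLinearGroup.coe_mul, Matrix.SpecialLinearGroup.coe_mul,
        SubmonoidClass.coe_pow, show (Int.cast : ℤ → ZMod q) = Int.castRingHom (ZMod q) from rfl,
        Matrix.map_mul, Matrix.map_mul]
      erw [pow_cast_eq_one hγ]
      rw [Matrix.mul_one, ← Matrix.map_mul, ← Matrix.SpecialLinearGroup.coe_mul, mul_inv_cancel,
        Matrix.SpecialLinearGroup.coe_one, Matrix.map_one _ (map_zero _) (map_one _)]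
    have h10 : ((g 1 0 : ℤ) : ZMod q) = 0 := by simpa using congrFun (congrFun hgq 1) 0
    have h11 : ((g 1 1 : ℤ) : ZMod q) = 1 := by simpa using congrFun (congrFun hgq 1) 1
    exact ⟨⟨g, mem_gammaPrime.mpr ⟨hgN, h10⟩⟩, by
      show _ = g * trBeta w i
      rw [hg, inv_mul_cancel_right], mem_Gamma1_mul hc hgN h10 h11⟩
  obtain ⟨g, hg, hgm⟩ := hfix
  rw [(tr_eq w hc hg).2, hres g hgm]
  refine hx₀ _ ?_
  have hgg : (g : SL(2, ℤ)) = trBeta w i * ((γ ^ (2 * q) : Gamma1 N) : SL(2, ℤ)) *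
      (trBeta w i)⁻¹ := by
    rw [hg, mul_inv_cancel_right]
  show ((g : SL(2, ℤ)) : Mat).trace ^ 2 = 4
  rw [hgg, Matrix.SpecialLinearGroup.coe_mul, Matrix.trace_mul_comm,
    ← Matrix.SpecialLinearGroup.coe_mul, inv_mul_cancel_left, SubmonoidClass.coe_pow]
  exact HeckeReps.trace_pow_sq hγ _

end FLTAgent.IgusaCover

end
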