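import Fermat.Agent.IgusaCover.ParGal
import Fermat.Agent.IgusaCover.CayleyHamilton
import Fermat.Agent.GammaH.Levels
import Fermat.Agent.Density.Chebotarev

/-!
# Galois on eigen-parts

Hecke and diamond operators `opT`, `opD` and Galois `galR` on `ParR M R`, the eigen-part `eigSub`,
and the Cayley–Hamilton relation of the attached representation for Galois on it
(`galW_isCH`).
-/

set_option autoImplicit false
set_option maxSynthPendingDepth 3

noncomputable section

open ModularCurve CongruenceSubgroup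
open scoped MatrixGroups

namespace FLTAgent.IgusaCover

open FLTAgent.GammaH

local notation "Qbar" => AlgebraicClosure ℚ
local notation "GalQ" => AlgebraicClosure ℚ ≃ₐ[ℚ] AlgebraicClosure ℚ

/-- A Frobenius element outside `S` agreeing with `g` on a finite extension. -/
theorem exists_frobenius_near (L : IntermediateField ℚ Qbar) [FiniteDimensional ℚ L] (g : GalQ)
    (S : Finset ℕ) :
    ∃ l, l.Prime ∧ l ∉ S ∧ ∃ A : ValuationSubring Qbar, A.LiesOverPrime l ∧
      ∃ φ : GalQ, A.IsFrobeniusAt φ l ∧ ∀ x ∈ L, g x = φ x := by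
  have : Normal ℚ (IntermediateField.normalClosure ℚ L Qbar) := normalClosure.normal ℚ L Qbar
  have : IsGalois ℚ (IntermediateField.normalClosure ℚ L Qbar) := IsGalois.mk
  obtain ⟨l, hl, hlS, A, hA, -, φ, hφ, h⟩ :=
    Density.exists_frobenius_agree (IntermediateField.normalClosure ℚ L Qbar) g S
  exact ⟨l, hl, hlS, A, hA, φ, hφ, fun x hx => h x (IntermediateField.le_normalClosure L hx)⟩

theorem inv_mul_fix {L : IntermediateField ℚ Qbar} {g φ : GalQ} (h : ∀ x ∈ L, g x = φ x) :
    ∀ x ∈ L, (φ⁻¹ * g) x = x := fun x hx => by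
  rw [AlgEquiv.mul_apply, h x hx]
  exact φ.symm_apply_apply x

section

variable {M n : ℕ} {R ι : Type} [CommRing R] [Fintype ι] [DecidableEq ι] (e : R ≃+ (ι → ZMod n))

theorem extL_add {M' : ℕ} (f f' : ParHom M n →+ ParHom M' n) (c : ParR M R) :
    extL e (f + f') c = extL e f c + extL e f' c :=
  parR_ext e fun i => by
    rw [map_add, parComp_extL, parComp_extL, parComp_extL, AddMonoidHom.add_apply]

theorem extL_nsmul {M' : ℕ} (k : ℕ) (f : ParHom M n →+ ParHom M' n) (c : ParR M R) :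
    extL e (k • f) c = k • extL e f c :=
  parR_ext e fun i => by
    rw [map_nsmul, parComp_extL, parComp_extL, AddMonoidHom.smul_apply]

variable [NeZero M]

/-- `T_l` on parabolic homomorphisms. -/
def opT (l : ℕ) (hl : l.Prime) (hlM : ¬ l ∣ M) : Module.End R (ParR M R) :=
  extL e (tRep (M := M) l hl hlM).parT

/-- `⟨σ⟩` on parabolic homomorphisms. -/
def opD (σ : SL(2, ℤ)) (hσ : σ ∈ Gamma0 M) : Module.End R (ParR M R) :=
  extL e (dRep (M := M) σ hσ).parT

omit [NeZero M] in
theorem coe_opT (l : ℕ) (hl : l.Prime) (hlM : ¬ l ∣ M) (c : ParR M R) :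
    (opT e l hl hlM c : Additive (Gamma1 M) →+ R) = (tRep l hl hlM).homT R c.1 :=
  coe_extL_parT e _ c

omit [NeZero M] in
theorem coe_opD (σ : SL(2, ℤ)) (hσ : σ ∈ Gamma0 M) (c : ParR M R) :
    (opD e σ hσ c : Additive (Gamma1 M) →+ R) = (dRep σ hσ).homT R c.1 :=
  coe_extL_parT e _ c

/-- The eigen-part for `T_l`, `l ∉ S`, and the diamonds. -/
def eigSub (S : Finset ℕ) (a : ℕ → R) (ε : SL(2, ℤ) → R) : Submodule R (ParR M R) where
  carrier := {c | (∀ (l : ℕ) (hl : l.Prime) (hlM : ¬ l ∣ M), l ∉ S → opT e l hl hlM c = a l • c) ∧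
    ∀ (σ : SL(2, ℤ)) (hσ : σ ∈ Gamma0 M), opD e σ hσ c = ε σ • c}
  zero_mem' := ⟨fun l hl hlM _ => by rw [map_zero, smul_zero],
    fun σ hσ => by rw [map_zero, smul_zero]⟩
  add_mem' := fun {x y} hx hy => ⟨fun l hl hlM h => by
      rw [map_add, hx.1 l hl hlM h, hy.1 l hl hlM h, smul_add],
    fun σ hσ => by rw [map_add, hx.2 σ hσ, hy.2 σ hσ, smul_add]⟩
  smul_mem' := fun r {x} hx => ⟨fun l hl hlM h => by rw [map_smul, hx.1 l hl hlM h, smul_comm],
    fun σ hσ => by rw [map_smul, hx.2 σ hσ, smul_comm]⟩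

variable [Fact (1 < M)] [NeZero n] (hb : Function.Bijective (kummer M n))

/-- The Galois action on parabolic homomorphisms with coefficients. -/
def galR : GalQ →* Module.End R (ParR M R) where
  toFun g := extL e (galP hb g)
  map_one' := LinearMap.ext fun c => by rw [galP_one, extL_id, Module.End.one_apply]
  map_mul' g h := LinearMap.ext fun c => by rw [galP_mul, extL_comp, Module.End.mul_apply]

theorem galR_apply (g : GalQ) (c : ParR M R) : galR e hb g c = extL e (galP hb g) c := rfl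

theorem galR_opT (g : GalQ) (l : ℕ) (hl : l.Prime) (hlM : ¬ l ∣ M) (c : ParR M R) :
    galR e hb g (opT e l hl hlM c) = opT e l hl hlM (galR e hb g c) := by
  rw [galR_apply, galR_apply, opT, ← extL_comp, ← extL_comp, galP_tRep]

theorem galR_opD (g : GalQ) (σ : SL(2, ℤ)) (hσ : σ ∈ Gamma0 M) (c : ParR M R) :
    galR e hb g (opD e σ hσ c) = opD e σ hσ (galR e hb g c) := by
  rw [galR_apply, galR_apply, opD, ← extL_comp, ← extL_comp, galP_dRep]

theorem galR_mem {S : Finset ℕ} {a : ℕ → R} {ε : SL(2, ℤ) → R} (g : GalQ) {c : ParR M R}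
    (hc : c ∈ eigSub e S a ε) : galR e hb g c ∈ eigSub e S a ε :=
  ⟨fun l hl hlM h => by rw [← galR_opT, hc.1 l hl hlM h, map_smul],
    fun σ hσ => by rw [← galR_opD, hc.2 σ hσ, map_smul]⟩

/-- The congruence relation with coefficients. -/
theorem galR_frobenius {A : ValuationSubring Qbar} {l : ℕ} (hl : l.Prime)
    (hA : A.LiesOverPrime l) (hlM : ¬ l ∣ M) (hln : ¬ l ∣ n) {φ : GalQ}
    (hφ : A.IsFrobeniusAt φ l) (c : ParR M R) :
    galR e hb φ (galR e hb φ c) +
      l • opD e _ (sigmaP_mem (M := M) l ((hl.coprime_iff_not_dvd).mpr hlM)) c =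
      opT e l hl hlM (galR e hb φ c) := by
  have : Fact l.Prime := ⟨hl⟩
  have h : (galP hb φ).comp (galP hb φ) +
      l • (dRep _ (sigmaP_mem (M := M) l ((hl.coprime_iff_not_dvd).mpr hlM))).parT =
      (tRep l hl hlM).parT.comp (galP hb φ) :=
    AddMonoidHom.ext fun x => galP_frobenius hb hA hl hlM hln hφ x
  rw [galR_apply, galR_apply, opD, opT, ← extL_comp, ← extL_comp, ← extL_nsmul, ← extL_add, h]

variable {S : Finset ℕ} {a : ℕ → R} {ε : SL(2, ℤ) → R}

/-- The Galois action on the eigen-part. -/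
def galW : GalQ →* Module.End R ↥(eigSub (M := M) e S a ε) where
  toFun g := (galR e hb g).restrict (p := eigSub (M := M) e S a ε) (q := eigSub (M := M) e S a ε)
    fun _ hc => galR_mem e hb g hc
  map_one' := LinearMap.ext fun c => Subtype.ext (by
    rw [LinearMap.coe_restrict_apply, map_one]; rfl)
  map_mul' g h := LinearMap.ext fun c => Subtype.ext (by
    rw [LinearMap.coe_restrict_apply, map_mul]; rfl)

theorem coe_galW (g : GalQ) (c : eigSub e S a ε) :
    ((galW e hb g c : eigSub e S a ε) : ParR M R) = galR e hb g c := rfl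

/-- Galois on the eigen-part satisfies the characteristic polynomial. -/
theorem galW_isCH [Finite (Kum M n)] (ρ : GalQ →* Matrix (Fin 2) (Fin 2) R)
    (hcont : ∃ L : IntermediateField ℚ Qbar, FiniteDimensional ℚ L ∧
      ∀ g : GalQ, (∀ x ∈ L, g x = x) → ρ g = 1)
    (hS : ∀ l : ℕ, l.Prime → l ∉ S → ¬ l ∣ M ∧ ¬ l ∣ n)
    (hfrob : ∀ (l : ℕ) (hl : l.Prime) (hlM : ¬ l ∣ M), l ∉ S → ∀ A : ValuationSubring Qbar,
      A.LiesOverPrime l → ∀ φ, A.IsFrobeniusAt φ l →
        (ρ φ).trace = a l ∧ (ρ φ).det = l * ε (sigmaP M l ((hl.coprime_iff_not_dvd).mpr hlM))) :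
    IsCH (B := Module.End R ↥(eigSub (M := M) e S a ε)) ρ (galW e hb) := by
  intro g
  obtain ⟨L, hL, hLρ⟩ := hcont
  obtain ⟨L', hL', -, hLK⟩ := exists_level (M := M) n
  have := hL
  have := hL'
  have := IntermediateField.finiteDimensional_sup L L'
  obtain ⟨l, hl, hlS, A, hA, φ, hφ, hag⟩ := exists_frobenius_near (L ⊔ L') g S
  have hfix := inv_mul_fix hag
  have hρ : ρ g = ρ φ := by
    rw [← mul_inv_cancel_left φ g, map_mul,
      hLρ _ fun x hx => hfix x ((le_sup_left : L ≤ L ⊔ L') hx), mul_one]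
  have hgal : galR e hb g = galR e hb φ := by
    have h1 : galP hb (φ⁻¹ * g) = AddMonoidHom.id (ParHom M n) :=
      AddMonoidHom.ext fun c => by
        rw [galP_apply, (hLK _ fun y hy => hfix y ((le_sup_right : L' ≤ L ⊔ L') hy)).2,
          kummer_kumInv, AddMonoidHom.id_apply]
    conv_lhs => rw [← mul_inv_cancel_left φ g, map_mul]
    refine LinearMap.ext fun c => ?_
    rw [Module.End.mul_apply, galR_apply e hb (φ⁻¹ * g), h1, extL_id]
  obtain ⟨hlM, hln⟩ := hS l hl hlS
  obtain ⟨htr, hdet⟩ := hfrob l hl hlM hlS A hA φ hφ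
  refine LinearMap.ext fun c => Subtype.ext ?_
  have hes := galR_frobenius e hb hl hA hlM hln hφ c
  rw [c.2.2 _ (sigmaP_mem (M := M) l ((hl.coprime_iff_not_dvd).mpr hlM)),
    (galR_mem e hb φ c.2).1 l hl hlM hlS, ← Nat.cast_smul_eq_nsmul R, smul_smul] at hes
  rw [hρ, htr, hdet]
  simp only [LinearMap.add_apply, LinearMap.sub_apply, LinearMap.smul_apply, Module.End.mul_apply,
    Module.End.one_apply, LinearMap.zero_apply, Submodule.coe_add, Submodule.coe_sub,
    Submodule.coe_smul, ZeroMemClass.coe_zero, coe_galW, hgal]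
  rw [← hes]
  abel

end

end FLTAgent.IgusaCover

end
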