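import Fermat.Prelude.Def_ModularCurve_LaurentCoeff
import Mathlib.FieldTheory.IntermediateField.Basic
import Mathlib.RingTheory.Valuation.ValuationSubring

/-!
# The Gauss branch of a field of Laurent series

For a field of Laurent series whose elements can be scaled to integral series with nonzero
reduction (`Scalable`), the quotients of integral series by series with nonzero reduction form a
valuation ring `branch`, with reduction map `branchRed`. This is the base of the Igusa-cover
argument at a level-raising prime (`IgusaCover/Main`).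
-/

set_option autoImplicit false

noncomputable section

open ModularCurve

namespace FLTAgent.IgusaCover

universe u

variable {K : Type u} [Field K] (A : ValuationSubring K)

/-- The residue field of `A`. -/
abbrev ResK : Type u := IsLocalRing.ResidueField A

/-- Coefficientwise reduction of an integral series. -/
def redA : LaurentSeries A →+* LaurentSeries (ResK A) := coeffMap (IsLocalRing.residue A)

/-- Integral series as series over `K`. -/
def inclA : LaurentSeries A →+* LaurentSeries K := coeffMap A.subtype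

theorem inclA_injective : Function.Injective (inclA A) := fun x y h => by
  ext n
  exact congrArg (fun z : LaurentSeries K => z.coeff n) h

theorem inclA_C (a : A) : inclA A (HahnSeries.C a) = HahnSeries.C (a : K) := by
  rw [inclA, HahnSeries.C_apply, HahnSeries.C_apply, coeffMap_single]
  rfl

theorem redA_C (a : A) : redA A (HahnSeries.C a) = HahnSeries.C (IsLocalRing.residue A a) := by
  rw [redA, HahnSeries.C_apply, HahnSeries.C_apply, coeffMap_single]

theorem ne_zero_of_redA_ne_zero {x : LaurentSeries A} (h : redA A x ≠ 0) : inclA A x ≠ 0 :=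
  fun h0 => h (by rw [inclA_injective A (h0.trans (map_zero _).symm), map_zero])

variable {A}
variable (F : IntermediateField K (LaurentSeries K))

variable (A) in
/-- Integral series lying in `F`. -/
def intSer : Subring (LaurentSeries A) := F.toSubfield.toSubring.comap (inclA A)

variable (A) in
/-- `f` is a quotient of integral series of `F` by one with nonzero reduction. -/
def IsBranchElem (f : LaurentSeries K) : Prop :=
  ∃ g h : LaurentSeries A, g ∈ intSer A F ∧ h ∈ intSer A F ∧ redA A h ≠ 0 ∧
    f * inclA A h = inclA A g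

variable (A) in
/-- Every element of `F` is a scalar times such a quotient with nonzero reduction. -/
def Scalable : Prop :=
  ∀ f ∈ F, f ≠ 0 → ∃ (c : K) (g h : LaurentSeries A), c ≠ 0 ∧ g ∈ intSer A F ∧ h ∈ intSer A F ∧
    redA A g ≠ 0 ∧ redA A h ≠ 0 ∧ f * inclA A h = HahnSeries.C c * inclA A g

variable {F}

theorem IsBranchElem.mem {f : LaurentSeries K} (hf : IsBranchElem A F f) : f ∈ F := by
  obtain ⟨g, h, hg, hh, hh0, hfh⟩ := hf
  rw [(eq_div_iff (ne_zero_of_redA_ne_zero A hh0)).mpr hfh]
  exact div_mem (show inclA A g ∈ F from hg) (show inclA A h ∈ F from hh)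

theorem branchElem_incl {g : LaurentSeries A} (hg : g ∈ intSer A F) :
    IsBranchElem A F (inclA A g) :=
  ⟨g, 1, hg, one_mem _, by rw [map_one]; exact one_ne_zero, by rw [map_one, mul_one]⟩

theorem IsBranchElem.mul {f f' : LaurentSeries K} (hf : IsBranchElem A F f)
    (hf' : IsBranchElem A F f') : IsBranchElem A F (f * f') := by
  obtain ⟨g, h, hg, hh, hh0, hfh⟩ := hf
  obtain ⟨g', h', hg', hh', hh0', hfh'⟩ := hf'
  refine ⟨g * g', h * h', mul_mem hg hg', mul_mem hh hh', ?_, ?_⟩
  · rw [map_mul]; exact mul_ne_zero hh0 hh0'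
  · rw [map_mul, map_mul, ← hfh, ← hfh']; ring

theorem IsBranchElem.add {f f' : LaurentSeries K} (hf : IsBranchElem A F f)
    (hf' : IsBranchElem A F f') : IsBranchElem A F (f + f') := by
  obtain ⟨g, h, hg, hh, hh0, hfh⟩ := hf
  obtain ⟨g', h', hg', hh', hh0', hfh'⟩ := hf'
  refine ⟨g * h' + g' * h, h * h', add_mem (mul_mem hg hh') (mul_mem hg' hh),
    mul_mem hh hh', ?_, ?_⟩
  · rw [map_mul]; exact mul_ne_zero hh0 hh0'
  · rw [map_add, map_mul, map_mul, map_mul, ← hfh, ← hfh']; ring

theorem IsBranchElem.neg {f : LaurentSeries K} (hf : IsBranchElem A F f) :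
    IsBranchElem A F (-f) := by
  obtain ⟨g, h, hg, hh, hh0, hfh⟩ := hf
  exact ⟨-g, h, neg_mem hg, hh, hh0, by rw [map_neg, ← hfh, neg_mul]⟩

theorem C_mem (c : K) : HahnSeries.C c ∈ F := by
  have h := F.algebraMap_mem c
  rwa [algebraMap_laurentSeries_eq_single, ← HahnSeries.C_apply] at h

theorem C_intSer (a : A) : HahnSeries.C a ∈ intSer A F := by
  show inclA A (HahnSeries.C a) ∈ F
  rw [inclA_C]
  exact C_mem _

variable (A F) in
/-- The valuation ring of the branch. -/
def branchSubring : Subring F where
  carrier := {f | IsBranchElem A F (f : LaurentSeries K)}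
  mul_mem' ha hb := ha.mul hb
  one_mem' := by simpa using branchElem_incl (A := A) (F := F) (one_mem _)
  add_mem' ha hb := ha.add hb
  zero_mem' := by simpa using branchElem_incl (A := A) (F := F) (zero_mem _)
  neg_mem' ha := ha.neg

theorem exists_scalar (a : K) (ha : a ∉ A) : ∃ b : A, (b : K) = a⁻¹ ∧
    IsLocalRing.residue A b = 0 := by
  refine ⟨⟨a⁻¹, (A.mem_or_inv_mem a).resolve_left ha⟩, rfl, ?_⟩
  rw [IsLocalRing.residue_eq_zero_iff, IsLocalRing.mem_maximalIdeal, mem_nonunits_iff]
  rintro ⟨u, hu⟩
  have h1 : ((u⁻¹ : Aˣ) : A) * (u : A) = 1 := u.inv_mul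
  have h2 := congrArg (fun z : A => (z : K)) h1
  simp only [hu] at h2
  refine ha ?_
  have ha0 : a ≠ 0 := fun h => ha (h ▸ A.zero_mem)
  have h3 : (((u⁻¹ : Aˣ) : A) : K) = a := by
    push_cast at h2
    field_simp at h2
    exact h2
  exact h3 ▸ ((u⁻¹ : Aˣ) : A).2

/-- Scalable fields have valuation rings as branches. -/
def branch (hF : Scalable A F) : ValuationSubring F :=
  { branchSubring A F with
    mem_or_inv_mem' := fun f => by
      rcases eq_or_ne f 0 with rfl | hf
      · exact Or.inl (branchSubring A F).zero_mem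
      obtain ⟨c, g, h, hc, hg, hh, hg0, hh0, hfh⟩ :=
        hF _ f.2 (fun h0 => hf (Subtype.ext h0))
      rcases A.mem_or_inv_mem c with hcA | hcA
      · refine Or.inl ⟨HahnSeries.C ⟨c, hcA⟩ * g, h, mul_mem (C_intSer _) hg, hh, hh0, ?_⟩
        rw [hfh, map_mul, inclA_C]
      · refine Or.inr ⟨HahnSeries.C ⟨c⁻¹, hcA⟩ * h, g, mul_mem (C_intSer _) hh, hg, hg0, ?_⟩
        rw [map_mul, inclA_C]
        have hf' : (f : LaurentSeries K) ≠ 0 := fun h0 => hf (Subtype.ext h0)
        have hc' : HahnSeries.C c * HahnSeries.C c⁻¹ = (1 : LaurentSeries K) := by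
          rw [← map_mul, mul_inv_cancel₀ hc, map_one]
        show ((f⁻¹ : F) : LaurentSeries K) * _ = _
        rw [IntermediateField.coe_inv, inv_mul_eq_iff_eq_mul₀ hf']
        calc inclA A g = (HahnSeries.C c * HahnSeries.C c⁻¹) * inclA A g := by rw [hc', one_mul]
          _ = HahnSeries.C c⁻¹ * (HahnSeries.C c * inclA A g) := by ring
          _ = _ := by rw [← hfh]; ring }

variable {hF : Scalable A F}

theorem mem_branch {f : F} : f ∈ branch hF ↔ IsBranchElem A F (f : LaurentSeries K) := Iff.rfl

theorem red_unique {f : LaurentSeries K} {g h g' h' : LaurentSeries A}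
    (hfh : f * inclA A h = inclA A g) (hfh' : f * inclA A h' = inclA A g')
    (hh : redA A h ≠ 0) (hh' : redA A h' ≠ 0) :
    redA A g / redA A h = redA A g' / redA A h' := by
  rw [div_eq_div_iff hh hh', ← map_mul, ← map_mul]
  congr 1
  apply inclA_injective A
  rw [map_mul, map_mul, ← hfh, ← hfh']
  ring

variable (A F) in
/-- The reduction of a branch element. -/
def branchRedFun (f : LaurentSeries K) : LaurentSeries (ResK A) :=
  letI := Classical.propDecidable
  if hf : IsBranchElem A F f then
    redA A hf.choose / redA A hf.choose_spec.choose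
  else 0

theorem branchRedFun_eq {f : LaurentSeries K} {g h : LaurentSeries A} (hg : g ∈ intSer A F)
    (hh : h ∈ intSer A F) (hh0 : redA A h ≠ 0) (hfh : f * inclA A h = inclA A g) :
    branchRedFun A F f = redA A g / redA A h := by
  have hf : IsBranchElem A F f := ⟨g, h, hg, hh, hh0, hfh⟩
  rw [branchRedFun, dif_pos hf]
  obtain ⟨-, -, hh0', hfh'⟩ := hf.choose_spec.choose_spec
  exact red_unique hfh' hfh hh0' hh0

/-- The reduction map of the branch. -/
def branchRed (hF : Scalable A F) : branch hF →+* LaurentSeries (ResK A) where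
  toFun f := branchRedFun A F ((f : F) : LaurentSeries K)
  map_one' := by
    rw [branchRedFun_eq (g := 1) (h := 1) (one_mem _) (one_mem _) (by simp) (by simp)]
    simp
  map_zero' := by
    rw [branchRedFun_eq (g := 0) (h := 1) (zero_mem _) (one_mem _) (by simp) (by simp)]
    simp
  map_mul' := by
    rintro ⟨a, g, h, hg, hh, hh0, hfh⟩ ⟨b, g', h', hg', hh', hh0', hfh'⟩
    rw [branchRedFun_eq hg hh hh0 hfh, branchRedFun_eq hg' hh' hh0' hfh',
      branchRedFun_eq (mul_mem hg hg') (mul_mem hh hh')
        (by rw [map_mul]; exact mul_ne_zero hh0 hh0')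
        (by push_cast; rw [map_mul, map_mul, ← hfh, ← hfh']; ring),
      map_mul, map_mul, div_mul_div_comm]
  map_add' := by
    rintro ⟨a, g, h, hg, hh, hh0, hfh⟩ ⟨b, g', h', hg', hh', hh0', hfh'⟩
    rw [branchRedFun_eq hg hh hh0 hfh, branchRedFun_eq hg' hh' hh0' hfh',
      branchRedFun_eq (g := g * h' + g' * h) (h := h * h')
        (add_mem (mul_mem hg hh') (mul_mem hg' hh)) (mul_mem hh hh')
        (by rw [map_mul]; exact mul_ne_zero hh0 hh0')
        (by push_cast; rw [map_add, map_mul, map_mul, map_mul, ← hfh, ← hfh']; ring),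
      map_add, map_mul, map_mul, map_mul, div_add_div _ _ hh0 hh0']
    ring

theorem branchRed_apply {f : branch hF} {g h : LaurentSeries A} (hg : g ∈ intSer A F)
    (hh : h ∈ intSer A F) (hh0 : redA A h ≠ 0)
    (hfh : ((f : F) : LaurentSeries K) * inclA A h = inclA A g) :
    branchRed hF f = redA A g / redA A h :=
  branchRedFun_eq hg hh hh0 hfh

end FLTAgent.IgusaCover

end
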