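import Fermat.Agent.IgusaCover.OldMaps

/-!
# The trace formula on inertia

If the residual class is injective on the part where `U_q = α`, then the attached representation
has trace `1 + det` on inertia (`trace_eq_one_add_det_of_inj`).
-/

set_option autoImplicit false
set_option maxSynthPendingDepth 3

noncomputable section

open ModularCurve CongruenceSubgroup Matrix
open scoped MatrixGroups

namespace FLTAgent.IgusaCover

open FLTAgent.GammaH

local notation "Qbar" => AlgebraicClosure ℚ
local notation "GalQ" => AlgebraicClosure ℚ ≃ₐ[ℚ] AlgebraicClosure ℚ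

theorem cayley_fin_two {R : Type*} [CommRing R] (X : Matrix (Fin 2) (Fin 2) R) :
    X * X = X.trace • X - X.det • 1 := by
  ext i j
  fin_cases i <;> fin_cases j <;>
    simp [Matrix.mul_apply, Fin.sum_univ_two, trace_fin_two, det_fin_two] <;> ring

variable {M n q : ℕ} [NeZero M] [Fact (1 < M)] [NeZero n] [Fact q.Prime]
variable {R ι : Type} [CommRing R] [Fintype ι] [DecidableEq ι] (e : R ≃+ (ι → ZMod n))
variable (hb : Function.Bijective (kummer M n)) (hqM : q ∣ M)
variable {A : ValuationSubring Qbar} [IsAlgClosed (ResK A)] [CharP (ResK A) q]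
  (hF : Scalable A (FF M))
variable {S : Finset ℕ} {a : ℕ → R} {ε : SL(2, ℤ) → R}

theorem opU_galR (g : GalQ) (c : ParR M R) :
    galR e hb g (opU e q hqM c) = opU e q hqM (galR e hb g c) := by
  rw [galR_apply, galR_apply, opU, ← extL_comp, ← extL_comp, galP_uRep]

/-- The trace formula on inertia. -/
theorem trace_eq_one_add_det_of_inj (ρ : GalQ →* Matrix (Fin 2) (Fin 2) R)
    (hspan : Submodule.span R (Set.range ρ) = ⊤)
    (Ψ : Matrix (Fin 2) (Fin 2) R →ₐ[R] Module.End R ↥(eigSub (M := M) e S a ε))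
    (hΨ : ∀ g, Ψ (ρ g) = galW e hb g) {b α β : R} {φ : GalQ} (hφ : A.IsFrobeniusAt φ q)
    (htr : α + β = (ρ φ).trace) (hdet : α * β = (ρ φ).det) (hu : IsUnit (α - β))
    (hub : IsUnit (b - β))
    (hsoc : ∀ v ∈ eigSub (M := M) e S a ε, opU e q hqM v = b • v → galR e hb φ v = α • v →
      RedZero e hb hF v → v = 0)
    {v : ParR M R} (hv : v ∈ eigSub (M := M) e S a ε) (hvU : opU e q hqM v = b • v)
    (hprim : ∀ c : R, c • v = 0 → c = 0) {τ : GalQ} (hτ : τ ∈ A.inertiaSubgroupIn ℚ) :
    (ρ τ).trace = 1 + (ρ τ).det := by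
  obtain ⟨u, hu'⟩ := hu
  obtain ⟨u', hu''⟩ := hub
  set P : Matrix (Fin 2) (Fin 2) R := ((u⁻¹ : Rˣ) : R) • (ρ φ - β • 1) with hP
  have hFP : ρ φ * P = α • P := by
    rw [hP, mul_smul_comm, smul_comm]
    congr 1
    rw [mul_sub, mul_smul_comm, mul_one, cayley_fin_two, ← htr, ← hdet]
    module
  have hFQ : ρ φ * (1 - P) = β • (1 - P) := by
    have h : ρ φ = β • (1 : Matrix (Fin 2) (Fin 2) R) + (u : R) • P := by
      rw [hP, smul_smul, Units.mul_inv, one_smul, add_sub_cancel]
    rw [mul_sub, mul_one, hFP]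
    conv_lhs => arg 1; rw [h]
    rw [hu']
    module
  have htrP : P.trace = 1 := by
    rw [hP, trace_smul, trace_sub, trace_smul, trace_one, Fintype.card_fin, ← htr, smul_eq_mul,
      smul_eq_mul, show α + β - β * ((2 : ℕ) : R) = (u : R) by rw [hu']; push_cast; ring,
      Units.inv_mul]
  -- the operators preserve `U = b`
  have hW : ∀ (X : Matrix (Fin 2) (Fin 2) R) (w : eigSub (M := M) e S a ε),
      opU e q hqM w.1 = b • w.1 → opU e q hqM (Ψ X w).1 = b • (Ψ X w).1 := by
    intro X
    have hX : X ∈ Submodule.span R (Set.range ρ) := hspan ▸ Submodule.mem_top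
    induction hX using Submodule.span_induction with
    | mem X hX =>
      obtain ⟨g, rfl⟩ := hX
      intro w hw
      rw [hΨ, coe_galW, ← opU_galR, hw, map_smul]
    | zero => intro w _; rw [map_zero, LinearMap.zero_apply, ZeroMemClass.coe_zero,
      map_zero, smul_zero]
    | add X Y _ _ hX hY =>
      intro w hw
      rw [map_add, LinearMap.add_apply, Submodule.coe_add, map_add, hX w hw, hY w hw, smul_add]
    | smul c X _ hX =>
      intro w hw
      rw [map_smul, LinearMap.smul_apply, Submodule.coe_smul, map_smul, hX w hw, smul_comm]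
  have hmul : ∀ (X Y : Matrix (Fin 2) (Fin 2) R) (w : eigSub (M := M) e S a ε),
      Ψ (X * Y) w = Ψ X (Ψ Y w) := fun X Y w => by rw [map_mul]; rfl
  set X := ρ τ - 1 with hX
  have hkill : ∀ w : eigSub (M := M) e S a ε, opU e q hqM w.1 = b • w.1 → Ψ (P * X) w = 0 := by
    intro w hw
    have h1 : RedZero e hb hF (Ψ X w).1 := by
      rw [hX, map_sub, map_one, hΨ]
      exact redZero_galR_inertia e hb hF hτ w.1
    set w' := Ψ ((1 - P) * X) w
    have hUw' := hW ((1 - P) * X) w hw
    have hFw' : galR e hb φ w'.1 = β • w'.1 := by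
      rw [← coe_galW, ← hΨ, ← hmul, ← mul_assoc, hFQ, smul_mul_assoc, map_smul,
        LinearMap.smul_apply, Submodule.coe_smul]
    have h2 : RedZero e hb hF w'.1 := by
      have h := (redZero_galR_opU e hb hF hφ hqM w'.1).smul e hb hF ((u'⁻¹ : Rˣ) : R)
      rwa [hUw', hFw', ← sub_smul, ← hu'', smul_smul, Units.inv_mul, one_smul] at h
    refine Subtype.ext (hsoc _ (Ψ (P * X) w).2 (hW _ w hw) ?_ ?_)
    · rw [← coe_galW, ← hΨ, ← hmul, ← mul_assoc, hFP, smul_mul_assoc, map_smul,
        LinearMap.smul_apply, Submodule.coe_smul]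
    · have e0 : Ψ X w = Ψ (P * X) w + w' := by
        rw [← LinearMap.add_apply, ← map_add Ψ, ← add_mul, add_sub_cancel, one_mul]
      have e1 : (Ψ (P * X) w).1 = (Ψ X w).1 + (-1 : R) • w'.1 := by
        rw [neg_one_smul, e0, Submodule.coe_add, add_neg_cancel_right]
      rw [e1]
      exact h1.add e hb hF (h2.smul e hb hF (-1))
  let vv : ↥(eigSub (M := M) e S a ε) := ⟨v, hv⟩
  have hentry : ∀ i j : Fin 2, (P * X) i j • v = 0 := by
    intro i j
    have hw : ∀ l : Fin 2,
        Ψ (Matrix.single l i (1 : R) * (P * X) * Matrix.single j l 1) vv = 0 := fun l => by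
      rw [hmul (Matrix.single l i (1 : R) * (P * X)) (Matrix.single j l 1) vv,
        hmul (Matrix.single l i (1 : R)) (P * X),
        hkill (Ψ (Matrix.single j l 1) vv) (hW (Matrix.single j l 1) vv hvU),
        (Ψ (Matrix.single l i (1 : R))).map_zero]
    have hid : (P * X) i j • (1 : Matrix (Fin 2) (Fin 2) R) =
        Matrix.single 0 i (1 : R) * (P * X) * Matrix.single j 0 1 +
          Matrix.single 1 i (1 : R) * (P * X) * Matrix.single j 1 1 := by
      generalize P * X = Z
      ext r s
      fin_cases r <;> fin_cases s <;> fin_cases i <;> fin_cases j <;>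
        simp [Matrix.mul_apply, Matrix.single]
    have h : Ψ ((P * X) i j • (1 : Matrix (Fin 2) (Fin 2) R)) vv = 0 := by
      rw [hid, map_add Ψ, LinearMap.add_apply, hw 0, hw 1, add_zero]
    rw [map_smul Ψ, map_one Ψ, LinearMap.smul_apply, Module.End.one_apply] at h
    exact congrArg Subtype.val h
  have hPX : P * X = 0 := Matrix.ext fun i j => hprim _ (hentry i j)
  have hdetX : X.det = 0 := by
    have h := congrArg (fun Y => (Y * X.adjugate).trace) hPX
    simp only [mul_assoc, mul_adjugate, mul_smul_comm, mul_one, trace_smul, htrP, smul_eq_mul,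
      zero_mul, trace_zero] at h
    exact h
  have hρ : ρ τ = 1 + X := by rw [hX, add_sub_cancel]
  rw [hρ, trace_add, trace_one, Fintype.card_fin, det_add_fin_two, det_one, hdetX, trace_one,
    Fintype.card_fin, one_mul]
  push_cast
  ring

end FLTAgent.IgusaCover

end
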