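import Fermat.Agent.IgusaCover.KumRed
import Fermat.Agent.GammaH.KummerBij
import Fermat.Agent.GammaH.Reduction
import Fermat.Agent.FFBasic.CurveOver
import Fermat.Agent.Jacobian.General

/-!
# Two inputs of the Igusa-cover argument

Bijectivity of the Kummer map for prime-power exponents (`kummer_bijective'`) and injectivity of
the residual class at a place of good reduction (`redKum_injective`).
-/

set_option autoImplicit false

noncomputable section

open ModularCurve CongruenceSubgroup AlgebraicCurve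

namespace FLTAgent.IgusaCover

open FLTAgent.GammaH

local notation "Qbar" => AlgebraicClosure ℚ

variable {M : ℕ} [NeZero M] [Fact (1 < M)]

theorem kummer_bijective' (h5 : 5 ≤ M) (ℓ k : ℕ) [hℓ : Fact ℓ.Prime] [NeZero (ℓ ^ k)] :
    Function.Bijective (kummer M (ℓ ^ k)) := by
  exact kummer_bijective h5 ℓ k (Jacobian.natCard_torsion_pow Qbar (FF M) hℓ.out.ne_zero k)

variable {A : ValuationSubring Qbar} [IsAlgClosed (ResK A)] {q n : ℕ} [NeZero n]

/-- The residual class is injective at a place of good reduction. -/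
theorem redKum_injective (hA : A.LiesOverPrime q) [Fact q.Prime] (hqM : ¬ q ∣ M)
    (hn : (n : ResK A) ≠ 0) (hF : Scalable A (FF M)) {x : Kum M n}
    (hx : redKum hF n x = 0) : x = 0 := by
  obtain ⟨h, rfl⟩ := kumMk_surjective x
  rw [redKum_kumMk] at hx
  have hx' : redClass hF n (h : (FF M)ˣ) = 1 := congrArg Additive.toMul hx
  obtain ⟨c, hc, hc0, h0⟩ := exists_smul_branch hF ((h : (FF M)ˣ)).ne_zero
  rw [redClass_eq hF n _ hc h0, resClass_def] at hx'
  obtain ⟨v, hv⟩ := (QuotientGroup.eq_one_iff _).mp hx'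
  have hv' : ((v : resField hF) : LaurentSeries (ResK A)) ^ n = branchRed hF ⟨_, hc⟩ := by
    have := congrArg (fun u : (resField hF)ˣ => ((u : resField hF) : LaurentSeries (ResK A))) hv
    simpa using this
  have hmem : ((v : resField hF) : LaurentSeries (ResK A)) ∈ redField A M := by
    obtain ⟨f₁, hf₁⟩ := mem_resField.mp (v : resField hF).2
    obtain ⟨s₁, t₁, hs₁, ht₁, ht₁0, he₁⟩ := f₁.2
    rw [← hf₁, branchRed_apply hs₁ ht₁ ht₁0 he₁]
    exact div_mem (red_mem_redField (f := ⟨_, hs₁⟩) (y := s₁) rfl)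
      (red_mem_redField (f := ⟨_, ht₁⟩) (y := t₁) rfl)
  have hv0 : ((v : resField hF) : LaurentSeries (ResK A)) ≠ 0 := fun e =>
    v.ne_zero (Subtype.ext e)
  obtain ⟨s, t, hs, ht, ht0, he⟩ := id hc
  have hred := branchRed_apply (hF := hF) (f := ⟨_, hc⟩) hs ht ht0 he
  have hst : (((h : (FF M)ˣ) : FF M) : LaurentSeries Qbar) * inclA A t =
      HahnSeries.C c⁻¹ * inclA A s := by
    rw [← he, MulMemClass.coe_mul, coe_algebraMap_series, ← mul_assoc, ← mul_assoc, ← map_mul,
      inv_mul_cancel₀ hc0, map_one, one_mul]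
  have hs' : redA A s = HahnSeries.C (1 : ResK A) * redA A t *
      ((v : resField hF) : LaurentSeries (ResK A)) ^ n := by
    rw [hv', hred, map_one, one_mul, mul_div_cancel₀ _ ht0]
  obtain ⟨y, hy⟩ := exists_pow_eq_of_reduction_pow hA hqM hn (Units.ne_zero _) h.2 hst ht0
    one_ne_zero hmem hv0 hs'
  have hy0 : y ≠ 0 := fun e => Units.ne_zero (h : (FF M)ˣ)
    (by rw [← hy, e, zero_pow (NeZero.ne n)])
  exact congrArg Additive.ofMul ((QuotientGroup.eq_one_iff h).mpr
    ⟨Units.mk0 y hy0, Units.ext (by simpa using hy)⟩)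

end FLTAgent.IgusaCover

end
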