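import Fermat.Agent.IgusaCover.Decomposition

/-!
# Frobenius on the kernel of residual restriction

A residual element of the base which becomes a `p`-th power on the cover is fixed by Frobenius
modulo `p`-th powers (`frobenius_fixes_kernel`).
-/

set_option autoImplicit false

noncomputable section

open ModularCurve

namespace FLTAgent.IgusaCover

theorem exists_C_of_pow_eq_one {k : Type*} [Field k] [IsAlgClosed k] {p : ℕ} (hp : (p : k) ≠ 0)
    {w : LaurentSeries k} (hw : w ^ p = 1) : ∃ a : k, a ^ p = 1 ∧ w = HahnSeries.C a := by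
  have hp0 : 0 < p := Nat.pos_of_ne_zero fun h => hp (by simp [h])
  have : NeZero p := ⟨hp0.ne'⟩
  have : NeZero (p : k) := ⟨hp⟩
  obtain ⟨ζ, hζ⟩ := HasEnoughRootsOfUnity.exists_primitiveRoot k p
  obtain ⟨i, -, hi⟩ := (hζ.map_of_injective
    (f := (HahnSeries.C : k →+* LaurentSeries k)) HahnSeries.C_injective).eq_pow_of_pow_eq_one hw
  exact ⟨ζ ^ i, by rw [pow_right_comm, hζ.pow_eq_one, one_pow], by rw [map_pow, hi]⟩

universe u

variable {K : Type u} [Field K] {A : ValuationSubring K}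
variable {F₀ F : IntermediateField K (LaurentSeries K)} {hF₀ : Scalable A F₀} {hF : Scalable A F}
variable {G : Type*} [Group G] [Fintype G] (act : G →* (F ≃ₐ[K] F))

theorem branchRed_map_eq_zero {g : G} (hg : ∀ z ∈ branch hF, act g z ∈ branch hF) {z : branch hF}
    (hz : branchRed hF z = 0) : branchRed hF ⟨act g (z : F), hg _ z.2⟩ = 0 := by
  by_contra h0
  have hiter : ∀ m : ℕ, ∀ x ∈ branch hF, act (g ^ m) x ∈ branch hF := fun m => by
    induction m with
    | zero => exact fun x hx => by rwa [pow_zero, map_one, AlgEquiv.one_apply]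
    | succ m ih =>
      exact fun x hx => by rw [pow_succ, map_mul, AlgEquiv.mul_apply]; exact ih _ (hg x hx)
  obtain ⟨n, hn, hgn⟩ := isOfFinOrder_iff_pow_eq_one.mp (isOfFinOrder_of_finite g)
  have h1 := hiter (n - 1) _ (inv_mem_branch h0)
  rw [map_inv₀, ← AlgEquiv.mul_apply, ← map_mul, ← pow_succ, Nat.sub_add_cancel hn, hgn, map_one,
    AlgEquiv.one_apply] at h1
  have hne : (z : F) ≠ 0 := fun e => h0 (by
    rw [show (⟨act g (z : F), hg _ z.2⟩ : branch hF) = 0 from Subtype.ext (by simp [e]), map_zero])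
  have h2 : branchRed hF (z * ⟨(z : F)⁻¹, h1⟩) = 0 := by rw [map_mul, hz, zero_mul]
  rw [show z * ⟨(z : F)⁻¹, h1⟩ = 1 from Subtype.ext (mul_inv_cancel₀ hne), map_one] at h2
  exact one_ne_zero h2

/-- The stabiliser acts on residues. -/
theorem branchRed_map_congr {g : G} (hg : ∀ z ∈ branch hF, act g z ∈ branch hF) {a b : branch hF}
    (h : branchRed hF a = branchRed hF b) :
    branchRed hF ⟨act g (a : F), hg _ a.2⟩ = branchRed hF ⟨act g (b : F), hg _ b.2⟩ := by
  have h1 := branchRed_map_eq_zero act hg (z := a - b) (by rw [map_sub, h, sub_self])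
  rw [← sub_eq_zero, ← map_sub]
  refine Eq.trans (congrArg _ (Subtype.ext ?_)) h1
  exact (map_sub (act g) (a : F) (b : F)).symm

theorem frobenius_fixes_kernel [IsAlgClosed (ResK A)] (hle : F₀ ≤ F) (hF₀ : Scalable A F₀)
    (htr : ∀ f : F, ((∑ g, act g f : F) : LaurentSeries K) ∈ F₀)
    (hfix₀ : ∀ g (f : F), (f : LaurentSeries K) ∈ F₀ → act g f = f)
    (hcard : ((Nat.card G : ℕ) : ResK A) ≠ 0)
    (θ : F →*₀ F) (θk : LaurentSeries (ResK A) →*₀ LaurentSeries (ResK A)) (hθ : Lifts θ θk)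
    (hcomm : ∀ g f, θ (act g f) = act g (θ f))
    {p : ℕ} (hp : ((p : ℕ) : ResK A) ≠ 0)
    (hμ : ∀ a : ResK A, a ^ p = 1 → θk (HahnSeries.C a) = HahnSeries.C a)
    {x s : LaurentSeries (ResK A)} (hx : x ∈ resField hF₀) (hs : s ∈ resField hF) (hs0 : s ≠ 0)
    (hsx : s ^ p = x) : ∃ t ∈ resField hF₀, θk x = x * t ^ p := by
  obtain ⟨f, rfl⟩ := mem_resField.mp hs
  obtain ⟨hθf, hθe⟩ := hθ.map_branch hF hF f
  let u : branch hF := ⟨θ (f : F), hθf⟩ * ⟨(f : F)⁻¹, inv_mem_branch hs0⟩
  have hu : branchRed hF u = θk (branchRed hF f) / branchRed hF f := by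
    rw [map_mul, hθe, branchRed_inv hs0, div_eq_mul_inv]
  refine ⟨branchRed hF u, branchRed_mem_resField_of_fixed act hle hF₀ htr hcard u fun g hg => ?_,
    ?_⟩
  · obtain ⟨f₀, hf₀⟩ := mem_resField.mp hx
    let θi : F₀ →*₀ F :=
      (IntermediateField.inclusion hle : F₀ →ₐ[K] F).toRingHom.toMonoidWithZeroHom
    obtain ⟨hm, he⟩ := (lifts_id (A := A) θi fun _ => rfl).map_branch hF₀ hF f₀
    have hfixe : act g (θi (f₀ : F₀)) = θi (f₀ : F₀) := hfix₀ g _ (f₀ : F₀).2
    set gf : branch hF := ⟨act g (f : F), hg _ f.2⟩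
    have hgp : branchRed hF gf ^ p = x := by
      rw [← map_pow]
      have h1 := branchRed_map_congr act hg (a := f ^ p) (b := ⟨θi (f₀ : F₀), hm⟩)
        (by rw [map_pow, hsx, he, ← hf₀]; rfl)
      refine Eq.trans (congrArg _ (Subtype.ext ?_)) (h1.trans ?_)
      · exact (map_pow (act g) (f : F) p).symm
      · exact ((congrArg (branchRed hF) (Subtype.ext hfixe :
          (⟨_, hg _ hm⟩ : branch hF) = ⟨_, hm⟩)).trans he).trans hf₀
    obtain ⟨a, ha, hae⟩ := exists_C_of_pow_eq_one hp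
      (w := branchRed hF gf / branchRed hF f) (by
        rw [div_pow, hgp, hsx, div_self]
        exact hsx ▸ pow_ne_zero p hs0)
    rw [div_eq_iff hs0] at hae
    have hgf0 : branchRed hF gf ≠ 0 := by
      rw [hae]
      refine mul_ne_zero (fun h => ?_) hs0
      rw [HahnSeries.C_injective (h.trans (map_zero _).symm), zero_pow] at ha
      · exact zero_ne_one ha
      · exact fun h0 => hp (by simp [h0])
    obtain ⟨hθg, hθge⟩ := hθ.map_branch hF hF gf
    calc branchRed hF ⟨act g (u : F), hg _ u.2⟩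
        = branchRed hF (⟨θ (gf : F), hθg⟩ * ⟨(gf : F)⁻¹, inv_mem_branch hgf0⟩) := by
          refine congrArg _ (Subtype.ext ?_)
          show act g (θ (f : F) * (f : F)⁻¹) = θ (act g (f : F)) * (act g (f : F))⁻¹
          rw [map_mul, map_inv₀, hcomm]
      _ = branchRed hF u := by
          rw [map_mul, hθge, branchRed_inv hgf0, hu, hae, map_mul, hμ a ha, ← div_eq_mul_inv,
            mul_div_mul_left]
          intro h
          refine hgf0 ?_
          rw [hae, h, zero_mul]
  · rw [hu, div_pow, ← map_pow, hsx, mul_div_cancel₀]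
    exact hsx ▸ pow_ne_zero p hs0

end FLTAgent.IgusaCover

end
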