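import Fermat.Agent.IgusaCover.Operators
import Fermat.Agent.IgusaCover.Kernel
import Fermat.Agent.GammaH.Galois

/-!
# Residual classes of Kummer classes

`redKum` sends a Kummer class to its residual class modulo `n`-th powers; it is invariant under
inertia, intertwines Frobenius with `frobRes`, turns `U_q` into Galois (`redKum_uRep`) and
commutes with the degeneracy maps (`redKum_degRep`).
-/

set_option autoImplicit false

noncomputable section

open ModularCurve CongruenceSubgroup
open scoped MatrixGroups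

namespace FLTAgent.IgusaCover

open FLTAgent.GammaH

local notation "Qbar" => AlgebraicClosure ℚ
local notation "GalQ" => AlgebraicClosure ℚ ≃ₐ[ℚ] AlgebraicClosure ℚ

attribute [local instance] HeckeReps.fin

section Residual

variable {A : ValuationSubring Qbar} [IsAlgClosed (ResK A)]
variable {M : ℕ} [NeZero M] (hF : Scalable A (FF M)) {n : ℕ} [NeZero n]

variable (n) in
/-- The residual class of a Kummer class. -/
def redKum : Kum M n →+ Additive (ResMod hF n) :=
  MonoidHom.toAdditive (QuotientGroup.lift (powGroup M n)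
    ((redClass hF n).comp (divGroup M n).subtype) (by
      rintro ⟨h, hh⟩ ⟨y, hy⟩
      rw [MonoidHom.mem_ker, MonoidHom.comp_apply]
      show redClass hF n h = 1
      rw [← show y ^ n = h from hy, map_pow]
      obtain ⟨u, hu⟩ := QuotientGroup.mk_surjective (redClass hF n y)
      rw [← hu, ← QuotientGroup.mk_pow]
      exact (QuotientGroup.eq_one_iff _).mpr ⟨u, rfl⟩))

omit [NeZero M] in
theorem redKum_kumMk (h : divGroup M n) :
    redKum hF n (kumMk h) = Additive.ofMul (redClass hF n (h : (FF M)ˣ)) := rfl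

variable {M' : ℕ} [NeZero M'] {hF' : Scalable A (FF M')}

omit [NeZero M] [NeZero M'] in
theorem redKum_map {θ : FF M →*₀ FF M'} {θk : LaurentSeries (ResK A) →*₀ LaurentSeries (ResK A)}
    (hθ : Lifts θ θk)
    (hscal : ∀ c : Qbar, c ≠ 0 → ∃ c', θ (algebraMap Qbar (FF M) c) = algebraMap Qbar (FF M') c')
    {h : divGroup M n} {h' : divGroup M' n}
    (hh : (h' : (FF M')ˣ) = Units.map (θ : FF M →* FF M') (h : (FF M)ˣ)) :
    redKum hF' n (kumMk h') =
      MonoidHom.toAdditive (hθ.mapResMod hF hF' n) (redKum hF n (kumMk h)) := by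
  rw [redKum_kumMk, redKum_kumMk, hh, hθ.redClass_map hF hF' hscal]
  rfl

end Residual

section Galois

variable {A : ValuationSubring Qbar} {M : ℕ} [NeZero M] [Fact (1 < M)] (hF : Scalable A (FF M))

/-- Conjugation of coefficients as a monoid-with-zero map. -/
abbrev galZ (g : GalQ) : FF M →*₀ FF M :=
  ((galHom (M := M) g : FF M →+* FF M)).toMonoidWithZeroHom

theorem lifts_galZ {g : GalQ} (hg : g ∈ A.decompositionSubgroup ℚ) (σk : ResK A →+* ResK A)
    (h2 : ∀ a : A, σk (IsLocalRing.residue A a) = IsLocalRing.residue A (decompA A hg a)) :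
    Lifts (F := FF M) (F' := FF M) (A := A) (galZ g) (coeffMap σk).toMonoidWithZeroHom :=
  lifts_coeffMap (g : Qbar →+* Qbar) (decompA A hg) σk (fun a => coe_decompA A hg a) h2 _
    fun _ => rfl

theorem galZ_scal (g : GalQ) (c : Qbar) (_hc : c ≠ 0) :
    ∃ c', galZ (M := M) g (algebraMap Qbar (FF M) c) = algebraMap Qbar (FF M) c' :=
  ⟨g c, galHom_algebraMap g c⟩

variable [IsAlgClosed (ResK A)] {n : ℕ} [NeZero n]

theorem redKum_galKum_inertia {g : GalQ} (hg : g ∈ A.inertiaSubgroupIn ℚ) (x : Kum M n) :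
    redKum hF n (galKum n g x) = redKum hF n x := by
  obtain ⟨h, rfl⟩ := kumMk_surjective x
  obtain ⟨hd, hr⟩ := residue_decompA_of_inertia A hg
  rw [galKum_kumMk, redKum_map hF (hF' := hF)
    (lifts_galZ hd (RingHom.id _) fun a => (hr a).symm) (galZ_scal g) (h := h) rfl]
  obtain ⟨u, hu⟩ := QuotientGroup.mk_surjective (redClass hF n (h : (FF M)ˣ))
  rw [redKum_kumMk, ← hu]
  refine congrArg (fun z : (resField hF)ˣ => Additive.ofMul (QuotientGroup.mk z : ResMod hF n)) ?_
  exact Units.ext (Subtype.ext (coeffMap_id_apply rfl _))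

variable (q : ℕ) [Fact q.Prime] [CharP (ResK A) q]

/-- Frobenius on coefficients of residual series. -/
abbrev frobK : LaurentSeries (ResK A) →*₀ LaurentSeries (ResK A) :=
  (coeffMap (frobenius (ResK A) q)).toMonoidWithZeroHom

omit [IsAlgClosed (ResK A)] in
theorem lifts_galZ_frob {g : GalQ} (hg : A.IsFrobeniusAt g q) :
    Lifts (F := FF M) (F' := FF M) (A := A) (galZ g) (frobK q) := by
  obtain ⟨hd, hr⟩ := residue_decompA_of_frobenius A hg
  exact lifts_galZ hd _ fun a => by rw [frobenius_def]; exact (hr a).symm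

/-- Frobenius on residual classes. -/
def frobRes {g : GalQ} (hg : A.IsFrobeniusAt g q) :
    Additive (ResMod hF n) →+ Additive (ResMod hF n) :=
  MonoidHom.toAdditive ((lifts_galZ_frob q hg).mapResMod hF hF n)

theorem redKum_galKum_frobenius {g : GalQ} (hg : A.IsFrobeniusAt g q) (x : Kum M n) :
    redKum hF n (galKum n g x) = frobRes hF q hg (redKum hF n x) := by
  obtain ⟨h, rfl⟩ := kumMk_surjective x
  rw [galKum_kumMk]
  exact redKum_map hF (hF' := hF) (lifts_galZ_frob q hg) (galZ_scal g) (h := h) rfl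

end Galois

section UOp

variable {A : ValuationSubring Qbar} [IsAlgClosed (ResK A)]
variable {M : ℕ} [NeZero M] [Fact (1 < M)] (hF : Scalable A (FF M)) {n : ℕ} [NeZero n]
variable {q : ℕ} [Fact q.Prime] [CharP (ResK A) q] [NeZero q] (hqM : q ∣ M)

theorem prodMF_uRep_zero : (uRep (M := M) q Fact.out hqM).prodMF 0 = 0 := by
  refine Subtype.ext ?_
  rw [HeckeReps.coe_prodMF, HeckeReps.prodF_apply]
  refine Finset.prod_eq_zero (Finset.mem_univ (⟨0, NeZero.pos q⟩ : Fin q)) ?_
  exact map_zero _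

theorem normFF_uRep_zero : (uRep (M := M) q Fact.out hqM).normFF 0 = 0 := by
  rw [← map_zero (toFF (M := M)), HeckeReps.normFF_toFF, prodMF_uRep_zero, map_zero]

/-- `U_q` as a monoid-with-zero map. -/
def uZ : FF M →*₀ FF M :=
  { (uRep (M := M) q Fact.out hqM).normFF with map_zero' := normFF_uRep_zero hqM }

theorem uZ_apply (x : FF M) : uZ hqM x = (uRep (M := M) q Fact.out hqM).normFF x := rfl

omit [IsAlgClosed (ResK A)] [CharP (ResK A) q] [Fact (Nat.Prime q)] in
theorem zetaQ_mem_val : (zetaQUnit q : Qbar) ∈ A := by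
  refine mem_of_pow_mem (n := q) (NeZero.ne q) ?_
  rw [coe_zetaQUnit, zetaQ_isPrimitiveRoot.pow_eq_one]
  exact one_mem A
where
  mem_of_pow_mem {x : Qbar} {n : ℕ} (hn : n ≠ 0) (h : x ^ n ∈ A) : x ∈ A := by
    rw [← A.valuation_le_one_iff] at h ⊢
    rw [map_pow] at h
    exact (pow_le_one_iff hn).mp h

omit [IsAlgClosed (ResK A)] in
theorem lifts_uZ : Lifts (F := FF M) (F' := FF M) (A := A) (uZ hqM) (frobK q) := by
  let ζ : A := ⟨_, zetaQ_mem_val (A := A) (q := q)⟩
  have hζ : ζ ^ q = 1 := Subtype.ext (by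
    show (zetaQUnit q : Qbar) ^ q = 1
    rw [coe_zetaQUnit, zetaQ_isPrimitiveRoot.pow_eq_one])
  have hu : IsUnit ζ := IsUnit.of_mul_eq_one (ζ ^ (q - 1)) (by
    rw [← pow_succ', Nat.sub_add_cancel (NeZero.one_le), hζ])
  refine lifts_uOp q hu.unit (Units.ext (by simpa using hζ)) (uZ hqM) fun f => ?_
  have he : Units.map (A.subtype : A →* Qbar) hu.unit = zetaQUnit q := Units.ext rfl
  rw [he, uZ_apply]
  exact qExpand_normFF_uRep Fact.out hqM f

omit [IsAlgClosed (ResK A)] [CharP (ResK A) q] [NeZero q] in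
theorem scale_C {R : Type*} [CommRing R] (u : Rˣ) (c : R) :
    Igusa.scale u (HahnSeries.C c : LaurentSeries R) = HahnSeries.C c := by
  rw [HahnSeries.C_apply, Igusa.scale_single, zpow_zero, Units.val_one, one_mul]

theorem uZ_scal (c : Qbar) (_hc : c ≠ 0) :
    ∃ c', uZ hqM (algebraMap Qbar (FF M) c) = algebraMap Qbar (FF M) c' := by
  refine ⟨c ^ q, Subtype.ext (qExpand_injective q ?_)⟩
  rw [uZ_apply, qExpand_normFF_uRep Fact.out hqM, coe_algebraMap_series, coe_algebraMap_series]
  simp only [scale_C, Finset.prod_const, Finset.card_univ, Fintype.card_fin, ← map_pow]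
  exact (qExpand_C _ _).symm

theorem redKum_uRep {g : GalQ} (hg : A.IsFrobeniusAt g q)
    (hsurj : Function.Surjective (kummer M n)) (x : Kum M n) :
    redKum hF n ((uRep q Fact.out hqM).kumT hsurj x) = frobRes hF q hg (redKum hF n x) := by
  obtain ⟨h, rfl⟩ := kumMk_surjective x
  exact redKum_map hF (hF' := hF) (lifts_uZ hqM) (uZ_scal hqM) (h := h)
    (h' := ⟨_, (uRep q Fact.out hqM).norm_mem_divGroup hsurj h⟩) rfl

theorem galHom_uZ (g : GalQ) (x : FF M) : galHom g (uZ hqM x) = uZ hqM (galHom g x) := by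
  classical
  refine Subtype.ext (qExpand_injective q ?_)
  rw [uZ_apply, uZ_apply, qExpand_normFF_uRep Fact.out hqM, coe_galHom, ← coeffMap_qExpand,
    qExpand_normFF_uRep Fact.out hqM, map_prod]
  have hk : (cycExp q g).Coprime q := coprime_cycExp g
  let u := ZMod.unitOfCoprime _ hk
  let e : Fin q ≃ Fin q := (ZMod.finEquiv q).toEquiv.trans
    ((Units.mulLeft u).trans (ZMod.finEquiv q).toEquiv.symm)
  refine Fintype.prod_equiv e _ _ fun b => ?_
  rw [Igusa.coeffMap_scale, coe_galHom]
  congr 2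
  refine Units.ext ?_
  rw [Units.coe_map, Units.val_pow_eq_pow_val, Units.val_pow_eq_pow_val, coe_zetaQUnit,
    MonoidHom.coe_coe, RingHom.coe_coe, map_pow, apply_zetaQ, ← pow_mul,
    pow_eq_pow_mod (_ * _) zetaQ_isPrimitiveRoot.pow_eq_one,
    pow_eq_pow_mod (e b : ℕ) zetaQ_isPrimitiveRoot.pow_eq_one]
  congr 1
  rw [← ZMod.natCast_eq_natCast_iff']
  have hf : ∀ i : Fin q, ((i : ℕ) : ZMod q) = ZMod.finEquiv q i := fun i => by
    obtain ⟨r, rfl⟩ := Nat.exists_eq_succ_of_ne_zero (NeZero.ne q)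
    show ((i : ℕ) : ZMod (r + 1)) = (i : Fin (r + 1))
    exact Fin.cast_val_eq_self i
  push_cast
  rw [hf, hf, show e b = (ZMod.finEquiv q).symm ((u : ZMod q) * ZMod.finEquiv q b) from rfl,
    RingEquiv.apply_symm_apply]
  rfl

theorem galKum_uRep (hsurj : Function.Surjective (kummer M n)) (g : GalQ) (x : Kum M n) :
    galKum n g ((uRep q Fact.out hqM).kumT hsurj x) =
      (uRep q Fact.out hqM).kumT hsurj (galKum n g x) := by
  obtain ⟨h, rfl⟩ := kumMk_surjective x
  exact congrArg kumMk (Subtype.ext (Units.ext (galHom_uZ hqM g _)))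

end UOp

section Degeneracy

variable {A : ValuationSubring Qbar} {N M : ℕ} [NeZero N] [NeZero M] [Fact (1 < N)] [Fact (1 < M)]
variable (d : ℕ) [NeZero d] (hd : N * d ∣ M)

/-- The degeneracy map as a monoid-with-zero map. -/
def degZ : FF N →*₀ FF M :=
  { (degRep d (NeZero.pos d) hd).normFF with
    map_zero' := Subtype.ext (by
      show (((degRep d (NeZero.pos d) hd).normFF 0 : FF M) : LaurentSeries Qbar) = 0
      rw [coe_normFF_degRep, ZeroMemClass.coe_zero, map_zero]) }

omit [Fact (1 < M)] in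
theorem coe_degZ (x : FF N) : (degZ d hd x : LaurentSeries Qbar) = qExpand Qbar d (x : _) :=
  coe_normFF_degRep d hd x

omit [Fact (1 < M)] in
theorem lifts_degZ :
    Lifts (F := FF N) (F' := FF M) (A := A) (degZ d hd) (qExpand (ResK A) d).toMonoidWithZeroHom :=
  lifts_qExpand d _ (coe_degZ d hd)

omit [Fact (1 < M)] in
theorem degZ_scal (c : Qbar) (_hc : c ≠ 0) :
    ∃ c', degZ d hd (algebraMap Qbar (FF N) c) = algebraMap Qbar (FF M) c' :=
  ⟨c, Subtype.ext (by rw [coe_degZ, coe_algebraMap_series, coe_algebraMap_series, qExpand_C])⟩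

theorem galHom_degZ (g : GalQ) (x : FF N) : galHom g (degZ d hd x) = degZ d hd (galHom g x) := by
  refine Subtype.ext ?_
  rw [coe_galHom, coe_degZ, coe_degZ, coe_galHom, coeffMap_qExpand]

variable {n : ℕ} [NeZero n]

theorem galKum_degRep (hsurj : Function.Surjective (kummer M n)) (g : GalQ) (x : Kum N n) :
    galKum n g ((degRep d (NeZero.pos d) hd).kumT hsurj x) =
      (degRep d (NeZero.pos d) hd).kumT hsurj (galKum n g x) := by
  obtain ⟨h, rfl⟩ := kumMk_surjective x
  exact congrArg kumMk (Subtype.ext (Units.ext (galHom_degZ d hd g _)))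

variable [IsAlgClosed (ResK A)] (hN : Scalable A (FF N)) (hM : Scalable A (FF M))

/-- The degeneracy map on residual classes. -/
def degRes : Additive (ResMod hN n) →+ Additive (ResMod hM n) :=
  MonoidHom.toAdditive ((lifts_degZ (A := A) d hd).mapResMod hN hM n)

theorem redKum_degRep (hsurj : Function.Surjective (kummer M n)) (x : Kum N n) :
    redKum hM n ((degRep d (NeZero.pos d) hd).kumT hsurj x) =
      degRes d hd hN hM (redKum hN n x) := by
  obtain ⟨h, rfl⟩ := kumMk_surjective x
  exact redKum_map hN (hF' := hM) (lifts_degZ d hd) (degZ_scal d hd) (h := h)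
    (h' := ⟨_, (degRep d (NeZero.pos d) hd).norm_mem_divGroup hsurj h⟩) rfl

end Degeneracy

end FLTAgent.IgusaCover

end
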