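import Fermat.Agent.IgusaCover.OldMaps
import Mathlib.LinearAlgebra.Basis.VectorSpace

/-!
# Reduction to the socle of the coefficients

Passing from a coefficient ring of exponent `n * m` to its socle, a field of exponent `n`:
compatibility of operators with the inclusion, and `exists_socle_multiple`.
-/

set_option autoImplicit false
set_option maxSynthPendingDepth 3

noncomputable section

open ModularCurve CongruenceSubgroup
open scoped MatrixGroups

namespace FLTAgent.IgusaCover

open FLTAgent.GammaH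

local notation "Qbar" => AlgebraicClosure ℚ
local notation "GalQ" => AlgebraicClosure ℚ ≃ₐ[ℚ] AlgebraicClosure ℚ

theorem mulIncl_injective (n m : ℕ) [NeZero n] [NeZero m] : Function.Injective (mulIncl n m) :=
  fun a b h => ZMod.injective_stdAddChar (N := n) (by
    rw [← stdAddChar_mulIncl n m, h, stdAddChar_mulIncl])

theorem exists_factor_mulIncl {n m : ℕ} [NeZero n] [NeZero m] {B : Type*} [AddCommGroup B]
    (hB : ∀ b : B, n • b = 0) (h : B →+ ZMod (n * m)) :
    ∃ f : B →+ ZMod n, h = (mulIncl n m).comp f := by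
  have hex : ∀ b, ∃ t : ZMod n, mulIncl n m t = h b := fun b => by
    obtain ⟨j, hj⟩ := ZMod.intCast_surjective (h b)
    have h0 : ((n * j : ℤ) : ZMod (n * m)) = 0 := by
      push_cast
      rw [hj, ← nsmul_eq_mul, ← map_nsmul, hB, map_zero]
    obtain ⟨s, hs⟩ := (ZMod.intCast_zmod_eq_zero_iff_dvd _ _).mp h0
    push_cast at hs
    have hj' : j = m * s := mul_left_cancel₀ (show (n : ℤ) ≠ 0 from by exact_mod_cast NeZero.ne n)
      (by linear_combination hs)
    exact ⟨(s : ZMod n), by rw [mulIncl_intCast, ← hj, hj']; push_cast; ring⟩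
  choose f hf using hex
  refine ⟨AddMonoidHom.mk' f fun a b => mulIncl_injective n m ?_,
    AddMonoidHom.ext fun b => (hf b).symm⟩
  rw [map_add, hf, hf, hf, map_add]

theorem exists_additive_leftInverse {p : ℕ} [Fact p.Prime] {B C : Type*} [AddCommGroup B]
    [AddCommGroup C] [Module (ZMod p) B] [Module (ZMod p) C] (G : B →+ C)
    (hG : Function.Injective G) : ∃ l : C →+ B, ∀ b, l (G b) = b := by
  obtain ⟨l, hl⟩ := LinearMap.exists_leftInverse_of_injective (G.toZModLinearMap p)
    (LinearMap.ker_eq_bot.mpr hG)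
  exact ⟨l.toAddMonoidHom, fun b => LinearMap.congr_fun hl b⟩

variable {M n m : ℕ} [NeZero M] [Fact (1 < M)] [NeZero n] [NeZero m]
variable {R ι : Type} [CommRing R] [Fintype ι] [DecidableEq ι] (e : R ≃+ (ι → ZMod (n * m)))
variable {κ ι' : Type} [Field κ] [Fintype ι'] [DecidableEq ι'] (e' : κ ≃+ (ι' → ZMod n))
variable (g : κ →+ R)

omit [NeZero M] [Fact (1 < M)] [NeZero n] [NeZero m] [Fintype ι'] [DecidableEq ι'] in
include e' in
theorem nsmul_field_eq_zero (c : κ) : n • c = 0 :=
  e'.injective (funext fun i => by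
    rw [map_nsmul, map_zero, Pi.smul_apply, nsmul_eq_mul, ZMod.natCast_self, zero_mul]; rfl)

omit [NeZero M] [Fact (1 < M)] in
/-- An operator commuting with `ℤ/n → ℤ/nm` commutes with the inclusion of the socle. -/
theorem parMap_extL_socle {M' : ℕ} (opn : ParHom M n →+ ParHom M' n)
    (opm : ParHom M (n * m) →+ ParHom M' (n * m))
    (h : ∀ c, opm (pushHom m c) = pushHom m (opn c)) (x : ParR M κ) :
    parMap g (extL e' opn x) = extL e opm (parMap g x) := by
  refine parR_ext e fun i => ?_
  rw [parComp_extL]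
  obtain ⟨f, hf⟩ := exists_factor_mulIncl (n := n) (m := m) (nsmul_field_eq_zero e')
    ((coordF e i).comp g)
  have key : ∀ (K : ℕ) (y : ParR K κ), parComp (coordF e i) (parMap g y) =
      pushHom m (parComp f y) := fun K y => Subtype.ext (by
    show (coordF e i).comp (g.comp y.1) = (mulIncl n m).comp (f.comp y.1)
    rw [← AddMonoidHom.comp_assoc, hf, AddMonoidHom.comp_assoc])
  rw [key, key, h, parComp_extL]

omit [NeZero M] [Fact (1 < M)] in
theorem parMap_opT (l : ℕ) (hl : l.Prime) (hlM : ¬ l ∣ M) (x : ParR M κ) :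
    parMap g (opT e' l hl hlM x) = opT e l hl hlM (parMap g x) :=
  parMap_extL_socle e e' g _ _ (parT_pushHom m _) x

omit [NeZero M] [Fact (1 < M)] in
theorem parMap_opD (σ : SL(2, ℤ)) (hσ : σ ∈ Gamma0 M) (x : ParR M κ) :
    parMap g (opD e' σ hσ x) = opD e σ hσ (parMap g x) :=
  parMap_extL_socle e e' g _ _ (parT_pushHom m _) x

omit [NeZero M] [Fact (1 < M)] in
theorem parMap_opU (q : ℕ) [Fact q.Prime] (hqM : q ∣ M) (x : ParR M κ) :
    parMap g (opU e' q hqM x) = opU e q hqM (parMap g x) :=
  parMap_extL_socle e e' g _ _ (parT_pushHom m _) x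

variable (hb : Function.Bijective (kummer M (n * m))) (hb' : Function.Bijective (kummer M n))

theorem parMap_galR (σ : GalQ) (x : ParR M κ) :
    parMap g (galR e' hb' σ x) = galR e hb σ (parMap g x) :=
  parMap_extL_socle e e' g _ _ (fun c => galP_pushHom hb' m hb σ c) x

omit [NeZero M] [Fact (1 < M)] [NeZero n] [NeZero m] [Fintype ι] [DecidableEq ι] [Fintype ι']
  [DecidableEq ι'] in
theorem parMap_injective (hg : Function.Injective g) :
    Function.Injective (parMap g : ParR M κ → ParR M R) := fun _ _ h =>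
  Subtype.ext (AddMonoidHom.ext fun γ => hg (DFunLike.congr_fun (congrArg Subtype.val h) γ))

omit [NeZero M] [Fact (1 < M)] in
theorem parMap_smul {π : R →+* κ} (hπ : ∀ r c, g (π r * c) = r * g c) (r : R) (x : ParR M κ) :
    parMap g (π r • x) = r • parMap g x :=
  Subtype.ext (AddMonoidHom.ext fun _ => hπ r _)

variable {A : ValuationSubring Qbar} [IsAlgClosed (ResK A)] (hF : Scalable A (FF M))

omit [Fintype ι'] [DecidableEq ι'] in
theorem redZero_of_parMap {p : ℕ} [Fact p.Prime] (hnp : n = p) (hm : (m : ResK A) ≠ 0)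
    (hg : Function.Injective g) {x : ParR M κ} (h : RedZero e hb hF (parMap g x)) :
    RedZero e' hb' hF x := by
  subst hnp
  intro i'
  have hf : ∀ i, ∃ f : κ →+ ZMod n, (coordF e i).comp g = (mulIncl n m).comp f := fun i =>
    exists_factor_mulIncl (nsmul_field_eq_zero e') _
  choose f hf using hf
  have h0 : ∀ i, redP hb' hF (parComp (f i) x) = 0 := fun i => by
    refine redP_pushHom_eq_zero hb' m hb hF hm ?_
    rw [show pushHom m (parComp (f i) x) = parComp (coordF e i) (parMap g x) from Subtype.ext (by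
      show (mulIncl n m).comp ((f i).comp x.1) = (coordF e i).comp (g.comp x.1)
      rw [← AddMonoidHom.comp_assoc, ← hf, AddMonoidHom.comp_assoc])]
    exact h i
  let : Module (ZMod n) κ := AddCommGroup.zmodModule (nsmul_field_eq_zero e')
  let G : κ →+ (ι → ZMod n) := AddMonoidHom.pi fun i => f i
  have hG : Function.Injective G := (injective_iff_map_eq_zero G).mpr fun c hc =>
    hg (e.injective (funext fun i => by
      rw [map_zero g, map_zero e]
      show (coordF e i).comp g c = 0
      rw [hf, AddMonoidHom.comp_apply,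
        show f i c = 0 from (congrFun hc i : _), map_zero]))
  obtain ⟨ℓ, hℓ⟩ := exists_additive_leftInverse (p := n) G hG
  let F : (ι → ZMod n) →+ ZMod n := (coordF e' i').comp ℓ
  let t : ι → ZMod n := fun i => F (Pi.single i 1)
  have hdec : coordF e' i' = ∑ i, (AddMonoidHom.mulLeft (t i)).comp (f i) := by
    refine AddMonoidHom.ext fun c => ?_
    have hc : ℓ (G c) = c := hℓ c
    rw [AddMonoidHom.finsetSum_apply]
    conv_lhs => rw [← hc]
    show F (G c) = _
    conv_lhs => rw [← Finset.univ_sum_single (G c), map_sum]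
    refine Finset.sum_congr rfl fun i _ => ?_
    obtain ⟨j, hj⟩ := ZMod.intCast_surjective (G c i)
    show F (Pi.single i (G c i)) = t i * f i c
    let Fi : ZMod n →+ ZMod n := F.comp (AddMonoidHom.single (fun _ : ι => ZMod n) i)
    show Fi (G c i) = Fi 1 * G c i
    rw [← hj, ← zsmul_one, map_zsmul, zsmul_eq_mul, zsmul_eq_mul, mul_one, mul_comm]
  have hsum : parComp (coordF e' i') x = ∑ i, t i • parComp (f i) x := by
    refine Subtype.ext (AddMonoidHom.ext fun γ => ?_)
    rw [AddSubmonoidClass.coe_finsetSum, AddMonoidHom.finsetSum_apply]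
    show coordF e' i' (x.1 γ) = _
    rw [hdec, AddMonoidHom.finsetSum_apply]
    rfl
  rw [hsum, map_sum]
  refine Finset.sum_eq_zero fun i _ => ?_
  obtain ⟨j, hj⟩ := ZMod.intCast_surjective (t i)
  rw [← hj, Int.cast_smul_eq_zsmul, map_zsmul, h0 i, smul_zero]

omit [NeZero M] [Fact (1 < M)] [NeZero n] [NeZero m] [Fintype ι] [DecidableEq ι] [Fintype ι']
  [DecidableEq ι'] in
/-- A nonzero element has a nonzero multiple coming from the socle. -/
theorem exists_socle_multiple (hg : Function.Injective g) (ϖ : R)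
    (htor : ∀ y : R, ϖ * y = 0 → ∃ c, g c = y) {K : ℕ} (hK : ϖ ^ K = 0) {v : ParR M R}
    (hv : v ≠ 0) : ∃ (r : R) (x : ParR M κ), parMap g x = r • v ∧ x ≠ 0 := by
  classical
  have hex : ∃ j, ϖ ^ j • v = 0 := ⟨K, by rw [hK, zero_smul]⟩
  obtain ⟨j, hj⟩ : ∃ j, Nat.find hex = j + 1 := by
    refine Nat.exists_eq_succ_of_ne_zero fun h0 => hv ?_
    simpa [h0] using Nat.find_spec hex
  have hne : ϖ ^ j • v ≠ 0 := Nat.find_min hex (by omega)
  have hz : ∀ γ, ϖ * (ϖ ^ j • v).1 γ = 0 := fun γ => by
    have := DFunLike.congr_fun (congrArg Subtype.val (Nat.find_spec hex)) γ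
    rw [hj, pow_succ', mul_smul] at this
    exact this
  have hval : ∀ γ, g (Function.invFun g ((ϖ ^ j • v).1 γ)) = (ϖ ^ j • v).1 γ := fun γ =>
    Function.invFun_eq (htor _ (hz γ))
  let x : ParR M κ := ⟨AddMonoidHom.mk' (fun γ => Function.invFun g ((ϖ ^ j • v).1 γ))
      fun a b => hg (by rw [map_add g, hval, hval, hval, map_add]),
    fun γ hγ => hg (by
      show g (Function.invFun g _) = g 0
      rw [hval, (ϖ ^ j • v).2 γ hγ, map_zero])⟩
  have hx : parMap g x = ϖ ^ j • v := Subtype.ext (AddMonoidHom.ext hval)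
  exact ⟨ϖ ^ j, x, hx, fun h0 => hne (by rw [← hx, h0, map_zero])⟩

end FLTAgent.IgusaCover

end
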