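import Fermat.Agent.IgusaCover.EigenCH
import Fermat.Agent.IgusaCover.LinAlg
import Fermat.Agent.LevelRaising.NonEisenstein

/-!
# Non-Eisenstein Frobenius elements

An absolutely irreducible two-dimensional representation has Frobenius elements at primes
`l ≡ 1 (mod m)` whose trace is not `2` (`exists_frobenius_trace_ne_two`).
-/

set_option autoImplicit false

noncomputable section

open Matrix

namespace FLTAgent.IgusaCover

local notation "Qbar" => AlgebraicClosure ℚ
local notation "GalQ" => AlgebraicClosure ℚ ≃ₐ[ℚ] AlgebraicClosure ℚ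

variable {k : Type} [Field k]

theorem exists_not_commute {G : Type} [Group G] {σ : G →* Matrix (Fin 2) (Fin 2) k}
    (h : ∀ C : Matrix (Fin 2) (Fin 2) k, (∀ g, (C * σ g).trace = 0) → C = 0) :
    ∃ g g', σ g * σ g' ≠ σ g' * σ g := by
  by_contra hcomm
  push Not at hcomm
  have hspan := span_eq_top_of_trace h
  have hall : ∀ X Y : Matrix (Fin 2) (Fin 2) k, X * Y = Y * X := by
    intro X Y
    have hX : X ∈ Submodule.span k (Set.range σ) := hspan ▸ Submodule.mem_top
    have hY : Y ∈ Submodule.span k (Set.range σ) := hspan ▸ Submodule.mem_top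
    induction hX using Submodule.span_induction with
    | mem X hX =>
      obtain ⟨g, rfl⟩ := hX
      induction hY using Submodule.span_induction with
      | mem Y hY => obtain ⟨g', rfl⟩ := hY; exact hcomm g g'
      | zero => simp
      | add a b _ _ ha hb => rw [mul_add, add_mul, ha, hb]
      | smul c a _ ha => rw [mul_smul_comm, smul_mul_assoc, ha]
    | zero => simp
    | add a b _ _ ha hb => rw [mul_add, add_mul, ha, hb]
    | smul c a _ ha => rw [mul_smul_comm, smul_mul_assoc, ha]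
  have := congrFun (congrFun (hall !![0, 1; 0, 0] !![0, 0; 1, 0]) 0) 0
  simp at this

/-- Absolute irreducibility gives nondegeneracy of the trace form. -/
theorem trace_form_of_absIrreducible (h2 : (2 : k) ≠ 0) {σ : GalQ →* Matrix (Fin 2) (Fin 2) k}
    (hirr : ∀ (K : Type) [Field K] (ι : k →+* K) (v : Fin 2 → K),
      (∀ g ∈ (⊤ : Subgroup GalQ), ∃ c : K, Matrix.mulVec ((σ g).map ι) v = c • v) → v = 0)
    (C : Matrix (Fin 2) (Fin 2) k) (hC : ∀ g, (C * σ g).trace = 0) : C = 0 := by
  let ι := algebraMap k (AlgebraicClosure k)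
  refine trace_form_descend ι (fun D hD => ?_) C hC
  exact eq_zero_of_trace_mul_eq_zero ((ι.mapMatrix.toMonoidHom).comp σ)
    (fun e => h2 (ι.injective (by rw [map_ofNat, map_zero, e])))
    (fun v hv => hirr _ ι v fun g _ => hv g) (C := D) hD

/-- Frobenius elements with trace different from `2`. -/
theorem exists_frobenius_trace_ne_two {σ : GalQ →* Matrix (Fin 2) (Fin 2) k}
    (h : ∀ C : Matrix (Fin 2) (Fin 2) k, (∀ g, (C * σ g).trace = 0) → C = 0)
    (hcont : ∃ L : IntermediateField ℚ Qbar, FiniteDimensional ℚ L ∧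
      ∀ g : GalQ, (∀ x ∈ L, g x = x) → σ g = 1)
    (m : ℕ) [NeZero m] (S : Finset ℕ)
    (hdet : ∀ (l : ℕ), l.Prime → l ∉ S → l ≡ 1 [MOD m] → ∀ A : ValuationSubring Qbar,
      A.LiesOverPrime l → ∀ φ, A.IsFrobeniusAt φ l → (σ φ).det = 1) :
    ∃ l, l.Prime ∧ l ∉ S ∧ l ≡ 1 [MOD m] ∧ ∃ A : ValuationSubring Qbar, A.LiesOverPrime l ∧
      ∃ φ, A.IsFrobeniusAt φ l ∧ (σ φ).trace ≠ 2 := by
  classical
  by_contra hall
  push Not at hall
  have : NeZero ((m : ℕ) : Qbar) := ⟨Nat.cast_ne_zero.mpr (NeZero.ne _)⟩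
  obtain ⟨ζ, hζ⟩ := (inferInstance : HasEnoughRootsOfUnity Qbar m).prim
  let H : Subgroup GalQ := MulAction.stabilizer GalQ ζ
  obtain ⟨hHn, hcomm⟩ := LevelRaising.commute_on_rootOfUnity hζ
  obtain ⟨L, hL, hLσ⟩ := hcont
  have hH : ∀ g ∈ H, (σ g).trace = 2 ∧ (σ g).det = 1 := by
    intro g hg
    have := hL
    have : FiniteDimensional ℚ (IntermediateField.adjoin ℚ ({ζ} : Set Qbar)) :=
      IntermediateField.adjoin.finiteDimensional (Algebra.IsIntegral.isIntegral ζ)
    have := IntermediateField.finiteDimensional_sup L (IntermediateField.adjoin ℚ ({ζ} : Set Qbar))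
    obtain ⟨l, hl, hlS, A, hA, φ, hφ, hag⟩ :=
      exists_frobenius_near (L ⊔ IntermediateField.adjoin ℚ ({ζ} : Set Qbar)) g
        (S ∪ m.primeFactors)
    simp only [Finset.mem_union, not_or] at hlS
    have hlm : ¬ l ∣ m := fun h => hlS.2 (Nat.mem_primeFactors.mpr ⟨hl, h, NeZero.ne _⟩)
    have hfix := inv_mul_fix hag
    have e : σ g = σ φ := by
      rw [← mul_inv_cancel_left φ g, map_mul,
        hLσ _ fun x hx => hfix x (SetLike.le_def.mp le_sup_left hx), mul_one]
    have hl1 : l ≡ 1 [MOD m] := by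
      have h1 : ζ ^ l = ζ ^ 1 := by
        rw [← Density.isFrobeniusAt_apply_of_pow_eq_one hl hA hφ hlm hζ.pow_eq_one,
          ← hag ζ (SetLike.le_def.mp le_sup_right (IntermediateField.mem_adjoin_simple_self ℚ ζ)),
          show g ζ = ζ from hg, pow_one]
      obtain ⟨u, rfl⟩ := hζ.isUnit (NeZero.ne _)
      rwa [← Units.val_pow_eq_pow_val, ← Units.val_pow_eq_pow_val, Units.val_inj,
        pow_eq_pow_iff_modEq, ← orderOf_units, ← hζ.eq_orderOf] at h1
    rw [e]
    exact ⟨hall l hl hlS.1 hl1 A hA φ hφ, hdet l hl hlS.1 hl1 A hA φ hφ⟩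
  by_cases hex : ∃ g ∈ H, σ g ≠ 1
  · obtain ⟨g₀, hg₀, hne⟩ := hex
    obtain ⟨v, hv, hvs⟩ := LevelRaising.exists_stable_of_unipotent σ (fun g hg => (hH g hg).1)
      (fun g hg => (hH g hg).2) hg₀ hne
    -- a stable line contradicts nondegeneracy
    have hC := h !![-(v 0 * v 1), v 0 * v 0; -(v 1 * v 1), v 0 * v 1] fun g => by
      obtain ⟨c, hc⟩ := hvs g (Subgroup.mem_top g)
      have h0 := congrFun hc 0
      have h1 := congrFun hc 1
      simp [Matrix.mulVec, dotProduct, Fin.sum_univ_two] at h0 h1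
      simp [trace_fin_two, Matrix.vecMul, dotProduct, Fin.sum_univ_two]
      linear_combination (-(v 1)) * h0 + (v 0) * h1
    refine hv (funext (Fin.forall_fin_two.mpr ⟨?_, ?_⟩))
    · exact mul_self_eq_zero.mp (by simpa using congrFun (congrFun hC 0) 1)
    · exact mul_self_eq_zero.mp (by simpa using congrFun (congrFun hC 1) 0)
  · push Not at hex
    obtain ⟨g, g', hne⟩ := exists_not_commute h
    refine hne ?_
    have hmem : g * g' * g⁻¹ * g'⁻¹ ∈ H := by
      show g (g' (g⁻¹ (g'⁻¹ ζ))) = ζ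
      rw [hcomm g⁻¹, ← AlgEquiv.mul_apply g', mul_inv_cancel, AlgEquiv.one_apply,
        ← AlgEquiv.mul_apply, mul_inv_cancel, AlgEquiv.one_apply]
    calc σ g * σ g' = σ (g * g' * g⁻¹ * g'⁻¹) * σ (g' * g) := by
          rw [← map_mul, ← map_mul]; congr 1; group
      _ = σ g' * σ g := by rw [hex _ hmem, one_mul, map_mul]

end FLTAgent.IgusaCover

end
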