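import Fermat.Agent.IgusaCover.EigenCH
import Fermat.Agent.ModularityLifting.Setup
import Fermat.Agent.ModularityLifting.Twist
import Mathlib.RingTheory.DiscreteValuationRing.Basic
import Mathlib.RingTheory.Henselian
import Mathlib.RingTheory.Filtration
import Mathlib.RingTheory.AdicCompletion.Basic

/-!
# Preparations over a complete discrete valuation ring

Lifting residual roots (`exists_roots`), primitive periods (`exists_primitive`), continuity of a
representation modulo a nonzero element, and the residual determinant (`det_residual`).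
-/

set_option autoImplicit false

noncomputable section

open CongruenceSubgroup Matrix IsLocalRing
open scoped MatrixGroups

namespace FLTAgent.IgusaCover

open FLTAgent.GammaH FLTAgent.LevelRaising FLTAgent.ModularityLifting FLTAgent.DefRing

local notation "Qbar" => AlgebraicClosure ℚ

theorem trace_mapRep {A B : Type} [CommRing A] [CommRing B] (f : A →+* B) (ρ : MatRep A)
    (σ : AbsGal) : (mapRep f ρ σ).trace = f (ρ σ).trace := by
  simp [trace_fin_two, mapRep_apply]

theorem det_mapRep {A B : Type} [CommRing A] [CommRing B] (f : A →+* B) (ρ : MatRep A)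
    (σ : AbsGal) : (mapRep f ρ σ).det = f (ρ σ).det := by
  simp [det_fin_two, mapRep_apply]

theorem span_mapRep_eq_top {A B : Type} [CommRing A] [CommRing B] (f : A →+* B)
    (hf : Function.Surjective f) (ρ : MatRep A) (h : Submodule.span A (Set.range ρ) = ⊤) :
    Submodule.span B (Set.range (mapRep f ρ)) = ⊤ := by
  refine eq_top_iff.mpr fun Y _ => ?_
  choose s hs using hf
  have hY : Y = (Y.map s).map f := by ext i j; simp [hs]
  rw [hY]
  have hX : Y.map s ∈ Submodule.span A (Set.range ρ) := h ▸ Submodule.mem_top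
  generalize Y.map s = X at hX ⊢
  induction hX using Submodule.span_induction with
  | mem X hX =>
    obtain ⟨g, rfl⟩ := hX
    exact Submodule.subset_span ⟨g, mapRep_eq_map f ρ g⟩
  | zero => rw [Matrix.map_zero _ (map_zero f)]; exact zero_mem _
  | add a b _ _ ha hb => rw [Matrix.map_add _ (map_add f)]; exact add_mem ha hb
  | smul c a _ ha =>
    rw [show (c • a).map f = f c • a.map f by ext i j; simp]
    exact Submodule.smul_mem _ _ ha

theorem eq_one_of_pow_p_pow {k : Type} [Field k] (p : ℕ) [Fact p.Prime] [CharP k p] {x : k}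
    {m : ℕ} (h : x ^ p ^ m = 1) : x = 1 :=
  sub_eq_zero.mp (eq_zero_of_pow_eq_zero (n := p ^ m)
    (by rw [sub_pow_char_pow, h, one_pow, sub_self]))

variable {O : Type} [CommRing O] [IsDomain O] [IsDiscreteValuationRing O]

/-- Residual roots of a quadratic lift. -/
theorem exists_roots [IsAdicComplete (maximalIdeal O) O] (s d : O) {α β : ResidueField O}
    (hs : α + β = residue O s) (hd : α * β = residue O d) (hne : α ≠ β) :
    ∃ x y : O, x + y = s ∧ x * y = d ∧ residue O x = α ∧ residue O y = β := by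
  obtain ⟨a, rfl⟩ := residue_surjective α
  let f : Polynomial O := .X ^ 2 - (.C s * .X - .C d)
  have hev : ∀ x : O, f.eval x = x ^ 2 - (s * x - d) := fun x => by simp [f]
  have hf : f.Monic := Polynomial.monic_X_pow_sub (by
    refine lt_of_le_of_lt (Polynomial.degree_sub_le _ _) (max_lt ?_ ?_)
    · exact lt_of_le_of_lt (Polynomial.degree_C_mul_X_le s) (by norm_num)
    · exact lt_of_le_of_lt Polynomial.degree_C_le (by norm_num))
  obtain ⟨x, hx, hxa⟩ := HenselianRing.is_henselian (I := maximalIdeal O) f hf a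
    ((residue_eq_zero_iff _).mp (by
      rw [hev, map_sub, map_sub, map_mul, map_pow, ← hs, ← hd]; ring))
    (isUnit_iff_ne_zero.mpr (show residue O (f.derivative.eval a) ≠ 0 by
      have hder : f.derivative.eval a = 2 * a - s := by
        simp only [f, Polynomial.derivative_sub, Polynomial.derivative_X_pow,
          Polynomial.derivative_mul, Polynomial.derivative_C, Polynomial.derivative_X,
          Polynomial.eval_sub, Polynomial.eval_mul, Polynomial.eval_add, Polynomial.eval_C,
          Polynomial.eval_X, Polynomial.eval_one, Polynomial.eval_pow, Polynomial.eval_zero]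
        push_cast; ring
      rw [hder, map_sub, map_mul, map_ofNat, ← hs,
        show 2 * residue O a - (residue O a + β) = residue O a - β by ring]
      exact sub_ne_zero.mpr hne))
  have hxα : residue O x = residue O a := by
    rw [← sub_eq_zero, ← map_sub, residue_eq_zero_iff]; exact hxa
  refine ⟨x, s - x, add_sub_cancel _ _, ?_, hxα, by rw [map_sub, ← hs, hxα]; ring⟩
  have := hx.eq_zero
  rw [hev] at this
  linear_combination -this

/-- A nonzero homomorphism is a multiple of a primitive one. -/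
theorem exists_primitive {B : Type*} [AddMonoid B] {c : B →+ O} (hc : c ≠ 0) :
    ∃ (r : O) (c₀ : B →+ O), r ≠ 0 ∧ c = (AddMonoidHom.mulLeft r).comp c₀ ∧
      ∃ b, IsUnit (c₀ b) := by
  classical
  obtain ⟨π, hπ⟩ := IsDiscreteValuationRing.exists_irreducible O
  obtain ⟨b₀, hb₀⟩ : ∃ b, c b ≠ 0 := by
    by_contra h
    push Not at h
    exact hc (AddMonoidHom.ext h)
  have hex : ∃ k, ∃ b, ¬ π ^ (k + 1) ∣ c b := by
    obtain ⟨k, u, hu⟩ := IsDiscreteValuationRing.eq_unit_mul_pow_irreducible hb₀ hπ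
    refine ⟨k, b₀, fun hdvd => hπ.not_isUnit ?_⟩
    rw [hu, pow_succ, Units.dvd_mul_left] at hdvd
    exact isUnit_of_dvd_one ((mul_dvd_mul_iff_left (pow_ne_zero k hπ.ne_zero)).mp
      (by rwa [mul_one]))
  obtain ⟨b, hb⟩ := Nat.find_spec hex
  have hdiv : ∀ x, π ^ Nat.find hex ∣ c x := fun x => by
    by_contra h
    rcases Nat.eq_zero_or_eq_succ_pred (Nat.find hex) with h0 | h0
    · exact h (by rw [h0, pow_zero]; exact one_dvd _)
    · exact Nat.find_min hex (m := (Nat.find hex).pred) (by omega)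
        ⟨x, by rwa [← Nat.succ_eq_add_one, ← h0]⟩
  choose c₀ hc₀ using hdiv
  have hπk : π ^ Nat.find hex ≠ 0 := pow_ne_zero _ hπ.ne_zero
  refine ⟨_, AddMonoidHom.mk' c₀ fun x y => mul_left_cancel₀ hπk (by
    rw [mul_add, ← hc₀, ← hc₀, ← hc₀, map_add]), hπk, AddMonoidHom.ext hc₀, b, ?_⟩
  by_contra hu
  refine hb ?_
  rw [hc₀ b, pow_succ]
  refine mul_dvd_mul_left _ (Ideal.mem_span_singleton.mp ?_)
  rw [← (IsDiscreteValuationRing.irreducible_iff_uniformizer π).mp hπ]
  exact hu

/-- Divisibility by every power of `p` forces zero. -/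
theorem eq_zero_of_forall_pow_dvd {p : ℕ} (hp : residue O (p : O) = 0) {D : O}
    (h : ∀ j : ℕ, ((p * p ^ j : ℕ) : O) ∣ D) : D = 0 := by
  have hmem : D ∈ ⨅ j, maximalIdeal O ^ j := (Submodule.mem_iInf _).mpr fun j => by
    obtain ⟨z, rfl⟩ := h j
    rw [Nat.cast_mul, Nat.cast_pow, mul_comm (p : O), mul_assoc]
    exact Ideal.mul_mem_right _ _ (Ideal.pow_mem_pow ((residue_eq_zero_iff _).mp hp) j)
  rwa [Ideal.iInf_pow_eq_bot_of_isLocalRing _ (maximalIdeal.isMaximal O).ne_top] at hmem

/-- Continuity modulo a nonzero element. -/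
theorem exists_fix_trivial {ρ : MatRep O} (hρ : MatCont ρ) {x : O} (hx : x ≠ 0) :
    ∃ L : IntermediateField ℚ Qbar, FiniteDimensional ℚ L ∧ ∀ g : AbsGal, (∀ y ∈ L, g y = y) →
      mapRep (Ideal.Quotient.mk (Ideal.span {x})) ρ g = 1 := by
  obtain ⟨π, hπ⟩ := IsDiscreteValuationRing.exists_irreducible O
  obtain ⟨k, u, hu⟩ := IsDiscreteValuationRing.eq_unit_mul_pow_irreducible hx hπ
  obtain ⟨L, hL, hLρ⟩ := hρ k
  refine ⟨L, hL, fun g hg => ?_⟩
  ext i j
  have h := hLρ g hg i j
  rw [(IsDiscreteValuationRing.irreducible_iff_uniformizer π).mp hπ, Ideal.span_singleton_pow,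
    ← Ideal.span_singleton_mul_left_unit u.isUnit, ← hu, ← Ideal.Quotient.eq_zero_iff_mem,
    Matrix.sub_apply, map_sub, sub_eq_zero] at h
  rw [mapRep_apply, h, Matrix.one_apply, Matrix.one_apply]
  split_ifs <;> simp

theorem exists_fix_residual {ρ : MatRep O} (hρ : MatCont ρ) :
    ∃ L : IntermediateField ℚ Qbar, FiniteDimensional ℚ L ∧ ∀ g : AbsGal, (∀ y ∈ L, g y = y) →
      mapRep (residue O) ρ g = 1 := by
  obtain ⟨L, hL, hLρ⟩ := hρ 1
  refine ⟨L, hL, fun g hg => ?_⟩
  ext i j
  have h := hLρ g hg i j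
  rw [pow_one, ← residue_eq_zero_iff, Matrix.sub_apply, map_sub, sub_eq_zero] at h
  rw [mapRep_apply, h, Matrix.one_apply, Matrix.one_apply]
  split_ifs <;> simp

variable [Finite (ResidueField O)]

omit [Finite (ResidueField O)] in
/-- The residual determinant at an element acting on `μ_p` as `ζ ↦ ζ^t`. -/
theorem det_residual {p : ℕ} [hp : Fact p.Prime] [CharP (ResidueField O) p] {ρ : MatRep O}
    (hρ : MatCont ρ) (S : Finset ℕ) (hpS : p ∈ S)
    (hdet : ∀ l, l.Prime → l ∉ S → ∀ A : ValuationSubring Qbar, A.LiesOverPrime l →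
      ∀ φ, A.IsFrobeniusAt φ l → (mapRep (residue O) ρ φ).det = (l : ResidueField O))
    {t : ℕ} {g : AbsGal} (hg : ∀ ζ : Qbar, ζ ^ p = 1 → g ζ = ζ ^ t) :
    (mapRep (residue O) ρ g).det = (t : ResidueField O) := by
  obtain ⟨L, hL, hLρ⟩ := exists_fix_residual hρ
  have : NeZero (p : Qbar) := ⟨Nat.cast_ne_zero.mpr hp.out.ne_zero⟩
  obtain ⟨ζ, hζ⟩ := (inferInstance : HasEnoughRootsOfUnity Qbar p).prim
  have := hL
  have : FiniteDimensional ℚ (IntermediateField.adjoin ℚ ({ζ} : Set Qbar)) :=
    IntermediateField.adjoin.finiteDimensional (Algebra.IsIntegral.isIntegral ζ)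
  have := IntermediateField.finiteDimensional_sup L (IntermediateField.adjoin ℚ ({ζ} : Set Qbar))
  obtain ⟨l, hl, hlS, A, hA, φ, hφ, hag⟩ :=
    exists_frobenius_near (L ⊔ IntermediateField.adjoin ℚ ({ζ} : Set Qbar)) g S
  have e : mapRep (residue O) ρ g = mapRep (residue O) ρ φ := by
    rw [← mul_inv_cancel_left φ g, map_mul,
      hLρ _ fun x hx => inv_mul_fix hag x (SetLike.le_def.mp le_sup_left hx), mul_one]
  have hlp : ¬ l ∣ p := fun h => hlS ((Nat.prime_dvd_prime_iff_eq hl hp.out).mp h ▸ hpS)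
  have hlt : l ≡ t [MOD p] := by
    have h1 : ζ ^ l = ζ ^ t := by
      rw [← Density.isFrobeniusAt_apply_of_pow_eq_one hl hA hφ hlp hζ.pow_eq_one,
        ← hag ζ (SetLike.le_def.mp le_sup_right (IntermediateField.mem_adjoin_simple_self ℚ ζ)),
        hg ζ hζ.pow_eq_one]
    obtain ⟨u, rfl⟩ := hζ.isUnit hp.out.ne_zero
    rwa [← Units.val_pow_eq_pow_val, ← Units.val_pow_eq_pow_val, Units.val_inj,
      pow_eq_pow_iff_modEq, ← orderOf_units, ← hζ.eq_orderOf] at h1
  rw [e, hdet l hl hlS A hA φ hφ]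
  exact (CharP.natCast_eq_natCast _ p).mpr hlt

end FLTAgent.IgusaCover

end
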