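import Fermat.Agent.IgusaCover.OldMaps
import Fermat.Agent.IgusaCover.LinAlg

/-!
# No residual kernel in the socle

With coefficients in a field of characteristic `p`, an eigenvector of `U_q = α` killed by the
residual class would be old at `q`, and hence vanishes (`eq_zero_of_redZero`).
-/

set_option autoImplicit false
set_option maxSynthPendingDepth 3

noncomputable section

open ModularCurve CongruenceSubgroup
open scoped MatrixGroups

namespace FLTAgent.IgusaCover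

open FLTAgent.GammaH

local notation "Qbar" => AlgebraicClosure ℚ
local notation "GalQ" => AlgebraicClosure ℚ ≃ₐ[ℚ] AlgebraicClosure ℚ

variable {N q p : ℕ} [NeZero N] [Fact (1 < N)] [hqF : Fact q.Prime] [NeZero q] [NeZero p]
variable {κ ι : Type} [Field κ] [Fintype ι] [DecidableEq ι] (e : κ ≃+ (ι → ZMod p))

omit [Fact (1 < N)] [NeZero q] in
theorem exists_gamma0_lift (σ : SL(2, ℤ)) (hσ : σ ∈ Gamma0 N) :
    ∃ σ' ∈ Gamma0 (N * q), ((σ' 1 1 : ℤ) : ZMod N) = ((σ 1 1 : ℤ) : ZMod N) := by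
  have hdet := congrArg (fun z : ℤ => (z : ZMod N))
    (σ.det_coe ▸ (Matrix.det_fin_two (σ : Matrix (Fin 2) (Fin 2) ℤ)).symm)
  simp [Gamma0_mem.mp hσ] at hdet
  obtain ⟨u, hu⟩ := ZMod.unitsMap_surjective (dvd_mul_right N q)
    (Units.mkOfMulEqOne ((σ 1 1 : ℤ) : ZMod N) ((σ 0 0 : ℤ) : ZMod N)
      (by rw [mul_comm]; exact hdet))
  obtain ⟨σ', hσ', hu'⟩ := exists_gamma0 (M := N * q) u
  refine ⟨σ', hσ', ?_⟩
  have h := congrArg (Units.val : (ZMod N)ˣ → ZMod N) hu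
  rw [ZMod.unitsMap, Units.coe_map] at h
  simp only [MonoidHom.coe_coe, ← hu', map_intCast] at h
  exact h

omit [NeZero p] [Fact (1 < N)] [NeZero q] in
/-- Diamond invariance only needs `Γ₀(Nq)`. -/
theorem opD_eq_self_of_lift {a : ParR N κ}
    (h : ∀ (σ : SL(2, ℤ)) (hσ : σ ∈ Gamma0 (N * q)),
      opD e σ (mem_gamma0_of_dvd (dvd_mul_right N q) hσ) a = a)
    (σ : SL(2, ℤ)) (hσ : σ ∈ Gamma0 N) : opD e σ hσ a = a := by
  obtain ⟨σ', hσ', hd⟩ := exists_gamma0_lift (q := q) σ hσ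
  rw [opD_congr e hσ (mem_gamma0_of_dvd (dvd_mul_right N q) hσ') hd.symm, h σ' hσ']

variable {S : Finset ℕ} {a : ℕ → κ} {α β : κ}
variable (hbN : Function.Bijective (kummer N p)) (hbM : Function.Bijective (kummer (N * q) p))
variable (h1 : N * 1 ∣ N * q) (hdq : N * q ∣ N * q)

omit [NeZero p] in
/-- The eigen-part of level `N` is killed by the degeneracy pair only trivially. -/
theorem oldKernel_eq_zero (hqN : ¬ q ∣ N) (h2 : (2 : κ) ≠ 0) (hq1 : (q : κ) = 1)
    (hS : ∀ l : ℕ, l.Prime → l ∉ S → ¬ l ∣ N * q)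
    (hE : ∃ l : ℕ, l.Prime ∧ l ∉ S ∧ a l ≠ 1 + l)
    (hs : ∀ c ∈ eigSub (M := N) e S a (fun _ => 1), opT e q hqF.out hqN c = (α + β) • c)
    (hαβ : α * β = 1) (hne : α ≠ β) {x y : ParR N κ}
    (hx : x ∈ eigSub (M := N) e S a (fun _ => 1)) (hy : y ∈ eigSub (M := N) e S a (fun _ => 1))
    (h0 : opDeg e 1 h1 x + opDeg e q hdq y = 0) : x = 0 ∧ y = 0 := by
  have hc : N.Coprime q := (hqF.out.coprime_iff_not_dvd.mpr hqN).symm
  obtain ⟨w⟩ := exists_wData hc
  have hcast : ∀ v : Additive (Gamma1 (N * q)) →+ κ, q • v = v := fun v =>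
    AddMonoidHom.ext fun γ => by rw [AddMonoidHom.smul_apply, nsmul_eq_mul, hq1, one_mul]
  have hU : ∀ c ∈ eigSub (M := N) e S a (fun _ => 1),
      (uRep q hqF.out (dvd_mul_left q N)).homT κ (degHom h1 κ c.1) =
        (α + β) • degHom h1 κ c.1 - degHom hdq κ c.1 := fun c hc' => by
    rw [eq_sub_iff_add_eq]
    have := uRep_degHom_one hc h1 hdq hqN (A := κ) c.1
    rw [← coe_opD e _ (sigmaP_mem (M := N) q ((hqF.out.coprime_iff_not_dvd).mpr hqN)) c,
      hc'.2, one_smul, ← coe_opT e q hqF.out hqN c, hs c hc'] at this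
    rw [this]
    exact AddMonoidHom.ext fun γ => rfl
  -- injectivity of restriction on the eigen-part
  have hinj : ∀ c ∈ eigSub (M := N) e S a (fun _ => 1), degHom h1 κ c.1 = 0 → c = 0 := by
    intro c hc' hzero
    obtain ⟨l, hl, hlS, hal⟩ := hE
    have hlM := hS l hl hlS
    have hlN : ¬ l ∣ N := fun h => hlM (h.mul_right q)
    have hvan : ∀ σ : gammaPrime N q,
        c.1 (Additive.ofMul ⟨σ, (mem_gammaPrime.mp σ.2).1⟩) = 0 := fun σ => by
      have h := homT_tRep_of_restrict_eq_zero hc h1 hl hlN hlM c.1 hzero σ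
      rw [← coe_opT e l hl hlN c, hc'.1 l hl hlN hlS, nsmul_eq_mul] at h
      refine (mul_eq_zero.mp (?_ : (a l - ((l + 1 : ℕ) : κ)) *
        c.1 (Additive.ofMul ⟨σ, (mem_gammaPrime.mp σ.2).1⟩) = 0)).resolve_left ?_
      · rw [sub_mul, sub_eq_zero]
        exact h
      · rw [sub_eq_zero]; push_cast; rwa [add_comm]
    have h := succ_nsmul_eq_zero w hc c.1 hvan
    refine Subtype.ext (AddMonoidHom.ext fun γ => ?_)
    have h' := DFunLike.congr_fun h γ
    rw [AddMonoidHom.smul_apply, nsmul_eq_mul, Nat.cast_succ, hq1, AddMonoidHom.zero_apply,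
      show (1 : κ) + 1 = 2 by norm_num] at h'
    exact (mul_eq_zero.mp h').resolve_left h2
  have hE0 : degHom h1 κ x.1 + degHom hdq κ y.1 = 0 := by
    rw [← coe_opDeg e 1 h1 x, ← coe_opDeg e q hdq y]
    exact congrArg Subtype.val h0
  have hW : degHom hdq κ x.1 + degHom h1 κ y.1 = 0 := by
    have h := congrArg (wHom w hc) hE0
    rw [wHom_add, wHom_zero, wHom_degHom_one w hc h1 hdq, wHom_degHom_q w hc h1 hdq,
      ← coe_opD e _ w.sigQ_mem y, hy.2, one_smul] at h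
    exact h
  have key : ∀ u v : ParR N κ, u ∈ eigSub (M := N) e S a (fun _ => 1) →
      v ∈ eigSub (M := N) e S a (fun _ => 1) →
      degHom h1 κ u.1 + degHom hdq κ v.1 = 0 → degHom hdq κ u.1 + degHom h1 κ v.1 = 0 →
      (α + β) • u + (2 : κ) • v = 0 := by
    intro u v hu hv he hw
    refine hinj _ (add_mem (Submodule.smul_mem _ _ hu) (Submodule.smul_mem _ _ hv))
      (AddMonoidHom.ext fun γ => ?_)
    obtain ⟨γ, rfl⟩ := Additive.ofMul.surjective γ
    have h := congrArg ((uRep q hqF.out (dvd_mul_left q N)).homT κ) he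
    rw [map_add, map_zero, hU u hu, uRep_degHom_q hc h1 hdq, hcast] at h
    have hγ := DFunLike.congr_fun h (Additive.ofMul γ)
    have hγ' := DFunLike.congr_fun hw (Additive.ofMul γ)
    simp only [AddMonoidHom.add_apply, AddMonoidHom.sub_apply, AddMonoidHom.smul_apply,
      AddMonoidHom.zero_apply, degHom_one_apply hc h1, smul_eq_mul] at hγ hγ'
    rw [degHom_one_apply hc h1, AddMonoidHom.zero_apply]
    show (α + β) * u.1 (Additive.ofMul (inclN hc γ)) + 2 * v.1 (Additive.ofMul (inclN hc γ)) = 0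
    linear_combination hγ + hγ'
  have e1 := key x y hx hy hE0 hW
  have e2 := key y x hy hx (by rw [add_comm]; exact hW) (by rw [add_comm]; exact hE0)
  have hne0 : (α + β) * (α + β) - 4 ≠ 0 := by
    rw [show (α + β) * (α + β) - 4 = (α - β) * (α - β) by linear_combination (4 : κ) * hαβ]
    exact mul_ne_zero (sub_ne_zero.mpr hne) (sub_ne_zero.mpr hne)
  have solve : ∀ u v : ParR N κ, (α + β) • u + (2 : κ) • v = 0 →
      (α + β) • v + (2 : κ) • u = 0 → u = 0 := fun u v e1 e2 => by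
    refine (smul_eq_zero.mp ?_).resolve_left hne0
    calc ((α + β) * (α + β) - 4) • u
        = (α + β) • ((α + β) • u + (2 : κ) • v) - (2 : κ) • ((α + β) • v + (2 : κ) • u) := by
          module
      _ = 0 := by rw [e1, e2, smul_zero, smul_zero, sub_zero]
  exact ⟨solve x y e1 e2, solve y x e2 e1⟩

omit [NeZero p] in
/-- Membership in the eigen-part of level `N` only needs `Γ₀(Nq)`. -/
private lemma mem_eigSub_of_lift (hS : ∀ l : ℕ, l.Prime → l ∉ S → ¬ l ∣ N * q) {c : ParR N κ}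
    (hT : ∀ (l : ℕ) (hl : l.Prime) (hlS : l ∉ S),
      opT e l hl (fun h => hS l hl hlS (h.mul_right q)) c = a l • c)
    (hD : ∀ (σ : SL(2, ℤ)) (hσ : σ ∈ Gamma0 (N * q)),
      opD e σ (mem_gamma0_of_dvd (dvd_mul_right N q) hσ) c = c) :
    c ∈ eigSub (M := N) e S a (fun _ => 1) :=
  ⟨fun l hl _ hlS => hT l hl hlS, fun σ hσ => by
    rw [one_smul]
    exact opD_eq_self_of_lift (q := q) e hD σ hσ⟩

/-- If `α β = 1` and `α ≠ β` then `1 - α² ≠ 0`. -/
private lemma one_sub_sq_ne_zero {α β : κ} (hαβ : α * β = 1) (hne : α ≠ β) : 1 - α * α ≠ 0 :=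
  fun h => hne (mul_left_cancel₀ (left_ne_zero_of_mul_eq_one hαβ) (by linear_combination -hαβ - h))

omit [NeZero q] in
/-- Cayley-Hamilton for Frobenius gives `T_q = α + β` on the eigen-part of level `N`. -/
private lemma opT_eq_smul_of_frobenius {A : ValuationSubring Qbar} {φ : GalQ} (hqN : ¬ q ∣ N)
    (hq1 : (q : κ) = 1) (hqp : ¬ q ∣ p) (hA : A.LiesOverPrime q) (hφ : A.IsFrobeniusAt φ q)
    (hCH : ∀ c ∈ eigSub (M := N) e S a (fun _ => 1),
      galR e hbN φ (galR e hbN φ c) - (α + β) • galR e hbN φ c + c = 0)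
    {c : ParR N κ} (hc' : c ∈ eigSub (M := N) e S a (fun _ => 1)) :
    opT e q hqF.out hqN c = (α + β) • c := by
  have hmem : galR e hbN φ⁻¹ c ∈ eigSub (M := N) e S a (fun _ => 1) := galR_mem e hbN _ hc'
  have hES := galR_frobenius e hbN hqF.out hA hqN hqp hφ (galR e hbN φ⁻¹ c)
  have hCH' := hCH _ hmem
  rw [hmem.2 _ (sigmaP_mem (M := N) q ((hqF.out.coprime_iff_not_dvd).mpr hqN)), one_smul,
    ← Nat.cast_smul_eq_nsmul κ, hq1, one_smul] at hES
  have hid : galR e hbN φ (galR e hbN φ⁻¹ c) = c := by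
    rw [← Module.End.mul_apply, ← map_mul, mul_inv_cancel, map_one, Module.End.one_apply]
  rw [hid] at hES hCH'
  rw [← hES, ← sub_eq_zero, ← hCH']
  abel

omit [NeZero q] [NeZero p] [Fact (1 < N)] in
/-- An eigenvector with trivial nebentypus extends to `Γ'`: its obstruction vanishes. -/
private lemma exists_eigen_extension (hc : N.Coprime q) (hp0 : (p : κ) = 0) (hp1 : p ∣ q - 1)
    (hS : ∀ l : ℕ, l.Prime → l ∉ S → ¬ l ∣ N * q)
    (hE : ∃ l : ℕ, l.Prime ∧ l ∉ S ∧ a l ≠ 1 + l) {x : ParR (N * q) κ}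
    (hx : x ∈ eigSub (M := N * q) e S a (fun _ => 1)) :
    IsInv x.1 ∧ ∃ x' : Additive (gammaPrime N q) →+ κ, ∀ (γ : gammaPrime N q)
      (h : (γ : SL(2, ℤ)) ∈ Gamma1 (N * q)),
      x' (Additive.ofMul γ) = x.1 (Additive.ofMul ⟨_, h⟩) := by
  have hxinv : IsInv x.1 := fun σ hσ γ γ' hγ => by
    have h := DFunLike.congr_fun (congrArg Subtype.val (hx.2 σ hσ)) (Additive.ofMul γ)
    rw [coe_opD, homT_dRep, one_smul] at h
    rw [← h]
    exact congrArg (fun z => x.1 (Additive.ofMul z)) (Subtype.ext hγ)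
  obtain ⟨σ, hσ⟩ := exists_generator (N := N) (q := q) hc
  refine ⟨hxinv, exists_extension hc hxinv hσ ?_⟩
  obtain ⟨l, hl, hlS, hal⟩ := hE
  have hlM := hS l hl hlS
  have hpow : ((σ ^ (q - 1) : gammaPrime N q) : SL(2, ℤ)) = (σ : SL(2, ℤ)) ^ (q - 1) :=
    SubmonoidClass.coe_pow σ (q - 1)
  obtain ⟨s, hs'⟩ := homT_tRep_pow hl hlM (gammaPrime_le_gamma0 hc σ.2) x.1
    (fun γ γ' h => hxinv _ (gammaPrime_le_gamma0 hc σ.2) γ γ' h)
  have h := hs' (q - 1) (hpow ▸ pow_mem_gamma1 hc σ)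
  have hzero : (q - 1) • s = 0 := by
    obtain ⟨m, hm⟩ := hp1
    rw [hm, mul_nsmul', nsmul_eq_mul, hp0, zero_mul]
  rw [← coe_opT e l hl hlM x, hx.1 l hl hlM hlS, hzero, add_zero,
    nsmul_eq_mul, Nat.cast_succ] at h
  have h' : (a l - (1 + l)) * x.1 (Additive.ofMul ⟨_, pow_mem_gamma1 hc σ⟩) = 0 := by
    rw [show (⟨_, pow_mem_gamma1 hc σ⟩ : Gamma1 (N * q)) =
      ⟨(σ : SL(2, ℤ)) ^ (q - 1), hpow ▸ pow_mem_gamma1 hc σ⟩ from Subtype.ext hpow,
      sub_mul, sub_eq_zero, add_comm (1 : κ)]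
    exact h
  exact (mul_eq_zero.mp h').resolve_left (sub_ne_zero.mpr hal)

omit [NeZero p] in
/-- An eigenvector with `U_q = α`, `α² ≠ 1`, is old at `q`: trace down an extension to `Γ'`. -/
private lemma exists_old_preimage (hqN : ¬ q ∣ N) (h2 : (2 : κ) ≠ 0) (hq1 : (q : κ) = 1)
    (hp0 : (p : κ) = 0) (hp1 : p ∣ q - 1) (hS : ∀ l : ℕ, l.Prime → l ∉ S → ¬ l ∣ N * q)
    (hE : ∃ l : ℕ, l.Prime ∧ l ∉ S ∧ a l ≠ 1 + l) (hα2 : 1 - α * α ≠ 0)
    {x : ParR (N * q) κ} (hx : x ∈ eigSub (M := N * q) e S a (fun _ => 1))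
    (hU : opU e q (dvd_mul_left q N) x = α • x) :
    ∃ u v : ParR N κ, opDeg e 1 h1 u + opDeg e q hdq v = x := by
  have hc : N.Coprime q := (hqF.out.coprime_iff_not_dvd.mpr hqN).symm
  obtain ⟨w⟩ := exists_wData hc
  obtain ⟨hxinv, x', hx'⟩ := exists_eigen_extension e hc hp0 hp1 hS hE hx
  have hres : ∀ γ : Gamma1 (N * q), x' (Additive.ofMul (inclP hc γ)) = x.1 (Additive.ofMul γ) :=
    fun γ => hx' (inclP hc γ) γ.2
  have h2q : ∀ c : κ, (2 * q) • c = 0 → c = 0 := fun c h => by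
    rw [nsmul_eq_mul, Nat.cast_mul, hq1, mul_one] at h
    exact (mul_eq_zero.mp h).resolve_left h2
  let a₁ : ParR N κ := ⟨traceHom w hc x', traceHom_parabolic w hc x.2 hx' h2q⟩
  let b₁ : ParR N κ := ⟨traceHom w hc (x'.comp (MonoidHom.toAdditive w.conj)),
    traceHom_parabolic w hc (x₀ := wHom w hc x.1) (wHom_parabolic w hc x.2)
      (fun γ h => hx' (w.conj γ) (w.conj_mem hc h)) h2q⟩
  set σN := sigmaP N q ((hqF.out.coprime_iff_not_dvd).mpr hqN)
  have hσN : σN ∈ Gamma0 N := sigmaP_mem q _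
  refine ⟨(1 - α * α)⁻¹ • (a₁ - opT e q hqF.out hqN b₁), (1 - α * α)⁻¹ • opD e σN hσN b₁, ?_⟩
  rw [map_smul, map_smul, ← smul_add]
  refine (inv_smul_eq_iff₀ hα2).mpr (Subtype.ext ?_)
  have ea : degHom h1 κ a₁.1 = x.1 + (uRep q hqF.out (dvd_mul_left q N)).homT κ (wHom w hc x.1) :=
    degHom_one_trace w hc h1 hres
  have eb : degHom h1 κ b₁.1 = wHom w hc x.1 + (uRep q hqF.out (dvd_mul_left q N)).homT κ x.1 :=
    degHom_one_trace_conj w hc h1 hxinv hres
  have eU := uRep_degHom_one hc h1 hdq hqN (A := κ) b₁.1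
  have hUx : (uRep q hqF.out (dvd_mul_left q N)).homT κ x.1 = α • x.1 := by
    rw [← coe_opU e q (dvd_mul_left q N) x, hU]; rfl
  have hUαx : (uRep q hqF.out (dvd_mul_left q N)).homT κ (α • x.1) = (α * α) • x.1 := by
    rw [show α • x.1 = ((α • x : ParR (N * q) κ)).1 from rfl,
      ← coe_opU e q (dvd_mul_left q N), map_smul, hU, smul_smul]
    rfl
  rw [eb, hUx, map_add, hUαx] at eU
  show (opDeg e 1 h1 (a₁ - opT e q hqF.out hqN b₁)).1 + (opDeg e q hdq (opD e σN hσN b₁)).1 = _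
  rw [coe_opDeg, coe_opDeg, coe_opD]
  show degHom h1 κ (a₁.1 - (opT e q hqF.out hqN b₁).1) + _ = (1 - α * α) • x.1
  rw [map_sub, coe_opT, ← eU, ea]
  refine AddMonoidHom.ext fun γ => ?_
  simp only [AddMonoidHom.add_apply, AddMonoidHom.sub_apply, AddMonoidHom.smul_apply, smul_eq_mul]
  ring

include hbN in
/-- An old eigenvector is a combination of eigenvectors of level `N`. -/
private lemma exists_eigen_preimage [Finite (ParHom N p)] (hqN : ¬ q ∣ N) (h2 : (2 : κ) ≠ 0)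
    (hq1 : (q : κ) = 1) (hS : ∀ l : ℕ, l.Prime → l ∉ S → ¬ l ∣ N * q)
    (hE : ∃ l : ℕ, l.Prime ∧ l ∉ S ∧ a l ≠ 1 + l)
    (hs : ∀ c ∈ eigSub (M := N) e S a (fun _ => 1), opT e q hqF.out hqN c = (α + β) • c)
    (hαβ : α * β = 1) (hne : α ≠ β) {x : ParR (N * q) κ}
    (hx : x ∈ eigSub (M := N * q) e S a (fun _ => 1)) {u₀ v₀ : ParR N κ}
    (huv : opDeg e 1 h1 u₀ + opDeg e q hdq v₀ = x) :
    ∃ c ∈ eigSub (M := N) e S a (fun _ => 1), ∃ d ∈ eigSub (M := N) e S a (fun _ => 1),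
      opDeg e 1 h1 c + opDeg e q hdq d = x := by
  have : Finite (ParR N κ) := finite_parR e
  let J := {l : ℕ // l.Prime ∧ l ∉ S} ⊕ {σ : SL(2, ℤ) // σ ∈ Gamma0 (N * q)}
  have hlN : ∀ {l : ℕ}, l.Prime → l ∉ S → ¬ l ∣ N := fun hl hlS h => hS _ hl hlS (h.mul_right q)
  let op : J → Module.End κ (ParR N κ) := fun j => match j with
    | .inl l => opT e l.1 l.2.1 (hlN l.2.1 l.2.2)
    | .inr σ => opD e σ.1 (mem_gamma0_of_dvd (dvd_mul_right N q) σ.2)
  let ev : J → κ := fun j => match j with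
    | .inl l => a l.1
    | .inr _ => 1
  let L : J → Module.End κ (ParR N κ × ParR N κ) := fun j =>
    (op j - algebraMap κ _ (ev j)).prodMap (op j - algebraMap κ _ (ev j))
  have hop : ∀ i j, Commute (op i) (op j) := by
    rintro (l | σ) (l' | σ')
    · exact opT_comm e hbN l.2.1 (hlN l.2.1 l.2.2) l'.2.1 (hlN l'.2.1 l'.2.2)
    · exact opT_opD_comm e hbN l.2.1 (hlN l.2.1 l.2.2) _ _
    · exact (opT_opD_comm e hbN l'.2.1 (hlN l'.2.1 l'.2.2) _ _).symm
    · exact opD_comm e hbN _ _ _ _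
  have hcomm : ∀ i j, Commute (L i) (L j) := fun i j => by
    have h : Commute (op i - algebraMap κ _ (ev i)) (op j - algebraMap κ _ (ev j)) :=
      ((hop i j).sub_left (Algebra.commutes (ev i) (op j))).sub_right
        ((Algebra.commutes (ev j) (op i - algebraMap κ _ (ev i))).symm)
    exact LinearMap.ext fun v =>
      Prod.ext (LinearMap.congr_fun h v.1) (LinearMap.congr_fun h v.2)
  let Ψ : ParR N κ × ParR N κ →ₗ[κ] ParR (N * q) κ := (opDeg e 1 h1).coprod (opDeg e q hdq)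
  have hL : ∀ j v, (∃ c : κ, Ψ v = c • x) → Ψ (L j v) = 0 := by
    rintro j v ⟨c, hv⟩
    replace hv : opDeg e 1 h1 v.1 + opDeg e q hdq v.2 = c • x := hv
    show opDeg e 1 h1 ((op j - algebraMap κ _ (ev j)) v.1) +
      opDeg e q hdq ((op j - algebraMap κ _ (ev j)) v.2) = 0
    simp only [LinearMap.sub_apply, Module.algebraMap_end_apply, map_sub, map_smul]
    rcases j with l | σ
    · simp only [op, ev]
      rw [← opDeg_opT e 1 h1 l.2.1 (hlN l.2.1 l.2.2) (hS _ l.2.1 l.2.2),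
        ← opDeg_opT e q hdq l.2.1 (hlN l.2.1 l.2.2) (hS _ l.2.1 l.2.2), sub_add_sub_comm,
        ← smul_add, ← map_add, hv, map_smul, hx.1 l.1 l.2.1 (hS _ l.2.1 l.2.2) l.2.2,
        smul_comm, sub_self]
    · simp only [op, ev]
      rw [← opDeg_opD e 1 h1 σ.1 σ.2, ← opDeg_opD e q hdq σ.1 σ.2, sub_add_sub_comm,
        ← smul_add, ← map_add, hv, map_smul, hx.2 σ.1 σ.2, smul_comm, sub_self]
  have hmem : ∀ v, (∀ j, L j v = 0) → v.1 ∈ eigSub (M := N) e S a (fun _ => 1) ∧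
      v.2 ∈ eigSub (M := N) e S a (fun _ => 1) := fun v hv => by
    have h : ∀ j, op j v.1 = ev j • v.1 ∧ op j v.2 = ev j • v.2 := fun j => by
      simpa [L, sub_eq_zero, Module.algebraMap_end_apply] using hv j
    exact ⟨mem_eigSub_of_lift e hS (fun l hl hlS => (h (.inl ⟨l, hl, hlS⟩)).1)
        fun σ hσ => (h (.inr ⟨σ, hσ⟩)).1.trans (one_smul κ _),
      mem_eigSub_of_lift e hS (fun l hl hlS => (h (.inl ⟨l, hl, hlS⟩)).2)
        fun σ hσ => (h (.inr ⟨σ, hσ⟩)).2.trans (one_smul κ _)⟩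
  obtain ⟨v, hv, hkill⟩ := exists_common_kernel L hcomm Ψ x hL (fun v hv hall => by
    obtain ⟨ha, hb⟩ := oldKernel_eq_zero e h1 hdq hqN h2 hq1 hS hE hs hαβ hne
      (hmem v hall).1 (hmem v hall).2 hv
    exact Prod.ext ha hb) (v₀ := (u₀, v₀)) huv
  exact ⟨v.1, (hmem v hkill).1, v.2, (hmem v hkill).2, hv⟩

omit [NeZero p] in
/-- If `res c + deg d` has `U_q = α`, then `d = -β c`. -/
private lemma eq_neg_smul_of_opU (hqN : ¬ q ∣ N) (h2 : (2 : κ) ≠ 0) (hq1 : (q : κ) = 1)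
    (hS : ∀ l : ℕ, l.Prime → l ∉ S → ¬ l ∣ N * q)
    (hE : ∃ l : ℕ, l.Prime ∧ l ∉ S ∧ a l ≠ 1 + l)
    (hs : ∀ c ∈ eigSub (M := N) e S a (fun _ => 1), opT e q hqF.out hqN c = (α + β) • c)
    (hαβ : α * β = 1) (hne : α ≠ β) {c d : ParR N κ}
    (hcm : c ∈ eigSub (M := N) e S a (fun _ => 1)) (hdm : d ∈ eigSub (M := N) e S a (fun _ => 1))
    (hU : opU e q (dvd_mul_left q N) (opDeg e 1 h1 c + opDeg e q hdq d) =
      α • (opDeg e 1 h1 c + opDeg e q hdq d)) :
    d = -(β • c) := by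
  have hc : N.Coprime q := (hqF.out.coprime_iff_not_dvd.mpr hqN).symm
  have hU' : opU e q (dvd_mul_left q N) (opDeg e 1 h1 c) =
      (α + β) • opDeg e 1 h1 c - opDeg e q hdq c := by
    rw [eq_sub_iff_add_eq]
    refine Subtype.ext ?_
    show (opU e q (dvd_mul_left q N) (opDeg e 1 h1 c)).1 + (opDeg e q hdq c).1 = _
    rw [coe_opU, coe_opDeg, coe_opDeg]
    have h := uRep_degHom_one hc h1 hdq hqN (A := κ) c.1
    rw [← coe_opD e _ (sigmaP_mem (M := N) q ((hqF.out.coprime_iff_not_dvd).mpr hqN)) c, hcm.2,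
      one_smul, ← coe_opT e q hqF.out hqN c, hs c hcm] at h
    rw [h, ← coe_opDeg e 1 h1, map_smul]
  have hU'' : opU e q (dvd_mul_left q N) (opDeg e q hdq d) = opDeg e 1 h1 d := by
    refine Subtype.ext ?_
    rw [coe_opU, coe_opDeg, coe_opDeg, uRep_degHom_q hc h1 hdq]
    exact AddMonoidHom.ext fun γ => by rw [AddMonoidHom.smul_apply, nsmul_eq_mul, hq1, one_mul]
  refine eq_neg_of_add_eq_zero_right (oldKernel_eq_zero e h1 hdq hqN h2 hq1 hS hE hs hαβ hne
    (x := β • c + d) (y := -c - α • d)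
    (add_mem (Submodule.smul_mem _ β hcm) hdm)
    (sub_mem (neg_mem hcm) (Submodule.smul_mem _ α hdm)) ?_).1
  rw [map_add, hU', hU'', ← sub_eq_zero] at hU
  rw [← hU]
  simp only [map_add, map_sub, map_neg, map_smul, smul_add, add_smul]
  abel

variable {A : ValuationSubring Qbar} [IsAlgClosed (ResK A)] [CharP (ResK A) q]
  (hFM : Scalable A (FF (N * q)))

/-- The residual class kills `c - β² c` when Frobenius is `α` on `c`. -/
private lemma sub_sq_smul_eq_zero (hqN : ¬ q ∣ N) (h3 : 3 ≤ N) (hp1 : p ∣ q - 1)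
    (hpA : (p : ResK A) ≠ 0) (hA : A.LiesOverPrime q) {φ : GalQ} (hφ : A.IsFrobeniusAt φ q)
    (hαβ : α * β = 1) (hαne : α ≠ 1) {c : ParR N κ} (hFc : galR e hbN φ c = α • c)
    (hR : RedZero e hbM hFM (opDeg e 1 h1 c + opDeg e q hdq (-(β • c)))) :
    c - (β * β) • c = 0 := by
  have hFN : Scalable A (FF N) := scalable_FF A
  set y := c - (β * β) • c with hydef
  have hFy : galR e hbN φ y = α • y := by
    rw [hydef, map_sub, map_smul, hFc, smul_sub, smul_comm]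
  have hz : galR e hbN φ ((β * β) • c) = β • c := by
    rw [map_smul, hFc, smul_smul]
    congr 1
    linear_combination β * hαβ
  have hyz : RedZero e hbN hFN (galR e hbN φ y - y) := fun i => by
    have hR' : redP hbM hFM (parComp (coordF e i) (opDeg e 1 h1 c)) -
        redP hbM hFM (parComp (coordF e i) (opDeg e q hdq (galR e hbN φ ((β * β) • c)))) = 0 := by
      rw [hz, ← map_sub, ← map_sub, sub_eq_add_neg, ← map_neg]
      exact hR i
    simp only [opDeg, parComp_extL, galR_apply, redP_degRep hbN hbM hFN hFM] at hR'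
    rw [redP_galP_frobenius hbN hFN hφ, degRes_frobRes hφ hdq h1 hFN hFM,
      natCast_smul_res hp1 hFM, ← map_sub, ← map_sub, ← map_sub] at hR'
    have hfix := frobRes_eq_of_degRes_eq_zero h3 hqN hA hpA hp1 hφ h1 hFN hFM hR'
    rw [map_sub, map_sub, galR_apply, parComp_extL, redP_galP_frobenius hbN hFN hφ, hfix,
      sub_self]
  have h := hyz.eq_zero e hbN hFN hA hqN hpA
  rw [hFy] at h
  refine (smul_eq_zero.mp (?_ : (α - 1) • y = 0)).resolve_left (sub_ne_zero.mpr hαne)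
  rw [sub_smul, one_smul, h]

/-- The socle statement. -/
theorem eq_zero_of_redZero [Finite (ParHom N p)] (hqN : ¬ q ∣ N) (h3 : 3 ≤ N)
    (h2 : (2 : κ) ≠ 0) (hp0 : (p : κ) = 0) (hp1 : p ∣ q - 1) (hpA : (p : ResK A) ≠ 0)
    (hA : A.LiesOverPrime q) {φ : GalQ} (hφ : A.IsFrobeniusAt φ q)
    (hS : ∀ l : ℕ, l.Prime → l ∉ S → ¬ l ∣ N * q)
    (hE : ∃ l : ℕ, l.Prime ∧ l ∉ S ∧ a l ≠ 1 + l)
    (hCH : ∀ c ∈ eigSub (M := N) e S a (fun _ => 1),
      galR e hbN φ (galR e hbN φ c) - (α + β) • galR e hbN φ c + c = 0)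
    (hαβ : α * β = 1) (hne : α ≠ β) {x : ParR (N * q) κ}
    (hx : x ∈ eigSub (M := N * q) e S a (fun _ => 1))
    (hU : opU e q (dvd_mul_left q N) x = α • x) (hF : galR e hbM φ x = α • x)
    (hR : RedZero e hbM hFM x) : x = 0 := by
  classical
  have h1 : N * 1 ∣ N * q := by rw [mul_one]; exact dvd_mul_right N q
  have hdq : N * q ∣ N * q := dvd_rfl
  have hq1 : (q : κ) = 1 := by
    obtain ⟨m, hm⟩ := hp1
    rw [← Nat.sub_add_cancel hqF.out.one_le, hm, Nat.cast_add, Nat.cast_mul, hp0, zero_mul,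
      zero_add, Nat.cast_one]
  have hαne : α ≠ 1 := fun h => hne (by rw [h, one_mul] at hαβ; rw [h, hαβ])
  have hqA : ¬ q ∣ p := fun h => by
    obtain ⟨k, hk⟩ := h
    exact hpA (by rw [hk, Nat.cast_mul, CharP.cast_eq_zero (ResK A) q, zero_mul])
  have hs : ∀ c ∈ eigSub (M := N) e S a (fun _ => 1), opT e q hqF.out hqN c = (α + β) • c :=
    fun c => opT_eq_smul_of_frobenius e hbN hqN hq1 hqA hA hφ hCH
  -- `x` comes from eigenvectors `c`, `d` of level `N`
  obtain ⟨u, v, huv⟩ := exists_old_preimage e h1 hdq hqN h2 hq1 hp0 hp1 hS hE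
    (one_sub_sq_ne_zero hαβ hne) hx hU
  obtain ⟨c, hcm, d, hdm, hv'⟩ :=
    exists_eigen_preimage e hbN h1 hdq hqN h2 hq1 hS hE hs hαβ hne hx huv
  -- Frobenius acts by `α` on both components
  obtain ⟨hFc, -⟩ := oldKernel_eq_zero e h1 hdq hqN h2 hq1 hS hE hs hαβ hne
    (sub_mem (galR_mem e hbN φ hcm) (Submodule.smul_mem _ α hcm))
    (sub_mem (galR_mem e hbN φ hdm) (Submodule.smul_mem _ α hdm)) (by
      rw [map_sub, map_sub, map_smul, map_smul, ← galR_opDeg e hbN hbM 1 h1,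
        ← galR_opDeg e hbN hbM q hdq, sub_add_sub_comm, ← map_add, ← smul_add, hv', hF, sub_self])
  have hd : d = -(β • c) :=
    eq_neg_smul_of_opU e h1 hdq hqN h2 hq1 hS hE hs hαβ hne hcm hdm (by rw [hv']; exact hU)
  subst hd
  -- the residual class
  have hy := sub_sq_smul_eq_zero e hbN hbM h1 hdq hFM hqN h3 hp1 hpA hA hφ hαβ hαne
    (sub_eq_zero.mp hFc) (hv' ▸ hR)
  have hc0 : c = 0 := (smul_eq_zero.mp (?_ : (1 - β * β) • c = 0)).resolve_left
    (one_sub_sq_ne_zero (by rw [mul_comm, hαβ]) (Ne.symm hne))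
  · rw [← hv', hc0, smul_zero, neg_zero, map_zero, map_zero, add_zero]
  · rw [sub_smul, one_smul, hy]

end FLTAgent.IgusaCover

end
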