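import Fermat.Agent.IgusaCover.Bridge
import Fermat.Agent.IgusaCover.Coeff
import Fermat.Agent.IgusaCover.Inputs
import Fermat.Agent.IgusaCover.InertiaCore
import Fermat.Agent.IgusaCover.Lift
import Fermat.Agent.IgusaCover.NonEis
import Fermat.Agent.IgusaCover.Prep
import Fermat.Agent.IgusaCover.Socle
import Fermat.Agent.ModularityLifting.Levels
import Fermat.Agent.Density.Frobenius
import Fermat.Agent.CongruenceRel.Coeff

/-!
# Trace of inertia at a level-raising prime

Let `t ≡ 1 (mod p)` be prime to `N`, and take an eigen-symbol of level `Nt` with nebentypus of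
`p`-power order whose attached representation is residually irreducible and has distinct residual
Frobenius eigenvalues at `t`. Then that representation has trace `1 + det` on inertia at `t`
(`trace_inertia_core`); this assembles the Igusa-cover argument for `ModularityLifting/TWInertia`.
-/

set_option autoImplicit false
set_option maxSynthPendingDepth 3

noncomputable section

open ModularCurve CongruenceSubgroup IsLocalRing
open scoped MatrixGroups

namespace FLTAgent.IgusaCover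

open FLTAgent.GammaH FLTAgent.LevelRaising FLTAgent.ModularityLifting FLTAgent.DefRing

local notation "Qbar" => AlgebraicClosure ℚ
local notation "GalQ" => AlgebraicClosure ℚ ≃ₐ[ℚ] AlgebraicClosure ℚ

variable {O : Type} [CommRing O] [IsDomain O] [IsDiscreteValuationRing O]
  [IsAdicComplete (maximalIdeal O) O] [Finite (ResidueField O)] [CharZero O]

theorem finite_kum_of_eq {M n : ℕ} [NeZero M] [Fact (1 < M)] [NeZero n] (h5 : 5 ≤ M) (ℓ k : ℕ)
    [Fact ℓ.Prime] (h : n = ℓ ^ k) : Finite (Kum M n) :=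
  haveI := finite_parHom_of_eq (M := M) h5 ℓ k h
  Finite.of_injective _ (kummer_bijective_of_eq h5 ℓ k h).1

/-- Primes outside `S` are prime to `N t` and to `p`. -/
private lemma not_dvd_of_notMem {N t p : ℕ} {S : Finset ℕ}
    (hS : ∀ q, q.Prime → q ∣ N * t * p → q ∈ S) {l : ℕ} (hl : l.Prime) (hlS : l ∉ S) :
    ¬ l ∣ N * t ∧ ¬ l ∣ p :=
  ⟨fun h => hlS (hS l hl (h.mul_right p)), fun h => hlS (hS l hl (h.mul_left _))⟩

omit [IsAdicComplete (maximalIdeal O) O] [Finite (ResidueField O)] [CharZero O] in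
/-- A character of `p`-power order is residually trivial. -/
private lemma residue_char_eq_one (p : ℕ) [Fact p.Prime] [CharP (ResidueField O) p] {M : ℕ}
    {δ : DirichletCharacter O M} (hδ : ∀ u : (ZMod M)ˣ, ∃ k, δ u ^ p ^ k = 1) {x : ZMod M}
    (hx : IsUnit x) : residue O (δ x) = 1 := by
  obtain ⟨u, rfl⟩ := hx
  obtain ⟨k, hk⟩ := hδ u
  exact eq_one_of_pow_p_pow p (m := k) (by rw [← map_pow, hk, map_one])

omit [IsAdicComplete (maximalIdeal O) O] [Finite (ResidueField O)] [CharZero O] in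
/-- Residually, Frobenius at `l` has trace `a l` and determinant `l`. -/
private lemma residual_frobenius (p : ℕ) [Fact p.Prime] [CharP (ResidueField O) p] {N t : ℕ}
    {δ : DirichletCharacter O (N * t)} (hδ : ∀ u : (ZMod (N * t))ˣ, ∃ k, δ u ^ p ^ k = 1)
    {S : Finset ℕ} (hS : ∀ q, q.Prime → q ∣ N * t * p → q ∈ S) {a : ℕ → O} {ρ : MatRep O}
    (hfrob : ∀ l, l.Prime → l ∉ S → ∀ P : ValuationSubring Qbar, P.LiesOverPrime l →
      ∀ φ, P.IsFrobeniusAt φ l → (ρ φ).trace = a l ∧ (ρ φ).det = l * δ (l : ZMod (N * t)))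
    {l : ℕ} (hl : l.Prime) (hlS : l ∉ S) {P : ValuationSubring Qbar} (hP : P.LiesOverPrime l)
    {φ : GalQ} (hφ : P.IsFrobeniusAt φ l) :
    (mapRep (residue O) ρ φ).trace = residue O (a l) ∧
      (mapRep (residue O) ρ φ).det = (l : ResidueField O) := by
  obtain ⟨h1, h2⟩ := hfrob l hl hlS P hP φ hφ
  refine ⟨by rw [trace_mapRep, h1], ?_⟩
  rw [det_mapRep, h2, map_mul, map_natCast, residue_char_eq_one p hδ
    ((ZMod.isUnit_iff_coprime l (N * t)).mpr
      (hl.coprime_iff_not_dvd.mpr (not_dvd_of_notMem hS hl hlS).1)), mul_one]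

omit [IsAdicComplete (maximalIdeal O) O] [Finite (ResidueField O)] [CharZero O] in
/-- At `t ≡ 1 (mod p)` the residual determinant of Frobenius is one. -/
private lemma det_residual_eq_one {p : ℕ} [hpF : Fact p.Prime] [CharP (ResidueField O) p] {t : ℕ}
    (ht : t.Prime) (htp : t ≠ p) (ht1 : p ∣ t - 1) {ρ : MatRep O} (hρ : MatCont ρ) {S : Finset ℕ}
    (hpS : p ∈ S)
    (hdet : ∀ l, l.Prime → l ∉ S → ∀ P : ValuationSubring Qbar, P.LiesOverPrime l →
      ∀ φ, P.IsFrobeniusAt φ l → (mapRep (residue O) ρ φ).det = (l : ResidueField O))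
    {A : ValuationSubring Qbar} (hA : A.LiesOverPrime t) {φ : GalQ} (hφ : A.IsFrobeniusAt φ t) :
    (mapRep (residue O) ρ φ).det = 1 := by
  have htκ : (t : ResidueField O) = 1 := by
    obtain ⟨m, hm⟩ := ht1
    rw [← Nat.sub_add_cancel ht.one_le, hm, Nat.cast_add, Nat.cast_mul, CharP.cast_eq_zero,
      zero_mul, zero_add, Nat.cast_one]
  rw [det_residual hρ S hpS hdet (fun ζ hζ => Density.isFrobeniusAt_apply_of_pow_eq_one ht hA hφ
    (fun h => htp ((Nat.prime_dvd_prime_iff_eq ht hpF.out).mp h)) hζ), htκ]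

omit [IsAdicComplete (maximalIdeal O) O] [Finite (ResidueField O)] [CharZero O] in
/-- An irreducible residual representation has a prime `l₀ ≡ 1` with Frobenius trace not `2`. -/
private lemma exists_nonEisenstein (p : ℕ) [Fact p.Prime] [CharP (ResidueField O) p] (M : ℕ)
    [NeZero M] (h2 : (2 : ResidueField O) ≠ 0) {S : Finset ℕ} {a : ℕ → O} {ρ : MatRep O}
    (hρ : MatCont ρ) (hirr : AbsIrreducibleOn (mapRep (residue O) ρ) ⊤)
    (hfrob : ∀ l, l.Prime → l ∉ S → ∀ P : ValuationSubring Qbar, P.LiesOverPrime l →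
      ∀ φ, P.IsFrobeniusAt φ l → (mapRep (residue O) ρ φ).trace = residue O (a l) ∧
        (mapRep (residue O) ρ φ).det = (l : ResidueField O)) :
    ∃ l, l.Prime ∧ l ∉ S ∧ l ≡ 1 [MOD M] ∧ (l : ResidueField O) = 1 ∧ residue O (a l) ≠ 2 := by
  have hp : NeZero p := ⟨(Fact.out : p.Prime).ne_zero⟩
  have hκ : ∀ l, l ≡ 1 [MOD M * p] → (l : ResidueField O) = 1 := fun l hl => by
    rw [← Nat.cast_one, CharP.natCast_eq_natCast (ResidueField O) p]
    exact hl.of_mul_left M
  obtain ⟨l, hl, hlS, hl1, P, hP, φ, hφ, hltr⟩ := exists_frobenius_trace_ne_two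
    (trace_form_of_absIrreducible h2 hirr) (exists_fix_residual hρ) (M * p) S
    (fun l hl hlS hl1 P hP ψ hψ => by rw [(hfrob l hl hlS P hP ψ hψ).2, hκ l hl1])
  rw [(hfrob l hl hlS P hP φ hφ).1] at hltr
  exact ⟨l, hl, hlS, hl1.of_mul_right p, hκ l hl1, hltr⟩

omit [IsAdicComplete (maximalIdeal O) O] [Finite (ResidueField O)] [CharZero O] in
/-- A non-zero period is a multiple of a primitive one with the same Hecke eigenvalues. -/
private lemma exists_primitive_period {L t : ℕ} [NeZero L] [Fact (1 < L)] [htF : Fact t.Prime]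
    (htL : t ∣ L) {δ : DirichletCharacter O L} {Φ : Cusp → Cusp → O} (hΦ : Φ ∈ SymbChar O δ)
    (hper : periodHom hΦ ≠ 0) {S : Finset ℕ} {a : ℕ → O}
    (ha : ∀ l, l.Prime → l ∉ S → tOpChar O δ l Φ = a l • Φ) {b : O} (hb : uOp O t Φ = b • Φ) :
    ∃ c : Additive (Gamma1 L) →+ O, ModularCurve.Period.IsParabolicHom (Gamma1 L) c ∧
      (∃ γ, IsUnit (c γ)) ∧
      (∀ (l : ℕ) (hl : l.Prime) (hlL : ¬ l ∣ L), l ∉ S →
        (tRep l hl hlL).homT O c = a l • c) ∧
      (∀ (σ : SL(2, ℤ)) (hσ : σ ∈ Gamma0 L),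
        (dRep σ hσ).homT O c = δ ((σ 1 1 : ℤ) : ZMod L) • c) ∧
      (uRep t htF.out htL).homT O c = b • c := by
  obtain ⟨r₀, c₀, hr₀, hc₀, γ₀, hγ₀⟩ := exists_primitive hper
  have hcancel : ∀ {B : Type} [AddMonoid B] {f f' : B →+ O},
      (AddMonoidHom.mulLeft r₀).comp f = (AddMonoidHom.mulLeft r₀).comp f' → f = f' :=
    fun h => AddMonoidHom.ext fun x => mul_left_cancel₀ hr₀ (DFunLike.congr_fun h x)
  have hscale : ∀ (T : HeckeReps L L) (c : O),
      T.homT O (periodHom hΦ) = c • periodHom hΦ → T.homT O c₀ = c • c₀ := fun T c h => hcancel (by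
    rw [← T.homT_comp, ← hc₀, h, hc₀]
    exact AddMonoidHom.ext fun x => mul_left_comm c r₀ _)
  refine ⟨c₀, fun γ hγ => ?_, ⟨γ₀, hγ₀⟩,
    fun l hl hlL hlS => hscale _ _ (tRep_periodHom hΦ hl hlL (ha l hl hlS)),
    fun σ hσ => hscale _ _ (dRep_periodHom hΦ σ hσ), hscale _ _ (uRep_periodHom hΦ htF.out _ hb)⟩
  have h := periodHom_parabolic hΦ γ hγ
  rw [hc₀, AddMonoidHom.comp_apply] at h
  exact (mul_eq_zero.mp h).resolve_left hr₀

omit [IsAdicComplete (maximalIdeal O) O] [Finite (ResidueField O)] [CharZero O] in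
/-- Pushed forward to `R`, a primitive eigen-period is a primitive eigenvector. -/
private lemma exists_primitive_eigenvector {L t n : ℕ} [NeZero L] [Fact (1 < L)] [NeZero n]
    [htF : Fact t.Prime] (htL : t ∣ L) {R ι : Type} [CommRing R] [Fintype ι] [DecidableEq ι]
    (e : R ≃+ (ι → ZMod n)) (q : O →+* R) {δ : DirichletCharacter O L} {Φ : Cusp → Cusp → O}
    (hΦ : Φ ∈ SymbChar O δ) (hper : periodHom hΦ ≠ 0) {S : Finset ℕ} {a : ℕ → O}
    (ha : ∀ l, l.Prime → l ∉ S → tOpChar O δ l Φ = a l • Φ) {b : O} (hb : uOp O t Φ = b • Φ) :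
    ∃ v ∈ eigSub (M := L) e S (fun l => q (a l)) (fun σ => q (δ ((σ 1 1 : ℤ) : ZMod L))),
      opU e t htL v = q b • v ∧ ∀ c : R, c • v = 0 → c = 0 := by
  obtain ⟨c₀, hpar, ⟨γ₀, hγ₀⟩, hT, hD, hU⟩ := exists_primitive_period htL hΦ hper ha hb
  let v : ParR L R :=
    ⟨q.toAddMonoidHom.comp c₀, fun γ hγ => by
      show q (c₀ _) = 0
      rw [hpar γ hγ, map_zero]⟩
  have hpush : ∀ (T : HeckeReps L L) (c : O), T.homT O c₀ = c • c₀ →
      T.homT R v.1 = q c • v.1 := fun T c h => by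
    show T.homT _ (q.toAddMonoidHom.comp c₀) = _
    rw [T.homT_comp, h]
    exact AddMonoidHom.ext fun x => map_mul q c _
  refine ⟨v, ⟨fun l hl hlL hlS =>
      Subtype.ext ((coe_opT e l hl hlL v).trans (hpush _ _ (hT l hl hlL hlS))),
    fun σ hσ => Subtype.ext ((coe_opD e σ hσ v).trans (hpush _ _ (hD σ hσ)))⟩,
    Subtype.ext ((coe_opU e t _ v).trans (hpush _ _ hU)), fun c hc => ?_⟩
  have h : c * q (c₀ γ₀) = 0 := DFunLike.congr_fun (congrArg Subtype.val hc) γ₀
  exact ((hγ₀.map q).mul_left_eq_zero).mp h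

omit [Finite (ResidueField O)] [CharZero O] in
/-- Lifts of the residual roots of the characteristic polynomial, separated from `b`. -/
private lemma exists_separated_roots (s d b : O) {α β : ResidueField O}
    (hs : α + β = residue O s) (hd : α * β = residue O d) (hne : α ≠ β) (hb : residue O b = α) :
    ∃ x y : O, x + y = s ∧ x * y = d ∧ residue O x = α ∧ IsUnit (x - y) ∧ IsUnit (b - y) := by
  obtain ⟨x, y, hxy, hxy', hxα, hyβ⟩ := exists_roots s d hs hd hne
  refine ⟨x, y, hxy, hxy', hxα, (residue_ne_zero_iff_isUnit _).mp ?_,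
    (residue_ne_zero_iff_isUnit _).mp ?_⟩
  · rw [map_sub, hxα, hyβ, sub_ne_zero]; exact hne
  · rw [map_sub, hb, hyβ, sub_ne_zero]; exact hne

omit [IsAdicComplete (maximalIdeal O) O] [Finite (ResidueField O)] in
/-- Modulo `n`, the group algebra acts on the eigen-part through `ρ`. -/
private lemma exists_galW_algHom {L n : ℕ} [NeZero L] [Fact (1 < L)] [NeZero n] [Finite (Kum L n)]
    {ι : Type} [Fintype ι] [DecidableEq ι]
    (e : (O ⧸ Ideal.span {(n : O)}) ≃+ (ι → ZMod n))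
    (hb : Function.Bijective (kummer L n)) {δ : DirichletCharacter O L} {S : Finset ℕ}
    {a : ℕ → O} {ρ : MatRep O} (hρ : MatCont ρ) (hspan : Submodule.span O (Set.range ρ) = ⊤)
    (hS : ∀ l : ℕ, l.Prime → l ∉ S → ¬ l ∣ L ∧ ¬ l ∣ n)
    (hfrob : ∀ l, l.Prime → l ∉ S → ∀ P : ValuationSubring Qbar, P.LiesOverPrime l →
      ∀ φ, P.IsFrobeniusAt φ l → (ρ φ).trace = a l ∧ (ρ φ).det = l * δ (l : ZMod L)) :
    let q := Ideal.Quotient.mk (Ideal.span {(n : O)})
    ∃ Ψ : Matrix (Fin 2) (Fin 2) (O ⧸ Ideal.span {(n : O)}) →ₐ[O ⧸ Ideal.span {(n : O)}]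
        Module.End (O ⧸ Ideal.span {(n : O)}) ↥(eigSub (M := L) e S (fun l => q (a l))
          (fun σ => q (δ ((σ 1 1 : ℤ) : ZMod L)))),
      ∀ g, Ψ (mapRep q ρ g) = galW e hb g := by
  intro q
  refine (galW_isCH e hb (mapRep q ρ) (exists_fix_trivial hρ (Nat.cast_ne_zero.mpr (NeZero.ne n)))
    hS fun l hl hlM hlS P hP ψ hψ => ?_).exists_algHom
      (span_mapRep_eq_top q Ideal.Quotient.mk_surjective ρ hspan)
  obtain ⟨h1, h2⟩ := hfrob l hl hlS P hP ψ hψ
  refine ⟨by rw [trace_mapRep, h1], ?_⟩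
  rw [det_mapRep, h2, map_mul, map_natCast]
  show _ = _ * q (δ _)
  rw [sigmaP_apply]

omit [IsAdicComplete (maximalIdeal O) O] [Finite (ResidueField O)] [CharZero O] in
/-- Cayley-Hamilton for a determinant-one element on the level-`N` residual eigen-part. -/
private lemma galR_cayleyHamilton {M p : ℕ} [NeZero M] [Fact (1 < M)] [NeZero p]
    [Finite (Kum M p)] {ι : Type} [Fintype ι] [DecidableEq ι]
    (e : ResidueField O ≃+ (ι → ZMod p)) (hb : Function.Bijective (kummer M p)) {S : Finset ℕ}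
    {a : ℕ → ResidueField O} {ρ : MatRep O} (hρ : MatCont ρ)
    (hS : ∀ l : ℕ, l.Prime → l ∉ S → ¬ l ∣ M ∧ ¬ l ∣ p)
    (hfrob : ∀ l, l.Prime → l ∉ S → ∀ P : ValuationSubring Qbar, P.LiesOverPrime l →
      ∀ φ, P.IsFrobeniusAt φ l → (mapRep (residue O) ρ φ).trace = a l ∧
        (mapRep (residue O) ρ φ).det = (l : ResidueField O))
    {φ : GalQ} (hdet : (mapRep (residue O) ρ φ).det = 1) {c : ParR M (ResidueField O)}
    (hc : c ∈ eigSub (M := M) e S a (fun _ => 1)) :
    galR e hb φ (galR e hb φ c) - (mapRep (residue O) ρ φ).trace • galR e hb φ c + c = 0 := by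
  have hCH := galW_isCH (S := S) (a := a) (ε := fun _ => 1) e hb (mapRep (residue O) ρ)
    (exists_fix_residual hρ) hS (fun l hl _ hlS P hP ψ hψ =>
      ⟨(hfrob l hl hlS P hP ψ hψ).1, by rw [(hfrob l hl hlS P hP ψ hψ).2, mul_one]⟩)
  have h := congrArg Subtype.val (LinearMap.congr_fun (hCH φ) ⟨c, hc⟩)
  simp only [LinearMap.add_apply, LinearMap.sub_apply, LinearMap.smul_apply, Module.End.mul_apply,
    Module.End.one_apply, LinearMap.zero_apply, Submodule.coe_add, Submodule.coe_sub,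
    Submodule.coe_smul, ZeroMemClass.coe_zero, coe_galW, hdet, one_smul] at h
  exact h

omit [IsAdicComplete (maximalIdeal O) O] [Finite (ResidueField O)] in
/-- No eigenvector mod `p p^j` with `U_t = b` and Frobenius `x` has trivial residual class. -/
private lemma eq_zero_of_redZero_mod {p N t j : ℕ} [hpF : Fact p.Prime] [NeZero p]
    [CharP (ResidueField O) p] [NeZero N] [Fact (1 < N)] [Fact (1 < N * t)] [htF : Fact t.Prime]
    [NeZero t] [NeZero (N * t)] [Finite (ParHom N p)] {A : ValuationSubring Qbar}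
    [IsAlgClosed (ResK A)] [CharP (ResK A) t] (htN : ¬ t ∣ N) (h3 : 3 ≤ N) (ht1 : p ∣ t - 1)
    (h2 : (2 : ResidueField O) ≠ 0) (hpA : (p : ResK A) ≠ 0) (hA : A.LiesOverPrime t)
    {φ : GalQ} (hφ : A.IsFrobeniusAt φ t) {δ : DirichletCharacter O (N * t)}
    (hδ : ∀ u : (ZMod (N * t))ˣ, ∃ k, δ u ^ p ^ k = 1) {S : Finset ℕ}
    (hS : ∀ l : ℕ, l.Prime → l ∉ S → ¬ l ∣ N * t) {a : ℕ → O}
    (hE : ∃ l : ℕ, l.Prime ∧ l ∉ S ∧ residue O (a l) ≠ 1 + l) {ι ι' : Type} [Fintype ι]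
    [DecidableEq ι] [Fintype ι'] [DecidableEq ι']
    (e : (O ⧸ Ideal.span {((p * p ^ j : ℕ) : O)}) ≃+ (ι → ZMod (p * p ^ j)))
    (e' : ResidueField O ≃+ (ι' → ZMod p)) (hbN : Function.Bijective (kummer N p))
    (hbM : Function.Bijective (kummer (N * t) (p * p ^ j)))
    (hbM1 : Function.Bijective (kummer (N * t) p)) (hF : Scalable A (FF (N * t)))
    {α β : ResidueField O}
    (hCH : ∀ c ∈ eigSub (M := N) e' S (fun l => residue O (a l)) (fun _ => 1),
      galR e' hbN φ (galR e' hbN φ c) - (α + β) • galR e' hbN φ c + c = 0)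
    (hαβ : α * β = 1) (hne : α ≠ β) {b x : O} (hbα : residue O b = α) (hxα : residue O x = α) :
    let q := Ideal.Quotient.mk (Ideal.span {((p * p ^ j : ℕ) : O)})
    ∀ w ∈ eigSub (M := N * t) e S (fun l => q (a l))
        (fun σ => q (δ ((σ 1 1 : ℤ) : ZMod (N * t)))),
      opU e t (dvd_mul_left t N) w = q b • w → galR e hbM φ w = q x • w →
      RedZero e hbM hF w → w = 0 := by
  intro q w hw hwU hwF hwR
  have hn : residue O ((p * p ^ j : ℕ) : O) = 0 := by
    rw [Nat.cast_mul, map_mul, map_natCast, CharP.cast_eq_zero, zero_mul]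
  obtain ⟨ϖ, g, K, hg, hπ, htor, hK⟩ := exists_socle (NeZero.ne (p * p ^ j)) hn
  by_contra hw0
  obtain ⟨r, z, hz, hz0⟩ := exists_socle_multiple g hg ϖ htor hK hw0
  refine hz0 ?_
  have hπq : ∀ c : O, quotResidue hn (q c) = residue O c := quotResidue_mk hn
  have hzeig : z ∈ eigSub (M := N * t) e' S (fun l => residue O (a l)) (fun _ => 1) := by
    refine ⟨fun l hl hlM hlS => parMap_injective g hg ?_,
      fun σ hσ => parMap_injective g hg ?_⟩
    · rw [parMap_opT e e' g, hz, map_smul, hw.1 l hl hlM hlS, smul_comm]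
      show q (a l) • r • w = parMap g (residue O (a l) • z)
      rw [← hπq, parMap_smul g hπ, hz]
    · rw [parMap_opD e e' g, hz, map_smul, hw.2 σ hσ, smul_comm,
        show (1 : ResidueField O) = quotResidue hn (q (δ ((σ 1 1 : ℤ) : ZMod (N * t)))) from
          ((hπq _).trans (residue_char_eq_one p hδ (isUnit_lowerRight hσ))).symm,
        parMap_smul g hπ, hz]
  have hzU : opU e' t (dvd_mul_left t N) z = α • z := parMap_injective g hg (by
    rw [parMap_opU e e' g, hz, map_smul, hwU, smul_comm, ← hbα, ← hπq, parMap_smul g hπ, hz])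
  have hzF : galR e' hbM1 φ z = α • z := parMap_injective g hg (by
    rw [parMap_galR e e' g hbM hbM1, hz, map_smul, hwF, smul_comm, ← hxα, ← hπq,
      parMap_smul g hπ, hz])
  have hm : ((p ^ j : ℕ) : ResK A) ≠ 0 := by rw [Nat.cast_pow]; exact pow_ne_zero _ hpA
  have hzR : RedZero e' hbM1 hF z := redZero_of_parMap e e' g hbM hbM1 hF rfl hm hg
    (by rw [hz]; exact hwR.smul e hbM hF r)
  exact eq_zero_of_redZero e' hbN hbM1 hF htN h3 h2 (CharP.cast_eq_zero _ p) ht1 hpA hA hφ hS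
    hE hCH hαβ hne hzeig hzU hzF hzR

/-- The statement at levels at least five. -/
theorem trace_inertia_core (p : ℕ) [hpF : Fact p.Prime] (hp2 : p ≠ 2)
    [CharP (ResidueField O) p] {N t : ℕ} [NeZero N] (h5 : 5 ≤ N) (ht : t.Prime) (htp : t ≠ p)
    (htN : ¬ t ∣ N) (ht1 : p ∣ t - 1) (δ : DirichletCharacter O (N * t))
    (hδ : ∀ u : (ZMod (N * t))ˣ, ∃ k, δ u ^ p ^ k = 1)
    (S : Finset ℕ) (hS : ∀ q, q.Prime → q ∣ N * t * p → q ∈ S) (a : ℕ → O)
    (Φ : Cusp → Cusp → O) (hΦ : Φ ∈ SymbChar O δ) (hne : Φ ≠ 0)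
    (ha : ∀ l, l.Prime → l ∉ S → tOpChar O δ l Φ = a l • Φ)
    (b : O) (hb : uOp O t Φ = b • Φ)
    (ρ : MatRep O) (hρ : MatCont ρ)
    (hfrob : ∀ l, l.Prime → l ∉ S → ∀ P : ValuationSubring Qbar, P.LiesOverPrime l →
      ∀ φ, P.IsFrobeniusAt φ l → (ρ φ).trace = a l ∧ (ρ φ).det = l * δ (l : ZMod (N * t)))
    (hirr : AbsIrreducibleOn (mapRep (residue O) ρ) ⊤)
    (hdist : ∀ P : ValuationSubring Qbar, P.LiesOverPrime t → ∀ φ, P.IsFrobeniusAt φ t →
      ∃ α β, α ≠ β ∧ α + β = (mapRep (residue O) ρ φ).trace ∧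
        α * β = (mapRep (residue O) ρ φ).det ∧ residue O b = α)
    (A : ValuationSubring Qbar) (hA : A.LiesOverPrime t) (τ : GalQ)
    (hτ : τ ∈ A.inertiaSubgroupIn ℚ) : (ρ τ).trace = 1 + (ρ τ).det := by
  have htF : Fact t.Prime := ⟨ht⟩
  have : NeZero t := ⟨ht.ne_zero⟩
  have : NeZero p := ⟨hpF.out.ne_zero⟩
  have : NeZero (N * t) := ⟨Nat.mul_ne_zero (NeZero.ne N) ht.ne_zero⟩
  have : Fact (1 < N) := ⟨by omega⟩
  have h5' : 5 ≤ N * t := le_trans h5 (Nat.le_mul_of_pos_right N ht.pos)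
  have : Fact (1 < N * t) := ⟨by omega⟩
  have : IsAlgClosed (ResK A) := Deuring.isAlgClosed_residueField A
  have : CharP (ResK A) t := charP_resK A ht hA
  have hpA : (p : ResK A) ≠ 0 := fun h =>
    htp ((Nat.prime_dvd_prime_iff_eq ht hpF.out).mp ((CharP.cast_eq_zero_iff (ResK A) t p).mp h))
  -- residual facts
  have hp0 : residue O (p : O) = 0 := by rw [map_natCast, CharP.cast_eq_zero]
  have h2 : (2 : ResidueField O) ≠ 0 := fun h => hp2
    ((Nat.prime_dvd_prime_iff_eq hpF.out Nat.prime_two).mp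
      ((CharP.cast_eq_zero_iff (ResidueField O) p 2).mp (by exact_mod_cast h)))
  have hSdvd := fun l hl hlS => not_dvd_of_notMem hS (l := l) hl hlS
  have hfrobb := fun l (hl : l.Prime) (hlS : l ∉ S) (P : ValuationSubring Qbar)
    (hP : P.LiesOverPrime l) ψ (hψ : P.IsFrobeniusAt ψ l) =>
      residual_frobenius p hδ hS hfrob hl hlS hP hψ
  obtain ⟨φ, hφ⟩ := Density.exists_isFrobeniusAt A ht hA
  obtain ⟨α, β, hαβne, hsum, hprod, hbα⟩ := hdist A hA φ hφ
  have hdetφ := det_residual_eq_one ht htp ht1 hρ (hS p hpF.out (dvd_mul_left p _))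
    (fun l hl hlS P hP ψ hψ => (hfrobb l hl hlS P hP ψ hψ).2) hA hφ
  -- non-Eisenstein, hence a non-zero period
  obtain ⟨l₀, hl₀, hl₀S, hl₀1, hl₀κ, hl₀tr⟩ :=
    exists_nonEisenstein p (N * t) h2 hρ hirr hfrobb
  have hE : ∃ l : ℕ, l.Prime ∧ l ∉ S ∧ residue O (a l) ≠ 1 + l :=
    ⟨l₀, hl₀, hl₀S, by rw [hl₀κ, one_add_one_eq_two]; exact hl₀tr⟩
  have hper : periodHom hΦ ≠ 0 :=
    periodHom_ne_zero hΦ hne hl₀ hl₀1 (ha l₀ hl₀ hl₀S) fun h => hl₀tr (by
      rw [h, map_add, map_one, map_natCast, hl₀κ, one_add_one_eq_two])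
  obtain ⟨x, y, hxy, hxy', hxα, hu, hub⟩ := exists_separated_roots (ρ φ).trace (ρ φ).det b
    (by rw [hsum, trace_mapRep]) (by rw [hprod, det_mapRep]) hαβne hbα
  have hspanO : Submodule.span O (Set.range ρ) = ⊤ :=
    span_eq_top_of_residual (residue O) residue_surjective (ker_residue (R := O)) ρ
      (span_eq_top_of_trace (ρ := mapRep (residue O) ρ) (trace_form_of_absIrreducible h2 hirr))
  refine sub_eq_zero.mp (eq_zero_of_forall_pow_dvd hp0 fun j => ?_)
  -- the formula modulo `p p^j`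
  rw [← Ideal.mem_span_singleton, ← Ideal.Quotient.eq_zero_iff_mem, map_sub, sub_eq_zero]
  obtain ⟨d, ⟨e⟩⟩ := exists_coords (O := O) p (n := p * p ^ j) (k := j + 1) (pow_succ' p j).symm
  obtain ⟨f, ⟨e'⟩⟩ := exists_coords_residue (O := O) p
  let q : O →+* O ⧸ Ideal.span {((p * p ^ j : ℕ) : O)} := Ideal.Quotient.mk _
  have hbM : Function.Bijective (kummer (N * t) (p * p ^ j)) :=
    kummer_bijective_of_eq h5' p (j + 1) (pow_succ' p j).symm
  have hbN : Function.Bijective (kummer N p) := kummer_bijective_of_eq h5 p 1 (pow_one p).symm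
  have : Finite (Kum (N * t) (p * p ^ j)) := finite_kum_of_eq h5' p (j + 1) (pow_succ' p j).symm
  have : Finite (Kum N p) := finite_kum_of_eq h5 p 1 (pow_one p).symm
  have : Finite (ParHom N p) := finite_parHom_of_eq h5 p 1 (pow_one p).symm
  obtain ⟨v, hv, hvU, hprim⟩ :=
    exists_primitive_eigenvector (dvd_mul_left t N) e q hΦ hper ha hb
  obtain ⟨Ψ, hΨ⟩ := exists_galW_algHom e hbM hρ hspanO (fun l hl hlS => ⟨(hSdvd l hl hlS).1,
    fun h => (hSdvd l hl hlS).2 (hl.dvd_of_dvd_pow (n := j + 1) (by rwa [pow_succ']))⟩) hfrob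
  have main := trace_eq_one_add_det_of_inj e hbM (dvd_mul_left t N) (scalable_FF A) (mapRep q ρ)
    (span_mapRep_eq_top q Ideal.Quotient.mk_surjective ρ hspanO) Ψ hΨ (b := q b) (α := q x)
    (β := q y) hφ (by rw [trace_mapRep, ← map_add, hxy]) (by rw [det_mapRep, ← map_mul, hxy'])
    (by rw [← map_sub]; exact hu.map q) (by rw [← map_sub]; exact hub.map q)
    (eq_zero_of_redZero_mod htN (by omega) ht1 h2 hpA hA hφ hδ
      (fun l hl hlS => (hSdvd l hl hlS).1) hE e e' hbN hbM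
      (kummer_bijective_of_eq h5' p 1 (pow_one p).symm) _ (fun c hc => hsum ▸ galR_cayleyHamilton
        e' hbN hρ (fun l hl hlS => ⟨fun h => (hSdvd l hl hlS).1 (h.mul_right t),
          (hSdvd l hl hlS).2⟩) hfrobb hdetφ hc)
      (hprod.trans hdetφ) hαβne hbα hxα)
    hv hvU hprim hτ
  rw [trace_mapRep q ρ τ, det_mapRep q ρ τ] at main
  rw [main, map_add, map_one]

end FLTAgent.IgusaCover

end
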