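import Fermat.Agent.IgusaCover.Descent

/-!
# Old classes on `Γ₁(Nq)`

Identities between `U_q`, `T_l`, the Atkin–Lehner operator `wHom` and the two degeneracy maps on
homomorphisms with abelian target, and the restriction of a transfer to level `Nq`
(`degHom_one_trace`, `degHom_one_trace_conj`).
-/

set_option autoImplicit false

noncomputable section

open CongruenceSubgroup
open scoped MatrixGroups

namespace FLTAgent.IgusaCover

open FLTAgent.GammaH

local notation "Mat" => Matrix (Fin 2) (Fin 2) ℤ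

attribute [local instance] HeckeReps.fin

section General

variable {N : ℕ} {A : Type*} [AddCommGroup A]

/-- Homomorphisms to an abelian group are insensitive to inner conjugation. -/
theorem hom_conj (c : Additive (Gamma1 N) →+ A) (k h : Gamma1 N) :
    c (Additive.ofMul (k * h * k⁻¹)) = c (Additive.ofMul h) := by
  simp only [ofMul_mul, ofMul_inv, map_add, map_neg]; abel

variable [NeZero N]

omit [NeZero N] in
theorem homT_dRep_congr {σ τ : SL(2, ℤ)} (hσ : σ ∈ Gamma0 N) (hτ : τ ∈ Gamma0 N)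
    (h : ((σ 1 1 : ℤ) : ZMod N) = ((τ 1 1 : ℤ) : ZMod N)) (c : Additive (Gamma1 N) →+ A) :
    (dRep σ hσ).homT A c = (dRep τ hτ).homT A c := by
  refine AddMonoidHom.ext fun γ => ?_
  obtain ⟨γ, rfl⟩ := Additive.ofMul.surjective γ
  have hστ : σ * τ⁻¹ ∈ Gamma1 N := mul_inv_mem_Gamma1 hτ hσ (by
    have hdet := congrArg (fun z : ℤ => (z : ZMod N))
      (σ.det_coe ▸ (Matrix.det_fin_two (σ : Mat)).symm)
    simp [Gamma0_mem.mp hσ] at hdet
    rw [← h]; linear_combination hdet)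
  rw [homT_dRep, homT_dRep, ← hom_conj c ⟨σ * τ⁻¹, hστ⟩
    ⟨τ * (γ : SL(2, ℤ)) * τ⁻¹, conj_mem_Gamma1 hτ γ.2⟩]
  refine congrArg (fun z => c (Additive.ofMul z)) (Subtype.ext ?_)
  simp only [Subgroup.coe_mul, InvMemClass.coe_inv]
  group

omit [NeZero N] in
theorem card_tRep_ι {l : ℕ} (hl : l.Prime) (hlN : ¬ l ∣ N) :
    Fintype.card (tRep (M := N) l hl hlN).ι = l + 1 := by
  show @Fintype.card (Option (Fin l)) _ = l + 1
  simp

omit [NeZero N] in
/-- The value of `T_l` at a power of an element normalising the representatives. -/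
theorem homT_tRep_pow {l : ℕ} (hl : l.Prime) (hlN : ¬ l ∣ N) {σ : SL(2, ℤ)} (hσ : σ ∈ Gamma0 N)
    (c : Additive (Gamma1 N) →+ A)
    (hinv : ∀ γ γ' : Gamma1 N, (γ' : SL(2, ℤ)) = σ * (γ : SL(2, ℤ)) * σ⁻¹ →
      c (Additive.ofMul γ') = c (Additive.ofMul γ)) :
    ∃ s : A, ∀ (n : ℕ) (hn : σ ^ n ∈ Gamma1 N),
      (tRep l hl hlN).homT A c (Additive.ofMul ⟨σ ^ n, hn⟩) =
        (l + 1) • c (Additive.ofMul ⟨σ ^ n, hn⟩) + n • s := by
  set R := tRep (M := N) l hl hlN with hR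
  obtain ⟨e, g, he⟩ := tRep_exists_perm hl hlN hσ
  refine ⟨∑ i, c (Additive.ofMul (g i)), ?_⟩
  have hiter : ∀ n : ℕ, ∃ G : R.ι → Gamma1 N, (∀ i, R.β i * ((σ ^ n : SL(2, ℤ)) : Mat) =
      ((σ ^ n * (G i : SL(2, ℤ)) : SL(2, ℤ)) : Mat) * R.β ((e ^ n : Equiv.Perm R.ι) i)) ∧
      ∑ i, c (Additive.ofMul (G i)) = n • ∑ i, c (Additive.ofMul (g i)) := by
    intro n
    induction n with
    | zero => exact ⟨fun _ => 1, fun i => by simp, by simp⟩
    | succ n ih =>
      obtain ⟨G, hG, hs⟩ := ih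
      let G' : R.ι → Gamma1 N := fun i => ⟨σ⁻¹ * (G i : SL(2, ℤ)) * σ, by
        simpa using conj_mem_Gamma1 (inv_mem hσ) (G i).2⟩
      refine ⟨fun i => G' i * g ((e ^ n : Equiv.Perm R.ι) i), fun i => ?_, ?_⟩
      · rw [pow_succ σ n, Matrix.SpecialLinearGroup.coe_mul, ← Matrix.mul_assoc, hG,
          Matrix.mul_assoc, he, ← Matrix.mul_assoc, ← Matrix.SpecialLinearGroup.coe_mul,
          pow_succ' e n,
          Equiv.Perm.mul_apply]
        congr 2
        simp only [G', Subgroup.coe_mul]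
        group
      · simp only [ofMul_mul, map_add, Finset.sum_add_distrib]
        rw [succ_nsmul]
        congr 1
        · rw [← hs]
          exact Finset.sum_congr rfl fun i _ => (hinv (G' i) (G i) (by simp [G', mul_assoc])).symm
        · exact Equiv.sum_comp (e ^ n : Equiv.Perm R.ι) (fun i => c (Additive.ofMul (g i)))
  intro n hn
  obtain ⟨G, hG, hs⟩ := hiter n
  have hel : ∀ i, R.elt ⟨σ ^ n, hn⟩ i = ⟨σ ^ n, hn⟩ * G i := fun i =>
    (R.eq_of_rel (γ := ⟨σ ^ n, hn⟩) (g := ⟨σ ^ n, hn⟩ * G i) (i := i)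
      (j := (e ^ n : Equiv.Perm R.ι) i) (by rw [Subgroup.coe_mul]; exact hG i)).2
  rw [R.homT_apply]
  simp only [hel, ofMul_mul, map_add, Finset.sum_add_distrib, Finset.sum_const,
    Finset.card_univ, hs]
  rw [hR, card_tRep_ι hl hlN]

end General

variable {N q : ℕ} [NeZero N] [Fact (1 < N)] [hqp : Fact q.Prime] [NeZero q]
variable {A : Type*} [AddCommGroup A]

omit [Fact (1 < N)] [NeZero q] in
theorem gamma1_le_gammaPrime (hc : N.Coprime q) : Gamma1 (N * q) ≤ gammaPrime N q := fun _ h =>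
  ((gamma1_mul_iff hc).mp h).1

/-- `Γ₁(Nq) → Γ₁(N) ∩ Γ₀(q)`. -/
def inclP (hc : N.Coprime q) : Gamma1 (N * q) →* gammaPrime N q :=
  Subgroup.inclusion (gamma1_le_gammaPrime hc)

/-- An element of `Γ₁(Nq)` in `Γ₁(N)`. -/
def inclN (hc : N.Coprime q) (γ : Gamma1 (N * q)) : Gamma1 N :=
  ⟨γ, (mem_gammaPrime.mp (gamma1_le_gammaPrime hc γ.2)).1⟩

omit [Fact (1 < N)] [NeZero q] in
theorem degHom_one_apply (hc : N.Coprime q) (h1 : N * 1 ∣ N * q) (c : Additive (Gamma1 N) →+ A)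
    (γ : Gamma1 (N * q)) :
    degHom h1 A c (Additive.ofMul γ) = c (Additive.ofMul (inclN hc γ)) := by
  rw [degHom_apply]
  exact congrArg (fun z => c (Additive.ofMul z)) (Subtype.ext (coe_conjDeg_one h1 γ))

variable (w : WData N q) (hc : N.Coprime q)

/-- Conjugation by the Atkin–Lehner element on `Γ₁(Nq)`. -/
def conjM : Gamma1 (N * q) →* Gamma1 (N * q) :=
  MonoidHom.mk' (fun γ => ⟨(w.conj (inclP hc γ) : SL(2, ℤ)), w.conj_mem hc (γ := inclP hc γ) γ.2⟩)
    fun γ δ => Subtype.ext (by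
      show ((w.conj (inclP hc (γ * δ)) : gammaPrime N q) : SL(2, ℤ)) = _
      rw [map_mul, map_mul]; rfl)

/-- The Atkin–Lehner operator. -/
def wHom (x : Additive (Gamma1 (N * q)) →+ A) : Additive (Gamma1 (N * q)) →+ A :=
  x.comp (MonoidHom.toAdditive (conjM w hc))

omit [Fact (1 < N)] in
theorem wHom_apply (x : Additive (Gamma1 (N * q)) →+ A) (γ : Gamma1 (N * q)) :
    wHom w hc x (Additive.ofMul γ) = x (Additive.ofMul (conjM w hc γ)) := rfl

omit [Fact (1 < N)] in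
theorem wHom_add (x y : Additive (Gamma1 (N * q)) →+ A) :
    wHom w hc (x + y) = wHom w hc x + wHom w hc y := AddMonoidHom.add_comp x y _

omit [Fact (1 < N)] in
theorem wHom_zero : wHom w hc (0 : Additive (Gamma1 (N * q)) →+ A) = 0 := AddMonoidHom.zero_comp _

omit [Fact (1 < N)] in
theorem wHom_parabolic {x : Additive (Gamma1 (N * q)) →+ A}
    (hx : ModularCurve.Period.IsParabolicHom (Gamma1 (N * q)) x) :
    ModularCurve.Period.IsParabolicHom (Gamma1 (N * q)) (wHom w hc x) := fun γ hγ => by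
  rw [wHom_apply]
  refine hx _ ?_
  show ((w.conj (inclP hc γ) : SL(2, ℤ)) : Mat).trace ^ 2 = 4
  rw [w.conj_trace]
  exact hγ

omit [NeZero N] [Fact (1 < N)] hqp in
theorem conj_conj (g : gammaPrime N q) :
    (w.conj (w.conj g) : SL(2, ℤ)) = w.sq * (g : SL(2, ℤ)) * w.sq⁻¹ := by
  refine w.conj_eq (mat_mul_right_cancel w.det_ne ?_)
  rw [Matrix.mul_assoc, ← w.conj_spec g, ← Matrix.mul_assoc, w.mat_mul_mat, Matrix.smul_mul,
    Matrix.mul_assoc, w.mat_mul_mat, Matrix.mul_smul, ← Matrix.SpecialLinearGroup.coe_mul,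
    ← Matrix.SpecialLinearGroup.coe_mul, inv_mul_cancel_right]

omit [Fact (1 < N)] in
/-- The value on `Γ₁(Nq)` of a transfer from `Γ₁(N) ∩ Γ₀(q)`. -/
theorem traceHom_incl (z : Additive (gammaPrime N q) →+ A) (γ : Gamma1 (N * q)) :
    traceHom w hc z (Additive.ofMul (inclN hc γ)) = z (Additive.ofMul (inclP hc γ)) +
      ∑ b : Fin q, z (Additive.ofMul (w.conj (inclP hc
        ((uRep q hqp.out (dvd_mul_left q N)).elt γ b)))) := by
  rw [traceHom_apply, Fintype.sum_option]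
  set R := uRep (M := N * q) q hqp.out (dvd_mul_left q N)
  let π : Fin q → Fin q := fun b => R.pi γ b
  congr 1
  · rw [(tr_eq w hc (γ := inclN hc γ) (i := none) (j := none) (g := inclP hc γ)
      (by show (1 : SL(2, ℤ)) * _ = _ * (1 : SL(2, ℤ)); rw [one_mul, mul_one]; rfl)).2]
  · refine Finset.sum_congr rfl fun b _ => ?_
    rw [(tr_eq w hc (γ := inclN hc γ) (i := some b) (j := some (π b))
      (g := w.conj (inclP hc (R.elt γ b))) (Subtype.ext (smul_right_injective Mat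
        (show ((q : ℤ)) ≠ 0 from by exact_mod_cast NeZero.ne q) ?_))).2]
    show (q : ℤ) • (((trSome w b * (γ : SL(2, ℤ)) : SL(2, ℤ))) : Mat) = (q : ℤ) •
      (((w.conj (inclP hc (R.elt γ b)) : SL(2, ℤ)) * trSome w (π b) : SL(2, ℤ)) : Mat)
    rw [Matrix.SpecialLinearGroup.coe_mul, Matrix.SpecialLinearGroup.coe_mul, ← Matrix.smul_mul,
      ← trSome_mul, Matrix.mul_assoc,
      show !![1, ((b : ℕ) : ℤ); 0, (q : ℤ)] * ((γ : SL(2, ℤ)) : Mat) =
        ((R.elt γ b : SL(2, ℤ)) : Mat) * !![1, (((π b) : ℕ) : ℤ); 0, (q : ℤ)] from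
        R.rel γ b,
      ← Matrix.mul_assoc,
      show w.mat * ((R.elt γ b : SL(2, ℤ)) : Mat) =
        ((w.conj (inclP hc (R.elt γ b)) : SL(2, ℤ)) : Mat) * w.mat from
        w.conj_spec (inclP hc (R.elt γ b)),
      Matrix.mul_assoc, trSome_mul, Matrix.mul_smul]

variable (h1 : N * 1 ∣ N * q) (hdq : N * q ∣ N * q)

/-- The transfer restricted to level `Nq`. -/
theorem degHom_one_trace {x : Additive (Gamma1 (N * q)) →+ A}
    {x' : Additive (gammaPrime N q) →+ A}
    (hres : ∀ γ : Gamma1 (N * q), x' (Additive.ofMul (inclP hc γ)) = x (Additive.ofMul γ)) :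
    degHom h1 A (traceHom w hc x') =
      x + (uRep q hqp.out (dvd_mul_left q N)).homT A (wHom w hc x) := by
  refine AddMonoidHom.ext fun γ => ?_
  obtain ⟨γ, rfl⟩ := Additive.ofMul.surjective γ
  rw [degHom_one_apply hc, traceHom_incl, AddMonoidHom.add_apply, hres, HeckeReps.homT_apply]
  congr 1
  refine Finset.sum_congr rfl fun b _ => ?_
  rw [wHom_apply, ← hres]
  rfl

/-- The transfer of the conjugate, restricted to level `Nq`. -/
theorem degHom_one_trace_conj {x : Additive (Gamma1 (N * q)) →+ A} (hx : IsInv x)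
    {x' : Additive (gammaPrime N q) →+ A}
    (hres : ∀ γ : Gamma1 (N * q), x' (Additive.ofMul (inclP hc γ)) = x (Additive.ofMul γ)) :
    degHom h1 A (traceHom w hc (x'.comp (MonoidHom.toAdditive w.conj))) =
      wHom w hc x + (uRep q hqp.out (dvd_mul_left q N)).homT A x := by
  refine AddMonoidHom.ext fun γ => ?_
  obtain ⟨γ, rfl⟩ := Additive.ofMul.surjective γ
  rw [degHom_one_apply hc, traceHom_incl, AddMonoidHom.add_apply, HeckeReps.homT_apply]
  congr 1
  · rw [wHom_apply, ← hres]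
    rfl
  · refine Finset.sum_congr rfl fun b _ => ?_
    set g := (uRep (M := N * q) q hqp.out (dvd_mul_left q N)).elt γ b
    show x' (Additive.ofMul (w.conj (w.conj (inclP hc g)))) = x (Additive.ofMul g)
    have e : (w.conj (w.conj (inclP hc g)) : gammaPrime N q) =
        inclP hc ⟨w.sq * (g : SL(2, ℤ)) * w.sq⁻¹, conj_mem_Gamma1 w.sq_mem g.2⟩ :=
      Subtype.ext (conj_conj w (inclP hc g))
    rw [e, hres]
    exact hx _ w.sq_mem g _ rfl

omit [Fact (1 < N)] in
include hc in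
/-- `U_q` after restriction. -/
theorem uRep_degHom_one (hqN : ¬ q ∣ N) (c : Additive (Gamma1 N) →+ A) :
    (uRep q hqp.out (dvd_mul_left q N)).homT A (degHom h1 A c) +
        degHom hdq A ((dRep _ (sigmaP_mem (M := N) q
          ((hqp.out.coprime_iff_not_dvd).mpr hqN))).homT A c) =
      degHom h1 A ((tRep q hqp.out hqN).homT A c) := by
  refine AddMonoidHom.ext fun γ => ?_
  obtain ⟨γ, rfl⟩ := Additive.ofMul.surjective γ
  set R := uRep (M := N * q) q hqp.out (dvd_mul_left q N) with hRdef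
  set T := tRep (M := N) q hqp.out hqN with hTdef
  set σ := sigmaP N q ((hqp.out.coprime_iff_not_dvd).mpr hqN) with hσdef
  have hσ : σ ∈ Gamma0 N := sigmaP_mem q _
  rw [AddMonoidHom.add_apply, degHom_one_apply hc h1 (T.homT A c) γ, degHom_apply, homT_dRep,
    HeckeReps.homT_apply, HeckeReps.homT_apply]
  let f : T.ι → A := fun i => c (Additive.ofMul (T.elt (inclN hc γ) i))
  show _ = ∑ i : Option (Fin q), f i
  rw [Fintype.sum_option, add_comm]
  congr 1
  · refine congrArg (fun z => c (Additive.ofMul z)) (T.eq_of_rel (γ := inclN hc γ) (i := none)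
      (j := none) (g := ⟨σ * (conjDeg hdq γ : SL(2, ℤ)) * σ⁻¹,
        conj_mem_Gamma1 hσ (conjDeg hdq γ).2⟩) ?_).2.symm
    show (σ : Mat) * !![(q : ℤ), 0; 0, 1] * ((γ : SL(2, ℤ)) : Mat) =
      ((σ * (conjDeg hdq γ : SL(2, ℤ)) * σ⁻¹ : SL(2, ℤ)) : Mat) * ((σ : Mat) * !![(q : ℤ), 0; 0, 1])
    rw [Matrix.mul_assoc, conjDeg_spec hdq, ← Matrix.mul_assoc _ (σ : Mat),
      ← Matrix.SpecialLinearGroup.coe_mul, inv_mul_cancel_right,
      Matrix.SpecialLinearGroup.coe_mul, Matrix.mul_assoc]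
  · refine Finset.sum_congr rfl fun b _ => ?_
    rw [degHom_one_apply hc h1 c]
    exact congrArg (fun z => c (Additive.ofMul z)) (T.eq_of_rel (γ := inclN hc γ) (i := some b)
      (j := some (show Fin q from R.pi γ b)) (g := inclN hc (R.elt γ b)) (R.rel γ b)).2.symm

omit [Fact (1 < N)] in
include hc in
/-- `U_q` after the degeneracy map `q`. -/
theorem uRep_degHom_q (c : Additive (Gamma1 N) →+ A) :
    (uRep q hqp.out (dvd_mul_left q N)).homT A (degHom hdq A c) = q • degHom h1 A c := by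
  refine AddMonoidHom.ext fun γ => ?_
  obtain ⟨γ, rfl⟩ := Additive.ofMul.surjective γ
  set R := uRep (M := N * q) q hqp.out (dvd_mul_left q N)
  let τ : Fin q → Gamma1 N :=
    fun i => ⟨⟨!![1, ((i : ℕ) : ℤ); 0, 1], by simp [Matrix.det_fin_two_of]⟩,
    (Gamma1_mem N _).mpr ⟨by simp, by simp, by simp⟩⟩
  have hdiag : ∀ i : Fin q, !![(q : ℤ), 0; 0, 1] * !![1, ((i : ℕ) : ℤ); 0, (q : ℤ)] =
      (q : ℤ) • ((τ i : SL(2, ℤ)) : Mat) := fun i => by
    ext a b
    fin_cases a <;> fin_cases b <;> simp [τ, Matrix.mul_apply, Fin.sum_univ_two]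
  let π : Fin q → Fin q := fun i => R.pi γ i
  have key : ∀ i : Fin q, conjDeg hdq (R.elt γ i) = τ i * inclN hc γ * (τ (π i))⁻¹ := by
    intro i
    refine conjDeg_eq hdq (mat_mul_right_cancel
      (Z := !![1, (((π i) : ℕ) : ℤ); 0, (q : ℤ)])
      (by rw [Matrix.det_fin_two_of]; simpa using NeZero.ne q) ?_)
    rw [Matrix.mul_assoc, ← show !![1, ((i : ℕ) : ℤ); 0, (q : ℤ)] * ((γ : SL(2, ℤ)) : Mat) =
        ((R.elt γ i : SL(2, ℤ)) : Mat) * !![1, (((π i) : ℕ) : ℤ); 0, (q : ℤ)] from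
        R.rel γ i, ← Matrix.mul_assoc, hdiag, Matrix.smul_mul, Matrix.mul_assoc, hdiag,
      Matrix.mul_smul]
    simp only [Subgroup.coe_mul, InvMemClass.coe_inv]
    rw [← Matrix.SpecialLinearGroup.coe_mul, ← Matrix.SpecialLinearGroup.coe_mul,
      inv_mul_cancel_right]
    rfl
  rw [AddMonoidHom.smul_apply, degHom_one_apply hc h1 c γ, HeckeReps.homT_apply]
  let φ : Fin q → A := fun i => c (Additive.ofMul (τ i))
  have hval : ∀ i : Fin q, degHom hdq A c (Additive.ofMul (R.elt γ i)) =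
      φ i + c (Additive.ofMul (inclN hc γ)) - φ (π i) := fun i => by
    rw [degHom_apply, key i, ofMul_mul, ofMul_mul, ofMul_inv, map_add, map_add, map_neg,
      sub_eq_add_neg]
  show ∑ i : Fin q, degHom hdq A c (Additive.ofMul (R.elt γ i)) = _
  rw [Finset.sum_congr rfl fun i _ => hval i, Finset.sum_sub_distrib, Finset.sum_add_distrib,
    Finset.sum_const, Finset.card_univ, Fintype.card_fin,
    show ∑ i : Fin q, φ (π i) = ∑ i, φ i from Equiv.sum_comp (R.piEquiv γ) φ,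
    add_sub_cancel_left]

omit [Fact (1 < N)] in
include hc in
theorem wHom_degHom_one (c : Additive (Gamma1 N) →+ A) :
    wHom w hc (degHom h1 A c) = degHom hdq A c := by
  refine AddMonoidHom.ext fun γ => ?_
  obtain ⟨γ, rfl⟩ := Additive.ofMul.surjective γ
  rw [wHom_apply, degHom_one_apply hc, degHom_apply,
    ← hom_conj c ⟨w.eta, w.eta_mem⟩ (conjDeg hdq γ)]
  refine congrArg (fun z => c (Additive.ofMul z)) (Subtype.ext ?_)
  refine w.conj_eq (γ := inclP hc γ) ?_
  show w.mat * ((γ : SL(2, ℤ)) : Mat) =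
    ((w.eta * (conjDeg hdq γ : SL(2, ℤ)) * w.eta⁻¹ : SL(2, ℤ)) : Mat) * w.mat
  rw [w.mat_eq, Matrix.mul_assoc, conjDeg_spec hdq,
    Matrix.SpecialLinearGroup.coe_mul (w.eta * _) w.eta⁻¹, Matrix.mul_assoc,
    ← Matrix.mul_assoc _ (w.eta : Mat), ← Matrix.SpecialLinearGroup.coe_mul, inv_mul_cancel,
    Matrix.SpecialLinearGroup.coe_one, Matrix.one_mul, Matrix.SpecialLinearGroup.coe_mul,
    Matrix.mul_assoc]

omit [Fact (1 < N)] in
include hc in
theorem wHom_degHom_q (c : Additive (Gamma1 N) →+ A) :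
    wHom w hc (degHom hdq A c) = degHom h1 A ((dRep w.sigQ w.sigQ_mem).homT A c) := by
  refine AddMonoidHom.ext fun γ => ?_
  obtain ⟨γ, rfl⟩ := Additive.ofMul.surjective γ
  rw [wHom_apply, degHom_apply, degHom_one_apply hc h1, homT_dRep]
  refine congrArg (fun z => c (Additive.ofMul z))
    (conjDeg_eq hdq (mat_mul_right_cancel w.det_ne ?_))
  show !![(q : ℤ), 0; 0, 1] * ((w.conj (inclP hc γ) : SL(2, ℤ)) : Mat) * w.mat =
    ((w.sigQ * (γ : SL(2, ℤ)) * w.sigQ⁻¹ : SL(2, ℤ)) : Mat) * !![(q : ℤ), 0; 0, 1] * w.mat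
  rw [Matrix.mul_assoc, ← w.conj_spec (inclP hc γ), ← Matrix.mul_assoc, w.diag_mul_mat,
    Matrix.smul_mul, Matrix.mul_assoc _ _ w.mat, w.diag_mul_mat, Matrix.mul_smul,
    ← Matrix.SpecialLinearGroup.coe_mul, ← Matrix.SpecialLinearGroup.coe_mul, inv_mul_cancel_right]
  rfl

omit [Fact (1 < N)] [NeZero q] in
include hc in
/-- On a homomorphism killing `Γ₁(Nq)`, `T_l` is multiplication by `l + 1` on `Γ₁(N) ∩ Γ₀(q)`. -/
theorem homT_tRep_of_restrict_eq_zero {l : ℕ} (hl : l.Prime) (hlN : ¬ l ∣ N) (hlM : ¬ l ∣ N * q)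
    (c : Additive (Gamma1 N) →+ A) (h0 : degHom h1 A c = 0) (σ : gammaPrime N q) :
    (tRep l hl hlN).homT A c (Additive.ofMul ⟨σ, (mem_gammaPrime.mp σ.2).1⟩) =
      (l + 1) • c (Additive.ofMul ⟨σ, (mem_gammaPrime.mp σ.2).1⟩) := by
  set T := tRep (M := N * q) l hl hlM
  set σN : Gamma1 N := ⟨σ, (mem_gammaPrime.mp σ.2).1⟩
  obtain ⟨B, hB, e, h, hh⟩ :=
    exists_tRep_deg (dvd_mul_right N q) hl hlN hlM 1 h1 hl.not_dvd_one
  have hBeq : ∀ i, B i = T.β i := fun i => by
    have hone : (!![((1 : ℕ) : ℤ), 0; 0, 1] : Mat) = 1 := by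
      ext a b; fin_cases a <;> fin_cases b <;> simp
    have := hB i
    rw [hone, Matrix.one_mul, Matrix.mul_one] at this
    exact this.symm
  obtain ⟨e', g, he⟩ := tRep_exists_perm hl hlM (gammaPrime_le_gamma0 hc σ.2)
  rw [homT_eq_sum (tRep l hl hlN) c σN B e h hh e' (fun i => σN * inclN hc (g i)) fun i => by
    rw [hBeq, hBeq]; exact he i]
  have hz : ∀ i, c (Additive.ofMul (inclN hc (g i))) = 0 := fun i => by
    rw [← degHom_one_apply hc h1 c, h0, AddMonoidHom.zero_apply]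
  simp only [ofMul_mul, map_add, hz, add_zero, Finset.sum_const, Finset.card_univ]
  rw [card_tRep_ι hl hlM]

omit [NeZero q] [NeZero N] [Fact (1 < N)] in
include w hc in
/-- A homomorphism killing `Γ₁(N) ∩ Γ₀(q)` is killed by `q + 1`. -/
theorem succ_nsmul_eq_zero (c : Additive (Gamma1 N) →+ A)
    (h0 : ∀ σ : gammaPrime N q, c (Additive.ofMul ⟨σ, (mem_gammaPrime.mp σ.2).1⟩) = 0) :
    (q + 1) • c = 0 := by
  refine AddMonoidHom.ext fun γ => ?_
  obtain ⟨γ, rfl⟩ := Additive.ofMul.surjective γ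
  let β : Option (Fin q) → Gamma1 N := fun i => ⟨trBeta w i, trBeta_mem w i⟩
  have key : ∀ i, c (Additive.ofMul (β i)) + c (Additive.ofMul γ) =
      c (Additive.ofMul (β (trPi w hc γ i))) := fun i => by
    have e : β i * γ = ⟨trElt w hc γ i, (mem_gammaPrime.mp (trElt w hc γ i).2).1⟩ *
        β (trPi w hc γ i) := Subtype.ext (trElt_spec w hc γ i)
    have := congrArg (fun z => c (Additive.ofMul z)) e
    simp only [ofMul_mul, map_add, h0, zero_add] at this
    exact this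
  have hs : ∑ i, (c (Additive.ofMul (β i)) + c (Additive.ofMul γ)) =
      ∑ i, c (Additive.ofMul (β i)) :=
    (Finset.sum_congr rfl fun i _ => key i).trans
      ((trPi_bijective w hc γ).sum_comp fun i => c (Additive.ofMul (β i)))
  rw [Finset.sum_add_distrib, add_eq_left, Finset.sum_const, Finset.card_univ,
    Fintype.card_option, Fintype.card_fin] at hs
  exact hs

end FLTAgent.IgusaCover

end
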