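import Fermat.Agent.IgusaCover.BaseFixed
import Fermat.Agent.IgusaCover.BaseField
import Fermat.Agent.IgusaCover.Diamond
import Fermat.Agent.IgusaCover.KumRed

/-!
# Residual classes and the two degeneracy maps

Residual classes on the base which vanish on the cover are fixed by Frobenius
(`frobRes_eq_of_degRes_eq_zero`), and the degeneracy map `q` composed with Frobenius is `q`
times the degeneracy map `1` (`degRes_frobRes`).
-/

set_option autoImplicit false

noncomputable section

open ModularCurve CongruenceSubgroup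

namespace FLTAgent.IgusaCover

open FLTAgent.GammaH

local notation "Qbar" => AlgebraicClosure ℚ
local notation "GalQ" => AlgebraicClosure ℚ ≃ₐ[ℚ] AlgebraicClosure ℚ

variable {A : ValuationSubring Qbar} {N q : ℕ} [NeZero N] [Fact (1 < N)] [hqp : Fact q.Prime]
  [CharP (ResK A) q] [IsAlgClosed (ResK A)]

omit [IsAlgClosed (ResK A)] in
theorem resField_mono {F F' : IntermediateField Qbar (LaurentSeries Qbar)} (hle : F ≤ F')
    (hF : Scalable A F) (hF' : Scalable A F') {x : LaurentSeries (ResK A)}
    (hx : x ∈ resField hF) : x ∈ resField hF' :=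
  (lifts_id (A := A) (IntermediateField.inclusion hle).toRingHom.toMonoidWithZeroHom
    (fun _ => rfl)).map_resField hF hF' hx

/-- Residual classes killed on the cover are fixed by Frobenius. -/
theorem frobRes_eq_of_degRes_eq_zero (h3 : 3 ≤ N) (hqN : ¬ q ∣ N) (hA : A.LiesOverPrime q)
    {p : ℕ} [NeZero p] (hp : (p : ResK A) ≠ 0) (hp1 : p ∣ q - 1) {g : GalQ}
    (hg : A.IsFrobeniusAt g q) (hd : N * 1 ∣ N * q) (hN : Scalable A (FF N))
    (hM : Scalable A (FF (N * q))) {y : Additive (ResMod hN p)}
    (hy : degRes 1 hd hN hM y = 0) : frobRes hN q hg y = y := by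
  classical
  obtain ⟨u, rfl⟩ := Additive.ofMul.surjective y
  induction u using QuotientGroup.induction_on with
  | H u =>
    obtain ⟨v, hv⟩ := (QuotientGroup.eq_one_iff _).mp (congrArg Additive.toMul hy)
    have hv' : ((v : resField hM) : LaurentSeries (ResK A)) ^ p =
        ((u : resField hN) : LaurentSeries (ResK A)) := by
      have h := congrArg (fun z : (resField hM)ˣ =>
        ((z : resField hM) : LaurentSeries (ResK A))) hv
      refine Eq.trans (by simp) (h.trans ?_)
      exact qExpand_one_apply _
    have hFJ : Scalable A (FFJ N q) := FFJ_scalable N q A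
    have : Fintype (dKer N q) := Fintype.ofFinite _
    have hc : N.Coprime q := (hqp.out.coprime_iff_not_dvd.mpr hqN).symm
    have hcard : ((Nat.card (dKer N q) : ℕ) : ResK A) ≠ 0 := by
      rw [card_dKer N q hc, Nat.cast_sub hqp.out.one_le, CharP.cast_eq_zero, Nat.cast_one, zero_sub]
      exact neg_ne_zero.mpr one_ne_zero
    have hμ : ∀ a : ResK A, a ^ p = 1 → (frobK q) (HahnSeries.C a) =
        HahnSeries.C a := fun a ha => by
      obtain ⟨m, hm⟩ := hp1
      show coeffMap _ (HahnSeries.C a) = _
      rw [HahnSeries.C_apply, coeffMap_single, frobenius_def,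
        ← Nat.sub_add_cancel hqp.out.one_le, pow_succ, hm, pow_mul, ha, one_pow, one_mul]
    obtain ⟨t, ht, hte⟩ := frobenius_fixes_kernel (hF := hM) (dKerAct N q) (FFJ_le_FF N q) hFJ
      (trace_mem_FFJ N q h3 hqN A hA) (fun w f hf => dKerAct_fix N q w hf) hcard
      (galZ g) (frobK q) (lifts_galZ_frob q hg) (fun w f => galHom_dAct g _ f) hp hμ
      (resField_mono (FF_le_FFJ N q) hN hFJ (u : resField hN).2) (v : resField hM).2
      (fun e => v.ne_zero (Subtype.ext e)) hv'
    have ht' : t ∈ resField hN := resField_FFJ_le N q A hA ht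
    have ht0 : t ≠ 0 := by
      rintro rfl
      rw [zero_pow (NeZero.ne p), mul_zero, map_eq_zero] at hte
      exact u.ne_zero (Subtype.ext hte)
    show Additive.ofMul _ = Additive.ofMul _
    refine congrArg Additive.ofMul (QuotientGroup.eq.mpr ⟨(Units.mk0 (⟨t, ht'⟩ : resField hN)
      fun e => ht0 (congrArg Subtype.val e))⁻¹, Units.ext (Subtype.ext ?_)⟩)
    have hu0 : ((u : resField hN) : LaurentSeries (ResK A)) ≠ 0 :=
      fun e => u.ne_zero (Subtype.ext e)
    simp only [powMonoidHom_apply, inv_pow, Units.val_inv_eq_inv_val, Units.val_pow_eq_pow_val,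
      Units.val_mk0, Units.val_mul, Subfield.coe_inv, Subfield.coe_mul, SubmonoidClass.coe_pow]
    show _ = ((frobK q) ((u : resField hN) : LaurentSeries (ResK A)))⁻¹ * _
    rw [hte, mul_inv_rev, mul_assoc, inv_mul_cancel₀ hu0, mul_one]

omit [IsAlgClosed (ResK A)] in
/-- The degeneracy map `q ↦ q ^ q` composed with Frobenius is the `q`-th power. -/
theorem degRes_frobRes {p : ℕ} [NeZero p] {g : GalQ} (hg : A.IsFrobeniusAt g q)
    (hq : N * q ∣ N * q) (h1 : N * 1 ∣ N * q) (hN : Scalable A (FF N))
    (hM : Scalable A (FF (N * q))) (y : Additive (ResMod hN p)) :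
    degRes q hq hN hM (frobRes hN q hg y) = q • degRes 1 h1 hN hM y := by
  obtain ⟨u, rfl⟩ := Additive.ofMul.surjective y
  induction u using QuotientGroup.induction_on with
  | H u =>
    show Additive.ofMul _ = q • Additive.ofMul _
    rw [← ofMul_pow]
    refine congrArg Additive.ofMul (congrArg QuotientGroup.mk (Units.ext (Subtype.ext ?_)))
    show qExpand (ResK A) q (coeffMap (frobenius (ResK A) q)
        ((u : resField hN) : LaurentSeries (ResK A))) =
      (qExpand (ResK A) 1 ((u : resField hN) : LaurentSeries (ResK A))) ^ q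
    rw [qExpand_one_apply, pow_eq_qExpand]

omit [CharP (ResK A) q] [IsAlgClosed (ResK A)] in
theorem natCast_smul_res {p : ℕ} [NeZero p] (hp1 : p ∣ q - 1) {M : ℕ} [NeZero M]
    (hM : Scalable A (FF M)) (y : Additive (ResMod hM p)) : q • y = y := by
  obtain ⟨m, hm⟩ := hp1
  have h0 : p • y = 0 := by
    obtain ⟨u, rfl⟩ := Additive.ofMul.surjective y
    induction u using QuotientGroup.induction_on with
    | H u => exact congrArg Additive.ofMul ((QuotientGroup.eq_one_iff (u ^ p)).mpr ⟨u, rfl⟩)
  rw [← Nat.sub_add_cancel hqp.out.one_le, succ_nsmul, hm, mul_comm, mul_nsmul', h0]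
  exact (congrArg (· + y) (nsmul_zero m)).trans (zero_add y)

end FLTAgent.IgusaCover

end
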