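import Fermat.Agent.IgusaCover.EigenCH
import Fermat.Agent.IgusaCover.OldLevel
import Fermat.Agent.IgusaCover.ResidKernel
import Fermat.Agent.GammaH.HeckeCommute

/-!
# Operators and residual classes with coefficients

On parabolic homomorphisms with coefficients in a ring free over `ℤ/n`: degeneracy maps `opDeg`,
`U_q` as `opU`, and `RedZero`, the vanishing of the residual class, which holds on the images of
`g - 1` for inertia `g` and of `U_q - Frob` (`redZero_galR_inertia`, `redZero_galR_opU`).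
-/

set_option autoImplicit false
set_option maxSynthPendingDepth 3

noncomputable section

open ModularCurve CongruenceSubgroup
open scoped MatrixGroups

namespace FLTAgent.IgusaCover

open FLTAgent.GammaH

local notation "Qbar" => AlgebraicClosure ℚ
local notation "GalQ" => AlgebraicClosure ℚ ≃ₐ[ℚ] AlgebraicClosure ℚ
local notation "Mat" => Matrix (Fin 2) (Fin 2) ℤ

theorem finite_parHom_of_eq {M : ℕ} [NeZero M] [Fact (1 < M)] (h5 : 5 ≤ M)
    (ℓ k : ℕ) [Fact ℓ.Prime] {n : ℕ}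
    [NeZero n] (h : n = ℓ ^ k) : Finite (ParHom M n) := by
  subst h
  exact (natCard_parHom_le h5 ℓ k).1

theorem degHom_dRep {M M' : ℕ} [NeZero M] [NeZero M'] {d : ℕ} [NeZero d] (hd : M * d ∣ M')
    {σ τ : SL(2, ℤ)} (hσ : σ ∈ Gamma0 M') (hτ : τ ∈ Gamma0 M)
    (h : !![(d : ℤ), 0; 0, 1] * (σ : Mat) = (τ : Mat) * !![(d : ℤ), 0; 0, 1])
    {A : Type*} [AddCommGroup A] (c : Additive (Gamma1 M) →+ A) :
    (dRep σ hσ).homT A (degHom hd A c) = degHom hd A ((dRep τ hτ).homT A c) := by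
  refine AddMonoidHom.ext fun γ => ?_
  obtain ⟨γ, rfl⟩ := Additive.ofMul.surjective γ
  rw [homT_dRep, degHom_apply, degHom_apply, homT_dRep]
  refine congrArg (fun z => c (Additive.ofMul z)) (conjDeg_eq hd ?_)
  have hinv : !![(d : ℤ), 0; 0, 1] * ((σ⁻¹ : SL(2, ℤ)) : Mat) =
      ((τ⁻¹ : SL(2, ℤ)) : Mat) * !![(d : ℤ), 0; 0, 1] := by
    refine mat_mul_right_cancel (Z := (σ : Mat)) (by simp) ?_
    rw [Matrix.mul_assoc, ← Matrix.SpecialLinearGroup.coe_mul, inv_mul_cancel,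
      Matrix.SpecialLinearGroup.coe_one, Matrix.mul_one, Matrix.mul_assoc, h, ← Matrix.mul_assoc,
      ← Matrix.SpecialLinearGroup.coe_mul, inv_mul_cancel, Matrix.SpecialLinearGroup.coe_one,
      Matrix.one_mul]
  show !![(d : ℤ), 0; 0, 1] * ((σ * (γ : SL(2, ℤ)) * σ⁻¹ : SL(2, ℤ)) : Mat) =
    ((τ * (conjDeg hd γ : SL(2, ℤ)) * τ⁻¹ : SL(2, ℤ)) : Mat) * !![(d : ℤ), 0; 0, 1]
  simp only [Matrix.SpecialLinearGroup.coe_mul]
  rw [← Matrix.mul_assoc, ← Matrix.mul_assoc, h, Matrix.mul_assoc (τ : Mat), conjDeg_spec hd,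
    Matrix.mul_assoc, Matrix.mul_assoc, hinv]
  simp only [Matrix.mul_assoc]

variable {M n : ℕ} [NeZero M] {R ι : Type} [CommRing R] [Fintype ι] [DecidableEq ι]
  (e : R ≃+ (ι → ZMod n))

section Commute

variable [Fact (1 < M)] [NeZero n] (hb : Function.Bijective (kummer M n))

omit [Fintype ι] [DecidableEq ι] [NeZero M] [Fact (1 < M)] [NeZero n] in
include e in
theorem finite_parR [Finite (ParHom M n)] [Finite ι] : Finite (ParR M R) :=
  Finite.of_injective (fun c : ParR M R => fun i => parComp (coordF e i) c)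
    fun _ _ h => parR_ext e fun i => congrFun h i

theorem parT_commute (T T' : HeckeReps M M)
    (h : ∀ x : Kum M n, T.kumT hb.2 (T'.kumT hb.2 x) = T'.kumT hb.2 (T.kumT hb.2 x)) :
    T.parT.comp T'.parT = (T'.parT.comp T.parT : ParHom M n →+ ParHom M n) :=
  AddMonoidHom.ext fun c => by
    obtain ⟨x, rfl⟩ := hb.2 c
    simp only [AddMonoidHom.comp_apply, ← HeckeReps.kummer_kumT _ hb.2, h]

include hb in
theorem opT_comm {l l' : ℕ} (hl : l.Prime) (hlM : ¬ l ∣ M) (hl' : l'.Prime) (hlM' : ¬ l' ∣ M) :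
    Commute (opT e l hl hlM) (opT e l' hl' hlM') := LinearMap.ext fun c => by
  have : NeZero l := ⟨hl.ne_zero⟩
  have : NeZero l' := ⟨hl'.ne_zero⟩
  rw [Module.End.mul_apply, Module.End.mul_apply, opT, opT, ← extL_comp, ← extL_comp,
    parT_commute hb _ _ (kumT_tRep_comm hl hlM hl' hlM' hb.2)]

include hb in
theorem opT_opD_comm {l : ℕ} (hl : l.Prime) (hlM : ¬ l ∣ M) (σ : SL(2, ℤ)) (hσ : σ ∈ Gamma0 M) :
    Commute (opT e l hl hlM) (opD e σ hσ) := LinearMap.ext fun c => by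
  rw [Module.End.mul_apply, Module.End.mul_apply, opT, opD, ← extL_comp, ← extL_comp,
    parT_commute hb _ _ (kumT_tRep_dRep hl hlM hb.2 σ hσ)]

include hb in
theorem opD_comm (σ τ : SL(2, ℤ)) (hσ : σ ∈ Gamma0 M) (hτ : τ ∈ Gamma0 M) :
    Commute (opD e σ hσ) (opD e τ hτ) := LinearMap.ext fun c => by
  rw [Module.End.mul_apply, Module.End.mul_apply, opD, opD, ← extL_comp, ← extL_comp,
    parT_commute hb _ _ (kumT_dRep_comm hb.2 σ τ hσ hτ)]

end Commute

theorem opD_congr {σ τ : SL(2, ℤ)} (hσ : σ ∈ Gamma0 M) (hτ : τ ∈ Gamma0 M)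
    (h : ((σ 1 1 : ℤ) : ZMod M) = ((τ 1 1 : ℤ) : ZMod M)) (c : ParR M R) :
    opD e σ hσ c = opD e τ hτ c :=
  Subtype.ext (by rw [coe_opD, coe_opD]; exact homT_dRep_congr hσ hτ h c.1)

section Degeneracy

variable {M' : ℕ} [NeZero M']

/-- A degeneracy map with coefficients. -/
def opDeg (d : ℕ) [NeZero d] (hd : M * d ∣ M') : ParR M R →ₗ[R] ParR M' R :=
  extL e (degRep d (NeZero.pos d) hd).parT

omit [NeZero M] [NeZero M'] in
theorem coe_opDeg (d : ℕ) [NeZero d] (hd : M * d ∣ M') (c : ParR M R) :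
    (opDeg e d hd c : Additive (Gamma1 M') →+ R) = degHom hd R c.1 :=
  (coe_extL_parT e _ c).trans (homT_degRep hd R c.1)

omit [NeZero M] [NeZero M'] in
theorem opDeg_opT (d : ℕ) [NeZero d] (hd : M * d ∣ M') {l : ℕ} (hl : l.Prime) (hlM : ¬ l ∣ M)
    (hlM' : ¬ l ∣ M') (c : ParR M R) :
    opT e l hl hlM' (opDeg e d hd c) = opDeg e d hd (opT e l hl hlM c) :=
  Subtype.ext (by
    rw [coe_opT, coe_opDeg, coe_opDeg, coe_opT,
      homT_tRep_degHom (dvd_of_mul_right_dvd hd) hl hlM hlM' d hd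
        (fun h => hlM' (h.trans (dvd_of_mul_left_dvd hd))) c.1])

omit [NeZero M] [NeZero M'] in
theorem mem_gamma0_of_dvd (hM : M ∣ M') {σ : SL(2, ℤ)} (hσ : σ ∈ Gamma0 M') : σ ∈ Gamma0 M := by
  rw [Gamma0_mem] at hσ ⊢
  simpa using congrArg (ZMod.castHom hM (ZMod M)) hσ

theorem opDeg_opD (d : ℕ) [NeZero d] (hd : M * d ∣ M') (σ : SL(2, ℤ)) (hσ : σ ∈ Gamma0 M')
    (c : ParR M R) : opD e σ hσ (opDeg e d hd c) =
      opDeg e d hd (opD e σ (mem_gamma0_of_dvd (dvd_of_mul_right_dvd hd) hσ) c) := by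
  obtain ⟨k, hk⟩ : ((M * d : ℕ) : ℤ) ∣ σ 1 0 :=
    (Int.natCast_dvd_natCast.mpr hd).trans
      ((ZMod.intCast_zmod_eq_zero_iff_dvd _ _).mp (Gamma0_mem.mp hσ))
  have hdet := σ.det_coe
  rw [Matrix.det_fin_two, hk] at hdet
  push_cast at hdet
  let τ : SL(2, ℤ) := ⟨!![σ 0 0, (d : ℤ) * σ 0 1; (M : ℤ) * k, σ 1 1],
    by rw [Matrix.det_fin_two_of]; linear_combination hdet⟩
  have hτ : τ ∈ Gamma0 M := Gamma0_mem.mpr (by simp [τ])
  have h : !![(d : ℤ), 0; 0, 1] * (σ : Mat) = (τ : Mat) * !![(d : ℤ), 0; 0, 1] := by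
    ext i j
    fin_cases i <;> fin_cases j <;>
      simp [τ, Matrix.mul_apply, Fin.sum_univ_two, hk] <;> ring
  refine Subtype.ext ?_
  rw [coe_opD, coe_opDeg, degHom_dRep hd hσ hτ h, coe_opDeg, coe_opD,
    homT_dRep_congr hτ (mem_gamma0_of_dvd (dvd_of_mul_right_dvd hd) hσ) (by simp [τ])]

variable [Fact (1 < M)] [Fact (1 < M')] [NeZero n] (hb : Function.Bijective (kummer M n))
  (hb' : Function.Bijective (kummer M' n))

theorem galR_opDeg (d : ℕ) [NeZero d] (hd : M * d ∣ M') (g : GalQ) (c : ParR M R) :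
    galR e hb' g (opDeg e d hd c) = opDeg e d hd (galR e hb g c) := by
  rw [galR_apply, galR_apply, opDeg, ← extL_comp, ← extL_comp, galP_degRep]

end Degeneracy

section UOp

variable (q : ℕ) [Fact q.Prime] (hqM : q ∣ M)

/-- `U_q` with coefficients. -/
def opU : Module.End R (ParR M R) := extL e (uRep (M := M) q Fact.out hqM).parT

omit [NeZero M] in
theorem coe_opU (c : ParR M R) :
    (opU e q hqM c : Additive (Gamma1 M) →+ R) = (uRep q Fact.out hqM).homT R c.1 :=
  coe_extL_parT e _ c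

end UOp

section Red

variable [Fact (1 < M)] [NeZero n] (hb : Function.Bijective (kummer M n))
variable {A : ValuationSubring Qbar} [IsAlgClosed (ResK A)] (hF : Scalable A (FF M))

/-- The residual class vanishes, coordinatewise. -/
def RedZero (c : ParR M R) : Prop := ∀ i, redP hb hF (parComp (coordF e i) c) = 0

theorem RedZero.parComp {c : ParR M R} (h : RedZero e hb hF c) (f : R →+ ZMod n) :
    redP hb hF (parComp f c) = 0 := by
  have key : IgusaCover.parComp f c =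
      ∑ i, f (e.symm (Pi.single i 1)) • IgusaCover.parComp (coordF e i) c := by
    refine Subtype.ext (AddMonoidHom.ext fun γ => ?_)
    rw [AddSubmonoidClass.coe_finsetSum, AddMonoidHom.finsetSum_apply]
    show f (c.1 γ) = _
    conv_lhs => rw [functional_eq_sum e f]
    rw [AddMonoidHom.finsetSum_apply]
    rfl
  rw [key, map_sum]
  refine Finset.sum_eq_zero fun i _ => ?_
  obtain ⟨m, hm⟩ := ZMod.intCast_surjective (f (e.symm (Pi.single i 1)))
  rw [← hm, Int.cast_smul_eq_zsmul, map_zsmul, h i, smul_zero]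

theorem RedZero.smul {c : ParR M R} (h : RedZero e hb hF c) (r : R) :
    RedZero e hb hF (r • c) := fun i =>
  h.parComp e hb hF ((coordF e i).comp (AddMonoidHom.mulLeft r))

omit [Fintype ι] [DecidableEq ι] in
theorem RedZero.add {c c' : ParR M R} (h : RedZero e hb hF c) (h' : RedZero e hb hF c') :
    RedZero e hb hF (c + c') := fun i => by rw [map_add, map_add, h i, h' i, add_zero]

theorem redZero_galR_inertia {g : GalQ} (hg : g ∈ A.inertiaSubgroupIn ℚ) (c : ParR M R) :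
    RedZero e hb hF (galR e hb g c - c) := fun i => by
  rw [map_sub, map_sub, galR_apply, parComp_extL, redP_galP_inertia hb hF hg, sub_self]

variable {q : ℕ} [Fact q.Prime] [CharP (ResK A) q]

theorem redZero_galR_opU {g : GalQ} (hg : A.IsFrobeniusAt g q) (hqM : q ∣ M) (c : ParR M R) :
    RedZero e hb hF (opU e q hqM c - galR e hb g c) := fun i => by
  rw [map_sub, map_sub, galR_apply, opU, parComp_extL, parComp_extL, redP_uRep hb hF hg hqM,
    sub_self]

omit [CharP (ResK A) q] [Fintype ι] [DecidableEq ι] in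
theorem RedZero.eq_zero (hA : A.LiesOverPrime q) (hqM : ¬ q ∣ M) (hn : (n : ResK A) ≠ 0)
    {c : ParR M R} (h : RedZero e hb hF c) : c = 0 :=
  parR_ext e fun i => by rw [redP_injective hb hF hA hqM hn (h i), map_zero]

end Red

end FLTAgent.IgusaCover

end
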