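import Fermat.Agent.GammaH.HeckeKummer

/-!
# Parabolic homomorphisms with coefficients

For a coefficient ring `R` which is free over `ℤ/n`, operators on `ℤ/n`-valued parabolic
homomorphisms extend `R`-linearly to `ParR M R` (`extL`), compatibly with composition.
-/

set_option autoImplicit false

noncomputable section

open CongruenceSubgroup
open scoped MatrixGroups

namespace FLTAgent.IgusaCover

open FLTAgent.GammaH

/-- Parabolic homomorphisms with values in `R`. -/
abbrev ParR (M : ℕ) (R : Type) [CommRing R] : Submodule R (Additive (Gamma1 M) →+ R) :=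
  ModularCurve.Period.parabolicHoms R (Gamma1 M) R

variable {M M' M'' n : ℕ} {R R' ι ι' : Type} [CommRing R] [CommRing R'] [Fintype ι] [Fintype ι']
  [DecidableEq ι] [DecidableEq ι']

/-- Composition with an additive map. -/
def parComp (f : R →+ ZMod n) : ParR M R →+ ParHom M n where
  toFun c := ⟨f.comp c.1, fun γ hγ => by
    show f (c.1 _) = 0
    rw [c.2 γ hγ, map_zero]⟩
  map_zero' := Subtype.ext (f.comp_zero)
  map_add' a b := Subtype.ext (f.comp_add a.1 b.1)

variable (e : R ≃+ (ι → ZMod n)) (e' : R' ≃+ (ι' → ZMod n))

/-- The coordinate functions. -/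
def coordF (i : ι) : R →+ ZMod n :=
  (Pi.evalAddMonoidHom (fun _ : ι => ZMod n) i).comp e.toAddMonoidHom

omit [Fintype ι] [DecidableEq ι] in
theorem parR_ext {c c' : ParR M R} (h : ∀ i, parComp (coordF e i) c = parComp (coordF e i) c') :
    c = c' := by
  refine Subtype.ext (AddMonoidHom.ext fun γ => e.injective (funext fun i => ?_))
  exact DFunLike.congr_fun (congrArg Subtype.val (h i)) γ

/-- The coordinatewise extension of an operator. -/
def extOp (op : ParHom M n →+ ParHom M' n) : ParR M R →+ ParR M' R where
  toFun c := ⟨e.symm.toAddMonoidHom.comp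
      (AddMonoidHom.pi fun i => (op (parComp (coordF e i) c)).1), fun γ hγ => by
    show e.symm _ = 0
    rw [show (AddMonoidHom.pi fun i => (op (parComp (coordF e i) c)).1) (Additive.ofMul γ) = 0 from
      funext fun i => (op (parComp (coordF e i) c)).2 γ hγ, map_zero]⟩
  map_zero' := Subtype.ext (AddMonoidHom.ext fun γ => by
    refine (congrArg e.symm (funext fun i => ?_)).trans (map_zero _)
    show (op (parComp (coordF e i) (0 : ParR M R))).1 γ = 0
    rw [map_zero, map_zero]
    rfl)
  map_add' a b := Subtype.ext (AddMonoidHom.ext fun γ => by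
    show e.symm _ = e.symm _ + e.symm _
    rw [← map_add]
    refine congrArg _ (funext fun i => ?_)
    simp only [Pi.add_apply, map_add]
    rfl)

omit [Fintype ι] [DecidableEq ι] in
theorem parComp_coord_extOp (op : ParHom M n →+ ParHom M' n) (c : ParR M R) (i : ι) :
    parComp (coordF e i) (extOp e op c) = op (parComp (coordF e i) c) := by
  refine Subtype.ext (AddMonoidHom.ext fun γ => ?_)
  show e (e.symm _) i = _
  rw [AddEquiv.apply_symm_apply]
  rfl

theorem functional_eq_sum (f : R →+ ZMod n) :
    f = ∑ i, (AddMonoidHom.mulLeft (f (e.symm (Pi.single i 1)))).comp (coordF e i) := by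
  refine AddMonoidHom.ext fun r => ?_
  have hr : r = ∑ i, e.symm (Pi.single i (e r i)) := by
    rw [← map_sum, Finset.univ_sum_single, AddEquiv.symm_apply_apply]
  conv_lhs => rw [hr]
  rw [map_sum, AddMonoidHom.finsetSum_apply]
  refine Finset.sum_congr rfl fun i _ => ?_
  let φ : ZMod n →+ ZMod n :=
    f.comp (e.symm.toAddMonoidHom.comp (AddMonoidHom.single (fun _ : ι => ZMod n) i))
  show φ (e r i) = φ 1 * e r i
  obtain ⟨m, hm⟩ := ZMod.intCast_surjective (e r i)
  rw [← hm, ← zsmul_one, map_zsmul, zsmul_eq_mul, zsmul_eq_mul, mul_one, mul_comm]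

/-- Every functional commutes with an extended operator. -/
theorem parComp_extOp (op : ParHom M n →+ ParHom M' n) (f : R →+ ZMod n) (c : ParR M R) :
    parComp f (extOp e op c) = op (parComp f c) := by
  have key : ∀ (K : ℕ) (d : ParR K R),
      parComp f d = ∑ i, f (e.symm (Pi.single i 1)) • parComp (coordF e i) d := fun K d => by
    refine Subtype.ext (AddMonoidHom.ext fun γ => ?_)
    rw [AddSubmonoidClass.coe_finsetSum, AddMonoidHom.finsetSum_apply]
    show f (d.1 γ) = _
    conv_lhs => rw [functional_eq_sum e f]
    rw [AddMonoidHom.finsetSum_apply]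
    rfl
  rw [key, key, map_sum]
  refine Finset.sum_congr rfl fun i _ => ?_
  rw [parComp_coord_extOp]
  obtain ⟨m, hm⟩ := ZMod.intCast_surjective (f (e.symm (Pi.single i 1)))
  rw [← hm]
  exact (map_intCast_smul op (ZMod n) (ZMod n) m _).symm

/-- Extended operators are linear. -/
theorem extOp_smul (op : ParHom M n →+ ParHom M' n) (r : R) (c : ParR M R) :
    extOp e op (r • c) = r • extOp e op c := by
  refine parR_ext e fun i => ?_
  have h : ∀ (K : ℕ) (d : ParR K R), parComp (coordF e i) (r • d) =
      parComp ((coordF e i).comp (AddMonoidHom.mulLeft r)) d := fun K d => rfl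
  rw [parComp_coord_extOp, h, h, parComp_extOp]

/-- The extended operator as a linear map. -/
def extL (op : ParHom M n →+ ParHom M' n) : ParR M R →ₗ[R] ParR M' R :=
  { extOp e op with map_smul' := extOp_smul e op }

theorem parComp_extL (op : ParHom M n →+ ParHom M' n) (f : R →+ ZMod n) (c : ParR M R) :
    parComp f (extL e op c) = op (parComp f c) := parComp_extOp e op f c

theorem extL_comp (op : ParHom M' n →+ ParHom M'' n) (op' : ParHom M n →+ ParHom M' n)
    (c : ParR M R) : extL e (op.comp op') c = extL e op (extL e op' c) :=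
  parR_ext e fun i => by rw [parComp_extL, parComp_extL, parComp_extL, AddMonoidHom.comp_apply]

theorem extL_id (c : ParR M R) : extL e (AddMonoidHom.id (ParHom M n)) c = c :=
  parR_ext e fun _ => parComp_extL e _ _ c

/-- An extended transfer is the transfer. -/
theorem coe_extL_parT (T : HeckeReps M' M) (c : ParR M R) :
    (extL e T.parT c : Additive (Gamma1 M') →+ R) = T.homT R c.1 := by
  refine AddMonoidHom.ext fun γ => e.injective (funext fun i => ?_)
  have h := parComp_extL e (T.parT (n := n)) (coordF e i) c
  have h' := DFunLike.congr_fun (congrArg Subtype.val h) γ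
  refine Eq.trans h' ?_
  exact DFunLike.congr_fun (T.homT_comp (coordF e i) c.1) γ

/-- Change of coefficients. -/
def parMap (g : R →+ R') : ParR M R →+ ParR M R' where
  toFun c := ⟨g.comp c.1, fun γ hγ => by
    show g (c.1 _) = 0
    rw [c.2 γ hγ, map_zero]⟩
  map_zero' := Subtype.ext (g.comp_zero)
  map_add' a b := Subtype.ext (g.comp_add a.1 b.1)

end FLTAgent.IgusaCover

end
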