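import Fermat.Agent.IgusaCover.PowCompat
import Fermat.Agent.IgusaCover.ParR
import Fermat.Agent.IgusaCover.Inputs
import Fermat.Agent.GammaH.Frobenius

/-!
# Galois and residual classes of parabolic homomorphisms

Transported along the Kummer map: the Galois action `galP`, with its congruence relation
`galP_frobenius` and commutation with Hecke operators, and the residual class `redP`.
-/

set_option autoImplicit false

noncomputable section

open ModularCurve CongruenceSubgroup
open scoped MatrixGroups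

namespace FLTAgent.IgusaCover

open FLTAgent.GammaH

local notation "Qbar" => AlgebraicClosure ℚ
local notation "GalQ" => AlgebraicClosure ℚ ≃ₐ[ℚ] AlgebraicClosure ℚ

variable {M M' : ℕ} [NeZero M] [Fact (1 < M)] [NeZero M'] [Fact (1 < M')] {n : ℕ} [NeZero n]

theorem kummer_bijective_of_eq (h5 : 5 ≤ M) (ℓ k : ℕ) [Fact ℓ.Prime] (h : n = ℓ ^ k) :
    Function.Bijective (kummer M n) := by
  subst h
  exact kummer_bijective' h5 ℓ k

variable (hb : Function.Bijective (kummer M n)) (hb' : Function.Bijective (kummer M' n))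

/-- The inverse of the Kummer map. -/
def kumInv : ParHom M n →+ Kum M n := (AddEquiv.ofBijective (kummer M n) hb).symm.toAddMonoidHom

theorem kummer_kumInv (c : ParHom M n) : kummer M n (kumInv hb c) = c :=
  (AddEquiv.ofBijective (kummer M n) hb).apply_symm_apply c

theorem kumInv_kummer (x : Kum M n) : kumInv hb (kummer M n x) = x :=
  (AddEquiv.ofBijective (kummer M n) hb).symm_apply_apply x

/-- The Galois action on parabolic homomorphisms. -/
def galP (g : GalQ) : ParHom M n →+ ParHom M n :=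
  (kummer M n).comp ((galKum (M := M) n g).comp (kumInv hb))

theorem galP_apply (g : GalQ) (c : ParHom M n) :
    galP hb g c = kummer M n (galKum n g (kumInv hb c)) := rfl

theorem galP_kummer (g : GalQ) (x : Kum M n) :
    galP hb g (kummer M n x) = kummer M n (galKum n g x) := by
  rw [galP_apply, kumInv_kummer]

theorem galP_one : galP hb 1 = AddMonoidHom.id (ParHom M n) := AddMonoidHom.ext fun c => by
  rw [galP_apply, galKum_one, kummer_kumInv, AddMonoidHom.id_apply]

theorem galP_mul (g h : GalQ) : galP hb (g * h) = (galP hb g).comp (galP hb h) :=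
  AddMonoidHom.ext fun c => by
    rw [AddMonoidHom.comp_apply, galP_apply, galP_apply hb h, galP_kummer, galKum_mul]

/-- Operators commuting with Galois on Kummer classes commute on homomorphisms. -/
theorem galP_parT (T : HeckeReps M' M)
    (hT : ∀ (g : GalQ) (x : Kum M n), galKum n g (T.kumT hb'.2 x) = T.kumT hb'.2 (galKum n g x))
    (g : GalQ) : (galP hb' g).comp T.parT = T.parT.comp (galP hb g) :=
  AddMonoidHom.ext fun c => by
    obtain ⟨x, rfl⟩ := hb.2 c
    rw [AddMonoidHom.comp_apply, AddMonoidHom.comp_apply, galP_kummer, ← T.kummer_kumT hb'.2,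
      galP_kummer, hT, T.kummer_kumT hb'.2]

theorem galP_tRep {l : ℕ} (hl : l.Prime) (hlM : ¬ l ∣ M) (g : GalQ) :
    (galP hb g).comp (tRep l hl hlM).parT = (tRep l hl hlM).parT.comp (galP hb g) :=
  haveI : NeZero l := ⟨hl.ne_zero⟩
  galP_parT hb hb _ (fun g x => galKum_kumT_tRep hl hlM hb.2 g x) g

theorem galP_dRep (σ : SL(2, ℤ)) (hσ : σ ∈ Gamma0 M) (g : GalQ) :
    (galP hb g).comp (dRep σ hσ).parT = (dRep σ hσ).parT.comp (galP hb g) :=
  galP_parT hb hb _ (fun g x => galKum_kumT_dRep hb.2 σ hσ g x) g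

theorem galP_uRep {q : ℕ} [Fact q.Prime] (hqM : q ∣ M) (g : GalQ) :
    (galP hb g).comp (uRep q Fact.out hqM).parT =
      (uRep q Fact.out hqM).parT.comp (galP hb g) :=
  haveI : NeZero q := ⟨(Fact.out : q.Prime).ne_zero⟩
  galP_parT hb hb _ (fun g x => galKum_uRep hqM hb.2 g x) g

theorem galP_degRep {N : ℕ} [NeZero N] [Fact (1 < N)] (hbN : Function.Bijective (kummer N n))
    (d : ℕ) [NeZero d] (hd : N * d ∣ M) (g : GalQ) :
    (galP hb g).comp (degRep d (NeZero.pos d) hd).parT =
      (degRep d (NeZero.pos d) hd).parT.comp (galP hbN g) :=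
  galP_parT hbN hb _ (fun g x => galKum_degRep d hd hb.2 g x) g

/-- The congruence relation on parabolic homomorphisms. -/
theorem galP_frobenius {A : ValuationSubring Qbar} {l : ℕ} [Fact l.Prime]
    (hA : A.LiesOverPrime l) (hl : l.Prime) (hlM : ¬ l ∣ M) (hln : ¬ l ∣ n) {σ : GalQ}
    (hσ : A.IsFrobeniusAt σ l) (c : ParHom M n) :
    galP hb σ (galP hb σ c) + l • (dRep _ (sigmaT_mem (M := M) hl hlM)).parT c =
      (tRep l hl hlM).parT (galP hb σ c) := by
  obtain ⟨x, rfl⟩ := hb.2 c
  simp only [galP_kummer, ← HeckeReps.kummer_kumT _ hb.2]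
  rw [← galKum_frobenius hA hl hlM hb.2 hln hσ x, map_add, map_nsmul]

section Red

variable {A : ValuationSubring Qbar} [IsAlgClosed (ResK A)]
  (hF : Scalable A (FF M)) (hF' : Scalable A (FF M'))

/-- The residual class of a parabolic homomorphism. -/
def redP : ParHom M n →+ Additive (ResMod hF n) := (redKum hF n).comp (kumInv hb)

theorem redP_kummer (x : Kum M n) : redP hb hF (kummer M n x) = redKum hF n x := by
  rw [redP, AddMonoidHom.comp_apply, kumInv_kummer]

theorem redP_galP_inertia {g : GalQ} (hg : g ∈ A.inertiaSubgroupIn ℚ) (c : ParHom M n) :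
    redP hb hF (galP hb g c) = redP hb hF c := by
  obtain ⟨x, rfl⟩ := hb.2 c
  rw [galP_kummer, redP_kummer, redP_kummer, redKum_galKum_inertia hF hg]

variable {q : ℕ} [Fact q.Prime] [CharP (ResK A) q]

theorem redP_galP_frobenius {g : GalQ} (hg : A.IsFrobeniusAt g q) (c : ParHom M n) :
    redP hb hF (galP hb g c) = frobRes hF q hg (redP hb hF c) := by
  obtain ⟨x, rfl⟩ := hb.2 c
  rw [galP_kummer, redP_kummer, redP_kummer, redKum_galKum_frobenius hF q hg]

theorem redP_uRep {g : GalQ} (hg : A.IsFrobeniusAt g q) (hqM : q ∣ M) (c : ParHom M n) :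
    redP hb hF ((uRep q Fact.out hqM).parT c) = redP hb hF (galP hb g c) := by
  have : NeZero q := ⟨(Fact.out : q.Prime).ne_zero⟩
  obtain ⟨x, rfl⟩ := hb.2 c
  rw [← HeckeReps.kummer_kumT _ hb.2, galP_kummer, redP_kummer, redP_kummer,
    redKum_uRep hF hqM hg hb.2, redKum_galKum_frobenius hF q hg]

omit [Fact q.Prime] [CharP (ResK A) q] in
theorem redP_degRep (d : ℕ) [NeZero d] (hd : M * d ∣ M') (c : ParHom M n) :
    redP hb' hF' ((degRep d (NeZero.pos d) hd).parT c) = degRes d hd hF hF' (redP hb hF c) := by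
  obtain ⟨x, rfl⟩ := hb.2 c
  rw [← HeckeReps.kummer_kumT _ hb'.2, redP_kummer, redP_kummer, redKum_degRep]

omit [CharP (ResK A) q] in
theorem redP_injective (hA : A.LiesOverPrime q) (hqM : ¬ q ∣ M) (hn : (n : ResK A) ≠ 0)
    {c : ParHom M n} (hc : redP hb hF c = 0) : c = 0 := by
  obtain ⟨x, rfl⟩ := hb.2 c
  rw [redP_kummer] at hc
  rw [redKum_injective hA hqM hn hF hc, map_zero]

end Red

section Push

variable (m : ℕ) [NeZero m]

/-- Composition with `ℤ/n → ℤ/nm`. -/
def pushHom : ParHom M n →+ ParHom M (n * m) where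
  toFun c := ⟨(mulIncl n m).comp c.1, fun γ hγ => by
    show mulIncl n m (c.1 _) = 0
    rw [c.2 γ hγ, map_zero]⟩
  map_zero' := Subtype.ext ((mulIncl n m).comp_zero)
  map_add' a b := Subtype.ext ((mulIncl n m).comp_add a.1 b.1)

omit [NeZero M] [Fact (1 < M)] [NeZero M'] [Fact (1 < M')] [NeZero n] [NeZero m] in
theorem parT_pushHom (T : HeckeReps M' M) (c : ParHom M n) :
    T.parT (pushHom m c) = pushHom m (T.parT c) :=
  Subtype.ext (T.homT_comp (mulIncl n m) c.1)

theorem pushHom_kummer (x : Kum M n) :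
    pushHom m (kummer M n x) = kummer M (n * m) (powKum n m x) :=
  Subtype.ext (kummer_powKum n m x).symm

variable (hbm : Function.Bijective (kummer M (n * m)))

theorem galP_pushHom (g : GalQ) (c : ParHom M n) :
    galP hbm g (pushHom m c) = pushHom m (galP hb g c) := by
  obtain ⟨x, rfl⟩ := hb.2 c
  rw [pushHom_kummer, galP_kummer, galP_kummer, pushHom_kummer, galKum_powKum]

theorem redP_pushHom_eq_zero {A : ValuationSubring Qbar} [IsAlgClosed (ResK A)]
    (hF : Scalable A (FF M)) (hm : (m : ResK A) ≠ 0) {c : ParHom M n}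
    (hc : redP hbm hF (pushHom m c) = 0) : redP hb hF c = 0 := by
  obtain ⟨x, rfl⟩ := hb.2 c
  rw [pushHom_kummer, redP_kummer] at hc
  rw [redP_kummer]
  exact redKum_powKum_eq_zero n m hF hm hc

end Push

end FLTAgent.IgusaCover

end
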