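import Fermat.Agent.IgusaCover.KumRed

/-!
# Exponent `n` versus exponent `n * m`

The map `powKum : h ↦ h ^ m` from Kummer classes of exponent `n` to exponent `n * m`, its
compatibility with the Kummer map and Galois, and injectivity on residual classes
(`redKum_powKum_eq_zero`).
-/

set_option autoImplicit false

noncomputable section

open ModularCurve CongruenceSubgroup

namespace FLTAgent.IgusaCover

open FLTAgent.GammaH

local notation "Qbar" => AlgebraicClosure ℚ
local notation "GalQ" => AlgebraicClosure ℚ ≃ₐ[ℚ] AlgebraicClosure ℚ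

/-- Multiplication by `m`, from `ℤ/n` to `ℤ/nm`. -/
def mulIncl (n m : ℕ) : ZMod n →+ ZMod (n * m) :=
  ZMod.lift n ⟨zmultiplesHom (ZMod (n * m)) (m : ZMod (n * m)), by
    rw [zmultiplesHom_apply, natCast_zsmul, nsmul_eq_mul, ← Nat.cast_mul, ZMod.natCast_self]⟩

theorem mulIncl_intCast (n m : ℕ) (j : ℤ) :
    mulIncl n m (j : ZMod n) = (j : ZMod (n * m)) * (m : ZMod (n * m)) := by
  rw [mulIncl, ZMod.lift_coe, zmultiplesHom_apply, zsmul_eq_mul]

variable (n m : ℕ) [NeZero n] [NeZero m]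

instance instNeZeroMulExp : NeZero (n * m) := ⟨mul_ne_zero (NeZero.ne n) (NeZero.ne m)⟩

theorem stdAddChar_mulIncl (a : ZMod n) :
    ZMod.stdAddChar (mulIncl n m a) = ZMod.stdAddChar a := by
  obtain ⟨j, rfl⟩ := ZMod.intCast_surjective a
  rw [mulIncl_intCast, show (j : ZMod (n * m)) * (m : ZMod (n * m)) =
    ((j * m : ℤ) : ZMod (n * m)) by
    push_cast; ring, ZMod.stdAddChar_coe, ZMod.stdAddChar_coe]
  congr 1
  have h1 : (n : ℂ) ≠ 0 := by exact_mod_cast NeZero.ne n
  have h2 : (m : ℂ) ≠ 0 := by exact_mod_cast NeZero.ne m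
  push_cast
  field_simp

variable {M : ℕ} [NeZero M] [Fact (1 < M)]

omit [NeZero n] [NeZero m] [NeZero M] [Fact (1 < M)] in
theorem pow_mem_divGroup (h : divGroup M n) :
    ((h : (FF M)ˣ)) ^ m ∈ divGroup M (n * m) := fun v => by
  rw [Units.val_pow_eq_pow_val, FFBasic.ord_pow]
  push_cast
  rw [mul_comm (n : ℤ)]
  exact mul_dvd_mul_left _ (h.2 v)

/-- `h ↦ h ^ m`. -/
def powKum : Kum M n →+ Kum M (n * m) :=
  MonoidHom.toAdditive (QuotientGroup.map (powGroup M n) (powGroup M (n * m))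
    (((powMonoidHom m).comp (divGroup M n).subtype).codRestrict _ (pow_mem_divGroup n m))
    (by
      rintro ⟨h, hh⟩ ⟨y, hy⟩
      exact ⟨y, by
        show y ^ (n * m) = h ^ m
        rw [pow_mul]; exact congrArg (· ^ m) hy⟩))

omit [NeZero n] [NeZero m] [NeZero M] [Fact (1 < M)] in
theorem powKum_kumMk (h : divGroup M n) :
    powKum n m (kumMk h) = kumMk ⟨_, pow_mem_divGroup n m h⟩ := rfl

theorem kummer_powKum (x : Kum M n) :
    (kummer M (n * m) (powKum n m x) : Additive (Gamma1 M) →+ ZMod (n * m)) =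
      (mulIncl n m).comp (kummer M n x).1 := by
  obtain ⟨h, rfl⟩ := kumMk_surjective x
  obtain ⟨g, G, hG, hc⟩ := (exists_char h).choose_spec
  rw [powKum_kumMk, kummer_kumMk, kummer_kumMk]
  obtain ⟨hg, hG0, H, hHx, hH⟩ := hG
  refine kumChar_eq (g := g) (G := G) ⟨hg, hG0, H ^ m, ?_, ?_⟩ fun γ => ?_
  · rw [map_pow, hHx, mul_pow, ← pow_mul, Units.val_pow_eq_pow_val]
  · rw [map_pow, hH, ← pow_mul]
  · rw [hc γ]
    funext τ
    rw [AddMonoidHom.comp_apply, stdAddChar_mulIncl]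
    rfl

omit [NeZero n] [NeZero m] in
theorem galKum_powKum (g : GalQ) (x : Kum M n) :
    galKum (n * m) g (powKum n m x) = powKum n m (galKum n g x) := by
  obtain ⟨h, rfl⟩ := kumMk_surjective x
  exact congrArg kumMk (Subtype.ext (map_pow (Units.map ((galHom (M := M) g : FF M →+* FF M) :
    FF M →* FF M)) (h : (FF M)ˣ) m))

variable {A : ValuationSubring Qbar} [IsAlgClosed (ResK A)] (hF : Scalable A (FF M))

omit [NeZero M] [Fact (1 < M)] in
theorem redKum_powKum_eq_zero (hm : (m : ResK A) ≠ 0) {x : Kum M n}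
    (hx : redKum hF (n * m) (powKum n m x) = 0) : redKum hF n x = 0 := by
  obtain ⟨h, rfl⟩ := kumMk_surjective x
  rw [powKum_kumMk, redKum_kumMk] at hx
  rw [redKum_kumMk]
  have hx' : redClass hF (n * m) ((h : (FF M)ˣ) ^ m) = 1 := congrArg Additive.toMul hx
  obtain ⟨c, hc, hc0, h0⟩ := exists_smul_branch hF ((h : (FF M)ˣ)).ne_zero
  have hpow : algebraMap Qbar (FF M) (c ^ m) * (((h : (FF M)ˣ) ^ m : (FF M)ˣ) : FF M) =
      (algebraMap Qbar (FF M) c * ((h : (FF M)ˣ) : FF M)) ^ m := by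
    rw [map_pow, Units.val_pow_eq_pow_val, mul_pow]
  have hcm : algebraMap Qbar (FF M) (c ^ m) * (((h : (FF M)ˣ) ^ m : (FF M)ˣ) : FF M) ∈ branch hF :=
    hpow ▸ pow_mem hc m
  have hred : branchRed hF ⟨_, hcm⟩ = branchRed hF ⟨_, hc⟩ ^ m := by
    rw [← map_pow]; exact congrArg _ (Subtype.ext hpow)
  have h0m : branchRed hF ⟨_, hcm⟩ ≠ 0 := hred ▸ pow_ne_zero m h0
  rw [redClass_eq hF (n * m) _ hcm h0m, resClass_def] at hx'
  obtain ⟨v, hv⟩ := (QuotientGroup.eq_one_iff _).mp hx'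
  have hv' : ((v : resField hF) : LaurentSeries (ResK A)) ^ (n * m) =
      branchRed hF ⟨_, hc⟩ ^ m := by
    rw [← hred]
    have := congrArg (fun u : (resField hF)ˣ => ((u : resField hF) : LaurentSeries (ResK A))) hv
    simpa using this
  have hv0 : ((v : resField hF) : LaurentSeries (ResK A)) ^ n ≠ 0 :=
    pow_ne_zero n fun e => v.ne_zero (Subtype.ext e)
  obtain ⟨a, ha, hae⟩ := exists_C_of_pow_eq_one hm
    (w := branchRed hF ⟨_, hc⟩ / ((v : resField hF) : LaurentSeries (ResK A)) ^ n) (by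
      rw [div_pow, ← pow_mul, hv', div_self (pow_ne_zero m h0)])
  obtain ⟨b, hb⟩ := IsAlgClosed.exists_pow_nat_eq a (NeZero.pos n)
  have hb0 : b ≠ 0 := fun e => by
    rw [e, zero_pow (NeZero.ne n)] at hb
    rw [← hb, zero_pow (NeZero.ne m)] at ha
    exact zero_ne_one ha
  refine congrArg Additive.ofMul ((redClass_eq hF n _ hc h0).trans ?_)
  rw [resClass_def]
  have hB : (⟨HahnSeries.C b, C_mem_resField b⟩ : resField hF) ≠ 0 := fun e =>
    hb0 (HahnSeries.C_injective ((congrArg Subtype.val e).trans (map_zero _).symm))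
  refine (QuotientGroup.eq_one_iff _).mpr ⟨Units.mk0 _ hB * v, ?_⟩
  refine Units.ext (Subtype.ext ?_)
  rw [powMonoidHom_apply, Units.val_pow_eq_pow_val, Units.val_mul]
  simp only [Units.val_mk0, Subfield.coe_mul, SubmonoidClass.coe_pow, mul_pow, ← map_pow, hb]
  rw [← hae, div_mul_cancel₀ _ hv0]

end FLTAgent.IgusaCover

end
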