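import Fermat.Agent.IgusaCover.Gauss
import Mathlib.FieldTheory.IsAlgClosed.Basic
import Mathlib.GroupTheory.QuotientGroup.Defs

/-!
# Residue fields of Gauss branches

The residue field `resField` of a Gauss branch, the residual classes `ResMod` of functions modulo
`m`-th powers with the map `redClass`, and the functoriality `Lifts.mapResMod` of both along maps
of series which lift a map of residual series.
-/

set_option autoImplicit false

noncomputable section

open ModularCurve

namespace FLTAgent.IgusaCover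

universe u

variable {K : Type u} [Field K] {A : ValuationSubring K}
variable {F : IntermediateField K (LaurentSeries K)} {hF : Scalable A F}

theorem coe_algebraMap_series (c : K) :
    ((algebraMap K F c : F) : LaurentSeries K) = HahnSeries.C c :=
  (show ((algebraMap K F c : F) : LaurentSeries K) = algebraMap K (LaurentSeries K) c from
    (IsScalarTower.algebraMap_apply K F (LaurentSeries K) c).symm).trans
    ((algebraMap_laurentSeries_eq_single _ c).trans (HahnSeries.C_apply c).symm)

theorem algebraMap_mem_branch (a : A) : algebraMap K F (a : K) ∈ branch hF := by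
  show IsBranchElem A F (algebraMap K (LaurentSeries K) (a : K))
  rw [algebraMap_laurentSeries_eq_single, ← HahnSeries.C_apply, ← inclA_C]
  exact branchElem_incl (C_intSer a)

theorem branchRed_algebraMap (a : A) :
    branchRed hF ⟨_, algebraMap_mem_branch a⟩ = HahnSeries.C (IsLocalRing.residue A a) := by
  rw [branchRed_apply (g := HahnSeries.C a) (h := 1) (C_intSer a) (one_mem _) (by simp) ?_]
  · rw [map_one, div_one, redA_C]
  · show algebraMap K (LaurentSeries K) (a : K) * _ = _
    rw [map_one, mul_one, algebraMap_laurentSeries_eq_single, ← HahnSeries.C_apply, inclA_C]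

theorem inv_mem_branch {f : branch hF} (h0 : branchRed hF f ≠ 0) : (f : F)⁻¹ ∈ branch hF := by
  obtain ⟨g, h, hg, hh, hh0, hfh⟩ := f.2
  rw [branchRed_apply hg hh hh0 hfh] at h0
  have hg0 : redA A g ≠ 0 := fun e => h0 (by rw [e, zero_div])
  refine ⟨h, g, hh, hg, hg0, ?_⟩
  have hf : ((f : F) : LaurentSeries K) ≠ 0 := fun e => by
    rw [e, zero_mul] at hfh
    exact ne_zero_of_redA_ne_zero A hg0 hfh.symm
  rw [IntermediateField.coe_inv, inv_mul_eq_iff_eq_mul₀ hf, ← hfh]

theorem branchRed_inv {f : branch hF} (h0 : branchRed hF f ≠ 0) :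
    branchRed hF ⟨(f : F)⁻¹, inv_mem_branch h0⟩ = (branchRed hF f)⁻¹ := by
  refine (inv_eq_of_mul_eq_one_right ?_).symm
  rw [← map_mul, show f * ⟨(f : F)⁻¹, inv_mem_branch h0⟩ = 1 from Subtype.ext
    (mul_inv_cancel₀ (fun e => h0 (by rw [Subtype.ext e (a2 := (0 : branch hF)), map_zero]))),
    map_one]

variable (hF) in
/-- The residue field of the branch. -/
def resField : Subfield (LaurentSeries (ResK A)) :=
  { (branchRed hF).range with
    inv_mem' := by
      rintro _ ⟨f, rfl⟩
      rcases eq_or_ne (branchRed hF f) 0 with h0 | h0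
      · exact ⟨0, by rw [map_zero, h0, inv_zero]⟩
      · exact ⟨_, branchRed_inv h0⟩ }

theorem mem_resField {x : LaurentSeries (ResK A)} :
    x ∈ resField hF ↔ ∃ f, branchRed hF f = x := Iff.rfl

theorem branchRed_mem (f : branch hF) : branchRed hF f ∈ resField hF := ⟨f, rfl⟩

theorem C_mem_resField (a : ResK A) : HahnSeries.C a ∈ resField hF := by
  obtain ⟨b, rfl⟩ := IsLocalRing.residue_surjective a
  exact ⟨_, branchRed_algebraMap b⟩

attribute [irreducible] resField

/-- Every nonzero element becomes, after scaling, a branch element with nonzero reduction. -/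
theorem exists_smul_branch (hF : Scalable A F) {f : F} (hf : f ≠ 0) :
    ∃ (c : K) (hc : algebraMap K F c * f ∈ branch hF), c ≠ 0 ∧ branchRed hF ⟨_, hc⟩ ≠ 0 := by
  obtain ⟨c, g, h, hc, hg, hh, hg0, hh0, hfh⟩ := hF _ f.2 (fun h0 => hf (Subtype.ext h0))
  have key : ((algebraMap K F c⁻¹ * f : F) : LaurentSeries K) * inclA A h = inclA A g := by
    rw [MulMemClass.coe_mul, coe_algebraMap_series, mul_assoc, hfh, ← mul_assoc,
      ← map_mul, inv_mul_cancel₀ hc, map_one, one_mul]
  have hm : algebraMap K F c⁻¹ * f ∈ branch hF := mem_branch.mpr ⟨g, h, hg, hh, hh0, key⟩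
  refine ⟨c⁻¹, hm, inv_ne_zero hc, ?_⟩
  exact ne_of_eq_of_ne (branchRed_apply (f := ⟨_, hm⟩) hg hh hh0 key) (div_ne_zero hg0 hh0)

/-- A normalised scaling is unique up to a unit of `A`. -/
theorem exists_const_of_smul {f : F} {c c' : K} (hc : algebraMap K F c * f ∈ branch hF)
    (hc' : algebraMap K F c' * f ∈ branch hF) (h0 : branchRed hF ⟨_, hc⟩ ≠ 0)
    (h0' : branchRed hF ⟨_, hc'⟩ ≠ 0) :
    ∃ a : ResK A, a ≠ 0 ∧ branchRed hF ⟨_, hc'⟩ = HahnSeries.C a * branchRed hF ⟨_, hc⟩ := by
  have hcne : c ≠ 0 := fun e => h0 (by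
    have : (⟨_, hc⟩ : branch hF) = 0 := Subtype.ext (by simp [e])
    rw [this, map_zero])
  rcases A.mem_or_inv_mem (c' / c) with h | h
  · have he : (⟨_, hc'⟩ : branch hF) = ⟨_, algebraMap_mem_branch ⟨_, h⟩⟩ * ⟨_, hc⟩ :=
      Subtype.ext (by
        show algebraMap K F c' * f = algebraMap K F (c' / c) * (algebraMap K F c * f)
        rw [← mul_assoc, ← map_mul, div_mul_cancel₀ _ hcne])
    have h1 := congrArg (branchRed hF) he
    rw [map_mul, branchRed_algebraMap] at h1
    refine ⟨_, fun e => h0' ?_, h1⟩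
    rw [h1, e, map_zero, zero_mul]
  · rw [inv_div] at h
    have hc'ne : c' ≠ 0 := fun e => h0' (by
      have : (⟨_, hc'⟩ : branch hF) = 0 := Subtype.ext (by simp [e])
      rw [this, map_zero])
    have he : (⟨_, hc⟩ : branch hF) = ⟨_, algebraMap_mem_branch ⟨_, h⟩⟩ * ⟨_, hc'⟩ :=
      Subtype.ext (by
        show algebraMap K F c * f = algebraMap K F (c / c') * (algebraMap K F c' * f)
        rw [← mul_assoc, ← map_mul, div_mul_cancel₀ _ hc'ne])
    have h1 := congrArg (branchRed hF) he
    rw [map_mul, branchRed_algebraMap] at h1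
    have ha : IsLocalRing.residue A ⟨_, h⟩ ≠ 0 := fun e => h0 (by rw [h1, e, map_zero, zero_mul])
    refine ⟨(IsLocalRing.residue A ⟨_, h⟩)⁻¹, inv_ne_zero ha, ?_⟩
    rw [h1, ← mul_assoc, ← map_mul, inv_mul_cancel₀ ha, map_one, one_mul]

section ModPow

variable (hF) (m : ℕ)

/-- Residual units modulo `m`-th powers. -/
abbrev ResMod : Type u := (resField hF)ˣ ⧸ (powMonoidHom m : (resField hF)ˣ →* (resField hF)ˣ).range

/-- The class of a normalised branch element. -/
def resClass (f : branch hF) (h0 : branchRed hF f ≠ 0) : ResMod hF m :=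
  QuotientGroup.mk (Units.mk0 (⟨branchRed hF f, branchRed_mem f⟩ : resField hF)
    fun e => h0 (congrArg Subtype.val e))

theorem resClass_mul (f f' : branch hF) (h : branchRed hF f ≠ 0) (h' : branchRed hF f' ≠ 0)
    (hm' : branchRed hF (f * f') ≠ 0) :
    resClass hF m (f * f') hm' = resClass hF m f h * resClass hF m f' h' := by
  rw [resClass, resClass, resClass, ← QuotientGroup.mk_mul]
  congr 1
  exact Units.ext (Subtype.ext (map_mul (branchRed hF) f f'))

theorem resClass_congr {f f' : branch hF} (e : f = f') (h : branchRed hF f ≠ 0)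
    (h' : branchRed hF f' ≠ 0) : resClass hF m f h = resClass hF m f' h' := by
  subst e; rfl

theorem resClass_eq_of_scalar [IsAlgClosed (ResK A)] [NeZero m] {f f' : branch hF}
    (h : branchRed hF f ≠ 0) (h' : branchRed hF f' ≠ 0) {a : ResK A} (ha : a ≠ 0)
    (he : branchRed hF f' = HahnSeries.C a * branchRed hF f) :
    resClass hF m f' h' = resClass hF m f h := by
  obtain ⟨b, hb⟩ := IsAlgClosed.exists_pow_nat_eq a (NeZero.pos m)
  have hb0 : HahnSeries.C b ≠ (0 : LaurentSeries (ResK A)) := fun e => by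
    refine ha ?_
    rw [← hb, show b = 0 from HahnSeries.C_injective (e.trans (map_zero _).symm),
      zero_pow (NeZero.ne m)]
  rw [resClass, resClass, QuotientGroup.eq]
  refine ⟨(Units.mk0 (⟨_, C_mem_resField b⟩ : resField hF)
    fun e => hb0 (congrArg Subtype.val e))⁻¹, Units.ext (Subtype.ext ?_)⟩
  simp only [powMonoidHom_apply, inv_pow, Units.val_inv_eq_inv_val, Units.val_pow_eq_pow_val,
    Units.val_mk0, Units.val_mul, Subfield.coe_inv, Subfield.coe_mul, SubmonoidClass.coe_pow]
  rw [← map_pow, hb, he, mul_inv_rev, mul_comm (branchRed hF f)⁻¹, mul_assoc,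
    inv_mul_cancel₀ h, mul_one]

variable [IsAlgClosed (ResK A)] [NeZero m]

/-- The class of a scaled function. -/
def redClassFun (f : Fˣ) : ResMod hF m :=
  resClass hF m ⟨_, (exists_smul_branch hF f.ne_zero).choose_spec.choose⟩
    (exists_smul_branch hF f.ne_zero).choose_spec.choose_spec.2

theorem redClassFun_eq (f : Fˣ) {c : K} (hc : algebraMap K F c * f ∈ branch hF)
    (h0 : branchRed hF ⟨_, hc⟩ ≠ 0) : redClassFun hF m f = resClass hF m ⟨_, hc⟩ h0 := by
  obtain ⟨a, ha, hae⟩ := exists_const_of_smul hc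
    (exists_smul_branch hF f.ne_zero).choose_spec.choose h0
    (exists_smul_branch hF f.ne_zero).choose_spec.choose_spec.2
  exact resClass_eq_of_scalar hF m h0 _ ha hae

attribute [irreducible] redClassFun resClass

theorem redClassFun_mul (f g : Fˣ) :
    redClassFun hF m (f * g) = redClassFun hF m f * redClassFun hF m g := by
  obtain ⟨cf, hmf, -, hf⟩ := exists_smul_branch hF f.ne_zero
  obtain ⟨cg, hmg, -, hg⟩ := exists_smul_branch hF g.ne_zero
  have he : algebraMap K F (cf * cg) * ((f * g : Fˣ) : F) =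
      (algebraMap K F cf * f) * (algebraMap K F cg * g) := by
    rw [map_mul, Units.val_mul]; ring
  have h2 : algebraMap K F (cf * cg) * ((f * g : Fˣ) : F) ∈ branch hF := by
    rw [he]; exact mul_mem hmf hmg
  have h3 : branchRed hF (⟨_, hmf⟩ * ⟨_, hmg⟩) ≠ 0 := by
    rw [map_mul]; exact mul_ne_zero hf hg
  have he' : (⟨_, h2⟩ : branch hF) = ⟨_, hmf⟩ * ⟨_, hmg⟩ := Subtype.ext he
  have h20 : branchRed hF ⟨_, h2⟩ ≠ 0 := he'.symm ▸ h3
  rw [redClassFun_eq hF m f hmf hf, redClassFun_eq hF m g hmg hg,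
    redClassFun_eq hF m (f * g) h2 h20, ← resClass_mul hF m _ _ hf hg h3]
  exact resClass_congr hF m he' h20 h3

/-- The class of any nonzero function, by scaling. -/
def redClass : Fˣ →* ResMod hF m := MonoidHom.mk' (redClassFun hF m) (redClassFun_mul hF m)

theorem redClass_eq (f : Fˣ) {c : K} (hc : algebraMap K F c * f ∈ branch hF)
    (h0 : branchRed hF ⟨_, hc⟩ ≠ 0) : redClass hF m f = resClass hF m ⟨_, hc⟩ h0 :=
  redClassFun_eq hF m f hc h0

omit [IsAlgClosed (ResK A)] [NeZero m] in
theorem resClass_def (f : branch hF) (h0 : branchRed hF f ≠ 0) :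
    resClass hF m f h0 = QuotientGroup.mk
      (Units.mk0 (⟨branchRed hF f, branchRed_mem f⟩ : resField hF)
        fun e => h0 (congrArg Subtype.val e)) := by
  unfold resClass; rfl

end ModPow

section Functoriality

variable {F' : IntermediateField K (LaurentSeries K)} {hF' : Scalable A F'}

/-- `θ` lifts `θk` on integral series. -/
def Lifts (θ : F →*₀ F') (θk : LaurentSeries (ResK A) →*₀ LaurentSeries (ResK A)) : Prop :=
  ∀ g (hg : g ∈ intSer A F), ∃ g' ∈ intSer A F',
    (θ ⟨inclA A g, hg⟩ : LaurentSeries K) = inclA A g' ∧ redA A g' = θk (redA A g)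

variable {θ : F →*₀ F'} {θk : LaurentSeries (ResK A) →*₀ LaurentSeries (ResK A)}

theorem Lifts.map_branch (hθ : Lifts θ θk) (hF : Scalable A F) (hF' : Scalable A F')
    (f : branch hF) :
    ∃ hm : θ (f : F) ∈ branch hF', branchRed hF' ⟨_, hm⟩ = θk (branchRed hF f) := by
  obtain ⟨g, h, hg, hh, hh0, hfh⟩ := f.2
  obtain ⟨g', hg', hge, hgr⟩ := hθ g hg
  obtain ⟨h', hh', hhe, hhr⟩ := hθ h hh
  have hh0' : redA A h' ≠ 0 := by rw [hhr]; exact (map_ne_zero θk).mpr hh0
  have key : (θ (f : F) : LaurentSeries K) * inclA A h' = inclA A g' := by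
    rw [← hhe, ← hge, ← MulMemClass.coe_mul, ← map_mul]
    exact congrArg (fun x : F => ((θ x : F') : LaurentSeries K)) (Subtype.ext hfh)
  have hm : θ (f : F) ∈ branch hF' := mem_branch.mpr ⟨g', h', hg', hh', hh0', key⟩
  refine ⟨hm, (branchRed_apply (f := ⟨_, hm⟩) hg' hh' hh0' key).trans ?_⟩
  rw [branchRed_apply hg hh hh0 hfh, hgr, hhr, map_div₀]

theorem Lifts.map_resField (hθ : Lifts θ θk) (hF : Scalable A F) (hF' : Scalable A F')
    {x : LaurentSeries (ResK A)} (hx : x ∈ resField hF) : θk x ∈ resField hF' := by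
  obtain ⟨f, rfl⟩ := mem_resField.mp hx
  obtain ⟨hm, he⟩ := hθ.map_branch hF hF' f
  exact mem_resField.mpr ⟨_, he⟩

/-- The induced map on residue fields. -/
def Lifts.resMap (hθ : Lifts θ θk) (hF : Scalable A F) (hF' : Scalable A F') :
    resField hF →* resField hF' where
  toFun x := ⟨θk (x : LaurentSeries (ResK A)), hθ.map_resField hF hF' x.2⟩
  map_one' := Subtype.ext (map_one θk)
  map_mul' a b := Subtype.ext (map_mul θk (a : LaurentSeries (ResK A)) b)

/-- The induced map on residual classes. -/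
def Lifts.mapResMod (hθ : Lifts θ θk) (hF : Scalable A F) (hF' : Scalable A F') (m : ℕ) :
    ResMod hF m →* ResMod hF' m :=
  QuotientGroup.map _ _
    (Units.map (hθ.resMap hF hF'))
    (by rintro _ ⟨u, rfl⟩; exact ⟨_, (map_pow _ u m).symm⟩)

theorem Lifts.redClass_map [IsAlgClosed (ResK A)] {m : ℕ} [NeZero m] (hθ : Lifts θ θk)
    (hF : Scalable A F) (hF' : Scalable A F')
    (hscal : ∀ c : K, c ≠ 0 → ∃ c' : K, θ (algebraMap K F c) = algebraMap K F' c')
    (f : Fˣ) :
    redClass hF' m (Units.map (θ : F →* F') f) =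
      hθ.mapResMod hF hF' m (redClass hF m f) := by
  obtain ⟨c, hmem, hc0, h0⟩ := exists_smul_branch hF f.ne_zero
  obtain ⟨c', hc'⟩ := hscal c hc0
  obtain ⟨hm, he⟩ := hθ.map_branch hF hF' ⟨_, hmem⟩
  have hmem' : algebraMap K F' c' * ((Units.map (θ : F →* F') f : F'ˣ) : F') ∈ branch hF' := by
    rw [Units.coe_map, ← hc']
    exact map_mul θ _ _ ▸ hm
  have heq : branchRed hF' ⟨_, hmem'⟩ = θk (branchRed hF ⟨_, hmem⟩) := by
    rw [← he]
    exact congrArg _ (Subtype.ext ((map_mul θ _ _).trans (by rw [hc']; rfl)).symm)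
  have h0' : branchRed hF' ⟨_, hmem'⟩ ≠ 0 := by rw [heq]; exact (map_ne_zero θk).mpr h0
  rw [redClass_eq hF' m _ hmem' h0', redClass_eq hF m f hmem h0, resClass_def, resClass_def,
    mapResMod,
    QuotientGroup.map_mk]
  congr 1
  exact Units.ext (Subtype.ext heq)

end Functoriality

end FLTAgent.IgusaCover

end
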