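import Fermat.Agent.IgusaCover.Transfer
import Fermat.Agent.IgusaCover.BaseFixed

/-!
# The Atkin–Lehner element at `q`

The intermediate group `gammaPrime N q = Γ₁(N) ∩ Γ₀(q)` and the data `WData` of an Atkin–Lehner
element at `q`, with the conjugation `WData.conj` it induces on that group.
-/

set_option autoImplicit false

noncomputable section

open CongruenceSubgroup
open scoped MatrixGroups

namespace FLTAgent.IgusaCover

open FLTAgent.GammaH

local notation "Mat" => Matrix (Fin 2) (Fin 2) ℤ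

variable {N q : ℕ}

/-- `Γ₁(N) ∩ Γ₀(q)`. -/
def gammaPrime (N q : ℕ) : Subgroup SL(2, ℤ) := Gamma1 N ⊓ Gamma0 q

theorem mem_gammaPrime {γ : SL(2, ℤ)} :
    γ ∈ gammaPrime N q ↔ γ ∈ Gamma1 N ∧ ((γ 1 0 : ℤ) : ZMod q) = 0 := by
  rw [gammaPrime, Subgroup.mem_inf, Gamma0_mem]

theorem gamma1_mul_iff [NeZero N] [Fact q.Prime] (hc : N.Coprime q) {γ : SL(2, ℤ)} :
    γ ∈ Gamma1 (N * q) ↔ γ ∈ gammaPrime N q ∧ ((γ 1 1 : ℤ) : ZMod q) = 1 := by
  constructor
  · intro h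
    obtain ⟨a, d, c⟩ := (Gamma1_mem _ γ).mp h
    have hN : ∀ z : ℤ, ∀ w : ℤ, (z : ZMod (N * q)) = w → (z : ZMod N) = w := fun z w e => by
      simpa using congrArg (ZMod.castHom (dvd_mul_right N q) (ZMod N)) e
    have hq : ∀ z : ℤ, ∀ w : ℤ, (z : ZMod (N * q)) = w → (z : ZMod q) = w := fun z w e => by
      simpa using congrArg (ZMod.castHom (dvd_mul_left q N) (ZMod q)) e
    refine ⟨mem_gammaPrime.mpr ⟨(Gamma1_mem N γ).mpr
      ⟨by simpa using hN _ 1 (by simpa using a), by simpa using hN _ 1 (by simpa using d),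
        by simpa using hN _ 0 (by simpa using c)⟩, by simpa using hq _ 0 (by simpa using c)⟩,
      by simpa using hq _ 1 (by simpa using d)⟩
  · rintro ⟨h, hd⟩
    exact mem_Gamma1_mul hc (mem_gammaPrime.mp h).1 (mem_gammaPrime.mp h).2 hd

theorem gammaPrime_le_gamma0 [NeZero N] [Fact q.Prime] (hc : N.Coprime q) {γ : SL(2, ℤ)}
    (h : γ ∈ gammaPrime N q) : γ ∈ Gamma0 (N * q) := by
  obtain ⟨h1, h2⟩ := mem_gammaPrime.mp h
  rw [Gamma0_mem]
  simpa using intCast_eq_of_coprime hc (b := 0)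
    (by simpa using ((Gamma1_mem N γ).mp h1).2.2) (by simpa using h2)

/-- The data of an Atkin–Lehner element: `q s - N v = 1`. -/
structure WData (N q : ℕ) where
  s : ℤ
  v : ℤ
  eq : (q : ℤ) * s - (N : ℤ) * v = 1

theorem exists_wData (hc : N.Coprime q) : Nonempty (WData N q) := by
  have hcop : IsCoprime (q : ℤ) (N : ℤ) := by
    rw [Int.isCoprime_iff_gcd_eq_one, Int.gcd_natCast_natCast]; exact hc.symm
  obtain ⟨x, y, h⟩ := hcop
  exact ⟨⟨x, -y, by linear_combination h⟩⟩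

namespace WData

variable (w : WData N q)

/-- The Atkin–Lehner matrix. -/
def mat : Mat := !![(q : ℤ), w.v; (q : ℤ) * N, (q : ℤ) * w.s]

theorem det_mat : w.mat.det = q := by
  rw [mat, Matrix.det_fin_two_of]; linear_combination (q : ℤ) * w.eq

theorem det_ne [NeZero q] : w.mat.det ≠ 0 := by
  rw [det_mat]; exact_mod_cast NeZero.ne q

/-- `(1 v; N qs)`, so that the matrix is `eta · diag (q, 1)`. -/
def eta : SL(2, ℤ) :=
  ⟨!![1, w.v; (N : ℤ), (q : ℤ) * w.s], by rw [Matrix.det_fin_two_of]; linear_combination w.eq⟩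

theorem eta_mem : w.eta ∈ Gamma1 N := by
  refine (Gamma1_mem N _).mpr ⟨by simp [eta], ?_, by simp [eta]⟩
  show (((q : ℤ) * w.s : ℤ) : ZMod N) = 1
  have := congrArg (fun z : ℤ => (z : ZMod N)) w.eq
  simpa using this

theorem mat_eq : w.mat = (w.eta : Mat) * !![(q : ℤ), 0; 0, 1] := by
  ext i j
  fin_cases i <;> fin_cases j <;> simp [mat, eta, Matrix.mul_apply, Fin.sum_univ_two, mul_comm]

/-- `(q v; N s)`. -/
def sigQ : SL(2, ℤ) :=
  ⟨!![(q : ℤ), w.v; (N : ℤ), w.s], by rw [Matrix.det_fin_two_of]; linear_combination w.eq⟩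

theorem sigQ_mem : w.sigQ ∈ Gamma0 N := by
  rw [Gamma0_mem]; simp [sigQ]

theorem diag_mul_mat : !![(q : ℤ), 0; 0, 1] * w.mat = (q : ℤ) • (w.sigQ : Mat) := by
  ext i j
  fin_cases i <;> fin_cases j <;> simp [mat, sigQ, Matrix.mul_apply, Fin.sum_univ_two]

/-- The square of the matrix, divided by `q`. -/
def sq : SL(2, ℤ) :=
  ⟨!![(q : ℤ) + N * w.v, w.v * (1 + w.s); (q : ℤ) * N * (1 + w.s), N * w.v + q * w.s ^ 2],
    by rw [Matrix.det_fin_two_of]; linear_combination ((q : ℤ) * w.s - N * w.v + 1) * w.eq⟩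

theorem sq_mem : w.sq ∈ Gamma0 (N * q) := by
  rw [Gamma0_mem, ZMod.intCast_zmod_eq_zero_iff_dvd]
  show ((N * q : ℕ) : ℤ) ∣ (q : ℤ) * N * (1 + w.s)
  exact ⟨1 + w.s, by push_cast; ring⟩

theorem mat_mul_mat : w.mat * w.mat = (q : ℤ) • (w.sq : Mat) := by
  ext i j
  fin_cases i <;> fin_cases j <;> simp [mat, sq, Matrix.mul_apply, Fin.sum_univ_two] <;> ring

theorem exists_conj (γ : gammaPrime N q) : ∃ g : gammaPrime N q,
    w.mat * ((γ : SL(2, ℤ)) : Mat) = ((g : SL(2, ℤ)) : Mat) * w.mat ∧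
      (((g : SL(2, ℤ)) 1 1 : ℤ) : ZMod q) = (((γ : SL(2, ℤ)) 0 0 : ℤ) : ZMod q) := by
  obtain ⟨h1, h2⟩ := mem_gammaPrime.mp γ.2
  obtain ⟨ha, hd, hcN⟩ := (Gamma1_mem N _).mp h1
  obtain ⟨c, hc⟩ := (ZMod.intCast_zmod_eq_zero_iff_dvd _ _).mp h2
  have hdet := (γ : SL(2, ℤ)).det_coe
  rw [Matrix.det_fin_two, hc] at hdet
  have hNv : ((N : ℤ) : ZMod q) * (w.v : ZMod q) = -1 := by
    have := congrArg (fun z : ℤ => (z : ZMod q)) w.eq
    simp at this
    push_cast
    linear_combination -this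
  have hqs : ((q : ℤ) : ZMod N) * (w.s : ZMod N) = 1 := by
    have := congrArg (fun z : ℤ => (z : ZMod N)) w.eq
    simpa using this
  have hcast : ((c : ℤ) : ZMod N) * ((q : ℤ) : ZMod N) = 0 := by
    rw [← Int.cast_mul, mul_comm c, ← hc]; exact hcN
  have hc0 : ((c : ℤ) : ZMod N) = 0 := by
    linear_combination (w.s : ZMod N) * hcast - (c : ZMod N) * hqs
  set a := (γ : SL(2, ℤ)) 0 0
  set b := (γ : SL(2, ℤ)) 0 1
  set d := (γ : SL(2, ℤ)) 1 1
  let g : Mat := !![((q : ℤ) * a + w.v * ((q : ℤ) * c)) * w.s - ((q : ℤ) * b + w.v * d) * N,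
    -(a * w.v) + q * b + w.v * d - c * w.v ^ 2;
    (q : ℤ) * (N * a + w.s * ((q : ℤ) * c)) * w.s - (q : ℤ) * N * (N * b + w.s * d),
    -((N * a + w.s * ((q : ℤ) * c)) * w.v) + q * (N * b + w.s * d)]
  have hgdet : g.det = 1 := by
    simp only [g, Matrix.det_fin_two_of]
    linear_combination (((q : ℤ) * w.s - N * w.v) ^ 2) * hdet +
      ((q : ℤ) * w.s - N * w.v + 1) * w.eq
  refine ⟨⟨⟨g, hgdet⟩, mem_gammaPrime.mpr ⟨(Gamma1_mem N _).mpr ⟨?_, ?_, ?_⟩, ?_⟩⟩, ?_, ?_⟩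
  · simp [g]
    push_cast at hqs
    linear_combination (ha : (a : ZMod N) = 1) * ((q : ZMod N) * (w.s : ZMod N)) + hqs +
      (w.v : ZMod N) * (q : ZMod N) * (w.s : ZMod N) * hc0
  · simp [g]
    push_cast at hqs
    linear_combination (hd : (d : ZMod N) = 1) * ((q : ZMod N) * (w.s : ZMod N)) + hqs -
      (w.v : ZMod N) * (q : ZMod N) * (w.s : ZMod N) * hc0
  · simp [g]
    push_cast at hqs
    linear_combination (q : ZMod N) * (w.s : ZMod N) * (w.s : ZMod N) * (q : ZMod N) * hc0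
  · simp [g]
  · ext i j
    fin_cases i <;> fin_cases j <;>
      simp [g, mat, Matrix.mul_apply, Fin.sum_univ_two, hc]
    · linear_combination -((q : ℤ) * (a + w.v * c)) * w.eq
    · linear_combination -((q : ℤ) * b + w.v * d) * w.eq
    · linear_combination -((q : ℤ) * (N * a + w.s * ((q : ℤ) * c))) * w.eq
    · linear_combination -((q : ℤ) * (N * b + w.s * d)) * w.eq
  · show ((g 1 1 : ℤ) : ZMod q) = _
    simp [g]
    push_cast at hNv
    linear_combination -(a : ZMod q) * hNv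

/-- Conjugation by the Atkin–Lehner element, as a function. -/
def conjFun (γ : gammaPrime N q) : gammaPrime N q := (w.exists_conj γ).choose

theorem conjFun_spec (γ : gammaPrime N q) :
    w.mat * ((γ : SL(2, ℤ)) : Mat) = ((w.conjFun γ : SL(2, ℤ)) : Mat) * w.mat :=
  (w.exists_conj γ).choose_spec.1

theorem conjFun_one_one (γ : gammaPrime N q) :
    (((w.conjFun γ : SL(2, ℤ)) 1 1 : ℤ) : ZMod q) = (((γ : SL(2, ℤ)) 0 0 : ℤ) : ZMod q) :=
  (w.exists_conj γ).choose_spec.2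

/-- Conjugation by the Atkin–Lehner element. -/
def conj [NeZero q] : gammaPrime N q →* gammaPrime N q :=
  MonoidHom.mk' w.conjFun fun γ δ => by
    refine Subtype.ext (SL_mat_mul_right_cancel w.det_ne ((w.conjFun_spec (γ * δ)).symm.trans ?_))
    simp only [Subgroup.coe_mul, Matrix.SpecialLinearGroup.coe_mul]
    rw [← Matrix.mul_assoc, w.conjFun_spec γ, Matrix.mul_assoc, w.conjFun_spec δ,
      ← Matrix.mul_assoc]

theorem conj_spec [NeZero q] (γ : gammaPrime N q) :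
    w.mat * ((γ : SL(2, ℤ)) : Mat) = ((w.conj γ : SL(2, ℤ)) : Mat) * w.mat :=
  w.conjFun_spec γ

theorem conj_eq [NeZero q] {γ : gammaPrime N q} {g : SL(2, ℤ)}
    (h : w.mat * ((γ : SL(2, ℤ)) : Mat) = (g : Mat) * w.mat) : (w.conj γ : SL(2, ℤ)) = g :=
  SL_mat_mul_right_cancel w.det_ne ((w.conj_spec γ).symm.trans h)

theorem conj_trace [NeZero q] (γ : gammaPrime N q) :
    ((w.conj γ : SL(2, ℤ)) : Mat).trace = ((γ : SL(2, ℤ)) : Mat).trace := by
  have h := congrArg (fun X : Mat => (X * w.mat.adjugate).trace) (w.conj_spec γ)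
  simp only [Matrix.mul_assoc, Matrix.mul_adjugate, Matrix.mul_smul, Matrix.mul_one,
    Matrix.trace_smul] at h
  rw [Matrix.trace_mul_comm, Matrix.mul_assoc, Matrix.adjugate_mul, Matrix.mul_smul,
    Matrix.mul_one, Matrix.trace_smul] at h
  exact (smul_right_injective ℤ w.det_ne h).symm

theorem conj_mem [NeZero N] [Fact q.Prime] [NeZero q] (hc : N.Coprime q) {γ : gammaPrime N q}
    (hγ : (γ : SL(2, ℤ)) ∈ Gamma1 (N * q)) : (w.conj γ : SL(2, ℤ)) ∈ Gamma1 (N * q) := by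
  refine (gamma1_mul_iff hc).mpr ⟨(w.conj γ).2, (w.conjFun_one_one γ).trans ?_⟩
  simpa using congrArg (ZMod.castHom (dvd_mul_left q N) (ZMod q)) ((Gamma1_mem _ _).mp hγ).1

end WData

end FLTAgent.IgusaCover

end
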